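import Mathlib
import Fermat.Prelude.Def_AlgebraicCurve_BaseChangeGalois
import Fermat.Agent.S18.Core
import Fermat.Agent.S18.Disc.Eval

/-!
# S19, slice RedSymm (helper8): symmetries of a reduction datum (abstract frame of S18/Core)

`Symm R` : a pair of semilinear automorphisms `gL` of `FL/L` and `gk` of `Fk/k` compatible with all
the structure of the reduction datum `R : RedDatum A π r` (the valuation ring `A`, the residue map
`π`, the place map `r`, the Gauss valuation ring `R.O` and the reduction `R.red`).
At `X₀(N)` every element of the decomposition group gives one (`SymmX0.lean`); the elements of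
the inertia group give *inertial* ones (`gk = 1`).

Transport lemmas: `adicValuation_smul`, `regOn_smul`, `isGoodParam_smul`, `valAt_smul` (unfolded
shape of `Taylor.ValAt`), `mem_riemannRochSpace_smul`, rigid families; the fixed-point lemma
`smul_zero_eq` (the zero of a fixed good parameter on a disc is fixed by an inertial symmetry) and
the adapter `coeffFixedHyp` to the binder shapes of `Taylor.DiscParam.coeff_fixed`.
-/

set_option autoImplicit false
set_option linter.unusedSectionVars false
set_option linter.unusedVariables false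

namespace Fermat.Agent.S19.RedSymm

open AlgebraicCurve Fermat.Agent.S24.Ord Fermat.Agent.S18.CoreDefs Fermat.Agent.S18.CoreOrd
  Fermat.Agent.S18.Disc

/-! ### general facts on semilinear automorphisms -/

section General

variable {K : Type*} [Field K] {F : Type*} [Field F] [Algebra K F]

theorem smul_eq_zero_iff' (g : SemilinearAut K F) (f : F) : g • f = 0 ↔ f = 0 := by
  rw [SemilinearAut.smul_def]
  exact map_eq_zero_iff _ (SemilinearAut.toRingAut g).injective

/-- the adic valuations are transported by a semilinear automorphism -/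
theorem adicValuation_smul (g : SemilinearAut K F) (P : Place K F) (f : F) :
    (g • P).adicValuation (g • f) = P.adicValuation f := by
  rcases eq_or_ne f 0 with rfl | hf
  · rw [smul_zero, map_zero, map_zero]
  · have hgf : g • f ≠ 0 := fun h => hf ((smul_eq_zero_iff' g f).mp h)
    rw [adicValuation_eq _ hgf, adicValuation_eq _ hf, SemilinearAut.ord_smul]

theorem adicValuation_smul_inv (g : SemilinearAut K F) (P : Place K F) (f : F) :
    (g • P).adicValuation f = P.adicValuation (g⁻¹ • f) := by
  have h := adicValuation_smul g P (g⁻¹ • f)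
  rwa [smul_inv_smul] at h

theorem ord_smul_inv (g : SemilinearAut K F) (P : Place K F) (f : F) :
    (g • P).ord f = P.ord (g⁻¹ • f) := by
  have h := SemilinearAut.ord_smul g P (g⁻¹ • f)
  rwa [smul_inv_smul] at h

/-- if `g` fixes the place `P`, it preserves its adic valuation (the shape `hP0` of
`Taylor.DiscParam.coeff_fixed`) -/
theorem adicValuation_smul_of_fixed (g : SemilinearAut K F) (P : Place K F) (hP : g • P = P)
    (f : F) : P.adicValuation (g • f) = P.adicValuation f := by
  have h := adicValuation_smul g P f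
  rwa [hP] at h

theorem ord_smul_of_fixed (g : SemilinearAut K F) (P : Place K F) (hP : g • P = P)
    (f : F) : P.ord (g • f) = P.ord f := by
  have h := SemilinearAut.ord_smul g P f
  rwa [hP] at h

/-- Riemann–Roch spaces are transported -/
theorem smul_mem_riemannRochSpace (g : SemilinearAut K F) {D : Divisor K F} {f : F}
    (hf : f ∈ riemannRochSpace D) : g • f ∈ riemannRochSpace (g • D) := by
  rw [mem_riemannRochSpace_iff] at hf ⊢
  intro w
  rcases hf (g⁻¹ • w) with h0 | h
  · left
    rw [h0, smul_zero]
  · right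
    have h1 := SemilinearAut.ord_smul g (g⁻¹ • w) f
    rw [smul_inv_smul] at h1
    rw [SemilinearAut.divisor_smul_apply, h1]
    exact h

theorem smul_mem_riemannRochSpace_iff (g : SemilinearAut K F) {D : Divisor K F} {f : F} :
    g • f ∈ riemannRochSpace (g • D) ↔ f ∈ riemannRochSpace D := by
  refine ⟨fun h => ?_, smul_mem_riemannRochSpace g⟩
  have := smul_mem_riemannRochSpace g⁻¹ h
  rwa [inv_smul_smul, inv_smul_smul] at this

theorem smul_sum_single (g : SemilinearAut K F) {n : ℕ} (Qs : Fin n → Place K F) :
    g • (∑ i, Finsupp.single (Qs i) (1 : ℤ)) = ∑ i, Finsupp.single (g • Qs i) (1 : ℤ) := by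
  rw [Finset.smul_sum]
  exact Finset.sum_congr rfl fun i _ => SemilinearAut.smul_single g (Qs i) 1

/-- rigid families are transported -/
theorem rigid_smul (g : SemilinearAut K F) {n : ℕ} (Qs : Fin n → Place K F)
    (hrigid : ∀ y : F, y ∈ riemannRochSpace (∑ i, Finsupp.single (Qs i) (1 : ℤ)) →
      ∃ c : K, y = algebraMap K F c) :
    ∀ y : F, y ∈ riemannRochSpace (∑ i, Finsupp.single (g • Qs i) (1 : ℤ)) →
      ∃ c : K, y = algebraMap K F c := by
  intro y hy
  rw [← smul_sum_single] at hy
  have h1 : g • (g⁻¹ • y) ∈ riemannRochSpace (g • ∑ i, Finsupp.single (Qs i) (1 : ℤ)) := by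
    rwa [smul_inv_smul]
  obtain ⟨c, hc⟩ := hrigid _ ((smul_mem_riemannRochSpace_iff g).mp h1)
  refine ⟨SemilinearAut.baseAut g c, ?_⟩
  rw [← SemilinearAut.smul_algebraMap, ← hc, smul_inv_smul]

end General

/-! ### symmetries of a reduction datum -/

variable {L : Type*} [Field L] {FL : Type*} [Field FL] [Algebra L FL]
variable {k : Type*} [Field k] {Fk : Type*} [Field Fk] [Algebra k Fk]
variable {A : ValuationSubring L} {π : A →+* k} {r : Place L FL → Place k Fk}

/-- A symmetry of the reduction datum `R`. -/
structure Symm (R : RedDatum A π r) where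
  /-- the semilinear automorphism of the generic fibre -/
  gL : SemilinearAut L FL
  /-- the semilinear automorphism of the special fibre -/
  gk : SemilinearAut k Fk
  mem_A : ∀ a : L, SemilinearAut.baseAut gL a ∈ A ↔ a ∈ A
  pi_comm : ∀ a : A, π ⟨SemilinearAut.baseAut gL (a : L), (mem_A (a : L)).2 a.2⟩
    = SemilinearAut.baseAut gk (π a)
  r_comm : ∀ P : Place L FL, r (gL • P) = gk • r P
  mem_O : ∀ f : FL, gL • f ∈ R.O ↔ f ∈ R.O
  red_comm : ∀ f : R.O, R.red ⟨gL • (f : FL), (mem_O (f : FL)).2 f.2⟩ = gk • R.red f

namespace Symm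

variable {R : RedDatum A π r} (s : Symm R)

/-- the symmetry is *inertial*: it acts trivially on the special fibre -/
def IsInertial : Prop := s.gk = 1

/-- the action on `A` -/
def mapA : A ≃+* A where
  toFun a := ⟨SemilinearAut.baseAut s.gL (a : L), (s.mem_A (a : L)).2 a.2⟩
  invFun a := ⟨(SemilinearAut.baseAut s.gL).symm (a : L), by
    have := (s.mem_A ((SemilinearAut.baseAut s.gL).symm (a : L))).1
    rw [RingEquiv.apply_symm_apply] at this
    exact this a.2⟩
  left_inv a := by ext; simp
  right_inv a := by ext; simp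
  map_mul' a b := by ext; simp
  map_add' a b := by ext; simp

@[simp] theorem coe_mapA (a : A) : ((s.mapA a : A) : L) = SemilinearAut.baseAut s.gL (a : L) := rfl

theorem pi_mapA (a : A) : π (s.mapA a) = SemilinearAut.baseAut s.gk (π a) := s.pi_comm a

/-- the action on the Gauss valuation ring -/
def mapO : R.O ≃+* R.O where
  toFun f := ⟨s.gL • (f : FL), (s.mem_O (f : FL)).2 f.2⟩
  invFun f := ⟨s.gL⁻¹ • (f : FL), by
    have := (s.mem_O (s.gL⁻¹ • (f : FL))).1
    rw [smul_inv_smul] at this
    exact this f.2⟩
  left_inv f := by ext; simp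
  right_inv f := by
    ext
    show s.gL • (s.gL⁻¹ • (f : FL)) = f
    rw [smul_inv_smul]
  map_mul' a b := by ext; simp
  map_add' a b := by ext; simp

@[simp] theorem coe_mapO (f : R.O) : ((s.mapO f : R.O) : FL) = s.gL • (f : FL) := rfl

theorem red_mapO (f : R.O) : R.red (s.mapO f) = s.gk • R.red f := s.red_comm f

theorem mapO_constHom (a : A) : s.mapO (constHom R a) = constHom R (s.mapA a) := by
  ext
  rw [coe_mapO, coe_constHom, coe_constHom, SemilinearAut.smul_algebraMap, coe_mapA]

/-- membership in the maximal ideal of `A` is preserved -/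
theorem mapA_mem_maximalIdeal {a : A} (ha : a ∈ IsLocalRing.maximalIdeal A) :
    s.mapA a ∈ IsLocalRing.maximalIdeal A := by
  rw [IsLocalRing.mem_maximalIdeal, mem_nonunits_iff] at ha ⊢
  intro h
  apply ha
  have := h.map s.mapA.symm
  rwa [RingEquiv.symm_apply_apply] at this

/-! #### transport of the local notions -/

theorem regOn_smul {y : FL} {Q : Place k Fk} (hy : RegOn r y Q) :
    RegOn r (s.gL • y) (s.gk • Q) := by
  intro P hP
  have h1 : r (s.gL⁻¹ • P) = Q := by
    have := s.r_comm (s.gL⁻¹ • P)
    rw [smul_inv_smul, hP] at this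
    exact (MulAction.injective s.gk this.symm)
  have h2 := hy _ h1
  have h3 := adicValuation_smul s.gL (s.gL⁻¹ • P) y
  rw [smul_inv_smul] at h3
  rw [h3]
  exact h2

theorem isGoodParam_smul {T : R.O} {Q : Place k Fk} (hT : IsGoodParam R T Q) :
    IsGoodParam R (s.mapO T) (s.gk • Q) where
  reg := by
    rw [coe_mapO]
    exact s.regOn_smul hT.reg
  ord_one := by
    rw [red_mapO, SemilinearAut.ord_smul]
    exact hT.ord_one

/-- values are transported (unfolded shape of `Taylor.ValAt`) -/
theorem valAt_smul {P : Place L FL} {y : FL} {c : L}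
    (h : P.adicValuation (y - algebraMap L FL c) < 1) :
    (s.gL • P).adicValuation (s.gL • y - algebraMap L FL (SemilinearAut.baseAut s.gL c)) < 1 := by
  rw [← SemilinearAut.smul_algebraMap, ← smul_sub, adicValuation_smul]
  exact h

/-- zeros are transported -/
theorem ord_pos_smul {P : Place L FL} {y : FL} (h : 0 < P.ord y) :
    0 < (s.gL • P).ord (s.gL • y) := by
  rw [SemilinearAut.ord_smul]
  exact h

/-! #### inertial symmetries -/

section Inertial

variable {s}

theorem IsInertial.r_smul (hs : s.IsInertial) (P : Place L FL) : r (s.gL • P) = r P := by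
  rw [s.r_comm, hs, one_smul]

theorem IsInertial.red_mapO (hs : s.IsInertial) (f : R.O) : R.red (s.mapO f) = R.red f := by
  rw [s.red_mapO, hs, one_smul]

theorem IsInertial.pi_mapA (hs : s.IsInertial) (a : A) : π (s.mapA a) = π a := by
  rw [s.pi_mapA, hs]
  rfl

/-- **Fixed-point lemma.** An inertial symmetry fixing a good parameter on the disc of `Q` fixes
its zero on that disc. -/
theorem IsInertial.smul_zero_eq [HasPrincipalDivisors L FL] (hs : s.IsInertial) {T : R.O}
    {Q : Place k Fk} (hT : IsGoodParam R T Q) (hfix : s.gL • (T : FL) = (T : FL))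
    {P0 : Place L FL} (hP0 : r P0 = Q) (hz : 0 < P0.ord (T : FL)) : s.gL • P0 = P0 := by
  classical
  have hz' : P0.adicValuation (T : FL) < 1 := (ord_pos_iff P0 hT.coe_ne_zero).mp hz
  have h1 : r (s.gL • P0) = Q := by rw [hs.r_smul, hP0]
  have h2 : 0 < (s.gL • P0).ord (T : FL) := by
    have := s.ord_pos_smul hz
    rwa [hfix] at this
  have h3 := hT.ord_eq_ite hP0 hz' (s.gL • P0) h1
  by_contra hne
  rw [if_neg hne] at h3
  omega

end Inertial

/-- the hypotheses `hcomp`, `hP0` of `Taylor.DiscParam.coeff_fixed` for a symmetry fixing `P0`,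
with `sL := baseAut gL`, `sF := toRingAut gL` -/
theorem coeffFixedHyp {P0 : Place L FL} (hP0 : s.gL • P0 = P0) :
    (∀ c : L, (SemilinearAut.toRingAut s.gL : FL →+* FL) (algebraMap L FL c)
        = algebraMap L FL ((SemilinearAut.baseAut s.gL : L →+* L) c)) ∧
      ∀ z : FL, P0.adicValuation ((SemilinearAut.toRingAut s.gL : FL →+* FL) z)
        = P0.adicValuation z :=
  ⟨fun c => SemilinearAut.commutes s.gL c, fun z => adicValuation_smul_of_fixed s.gL P0 hP0 z⟩

/-! #### group structure -/

/-- the identity symmetry -/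
protected def one (R : RedDatum A π r) : Symm R where
  gL := 1
  gk := 1
  mem_A _ := Iff.rfl
  pi_comm _ := rfl
  r_comm P := by rw [one_smul, one_smul]
  mem_O f := by rw [one_smul]
  red_comm f :=
    (congrArg R.red (Subtype.ext (one_smul _ (f : FL)))).trans (one_smul _ (R.red f)).symm

/-- the inverse symmetry -/
protected def inv : Symm R where
  gL := s.gL⁻¹
  gk := s.gk⁻¹
  mem_A a := by
    have := s.mem_A (SemilinearAut.baseAut s.gL⁻¹ a)
    rw [SemilinearAut.baseAut_inv, RingEquiv.apply_symm_apply] at this
    rw [SemilinearAut.baseAut_inv]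
    exact this.symm
  pi_comm a := by
    have h := s.pi_mapA (s.mapA.symm a)
    rw [RingEquiv.apply_symm_apply] at h
    show π (s.mapA.symm a) = (SemilinearAut.baseAut s.gk).symm (π a)
    rw [h, RingEquiv.symm_apply_apply]
  r_comm P := by
    have h := s.r_comm (s.gL⁻¹ • P)
    rw [smul_inv_smul] at h
    rw [h, inv_smul_smul]
  mem_O f := by
    have := s.mem_O (s.gL⁻¹ • f)
    rw [smul_inv_smul] at this
    exact this.symm
  red_comm f := by
    have h := s.red_mapO (s.mapO.symm f)
    rw [RingEquiv.apply_symm_apply] at h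
    show R.red (s.mapO.symm f) = s.gk⁻¹ • R.red f
    rw [h, inv_smul_smul]

/-- the composite symmetry -/
protected def mul (t : Symm R) : Symm R where
  gL := s.gL * t.gL
  gk := s.gk * t.gk
  mem_A a := by
    rw [SemilinearAut.baseAut_mul]
    exact (s.mem_A _).trans (t.mem_A a)
  pi_comm a := by
    have h1 := s.pi_mapA (t.mapA a)
    rw [t.pi_mapA] at h1
    exact h1
  r_comm P := by rw [mul_smul, mul_smul, s.r_comm, t.r_comm]
  mem_O f := by
    rw [mul_smul]
    exact (s.mem_O _).trans (t.mem_O f)
  red_comm f := by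
    have h1 := s.red_mapO (t.mapO f)
    rw [t.red_mapO, ← mul_smul] at h1
    refine Eq.trans ?_ h1
    exact congrArg R.red (Subtype.ext (mul_smul s.gL t.gL (f : FL)))

end Symm

end Fermat.Agent.S19.RedSymm
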