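import Mathlib
import Fermat.Agent.S18.C.SmallDVR
import Fermat.Agent.Lib.FrobeniusExists
import Fermat.Prelude.Def_GaloisRep_Flat
import Fermat.Prelude.Def_EllipticCurve_FrobeniusTrace
import Fermat.Agent.S37.Reduction

/-!
# S19, slice ArithX0 (helper8): the arithmetic frame of the descent `W → ℤ_(ℓ)`

`A` a valuation subring of `ℚ̄` over the prime `ℓ`, `I = A.inertiaSubgroupIn ℚ`, `K0 = ℚ̄^I`.
`WQ A := A ∩ K0` as a SUBRING OF `ℚ̄` (the same ring as `S18.C.SmallDVR.W A`, which is a valuation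
subring of `K0 A`), with the facts consumed by the Frobenius descent of lattices:

* `(w1)` `ratCast_mem_WQ_iff` : `WQ ∩ ℚ = ℤ_(ℓ)` (`GaloisRep.ratLocalizedAt ℓ`);
* `(w2)` `exists_inv_mod` : `WQ / ℓ` is a field;
* `(w3)` `frob_mem`, `frob_congr` : a Frobenius element `σ` at `A` preserves `WQ` and
  `σ w ≡ w ^ ℓ mod ℓ WQ`;
* `(w4)` `exists_int_congr` : `w ^ ℓ ≡ w mod ℓ WQ` implies `w ≡ n mod ℓ WQ` for an integer `n`;
* `(w5)` `exists_pow_mul_mem` : every inertia-invariant `x : ℚ̄` has `ℓ ^ n * x ∈ WQ`;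
* `inertia_fixed`, `mem_A` : elements of `WQ` are inertia-invariant and lie in `A`;
* `dvd_iff_mem_nonunits` : `ℓ ∣ w` in `WQ` iff `w` is a non-unit of `A`.
-/

set_option autoImplicit false
set_option linter.unusedSectionVars false

noncomputable section

namespace Fermat.Agent.S19.ArithX0

open IsLocalRing Polynomial Fermat.Agent.S18.C.SmallDVR

local notation "Kb" => AlgebraicClosure ℚ

/-- the elements fixed by the Frobenius of a field of characteristic `ℓ` are the integers -/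
theorem exists_natCast_eq_of_pow_eq {k : Type*} [Field k] (ℓ : ℕ) [Fact ℓ.Prime] [CharP k ℓ]
    (x : k) (hx : x ^ ℓ = x) : ∃ n : ℕ, x = (n : k) := by
  classical
  let _ : Algebra (ZMod ℓ) k := ZMod.algebra k ℓ
  have hℓ1 : 1 < ℓ := (Fact.out : ℓ.Prime).one_lt
  have hroots : roots (X ^ ℓ - X : (ZMod ℓ)[X]) = Finset.univ.val := by
    have h := FiniteField.roots_X_pow_card_sub_X (ZMod ℓ)
    rwa [ZMod.card] at h
  have hdeg : (X ^ ℓ - X : (ZMod ℓ)[X]).natDegree = ℓ :=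
    FiniteField.X_pow_card_sub_X_natDegree_eq (ZMod ℓ) hℓ1
  have hmonic : (X ^ ℓ - X : (ZMod ℓ)[X]).Monic :=
    monic_X_pow_sub (by rw [degree_X]; exact_mod_cast hℓ1)
  have hcard : Multiset.card (roots (X ^ ℓ - X : (ZMod ℓ)[X]))
      = (X ^ ℓ - X : (ZMod ℓ)[X]).natDegree := by
    rw [hroots, hdeg]; simp
  have hprod := prod_multiset_X_sub_C_of_monic_of_roots_card_eq hmonic hcard
  rw [hroots] at hprod
  have h2 := congrArg (fun p : (ZMod ℓ)[X] => (p.map (algebraMap (ZMod ℓ) k)).eval x) hprod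
  simp only [Polynomial.map_sub, Polynomial.map_pow, map_X, eval_sub, eval_pow, eval_X, hx,
    sub_self] at h2
  rw [Finset.prod_map_val, Polynomial.map_prod, eval_prod, Finset.prod_eq_zero_iff] at h2
  obtain ⟨a, -, ha⟩ := h2
  rw [Polynomial.map_sub, map_X, map_C, eval_sub, eval_X, eval_C, sub_eq_zero] at ha
  refine ⟨a.val, ?_⟩
  rw [ha]
  conv_lhs => rw [← ZMod.natCast_zmod_val a]
  rw [map_natCast]

variable (A : ValuationSubring Kb)

/-- `W = A ∩ K0` as a subring of `ℚ̄`. -/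
def WQ : Subring Kb := A.toSubring ⊓ (K0 A).toSubring

variable {A}

theorem mem_WQ_iff {x : Kb} :
    x ∈ WQ A ↔ x ∈ A ∧ ∀ σ ∈ A.inertiaSubgroupIn ℚ, σ x = x := by
  rw [WQ, Subring.mem_inf, ← mem_K0_iff]
  rfl

theorem mem_A {x : Kb} (hx : x ∈ WQ A) : x ∈ A := (mem_WQ_iff.mp hx).1

theorem inertia_fixed {x : Kb} (hx : x ∈ WQ A) {σ : Kb ≃ₐ[ℚ] Kb}
    (hσ : σ ∈ A.inertiaSubgroupIn ℚ) : σ x = x := (mem_WQ_iff.mp hx).2 σ hσ

theorem mem_K0 {x : Kb} (hx : x ∈ WQ A) : x ∈ K0 A := (mem_K0_iff A).mpr (mem_WQ_iff.mp hx).2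

/-- from `WQ` to the small DVR `W A` -/
def toW (x : WQ A) : W A := ⟨⟨(x : Kb), mem_K0 x.2⟩, mem_A x.2⟩

@[simp] theorem coe_toW (x : WQ A) : (((toW x : W A) : K0 A) : Kb) = (x : Kb) := rfl

theorem coe_mem_WQ (y : W A) : (((y : K0 A)) : Kb) ∈ WQ A :=
  mem_WQ_iff.mpr ⟨coe_mem A y, fun _ hσ => coe_fixed A (y : K0 A) hσ⟩

/-- from the small DVR `W A` to `WQ` -/
def ofW (y : W A) : WQ A := ⟨((y : K0 A) : Kb), coe_mem_WQ y⟩

@[simp] theorem coe_ofW (y : W A) : ((ofW y : WQ A) : Kb) = ((y : K0 A) : Kb) := rfl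

theorem toW_ofW (y : W A) : toW (ofW y) = y := rfl

theorem ofW_toW (x : WQ A) : ofW (toW x) = x := rfl

variable {ℓ : ℕ} [hℓ : Fact ℓ.Prime] (hA : A.LiesOverPrime ℓ)
include hA

/-- divisibility by `ℓ` inside `WQ` -/
theorem dvd_iff_mem_nonunits {w : Kb} (hw : w ∈ WQ A) :
    (∃ v ∈ WQ A, w = (ℓ : Kb) * v) ↔ w ∈ A.nonunits := by
  constructor
  · rintro ⟨v, hv, rfl⟩
    rw [A.mem_nonunits_iff, map_mul]
    exact mul_lt_one_of_lt_of_le (A.mem_nonunits_iff.mp hA)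
      ((A.valuation_le_one_iff _).mpr (mem_A hv))
  · intro hnu
    have h1 : toW ⟨w, hw⟩ ∈ maximalIdeal (W A) := by
      rw [mem_maximalIdeal_iff, mem_maximalIdeal, mem_nonunits_iff]
      intro hu
      have h2 : A.valuation w = 1 := by
        have := (A.valuation_eq_one_iff (toA A (toW ⟨w, hw⟩))).mp hu
        exact this
      rw [A.mem_nonunits_iff, h2] at hnu
      exact lt_irrefl _ hnu
    rw [maximalIdeal_W_eq hA, Ideal.mem_span_singleton] at h1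
    obtain ⟨y, hy⟩ := h1
    refine ⟨((y : K0 A) : Kb), coe_mem_WQ y, ?_⟩
    have h3 := congrArg (fun z : W A => (((z : K0 A)) : Kb)) hy
    simp only [coe_toW] at h3
    rw [h3]
    push_cast
    rfl

/-- `(w2)`: `WQ / ℓ` is a field. -/
theorem exists_inv_mod {w : Kb} (hw : w ∈ WQ A) (hnd : ¬ ∃ v ∈ WQ A, w = (ℓ : Kb) * v) :
    ∃ u ∈ WQ A, u * w = 1 := by
  rw [dvd_iff_mem_nonunits hA hw] at hnd
  have hv : A.valuation w = 1 := by
    rcases lt_or_eq_of_le ((A.valuation_le_one_iff _).mpr (mem_A hw)) with h | h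
    · exact absurd (A.mem_nonunits_iff.mpr h) hnd
    · exact h
  have hw0 : w ≠ 0 := by
    rintro rfl
    rw [map_zero] at hv
    exact zero_ne_one hv
  refine ⟨w⁻¹, mem_WQ_iff.mpr ⟨?_, fun σ hσ => ?_⟩, inv_mul_cancel₀ hw0⟩
  · rw [← A.valuation_le_one_iff, map_inv₀, hv, inv_one]
  · rw [map_inv₀, inertia_fixed hw hσ]

/-- `(w1)`: `WQ ∩ ℚ = ℤ_(ℓ)`. -/
theorem ratCast_mem_WQ_iff (q : ℚ) :
    ((q : ℚ) : Kb) ∈ WQ A ↔ q ∈ GaloisRep.ratLocalizedAt ℓ := by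
  have hfix : ∀ σ ∈ A.inertiaSubgroupIn ℚ, σ ((q : ℚ) : Kb) = ((q : ℚ) : Kb) := by
    intro σ _
    rw [← eq_ratCast (algebraMap ℚ Kb) q]
    exact σ.commutes q
  rw [mem_WQ_iff]
  constructor
  · rintro ⟨hqA, -⟩
    show q.den.Coprime ℓ
    by_contra hcop
    have hdvd : ℓ ∣ q.den := by
      rcases (Nat.coprime_or_dvd_of_prime hℓ.out q.den) with h | h
      · exact absurd h.symm hcop
      · exact h
    -- the numerator is prime to `ℓ`
    have hnum : ¬ (ℓ : ℤ) ∣ q.num := by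
      intro hd
      have h1 : ℓ ∣ q.num.natAbs := Int.natCast_dvd.mp hd
      have h2 := Nat.dvd_gcd h1 hdvd
      rw [q.reduced] at h2
      exact hℓ.out.one_lt.ne' (Nat.dvd_one.mp h2)
    have hnumv : A.valuation ((q.num : ℤ) : Kb) = 1 := by
      have h1 := Fermat.Agent.Lib.FrobeniusExists.intCast_not_mem_nonunits A hℓ.out hA hnum
      rcases lt_or_eq_of_le ((A.valuation_le_one_iff _).mpr (intCast_mem A q.num)) with h | h
      · exact absurd (A.mem_nonunits_iff.mpr h) h1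
      · exact h
    have hdenv : A.valuation ((q.den : ℕ) : Kb) < 1 := by
      obtain ⟨c, hc⟩ := hdvd
      rw [hc, Nat.cast_mul, map_mul]
      exact mul_lt_one_of_lt_of_le (A.mem_nonunits_iff.mp hA)
        ((A.valuation_le_one_iff _).mpr (natCast_mem A c))
    have hq : ((q.den : ℕ) : Kb) * ((q : ℚ) : Kb) = ((q.num : ℤ) : Kb) := by
      have h := Rat.mul_den_eq_num q
      have h2 : (((q * (q.den : ℚ) : ℚ)) : Kb) = (((q.num : ℚ)) : Kb) := by rw [h]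
      push_cast at h2
      rw [mul_comm]
      exact h2
    have h3 : A.valuation ((q.den : ℕ) : Kb) * A.valuation ((q : ℚ) : Kb) = 1 := by
      rw [← map_mul, hq, hnumv]
    have h4 : A.valuation ((q.den : ℕ) : Kb) * A.valuation ((q : ℚ) : Kb) < 1 :=
      mul_lt_one_of_lt_of_le hdenv ((A.valuation_le_one_iff _).mpr hqA)
    rw [h3] at h4
    exact lt_irrefl _ h4
  · intro hq
    have hcop : q.den.Coprime ℓ := hq
    refine ⟨?_, hfix⟩
    have hden : ¬ (ℓ : ℤ) ∣ (q.den : ℤ) := by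
      intro hd
      have h1 : ℓ ∣ q.den := Int.natCast_dvd_natCast.mp hd
      have := Nat.dvd_gcd h1 (dvd_refl ℓ)
      rw [hcop] at this
      exact hℓ.out.one_lt.ne' (Nat.dvd_one.mp this)
    have hdenv : A.valuation (((q.den : ℤ) : ℤ) : Kb) = 1 := by
      have h1 := Fermat.Agent.Lib.FrobeniusExists.intCast_not_mem_nonunits A hℓ.out hA hden
      rcases lt_or_eq_of_le ((A.valuation_le_one_iff _).mpr (intCast_mem A (q.den : ℤ))) with h | h
      · exact absurd (A.mem_nonunits_iff.mpr h) h1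
      · exact h
    have hq' : ((q : ℚ) : Kb) = ((q.num : ℤ) : Kb) * ((((q.den : ℤ) : ℤ) : Kb))⁻¹ := by
      have hd0 : (((q.den : ℤ) : ℤ) : Kb) ≠ 0 := by
        have : (q.den : ℤ) ≠ 0 := by exact_mod_cast q.den_ne_zero
        exact_mod_cast this
      rw [eq_mul_inv_iff_mul_eq₀ hd0]
      have h := Rat.mul_den_eq_num q
      have h2 : (((q * (q.den : ℚ) : ℚ)) : Kb) = (((q.num : ℚ)) : Kb) := by rw [h]
      push_cast at h2
      push_cast
      exact h2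
    rw [← A.valuation_le_one_iff, hq', map_mul, map_inv₀, hdenv, inv_one, mul_one]
    exact (A.valuation_le_one_iff _).mpr (intCast_mem A q.num)

/-- `(w5)`: every inertia-invariant element becomes integral after multiplication by a power of
`ℓ`. -/
theorem exists_pow_mul_mem {x : Kb} (hx : ∀ σ ∈ A.inertiaSubgroupIn ℚ, σ x = x) :
    ∃ n : ℕ, (ℓ : Kb) ^ n * x ∈ WQ A := by
  have hxK : x ∈ K0 A := (mem_K0_iff A).mpr hx
  obtain ⟨a, b, hb, hab⟩ := IsFractionRing.div_surjective (A := W A) (⟨x, hxK⟩ : K0 A)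
  have hb0 : b ≠ 0 := nonZeroDivisors.ne_zero hb
  obtain ⟨n, u, hu⟩ := exists_unit_mul_pow hA b hb0
  refine ⟨n, ?_⟩
  have hxeq : (ℓ : Kb) ^ n * x = (((a * (↑u⁻¹ : W A) : W A) : K0 A) : Kb) := by
    have h1 : (⟨x, hxK⟩ : K0 A) * algebraMap (W A) (K0 A) b = algebraMap (W A) (K0 A) a := by
      rw [← hab]
      have hbK : algebraMap (W A) (K0 A) b ≠ 0 := by
        intro h0
        exact hb0 ((IsFractionRing.injective (W A) (K0 A)) (by rw [h0, map_zero]))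
      field_simp
    have h2 := congrArg (fun z : K0 A => (z : Kb)) h1
    simp only [MulMemClass.coe_mul] at h2
    have hbcoe : ((algebraMap (W A) (K0 A) b : K0 A) : Kb)
        = (((u : W A) : K0 A) : Kb) * (ℓ : Kb) ^ n := by
      rw [hu]
      push_cast
      rfl
    have hacoe : ((algebraMap (W A) (K0 A) a : K0 A) : Kb) = ((a : K0 A) : Kb) := rfl
    rw [hbcoe, hacoe] at h2
    have hu1 : (((u : W A) : K0 A) : Kb) * ((((↑u⁻¹ : W A)) : K0 A) : Kb) = 1 := by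
      have : (u : W A) * (↑u⁻¹ : W A) = 1 := Units.mul_inv u
      have h3 : ((((u : W A) * (↑u⁻¹ : W A) : W A) : K0 A) : Kb) = (((1 : W A) : K0 A) : Kb) := by
        rw [this]
      push_cast at h3
      exact h3
    push_cast
    calc (ℓ : Kb) ^ n * x
        = (x * ((((u : W A) : K0 A) : Kb) * (ℓ : Kb) ^ n)) * ((((↑u⁻¹ : W A)) : K0 A) : Kb) := by
          rw [show x * ((((u : W A) : K0 A) : Kb) * (ℓ : Kb) ^ n) * ((((↑u⁻¹ : W A)) : K0 A) : Kb)
            = (ℓ : Kb) ^ n * x * ((((u : W A) : K0 A) : Kb) * ((((↑u⁻¹ : W A)) : K0 A) : Kb)) by ring,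
            hu1, mul_one]
      _ = ((a : K0 A) : Kb) * ((((↑u⁻¹ : W A)) : K0 A) : Kb) := by rw [h2]
  rw [hxeq]
  exact coe_mem_WQ _

/-! ### Frobenius elements -/

omit hA in
/-- elements of the decomposition group preserve `A` -/
theorem map_mem_A_of_mem_decomposition {σ : Kb ≃ₐ[ℚ] Kb} (hσ : σ ∈ A.decompositionSubgroup ℚ)
    {x : Kb} (hx : x ∈ A) : σ x ∈ A :=
  ((⟨σ, hσ⟩ : A.decompositionSubgroup ℚ) • (⟨x, hx⟩ : A)).2

omit hA in
/-- elements of the decomposition group preserve `WQ` -/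
theorem map_mem_WQ_of_mem_decomposition {σ : Kb ≃ₐ[ℚ] Kb} (hσ : σ ∈ A.decompositionSubgroup ℚ)
    {w : Kb} (hw : w ∈ WQ A) : σ w ∈ WQ A := by
  refine mem_WQ_iff.mpr ⟨map_mem_A_of_mem_decomposition hσ (mem_A hw), fun τ hτ => ?_⟩
  have hσ' : σ⁻¹ ∈ A.decompositionSubgroup ℚ := inv_mem hσ
  have h1 := Fermat.Agent.S37.Reduction.conj_mem_inertiaSubgroupIn A hσ' hτ
  rw [inv_inv] at h1
  have h2 := inertia_fixed hw h1
  -- `σ⁻¹ (τ (σ w)) = w`
  have h3 : σ⁻¹ (τ (σ w)) = w := h2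
  have h4 : σ (σ⁻¹ (τ (σ w))) = σ w := by rw [h3]
  rwa [show σ (σ⁻¹ (τ (σ w))) = τ (σ w) from by
    show (σ * σ⁻¹) (τ (σ w)) = _
    rw [mul_inv_cancel]; rfl] at h4

omit hA hℓ in
/-- `(w3a)`: a Frobenius element preserves `WQ`. -/
theorem frob_mem {σ : Kb ≃ₐ[ℚ] Kb} (hσ : A.IsFrobeniusAt σ ℓ) {w : Kb} (hw : w ∈ WQ A) :
    σ w ∈ WQ A :=
  map_mem_WQ_of_mem_decomposition hσ.mem_decompositionSubgroup hw

/-- `(w3b)`: a Frobenius element is the `ℓ`-th power map modulo `ℓ WQ`. -/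
theorem frob_congr {σ : Kb ≃ₐ[ℚ] Kb} (hσ : A.IsFrobeniusAt σ ℓ) {w : Kb} (hw : w ∈ WQ A) :
    ∃ v ∈ WQ A, σ w - w ^ ℓ = (ℓ : Kb) * v := by
  have hmem : σ w - w ^ ℓ ∈ WQ A := sub_mem (frob_mem hσ hw) (pow_mem hw ℓ)
  rw [dvd_iff_mem_nonunits hA hmem]
  have hD := hσ.mem_decompositionSubgroup
  have hσwA : σ w ∈ A := map_mem_A_of_mem_decomposition hD (mem_A hw)
  have h1 := hσ.smul_residue_eq (residue A ⟨w, mem_A hw⟩)
  rw [← ResidueField.residue_smul, ← map_pow, ← sub_eq_zero, ← map_sub,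
    residue_eq_zero_iff] at h1
  have h2 : ((((⟨σ, hD⟩ : A.decompositionSubgroup ℚ) • (⟨w, mem_A hw⟩ : A)
      - (⟨w, mem_A hw⟩ : A) ^ ℓ : A)) : Kb) = σ w - w ^ ℓ := rfl
  rw [← h2]
  exact ValuationSubring.coe_mem_nonunits_iff.mpr h1

/-- `(w4)`: the Frobenius-fixed residues of `WQ / ℓ` come from `ℤ`. -/
theorem exists_int_congr {w : Kb} (hw : w ∈ WQ A)
    (h : ∃ v ∈ WQ A, w ^ ℓ - w = (ℓ : Kb) * v) :
    ∃ n : ℕ, ∃ v ∈ WQ A, w - (n : Kb) = (ℓ : Kb) * v := by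
  have _ : CharP (ResidueField ↥A) ℓ := Fermat.Agent.S18.ResidueBasics.charP_residueField A hA
  have hmem : w ^ ℓ - w ∈ WQ A := sub_mem (pow_mem hw ℓ) hw
  rw [dvd_iff_mem_nonunits hA hmem] at h
  have h1 : residue A (⟨w, mem_A hw⟩ ^ ℓ - ⟨w, mem_A hw⟩) = 0 := by
    rw [residue_eq_zero_iff]
    exact ValuationSubring.coe_mem_nonunits_iff.mp h
  rw [map_sub, map_pow, sub_eq_zero] at h1
  obtain ⟨n, hn⟩ := exists_natCast_eq_of_pow_eq ℓ _ h1
  refine ⟨n, ?_⟩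
  have hmem' : w - (n : Kb) ∈ WQ A := sub_mem hw (natCast_mem _ n)
  rw [dvd_iff_mem_nonunits hA hmem']
  have h2 : residue A (⟨w, mem_A hw⟩ - (n : A)) = 0 := by
    rw [map_sub, hn, map_natCast, sub_self]
  rw [residue_eq_zero_iff] at h2
  have h3 : (((⟨w, mem_A hw⟩ - (n : A) : A)) : Kb) = w - (n : Kb) := by
    push_cast
    rfl
  rw [← h3]
  exact ValuationSubring.coe_mem_nonunits_iff.mpr h2

end Fermat.Agent.S19.ArithX0
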