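import Mathlib
import Fermat.Agent.S37.GenusAll
import Fermat.Agent.S37.Cusps.EmbK
import Fermat.Agent.S37.ReductionInputsX0
import Fermat.Agent.S37.Deuring.OrthoBasis2
import Fermat.Agent.S37.Equivariance.PlaceEquiv
import Fermat.Agent.S18.Final
import Fermat.Agent.S18.Wire

/-!
# S19, slice FrameX0 (helper8): the abstract S18/S19 frame instantiated at `X₀(N)`, `ℓ ∤ N`

Everything here is a re-export of facts that are on main (S18, S37); the file fixes the literal
shapes that the abstract slices of S19 (Taylor, discs, interpolation, closure, descent) can target.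

For `A : ValuationSubring ℚ̄` over a prime `ℓ ∤ N`, `k = κ(A)`, `F_L = ℚ̄(X₀(N))`,
`F_k = k(X₀(N))`:

* `(F1)` `reductionInputs : ReductionInputsModL A N`, `rX0`, `redDatumX0 : RedDatum A (residue A) rX0`;
* `(F2)` `isAlgClosed_k`, `residue_surjective`, `charP_k`;
* `(F3)` `deg_eq_one_L`, `deg_eq_one_k`, `hasPrincipalDivisors_L`, `hasPrincipalDivisors_k`;
* `(F4)` `exists_genus : ∃ g, RiemannHyp ℚ̄ F_L g ∧ RiemannHyp k F_k g` (the SAME `g`), hence
  `RiemannGe` and `RigidGeneric`;
* `(F5)` the element `jX0 : R.O` with `red jX0 = j̄`, unramified outside a finite set;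
* `(F6)` the action of the decomposition group on places commutes with `rX0`.
-/

set_option autoImplicit false
set_option synthInstance.maxHeartbeats 400000
set_option linter.unusedSectionVars false
set_option linter.style.haveILetI false

noncomputable section

namespace Fermat.Agent.S19.FrameX0

open AlgebraicCurve ModularCurve IntermediateField IsLocalRing
open Fermat.Agent.S18.CoreDefs Fermat.Agent.S18.NonSpecial Fermat.Agent.S18.NonSpecialAdapter
open Fermat.Agent.S18.A Fermat.Agent.S18.B
open Fermat.Agent.S37.Equivariance.GaussEquiv Fermat.Agent.S37.Equivariance.CoeffAut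

local notation "Kb" => AlgebraicClosure ℚ

variable {ℓ : ℕ} [Fact ℓ.Prime] (N : ℕ) [NeZero N] (A : ValuationSubring Kb)

/-! ### (F2) the residue field -/

theorem isAlgClosed_k : IsAlgClosed (ResidueField ↥A) :=
  Fermat.Agent.S18.ResidueBasics.isAlgClosed_residueField A

theorem charP_k (hA : A.LiesOverPrime ℓ) : CharP (ResidueField ↥A) ℓ :=
  Fermat.Agent.S18.ResidueBasics.charP_residueField A hA

theorem isSeparable_jk [IsAlgClosed (ResidueField ↥A)] :
    Algebra.IsSeparable (ResidueField ↥A)⟮FkBasics.jk (ResidueField ↥A) N⟯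
      ↥(modularFunctionFieldFullC (ResidueField ↥A) N) :=
  SeparableFk.isSeparable_jk (ResidueField ↥A) N

/-! ### (F3) places of degree one, principal divisors -/

theorem deg_eq_one_L (P : Place Kb ↥(modularFunctionFieldBar N)) : P.deg = 1 :=
  Fermat.Agent.S24.Ord.deg_eq_one (Fermat.Agent.S24.Degree.isFF N) P

theorem hasPrincipalDivisors_L : HasPrincipalDivisors Kb ↥(modularFunctionFieldBar N) :=
  Fermat.Agent.S18.GaussFromHBar.hasPrincipalDivisors_bar N

theorem hasPrincipalDivisors_k :
    HasPrincipalDivisors (ResidueField ↥A) ↥(modularFunctionFieldFullC (ResidueField ↥A) N) :=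
  haveI := isAlgClosed_k A
  PrincipalDivisors.hasPrincipalDivisors (FkBasics.isFF (ResidueField ↥A) N) (isSeparable_jk N A)

variable (hA : A.LiesOverPrime ℓ) (hℓN : ¬ ℓ ∣ N)
include hA hℓN

/-! ### (F1) the reduction datum -/

/-- `ReductionInputsModL A N` at every prime `ℓ ∤ N` (S37). -/
theorem reductionInputs : ReductionInputsModL A N :=
  Fermat.Agent.S37.GenusAll.reductionInputsModL N A hA hℓN
    (fun _ => Fermat.Agent.S37.Cusps.EmbK.cuspCount N A hA hℓN)

/-- the place reduction map of `X₀(N)` at `A` -/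
def rX0 : Place Kb ↥(modularFunctionFieldBar N) →
    Place (ResidueField ↥A) ↥(modularFunctionFieldFullC (ResidueField ↥A) N) :=
  placeReductionModL (reductionInputs N A hA hℓN)

theorem isPlaceReduction_rX0 : IsPlaceReductionModL A N (rX0 N A hA hℓN) :=
  isPlaceReductionModL_placeReductionModL (reductionInputs N A hA hℓN)

theorem principalGenerated : PrincipalGeneratedByIntegral A (residue ↥A) N :=
  (reductionInputs N A hA hℓN).choose_spec.2

/-- the reduction datum of `X₀(N)` at `A` (the abstract frame of S18/Core) -/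
def redDatumX0 : RedDatum (FL := ↥(modularFunctionFieldBar N))
    (Fk := ↥(modularFunctionFieldFullC (ResidueField ↥A) N)) A (residue ↥A) (rX0 N A hA hℓN) :=
  Fermat.Agent.S18.GaussFromHBar.redDatumModL (reductionInputs N A hA hℓN)

theorem rX0_surjective : Function.Surjective (rX0 N A hA hℓN) :=
  Fermat.Agent.S18.GaussFromHBar.placeReductionModL_surjective (reductionInputs N A hA hℓN)

theorem red_surjective : Function.Surjective (redDatumX0 N A hA hℓN).red :=
  Fermat.Agent.S18.GaussFromHBar.red_surjective (reductionInputs N A hA hℓN)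

/-! ### (F4) Riemann's theorem on both fibres, same genus -/

/-- **Riemann's theorem on both fibres with the same genus.** -/
theorem exists_genus :
    ∃ g : ℕ, RiemannHyp Kb ↥(modularFunctionFieldBar N) g ∧
      RiemannHyp (ResidueField ↥A) ↥(modularFunctionFieldFullC (ResidueField ↥A) N) g := by
  haveI := isAlgClosed_k A
  obtain ⟨gL, HL, -⟩ := Hurwitz.exists_genus_FL N
  obtain ⟨gk, Hk, -⟩ := Hurwitz.exists_genus_Fk (ResidueField ↥A) N (isSeparable_jk N A)
  have hle : gL ≤ gk := Fermat.Agent.S37.GenusAll.genus_le N A hA hℓN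
    (fun _ => Fermat.Agent.S37.Cusps.EmbK.cuspCount N A hA hℓN) gL gk HL Hk
  have heq : gk = gL := Fermat.Agent.S37.ReductionInputsX0.genus_eq_X0 N A hA hℓN HL Hk hle
  exact ⟨gL, HL, heq ▸ Hk⟩

theorem deg_eq_one_k
    (Q : Place (ResidueField ↥A) ↥(modularFunctionFieldFullC (ResidueField ↥A) N)) : Q.deg = 1 := by
  obtain ⟨g, -, Hk⟩ := exists_genus N A hA hℓN
  exact Hk.deg_one Q

/-! ### (F5) the unramified-almost-everywhere element `j` -/

/-- `j` as an element of the Gauss valuation ring of the datum -/
def jX0 : ↥(redDatumX0 N A hA hℓN).O :=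
  ⟨Fermat.Agent.S24.DegreeAlg.jgen N,
    Fermat.Agent.S18.GaussFromHBar.jgen_mem_O (reductionInputs N A hA hℓN)⟩

theorem red_jX0 : (redDatumX0 N A hA hℓN).red (jX0 N A hA hℓN) =
    ⟨jqModC (ResidueField ↥A), jqModC_mem_full (ResidueField ↥A) N⟩ :=
  Fermat.Agent.S18.GaussFromHBar.red_jgen (reductionInputs N A hA hℓN)

/-- all but finitely many places of `F_k` are simple zeros of some `j̄ - γ` -/
theorem finite_not_simple :
    {Q : Place (ResidueField ↥A) ↥(modularFunctionFieldFullC (ResidueField ↥A) N) |
      ¬ ∃ γ : ResidueField ↥A, Q.ord ((redDatumX0 N A hA hℓN).red (jX0 N A hA hℓN) -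
        algebraMap (ResidueField ↥A)
          ↥(modularFunctionFieldFullC (ResidueField ↥A) N) γ) = 1}.Finite := by
  haveI := isAlgClosed_k A
  rw [red_jX0]
  exact Unram.finite_not_simple (FkBasics.isFF (ResidueField ↥A) N) (isSeparable_jk N A)

/-! ### (F6) the decomposition group -/

/-- the place reduction commutes with the decomposition group -/
theorem rX0_smul (g : A.decompositionSubgroup ℚ) (P : Place Kb ↥(modularFunctionFieldBar N)) :
    rX0 N A hA hℓN (arithmeticGalois (modularFunctionFieldFull N) (g : Kb ≃ₐ[ℚ] Kb) • P)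
      = coeffAut (ResidueField ↥A) N (resAut A g) • rX0 N A hA hℓN P :=
  Fermat.Agent.S37.Equivariance.PlaceEquiv.placeMap_smul hA hℓN
    (isPlaceReduction_rX0 N A hA hℓN) (principalGenerated N A hA hℓN) g P

/-- inertia acts trivially on the reduction of places -/
theorem rX0_smul_inertia {σ : Kb ≃ₐ[ℚ] Kb} (hσ : σ ∈ A.inertiaSubgroupIn ℚ)
    (P : Place Kb ↥(modularFunctionFieldBar N)) :
    rX0 N A hA hℓN (arithmeticGalois (modularFunctionFieldFull N) σ • P) = rX0 N A hA hℓN P := by
  obtain ⟨g, rfl, hg⟩ := exists_of_mem_inertiaSubgroupIn A hσ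
  rw [rX0_smul N A hA hℓN g P, hg, map_one, one_smul]

/-! ### (F6b) the Gauss valuation ring and its reduction under the decomposition group -/

/-- the Gauss valuation ring is stable under the decomposition group, and the reduction is
equivariant (twisted by the induced automorphism of the residue field) -/
theorem red_smul (g : A.decompositionSubgroup ℚ) (f : ↥(redDatumX0 N A hA hℓN).O) :
    ∃ hf : arithmeticGalois (modularFunctionFieldFull N) (g : Kb ≃ₐ[ℚ] Kb) •
        (f : ↥(modularFunctionFieldBar N)) ∈ (redDatumX0 N A hA hℓN).O,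
      (redDatumX0 N A hA hℓN).red ⟨_, hf⟩
        = coeffAut (ResidueField ↥A) N (resAut A g) • (redDatumX0 N A hA hℓN).red f :=
  redV_smul_decomposition A N
    (Fermat.Agent.S18.GaussFromHBar.hasRepModL (reductionInputs N A hA hℓN)) g f

/-- inertia: the Gauss valuation ring is stable and the reduction is invariant -/
theorem red_smul_inertia {σ : Kb ≃ₐ[ℚ] Kb} (hσ : σ ∈ A.inertiaSubgroupIn ℚ)
    (f : ↥(redDatumX0 N A hA hℓN).O) :
    ∃ hf : arithmeticGalois (modularFunctionFieldFull N) σ •
        (f : ↥(modularFunctionFieldBar N)) ∈ (redDatumX0 N A hA hℓN).O,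
      (redDatumX0 N A hA hℓN).red ⟨_, hf⟩ = (redDatumX0 N A hA hℓN).red f :=
  redV_smul_inertia A N
    (Fermat.Agent.S18.GaussFromHBar.hasRepModL (reductionInputs N A hA hℓN)) hσ f

/-! ### (F7) orthonormal reduction of finite-dimensional subspaces -/

/-- **Orthonormal reduction**: every finite-dimensional `ℚ̄`-subspace `W` of `F_L` contains
`finrank W` elements of the Gauss valuation ring whose reductions are `k`-linearly independent. -/
theorem exists_red_independent (W : Submodule Kb ↥(modularFunctionFieldBar N))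
    [FiniteDimensional Kb W] :
    ∃ g : Fin (Module.finrank Kb W) → ↥(redDatumX0 N A hA hℓN).O,
      (∀ j, ((g j : ↥(redDatumX0 N A hA hℓN).O) : ↥(modularFunctionFieldBar N)) ∈ W) ∧
      LinearIndependent (ResidueField ↥A) fun j => (redDatumX0 N A hA hℓN).red (g j) := by
  obtain ⟨n, u, hi, hii⟩ := Fermat.Agent.S37.ReductionInputsX0.exists_onb N A hA hℓN
  have hj := Fermat.Agent.S37.Gauss.Datum.red_jgen hA hℓN
  exact Fermat.Agent.S37.Deuring.OrthoBasis2.exists_red_independent_of_basis
    (Fermat.Agent.S37.Gauss.Datum.gaussDatum N A hA hℓN)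
    ⟨Fermat.Agent.S24.DegreeAlg.jgen N, Fermat.Agent.S37.Gauss.Datum.jgen_mem_O hA hℓN⟩ u
    (by rw [hj]; exact FkBasics.transcendental_jk (ResidueField ↥A) N)
    (by rw [hj]; exact hi) hii W

end Fermat.Agent.S19.FrameX0
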