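import Mathlib
import Fermat.Agent.S19.FrameX0
import Fermat.Agent.S19.ArithX0
import Fermat.Agent.S19.RedSymm

/-!
# S19, slice SymmX0 (helper8): the decomposition group acts on the reduction datum of `X₀(N)`

For `A : ValuationSubring ℚ̄` over `ℓ ∤ N` and `g` in the decomposition group of `A`:
`symmX0 g : RedSymm.Symm (redDatumX0 N A hA hℓN)` with
`gL = arithmeticGalois (modularFunctionFieldFull N) g` and `gk = coeffAut k N (resAut A g)`.
Elements of the inertia group give inertial symmetries.
-/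

set_option autoImplicit false
set_option synthInstance.maxHeartbeats 400000
set_option linter.unusedSectionVars false
set_option linter.style.haveILetI false

noncomputable section

namespace Fermat.Agent.S19.SymmX0

open AlgebraicCurve ModularCurve IntermediateField IsLocalRing
open Fermat.Agent.S18.CoreDefs
open Fermat.Agent.S37.Equivariance.GaussEquiv Fermat.Agent.S37.Equivariance.CoeffAut
open Fermat.Agent.S19.FrameX0 Fermat.Agent.S19.RedSymm

local notation "Kb" => AlgebraicClosure ℚ

variable {ℓ : ℕ} [Fact ℓ.Prime] (N : ℕ) [NeZero N] (A : ValuationSubring Kb)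

theorem baseAut_arithmeticGalois_apply (σ : Kb ≃ₐ[ℚ] Kb) (a : Kb) :
    SemilinearAut.baseAut (arithmeticGalois (modularFunctionFieldFull N) σ) a = σ a := by
  rw [baseAut_arithmeticGalois]
  rfl

theorem mem_A_of_decomposition (g : A.decompositionSubgroup ℚ) (a : Kb) :
    (g : Kb ≃ₐ[ℚ] Kb) a ∈ A ↔ a ∈ A := by
  constructor
  · intro h
    have h1 := ((g⁻¹ : A.decompositionSubgroup ℚ) • (⟨_, h⟩ : A)).2
    have h2 : (((g⁻¹ : A.decompositionSubgroup ℚ) • (⟨_, h⟩ : A) : A) : Kb) = a := by
      show ((g⁻¹ : A.decompositionSubgroup ℚ) : Kb ≃ₐ[ℚ] Kb) ((g : Kb ≃ₐ[ℚ] Kb) a) = a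
      rw [Subgroup.coe_inv]
      exact AlgEquiv.symm_apply_apply _ a
    rwa [h2] at h1
  · intro h
    exact ((g • (⟨a, h⟩ : A) : A)).2

variable (hA : A.LiesOverPrime ℓ) (hℓN : ¬ ℓ ∣ N)

/-- the symmetry of the reduction datum of `X₀(N)` attached to an element of the decomposition
group -/
def symmX0 (g : A.decompositionSubgroup ℚ) : Symm (redDatumX0 N A hA hℓN) where
  gL := arithmeticGalois (modularFunctionFieldFull N) (g : Kb ≃ₐ[ℚ] Kb)
  gk := coeffAut (ResidueField ↥A) N (resAut A g)
  mem_A a := by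
    rw [baseAut_arithmeticGalois_apply]
    exact mem_A_of_decomposition A g a
  pi_comm a := by
    rw [baseAut_coeffAut]
    exact (compat A g).res a
  r_comm P := rX0_smul N A hA hℓN g P
  mem_O f := (compat A g).mem_OwV_iff
    (Fermat.Agent.S18.GaussFromHBar.hasRepModL (reductionInputs N A hA hℓN))
  red_comm f := (red_smul N A hA hℓN g f).choose_spec

@[simp] theorem symmX0_gL (g : A.decompositionSubgroup ℚ) :
    (symmX0 N A hA hℓN g).gL = arithmeticGalois (modularFunctionFieldFull N) (g : Kb ≃ₐ[ℚ] Kb) :=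
  rfl

@[simp] theorem symmX0_gk (g : A.decompositionSubgroup ℚ) :
    (symmX0 N A hA hℓN g).gk = coeffAut (ResidueField ↥A) N (resAut A g) := rfl

/-- elements of the inertia group give inertial symmetries -/
theorem isInertial_symmX0 {g : A.decompositionSubgroup ℚ} (hg : resAut A g = 1) :
    (symmX0 N A hA hℓN g).IsInertial := by
  show coeffAut (ResidueField ↥A) N (resAut A g) = 1
  rw [hg, map_one]

/-- for `σ` in the inertia group: an inertial symmetry with `gL = arithmeticGalois σ` -/
theorem exists_inertial {σ : Kb ≃ₐ[ℚ] Kb} (hσ : σ ∈ A.inertiaSubgroupIn ℚ) :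
    ∃ s : Symm (redDatumX0 N A hA hℓN), s.IsInertial ∧
      s.gL = arithmeticGalois (modularFunctionFieldFull N) σ := by
  obtain ⟨g, rfl, hg⟩ := exists_of_mem_inertiaSubgroupIn A hσ
  exact ⟨symmX0 N A hA hℓN g, isInertial_symmX0 N A hA hℓN hg, rfl⟩

/-- the action on constants: `mapA` is `σ` -/
theorem coe_mapA_symmX0 (g : A.decompositionSubgroup ℚ) (a : A) :
    (((symmX0 N A hA hℓN g).mapA a : A) : Kb) = (g : Kb ≃ₐ[ℚ] Kb) (a : Kb) := by
  rw [Symm.coe_mapA]
  exact baseAut_arithmeticGalois_apply N _ _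

end Fermat.Agent.S19.SymmX0
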