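import Mathlib
import Fermat.Agent.S19.SymmX0

/-!
# S19, slice ChartX0 (helper8): inertia-fixed chart data on `X₀(N)`, `ℓ ∤ N`

* `Bad0` : the finite set of places of `F_k` that are ramified for `j̄` or reductions of poles of `j`;
* `exists_fixed_param` : for `Q ∉ Bad0` a constant `c ∈ WQ A = A^I` such that `T = j - c` is a good
  parameter on the disc of `Q`, with zero `P0`; `T` and `P0` are fixed by the inertia group
  (so `P0` is a `K0`-rational place);
* `exists_chart_data` : for every finite `Bad` a rigid family of `g` such places, off `Bad`;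
* `exists_chart_data_pair` : two disjoint such families (`(Qb, Q, T)` and `(Rb, Rp, v)` of the
  interpolation datum);
* the decomposition group transports such data.
-/

set_option autoImplicit false
set_option synthInstance.maxHeartbeats 400000
set_option linter.unusedSectionVars false
set_option linter.style.haveILetI false

noncomputable section

namespace Fermat.Agent.S19.ChartX0

open AlgebraicCurve ModularCurve IntermediateField IsLocalRing
open Fermat.Agent.S18.CoreDefs Fermat.Agent.S18.CoreOrd Fermat.Agent.S18.Disc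
open Fermat.Agent.S18.NonSpecial Fermat.Agent.S18.NonSpecialAdapter Fermat.Agent.S24.Ord
open Fermat.Agent.S37.Equivariance.GaussEquiv Fermat.Agent.S37.Equivariance.CoeffAut
open Fermat.Agent.S19.FrameX0 Fermat.Agent.S19.RedSymm Fermat.Agent.S19.SymmX0
open Fermat.Agent.S19.ArithX0

local notation "Kb" => AlgebraicClosure ℚ

variable {ℓ : ℕ} [Fact ℓ.Prime] (N : ℕ) [NeZero N] (A : ValuationSubring Kb)
variable (hA : A.LiesOverPrime ℓ) (hℓN : ¬ ℓ ∣ N)

/-- the parameter `j - c` -/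
def Tc (c : A) : ↥(redDatumX0 N A hA hℓN).O :=
  jX0 N A hA hℓN - constHom (redDatumX0 N A hA hℓN) c

theorem coe_Tc (c : A) :
    ((Tc N A hA hℓN c : ↥(redDatumX0 N A hA hℓN).O) : ↥(modularFunctionFieldBar N))
      = Fermat.Agent.S24.DegreeAlg.jgen N
        - algebraMap Kb ↥(modularFunctionFieldBar N) (c : Kb) := rfl

/-- `j - c` is moved to `j - σ c` -/
theorem smul_Tc (σ : Kb ≃ₐ[ℚ] Kb) (c : A) :
    arithmeticGalois (modularFunctionFieldFull N) σ •
        ((Tc N A hA hℓN c : ↥(redDatumX0 N A hA hℓN).O) : ↥(modularFunctionFieldBar N))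
      = Fermat.Agent.S24.DegreeAlg.jgen N
        - algebraMap Kb ↥(modularFunctionFieldBar N) (σ (c : Kb)) := by
  rw [coe_Tc, smul_sub, Fermat.Agent.S37.Equivariance.PlaceEquiv.smul_jgen,
    SemilinearAut.smul_algebraMap, baseAut_arithmeticGalois_apply]

/-- `j - c` is fixed by `σ` when `c` is -/
theorem smul_Tc_of_fixed {σ : Kb ≃ₐ[ℚ] Kb} {c : A} (hc : σ (c : Kb) = (c : Kb)) :
    arithmeticGalois (modularFunctionFieldFull N) σ •
        ((Tc N A hA hℓN c : ↥(redDatumX0 N A hA hℓN).O) : ↥(modularFunctionFieldBar N))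
      = ((Tc N A hA hℓN c : ↥(redDatumX0 N A hA hℓN).O) : ↥(modularFunctionFieldBar N)) := by
  rw [smul_Tc, hc, coe_Tc]

theorem red_Tc (c : A) :
    (redDatumX0 N A hA hℓN).red (Tc N A hA hℓN c)
      = (redDatumX0 N A hA hℓN).red (jX0 N A hA hℓN) -
        algebraMap (ResidueField ↥A) ↥(modularFunctionFieldFullC (ResidueField ↥A) N)
          (residue ↥A c) :=
  (map_sub (redDatumX0 N A hA hℓN).red (jX0 N A hA hℓN)
    (constHom (redDatumX0 N A hA hℓN) c)).trans
    (congrArg (fun z => (redDatumX0 N A hA hℓN).red (jX0 N A hA hℓN) - z)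
      (red_constHom (redDatumX0 N A hA hℓN) c))

/-- the bad places of the special fibre: ramified for `j̄`, or reduction of a pole of `j` -/
def Bad0 : Set (Place (ResidueField ↥A) ↥(modularFunctionFieldFullC (ResidueField ↥A) N)) :=
  {Q | ¬ ∃ γ : ResidueField ↥A, Q.ord ((redDatumX0 N A hA hℓN).red (jX0 N A hA hℓN) -
      algebraMap (ResidueField ↥A) ↥(modularFunctionFieldFullC (ResidueField ↥A) N) γ) = 1} ∪
    rX0 N A hA hℓN '' {P | P.ord (Fermat.Agent.S24.DegreeAlg.jgen N) < 0}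

theorem finite_Bad0 : (Bad0 N A hA hℓN).Finite := by
  haveI := hasPrincipalDivisors_L N
  exact (finite_not_simple N A hA hℓN).union
    ((Fermat.Agent.S18.Core.finite_poles (Fermat.Agent.S24.DegreeAlg.jgen N)).image _)

include hA in
/-- constants of the residue field lift to `WQ A = A^I` -/
theorem exists_WQ_lift (γ : ResidueField ↥A) :
    ∃ c : A, (c : Kb) ∈ WQ A ∧ residue ↥A c = γ := by
  obtain ⟨w, hw⟩ := Fermat.Agent.S18.C.SmallDVR.exists_residue_toA_eq hA γ
  exact ⟨Fermat.Agent.S18.C.SmallDVR.toA A w, coe_mem_WQ w, hw⟩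

/-- **inertia-fixed good parameter.** For `Q ∉ Bad0` there are `c ∈ WQ A` and a place `P0` such
that `j - c` is a good parameter on the disc of `Q` with zero `P0`, and `P0` is fixed by the
inertia group. -/
theorem exists_fixed_param
    (Q : Place (ResidueField ↥A) ↥(modularFunctionFieldFullC (ResidueField ↥A) N))
    (hQ : Q ∉ Bad0 N A hA hℓN) :
    ∃ (c : A) (P0 : Place Kb ↥(modularFunctionFieldBar N)), (c : Kb) ∈ WQ A ∧
      IsGoodParam (redDatumX0 N A hA hℓN) (Tc N A hA hℓN c) Q ∧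
      rX0 N A hA hℓN P0 = Q ∧
      0 < P0.ord ((Tc N A hA hℓN c : ↥(redDatumX0 N A hA hℓN).O) :
        ↥(modularFunctionFieldBar N)) ∧
      ∀ σ ∈ A.inertiaSubgroupIn ℚ, arithmeticGalois (modularFunctionFieldFull N) σ • P0 = P0 := by
  haveI := hasPrincipalDivisors_L N
  have hQ1 : ∃ γ : ResidueField ↥A, Q.ord ((redDatumX0 N A hA hℓN).red (jX0 N A hA hℓN) -
      algebraMap (ResidueField ↥A) ↥(modularFunctionFieldFullC (ResidueField ↥A) N) γ) = 1 := by
    by_contra hcon
    exact hQ (Or.inl hcon)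
  have hQ2 : RegOn (rX0 N A hA hℓN) (Fermat.Agent.S24.DegreeAlg.jgen N) Q := by
    apply regOn_of_ord_nonneg
    intro P hP
    by_contra hcon
    rw [not_le] at hcon
    exact hQ (Or.inr ⟨P, hcon, hP⟩)
  obtain ⟨γ, hγ⟩ := hQ1
  obtain ⟨c, hcW, rfl⟩ := exists_WQ_lift A hA γ
  have hgood : IsGoodParam (redDatumX0 N A hA hℓN) (Tc N A hA hℓN c) Q := by
    refine ⟨?_, ?_⟩
    · rw [coe_Tc]
      exact hQ2.sub (regOn_const _ _ Q)
    · rw [red_Tc]
      exact hγ
  obtain ⟨P0, hP0, hord, -⟩ := hgood.exists_unique_zero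
  refine ⟨c, P0, hcW, hgood, hP0, by rw [hord]; exact one_pos, fun σ hσ => ?_⟩
  obtain ⟨s, hs, hsL⟩ := exists_inertial N A hA hℓN hσ
  rw [← hsL]
  refine hs.smul_zero_eq hgood ?_ hP0 (by rw [hord]; exact one_pos)
  rw [hsL]
  exact smul_Tc_of_fixed N A hA hℓN (inertia_fixed hcW hσ)

/-- inertia-fixedness of the zero of `j - c`, `c ∈ WQ A`, on any disc where it is a good
parameter -/
theorem smul_zero_of_mem_WQ {c : A} (hc : (c : Kb) ∈ WQ A)
    {Q : Place (ResidueField ↥A) ↥(modularFunctionFieldFullC (ResidueField ↥A) N)}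
    (hgood : IsGoodParam (redDatumX0 N A hA hℓN) (Tc N A hA hℓN c) Q)
    {P0 : Place Kb ↥(modularFunctionFieldBar N)} (hP0 : rX0 N A hA hℓN P0 = Q)
    (hz : 0 < P0.ord ((Tc N A hA hℓN c : ↥(redDatumX0 N A hA hℓN).O) :
      ↥(modularFunctionFieldBar N)))
    {σ : Kb ≃ₐ[ℚ] Kb} (hσ : σ ∈ A.inertiaSubgroupIn ℚ) :
    arithmeticGalois (modularFunctionFieldFull N) σ • P0 = P0 := by
  haveI := hasPrincipalDivisors_L N
  obtain ⟨s, hs, hsL⟩ := exists_inertial N A hA hℓN hσ
  rw [← hsL]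
  refine hs.smul_zero_eq hgood ?_ hP0 hz
  rw [hsL]
  exact smul_Tc_of_fixed N A hA hℓN (inertia_fixed hc hσ)

/-! ### chart data -/

/-- A rigid family of `g` discs with inertia-fixed parameters `j - c i` and their zeros. -/
structure ChartData (g : ℕ) where
  /-- the centres on the special fibre -/
  Qb : Fin g → Place (ResidueField ↥A) ↥(modularFunctionFieldFullC (ResidueField ↥A) N)
  /-- the constants: the parameter on the `i`-th disc is `j - c i` -/
  c : Fin g → A
  /-- the zeros of the parameters -/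
  Q : Fin g → Place Kb ↥(modularFunctionFieldBar N)
  Qb_inj : Function.Injective Qb
  rigid : ∀ y : ↥(modularFunctionFieldFullC (ResidueField ↥A) N),
    y ∈ riemannRochSpace (∑ i, Finsupp.single (Qb i) (1 : ℤ)) →
      ∃ γ : ResidueField ↥A,
        y = algebraMap (ResidueField ↥A) ↥(modularFunctionFieldFullC (ResidueField ↥A) N) γ
  hc : ∀ i, ((c i : A) : Kb) ∈ WQ A
  good : ∀ i, IsGoodParam (redDatumX0 N A hA hℓN) (Tc N A hA hℓN (c i)) (Qb i)
  hQ : ∀ i, rX0 N A hA hℓN (Q i) = Qb i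
  zero : ∀ i, 0 < (Q i).ord ((Tc N A hA hℓN (c i) : ↥(redDatumX0 N A hA hℓN).O) :
    ↥(modularFunctionFieldBar N))

namespace ChartData

variable {N A hA hℓN} {g : ℕ} (d : ChartData N A hA hℓN g)

/-- the parameters -/
def T (i : Fin g) : ↥(redDatumX0 N A hA hℓN).O := Tc N A hA hℓN (d.c i)

/-- the parameters are fixed by the inertia group -/
theorem smul_T {σ : Kb ≃ₐ[ℚ] Kb} (hσ : σ ∈ A.inertiaSubgroupIn ℚ) (i : Fin g) :
    arithmeticGalois (modularFunctionFieldFull N) σ •
        ((d.T i : ↥(redDatumX0 N A hA hℓN).O) : ↥(modularFunctionFieldBar N))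
      = ((d.T i : ↥(redDatumX0 N A hA hℓN).O) : ↥(modularFunctionFieldBar N)) :=
  smul_Tc_of_fixed N A hA hℓN (inertia_fixed (d.hc i) hσ)

/-- the zeros of the parameters are fixed by the inertia group -/
theorem smul_Q {σ : Kb ≃ₐ[ℚ] Kb} (hσ : σ ∈ A.inertiaSubgroupIn ℚ) (i : Fin g) :
    arithmeticGalois (modularFunctionFieldFull N) σ • d.Q i = d.Q i :=
  smul_zero_of_mem_WQ N A hA hℓN (d.hc i) (d.good i) (d.hQ i) (d.zero i) hσ

theorem Q_inj : Function.Injective d.Q := fun i i' h =>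
  d.Qb_inj (by rw [← d.hQ i, ← d.hQ i', h])

theorem zero' (i : Fin g) :
    (d.Q i).adicValuation ((d.T i : ↥(redDatumX0 N A hA hℓN).O) :
      ↥(modularFunctionFieldBar N)) < 1 := by
  haveI := hasPrincipalDivisors_L N
  exact (ord_pos_iff (d.Q i) (d.good i).coe_ne_zero).mp (d.zero i)

end ChartData

/-- the decomposition group moves `j - c` to `j - σ c` -/
theorem mapO_Tc (γ : A.decompositionSubgroup ℚ) (c : A) :
    (symmX0 N A hA hℓN γ).mapO (Tc N A hA hℓN c)
      = Tc N A hA hℓN ((symmX0 N A hA hℓN γ).mapA c) := by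
  apply Subtype.ext
  rw [Symm.coe_mapO, symmX0_gL, smul_Tc, coe_Tc, coe_mapA_symmX0]

/-- **transport of chart data by the decomposition group** -/
def ChartData.smul {g : ℕ} (γ : A.decompositionSubgroup ℚ) (d : ChartData N A hA hℓN g) :
    ChartData N A hA hℓN g where
  Qb i := (symmX0 N A hA hℓN γ).gk • d.Qb i
  c i := (symmX0 N A hA hℓN γ).mapA (d.c i)
  Q i := (symmX0 N A hA hℓN γ).gL • d.Q i
  Qb_inj i i' h := d.Qb_inj (MulAction.injective _ h)
  rigid := rigid_smul _ d.Qb d.rigid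
  hc i := by
    rw [coe_mapA_symmX0]
    exact map_mem_WQ_of_mem_decomposition γ.2 (d.hc i)
  good i := by
    rw [← mapO_Tc]
    exact (symmX0 N A hA hℓN γ).isGoodParam_smul (d.good i)
  hQ i := by rw [(symmX0 N A hA hℓN γ).r_comm, d.hQ i]
  zero i := by
    rw [← mapO_Tc, Symm.coe_mapO]
    exact (symmX0 N A hA hℓN γ).ord_pos_smul (d.zero i)

theorem ChartData.smul_T_eq {g : ℕ} (γ : A.decompositionSubgroup ℚ)
    (d : ChartData N A hA hℓN g) (i : Fin g) :
    (d.smul N A hA hℓN γ).T i = (symmX0 N A hA hℓN γ).mapO (d.T i) :=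
  (mapO_Tc N A hA hℓN γ (d.c i)).symm

/-- **existence of chart data** off any finite set of places of the special fibre -/
theorem exists_chartData {g : ℕ}
    (hk : RiemannHyp (ResidueField ↥A) ↥(modularFunctionFieldFullC (ResidueField ↥A) N) g)
    (Bad : Set (Place (ResidueField ↥A) ↥(modularFunctionFieldFullC (ResidueField ↥A) N)))
    (hBad : Bad.Finite) :
    ∃ d : ChartData N A hA hℓN g, (∀ i, d.Qb i ∉ Bad) ∧ ∀ i, d.Qb i ∉ Bad0 N A hA hℓN := by
  obtain ⟨Qb, hinj, hoff, hrigid⟩ :=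
    rigidGeneric_of_riemannHyp hk le_rfl (Bad ∪ Bad0 N A hA hℓN)
      (hBad.union (finite_Bad0 N A hA hℓN))
  have h0 : ∀ i, Qb i ∉ Bad0 N A hA hℓN := fun i h => hoff i (Or.inr h)
  choose c P0 hcW hgood hP0 hz _ using fun i => exists_fixed_param N A hA hℓN (Qb i) (h0 i)
  exact ⟨⟨Qb, c, P0, hinj, hrigid, hcW, hgood, hP0, hz⟩, fun i h => hoff i (Or.inl h), h0⟩

/-- two disjoint chart data (the origin chart `(Qb, Q, T)` and the auxiliary family
`(Rb, Rp, v)` of the interpolation datum), off any finite set -/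
theorem exists_chartData_pair {g : ℕ}
    (hk : RiemannHyp (ResidueField ↥A) ↥(modularFunctionFieldFullC (ResidueField ↥A) N) g)
    (Bad : Set (Place (ResidueField ↥A) ↥(modularFunctionFieldFullC (ResidueField ↥A) N)))
    (hBad : Bad.Finite) :
    ∃ d d' : ChartData N A hA hℓN g, (∀ i, d.Qb i ∉ Bad) ∧ (∀ j, d'.Qb j ∉ Bad) ∧
      ∀ i j, d.Qb i ≠ d'.Qb j := by
  obtain ⟨d, hd, -⟩ := exists_chartData N A hA hℓN hk Bad hBad
  obtain ⟨d', hd', -⟩ := exists_chartData N A hA hℓN hk (Bad ∪ Set.range d.Qb)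
    (hBad.union (Set.finite_range _))
  exact ⟨d, d', hd, fun j h => hd' j (Or.inl h), fun i j h => hd' j (Or.inr ⟨i, h⟩)⟩

end Fermat.Agent.S19.ChartX0
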