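import Fermat.Agent.S19.Taylor

/-!
# S19 (scratch, helper18), seam (i'): the origin chart of the kernel of reduction

Abstract frame of `Fermat/Agent/S18/Core.lean`.  An `OriginChart R g` is a rigid reduced family
`Qb : Fin g → Place k Fk` on the special fibre with lifts `Q i`, and good parameters `T i` vanishing
at `Q i`.  Main results:

* `eq_of_principal_sub` : uniqueness of the effective representative with points in the discs of
  a rigid family (no semicontinuity lemma is used: the argument of `S18/Core.no_nontrivial`);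
* `J1` : the kernel of reduction, as an additive subgroup of `Pic0 L FL`;
* `exists_unique_pts` : every class of `J1` is `[∑ P i - ∑ Q i]` with `r (P i) = Qb i`, uniquely;
* `coord` : `J1 → (Fin g → A)`, with values in `𝔪_A`, bijective onto `Fin g → 𝔪_A`;
* `coord_eq_of_principal` : identification of `coord (z + z')` from a linear equivalence;
* `coord_fixed` : the coordinates of a class fixed by a symmetry of the whole situation are fixed.
-/

set_option autoImplicit false
set_option linter.unusedSectionVars false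
set_option linter.unusedVariables false

namespace Fermat.Agent.S19.Chart

open AlgebraicCurve Fermat.Agent.S24.Ord Fermat.Agent.S18.CoreDefs Fermat.Agent.S18.CoreOrd
  Fermat.Agent.S18.Disc Fermat.Agent.S18.Core Fermat.Agent.S19.Taylor

variable {L : Type*} [Field L] {FL : Type*} [Field FL] [Algebra L FL]
variable {k : Type*} [Field k] {Fk : Type*} [Field Fk] [Algebra k Fk]
variable {A : ValuationSubring L} {π : A →+* k} {r : Place L FL → Place k Fk}

/-! ### Uniqueness of the effective representative -/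

section Unique

variable [HasPrincipalDivisors L FL] [HasPrincipalDivisors k Fk]

/-- the sum of the places of a family determines the family, if the reductions are distinct -/
theorem eq_of_sum_single_eq {g : ℕ} (Qs : Fin g → Place k Fk) (hQs : Function.Injective Qs)
    (Ps Ps' : Fin g → Place L FL) (hPs : ∀ i, r (Ps i) = Qs i) (hPs' : ∀ i, r (Ps' i) = Qs i)
    (h : (∑ i, Finsupp.single (Ps i) (1 : ℤ)) = ∑ i, Finsupp.single (Ps' i) (1 : ℤ)) :
    Ps = Ps' := by
  classical
  funext i
  have hinj : Function.Injective Ps := fun a b hab => hQs (by rw [← hPs a, ← hPs b, hab])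
  have h1 : (∑ j, Finsupp.single (Ps' j) (1 : ℤ)) (Ps i) = 1 := by
    rw [← h]; exact sum_single_apply_of_injective Ps hinj i
  by_contra hne
  have h0 : (∑ j, Finsupp.single (Ps' j) (1 : ℤ)) (Ps i) = 0 := by
    refine sum_single_apply_of_notMem Ps' (Ps i) fun j hj => ?_
    have : j = i := hQs (by rw [← hPs' j, hj, hPs i])
    subst this
    exact hne hj.symm
  omega

/-- **Uniqueness of the effective representative.**  If `∑ Ps i - ∑ Ps' i` is principal and
`Ps i`, `Ps' i` both lie in the residue disc of `Qs i`, `Qs` a rigid reduced family, then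
`Ps = Ps'`. -/
theorem eq_of_principal_sub (R : RedDatum A π r) (hdegL : ∀ P : Place L FL, P.deg = 1)
    (hπ : Function.Surjective π) {g : ℕ} (Qs : Fin g → Place k Fk)
    (hQs : Function.Injective Qs)
    (hrigid : ∀ y : Fk, y ∈ riemannRochSpace (∑ i, Finsupp.single (Qs i) (1 : ℤ)) →
      ∃ c : k, y = algebraMap k Fk c)
    (Ps Ps' : Fin g → Place L FL) (hPs : ∀ i, r (Ps i) = Qs i) (hPs' : ∀ i, r (Ps' i) = Qs i)
    (Pstar : Place L FL) (hstar : ∀ i, Qs i ≠ r Pstar)
    (hprin : (∑ i, Finsupp.single (Ps i) (1 : ℤ)) - (∑ i, Finsupp.single (Ps' i) (1 : ℤ)) ∈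
      Divisor.principal (K := L) (F := FL)) : Ps = Ps' := by
  classical
  set D' : Divisor L FL :=
    (∑ i, Finsupp.single (Ps i) (1 : ℤ)) - (∑ i, Finsupp.single (Ps' i) (1 : ℤ)) with hD'
  have hD'apply : ∀ P : Place L FL, D' P =
      (∑ i, Finsupp.single (Ps i) (1 : ℤ)) P - (∑ i, Finsupp.single (Ps' i) (1 : ℤ)) P := by
    intro P; rw [hD', Finsupp.sub_apply]
  have hD'r : Finsupp.mapDomain r D' = 0 := by
    rw [hD', Finsupp.mapDomain_sub, mapDomain_sum_single Ps Qs hPs,
      mapDomain_sum_single Ps' Qs hPs', sub_self]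
  obtain ⟨f0, hf0, hf0D⟩ := Divisor.mem_principal.mp hprin
  have hstar' : ∀ P : Place L FL, r P = r Pstar → D' P = 0 := by
    intro P hP
    rw [hD'apply, sum_single_apply_off Qs Ps hPs P (by rw [hP]; exact hstar),
      sum_single_apply_off Qs Ps' hPs' P (by rw [hP]; exact hstar), sub_zero]
  obtain ⟨f, hfred, hford, hf⟩ := normalize R hdegL hπ Qs hrigid 1 D' hD'r f0 hf0
    (fun P => by rw [← hf0D P]; simp) Pstar hstar'
  have hford' : ∀ P : Place L FL, P.ord (((f : R.O) : FL)) = D' P := by
    intro P; rw [hford P]; simp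
  rcases hf with hf | hf
  · -- `f = 1`: `D' = 0`
    have hD'0 : D' = 0 := by
      ext P
      rw [← hford' P, hf, Place.ord_one, Finsupp.zero_apply]
    exact eq_of_sum_single_eq Qs hQs Ps Ps' hPs hPs' (sub_eq_zero.mp hD'0)
  · -- `f ≠ 1`: contradiction
    exfalso
    have hf1ne : (((f : R.O) : FL)) - 1 ≠ 0 := by
      intro h0
      rw [h0, Place.ord_zero] at hf
      exact lt_irrefl _ hf
    obtain ⟨c0, hc0, w, hw⟩ := R.exists_const_mul_unit _ hf1ne
    have hordw : ∀ P : Place L FL, P.ord (((w : R.O) : FL)) = P.ord ((((f : R.O) : FL)) - 1) := by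
      intro P; rw [hw, ord_const_mul P hc0]
    -- lower bound for the order of `w` at any place
    have hlow : ∀ P : Place L FL,
        -(∑ i, Finsupp.single (Ps' i) (1 : ℤ)) P ≤ P.ord (((w : R.O) : FL)) := by
      intro P
      rw [hordw]
      have h1 := min_le_ord_sub P (f := ((f : R.O) : FL)) (g := 1) hf1ne
      rw [Place.ord_one, hford' P, hD'apply] at h1
      have h2 := sum_single_nonneg Ps P
      have h3 := sum_single_nonneg Ps' P
      rcases min_le_iff.mp h1 with h | h <;> omega
    have hoff : ∀ Q : Place k Fk, (∀ i, Qs i ≠ Q) → ∀ P : Place L FL, r P = Q →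
        0 ≤ P.ord (((w : R.O) : FL)) := by
      intro Q hQ P hP
      have := hlow P
      rw [sum_single_apply_off Qs Ps' hPs' P (by rw [hP]; exact hQ)] at this
      omega
    have hwne : R.red (w : R.O) ≠ 0 := red_unit_ne_zero R w
    have hwL : R.red (w : R.O) ∈ riemannRochSpace (∑ i, Finsupp.single (Qs i) (1 : ℤ)) := by
      rw [mem_riemannRochSpace_iff]
      intro Q
      right
      by_cases hQ : ∃ i, Qs i = Q
      · obtain ⟨i, rfl⟩ := hQ
        rw [sum_single_apply_of_injective Qs hQs]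
        obtain ⟨s, hs, hs', hsum⟩ := exists_ord_red_eq_sum R (w : R.O) hwne (Qs i)
        rw [hsum]
        -- every term is `≥ -[P = Ps' i]`
        have hterm : ∀ P ∈ s, -(if P = Ps' i then (1 : ℤ) else 0) ≤ P.ord (((w : R.O) : FL)) := by
          intro P hP
          have := hlow P
          rw [sum_single_apply_disc Qs hQs Ps' hPs' i P (hs P hP), Finsupp.single_apply] at this
          by_cases h : P = Ps' i
          · rw [if_pos h]; rw [if_pos h.symm] at this; exact this
          · rw [if_neg h]; rw [if_neg (fun h' => h h'.symm)] at this; exact this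
        have hsum2 : ∑ P ∈ s, -(if P = Ps' i then (1 : ℤ) else 0) ≤
            ∑ P ∈ s, P.ord (((w : R.O) : FL)) := Finset.sum_le_sum hterm
        have hsum3 : (-1 : ℤ) ≤ ∑ P ∈ s, -(if P = Ps' i then (1 : ℤ) else 0) := by
          rw [Finset.sum_neg_distrib, Finset.sum_ite_eq']
          split_ifs <;> norm_num
        omega
      · push Not at hQ
        rw [sum_single_apply_of_notMem Qs Q hQ, neg_zero]
        exact Fermat.Agent.S18.CoreOrd.ord_red_nonneg R w Q (hoff Q hQ)
    obtain ⟨γ, hγ⟩ := hrigid _ hwL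
    have h1 := le_ord_red R w (r Pstar) (hoff (r Pstar) hstar) Pstar rfl
    rw [hγ, ord_algebraMap, hordw] at h1
    omega

end Unique

/-! ### The kernel of reduction -/

section Kernel

/-- the degree-zero divisor `∑ P i - ∑ P' i` -/
noncomputable def diffDiv (hdegL : ∀ P : Place L FL, P.deg = 1) {g : ℕ}
    (P P' : Fin g → Place L FL) : Divisor.degZero (K := L) (F := FL) :=
  ⟨(∑ i, Finsupp.single (P i) (1 : ℤ)) - ∑ i, Finsupp.single (P' i) (1 : ℤ), by
    rw [Divisor.mem_degZero, map_sub, degree_sum_single hdegL, degree_sum_single hdegL,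
      sub_self]⟩

theorem coe_diffDiv (hdegL : ∀ P : Place L FL, P.deg = 1) {g : ℕ}
    (P P' : Fin g → Place L FL) : ((diffDiv hdegL P P' : Divisor.degZero (K := L) (F := FL)) :
      Divisor L FL) = (∑ i, Finsupp.single (P i) (1 : ℤ)) - ∑ i, Finsupp.single (P' i) (1 : ℤ) :=
  rfl

/-- two degree-zero divisors have the same class iff their difference is principal -/
theorem mk_eq_mk_iff (D E : Divisor.degZero (K := L) (F := FL)) :
    Pic0.mk D = Pic0.mk E ↔
      (D : Divisor L FL) - (E : Divisor L FL) ∈ Divisor.principal (K := L) (F := FL) := by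
  unfold Pic0.mk
  rw [QuotientAddGroup.eq, AddSubgroup.mem_addSubgroupOf]
  have h : ((-D + E : Divisor.degZero (K := L) (F := FL)) : Divisor L FL) =
      -((D : Divisor L FL) - (E : Divisor L FL)) := by
    push_cast; abel
  rw [h, neg_mem_iff]

/-- **The kernel of reduction**: classes of degree zero having a representative with principal
reduction. -/
def J1 (r : Place L FL → Place k Fk) : AddSubgroup (Pic0 L FL) where
  carrier := {z | ∃ D : Divisor.degZero (K := L) (F := FL), Pic0.mk D = z ∧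
    Finsupp.mapDomain r (D : Divisor L FL) ∈ Divisor.principal (K := k) (F := Fk)}
  zero_mem' := ⟨0, rfl, by
    rw [ZeroMemClass.coe_zero, Finsupp.mapDomain_zero]; exact zero_mem _⟩
  add_mem' := by
    rintro _ _ ⟨D, rfl, hD⟩ ⟨E, rfl, hE⟩
    exact ⟨D + E, rfl, by rw [AddSubgroup.coe_add, Finsupp.mapDomain_add]; exact add_mem hD hE⟩
  neg_mem' := by
    rintro _ ⟨D, rfl, hD⟩
    refine ⟨-D, rfl, ?_⟩
    have h : Finsupp.mapDomain r (-(D : Divisor L FL)) = -Finsupp.mapDomain r (D : Divisor L FL) :=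
      map_neg (Finsupp.mapDomain.addMonoidHom (M := ℤ) r) _
    rw [AddSubgroup.coe_neg, h]
    exact neg_mem hD

theorem mem_J1_iff {z : Pic0 L FL} : z ∈ J1 r ↔
    ∃ D : Divisor.degZero (K := L) (F := FL), Pic0.mk D = z ∧
      Finsupp.mapDomain r (D : Divisor L FL) ∈ Divisor.principal (K := k) (F := Fk) := Iff.rfl

/-- the push-forward of a principal divisor is principal (`S18/Core.mapDomain_principal`) -/
theorem mapDomain_mem_principal (R : RedDatum A π r) {D : Divisor L FL}
    (hD : D ∈ Divisor.principal (K := L) (F := FL)) :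
    Finsupp.mapDomain r D ∈ Divisor.principal (K := k) (F := Fk) := by
  obtain ⟨f, hf, hfD⟩ := Divisor.mem_principal.mp hD
  obtain ⟨φ, hφ, hφD⟩ := mapDomain_principal R hf D hfD
  exact Divisor.mem_principal.mpr ⟨φ, hφ, hφD⟩

/-- membership in `J1` can be tested on any representative -/
theorem mk_mem_J1_iff (R : RedDatum A π r) (D : Divisor.degZero (K := L) (F := FL)) :
    Pic0.mk D ∈ J1 r ↔
      Finsupp.mapDomain r (D : Divisor L FL) ∈ Divisor.principal (K := k) (F := Fk) := by
  constructor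
  · rintro ⟨D', hD', hp⟩
    have h1 := (mk_eq_mk_iff D D').mp hD'.symm
    have h2 := mapDomain_mem_principal R h1
    rw [Finsupp.mapDomain_sub] at h2
    have := add_mem h2 hp
    rwa [sub_add_cancel] at this
  · intro h
    exact ⟨D, rfl, h⟩

end Kernel

/-! ### Origin charts -/

section ChartDef

variable [HasPrincipalDivisors L FL]

/-- **An origin chart**: a rigid reduced family `Qb` on the special fibre, lifts `Q i` and good
parameters `T i` on the disc of `Qb i` vanishing at `Q i`. -/
structure OriginChart (R : RedDatum A π r) (g : ℕ) where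
  /-- the centres on the special fibre -/
  Qb : Fin g → Place k Fk
  Qb_inj : Function.Injective Qb
  rigid : ∀ y : Fk, y ∈ riemannRochSpace (∑ i, Finsupp.single (Qb i) (1 : ℤ)) →
    ∃ c : k, y = algebraMap k Fk c
  /-- the base points -/
  Q : Fin g → Place L FL
  hQ : ∀ i, r (Q i) = Qb i
  /-- the parameters -/
  T : Fin g → R.O
  hT : ∀ i, IsGoodParam R (T i) (Qb i)
  hT0 : ∀ i, 0 < (Q i).ord ((T i : R.O) : FL)

namespace OriginChart

variable {R : RedDatum A π r} {g : ℕ} (C : OriginChart R g)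

/-- the `i`-th disc of the chart with its parameter -/
noncomputable def disc (hdegL : ∀ P : Place L FL, P.deg = 1) (i : Fin g) : DiscParam R where
  Q := C.Qb i
  T := C.T i
  good := C.hT i
  P0 := C.Q i
  hP0 := C.hQ i
  deg_one := hdegL _
  zero := adicValuation_lt_one_of_ord_pos _ (C.hT0 i)

@[simp] theorem disc_Q (hdegL : ∀ P : Place L FL, P.deg = 1) (i : Fin g) :
    (C.disc hdegL i).Q = C.Qb i := rfl

@[simp] theorem disc_T (hdegL : ∀ P : Place L FL, P.deg = 1) (i : Fin g) :
    (C.disc hdegL i).T = C.T i := rfl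

@[simp] theorem disc_P0 (hdegL : ∀ P : Place L FL, P.deg = 1) (i : Fin g) :
    (C.disc hdegL i).P0 = C.Q i := rfl

/-- the class `[∑ P i - ∑ Q i]` -/
noncomputable def cls (hdegL : ∀ P : Place L FL, P.deg = 1) (P : Fin g → Place L FL) :
    Pic0 L FL := Pic0.mk (diffDiv hdegL P C.Q)

theorem cls_eq_iff (hdegL : ∀ P : Place L FL, P.deg = 1) (P P' : Fin g → Place L FL) :
    C.cls hdegL P = C.cls hdegL P' ↔
      (∑ i, Finsupp.single (P i) (1 : ℤ)) - (∑ i, Finsupp.single (P' i) (1 : ℤ)) ∈
        Divisor.principal (K := L) (F := FL) := by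
  unfold cls
  rw [mk_eq_mk_iff, coe_diffDiv, coe_diffDiv, sub_sub_sub_cancel_right]

theorem cls_Q (hdegL : ∀ P : Place L FL, P.deg = 1) : C.cls hdegL C.Q = 0 := by
  unfold cls
  have : diffDiv hdegL C.Q C.Q = 0 := Subtype.ext (by rw [coe_diffDiv, sub_self]; rfl)
  rw [this]; rfl

/-- `[∑ P i - ∑ Q i]` lies in the kernel of reduction if the `P i` lie in the discs -/
theorem cls_mem_J1 (hdegL : ∀ P : Place L FL, P.deg = 1) (P : Fin g → Place L FL)
    (hP : ∀ i, r (P i) = C.Qb i) : C.cls hdegL P ∈ J1 r := by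
  refine ⟨diffDiv hdegL P C.Q, rfl, ?_⟩
  rw [coe_diffDiv, Finsupp.mapDomain_sub, mapDomain_sum_single P C.Qb hP,
    mapDomain_sum_single C.Q C.Qb C.hQ, sub_self]
  exact zero_mem _

/-- **Existence of the points** of a class of the kernel of reduction. -/
theorem exists_pts (hdegL : ∀ P : Place L FL, P.deg = 1) (hR : RiemannGe L FL g)
    (z : Pic0 L FL) (hz : z ∈ J1 r) :
    ∃ P : Fin g → Place L FL, (∀ i, r (P i) = C.Qb i) ∧ z = C.cls hdegL P := by
  obtain ⟨D, rfl, hD⟩ := hz
  obtain ⟨P, y, hP, hy, hyD⟩ := effective_lift R hdegL hR C.Qb C.Qb_inj C.rigid C.Q C.hQ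
    (D : Divisor L FL) (Divisor.mem_degZero.mp D.2) hD
  refine ⟨P, hP, ?_⟩
  unfold cls
  rw [mk_eq_mk_iff, ← neg_mem_iff]
  refine Divisor.mem_principal.mpr ⟨y, hy, fun Q => ?_⟩
  rw [Finsupp.neg_apply, Finsupp.sub_apply, coe_diffDiv, Finsupp.sub_apply]
  have := hyD Q
  omega

/-- **Uniqueness of the points.** -/
theorem pts_unique [HasPrincipalDivisors k Fk] (hdegL : ∀ P : Place L FL, P.deg = 1)
    (hπ : Function.Surjective π) (hoff : ∃ Pstar : Place L FL, ∀ i, C.Qb i ≠ r Pstar)
    {P P' : Fin g → Place L FL} (hP : ∀ i, r (P i) = C.Qb i) (hP' : ∀ i, r (P' i) = C.Qb i)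
    (h : C.cls hdegL P = C.cls hdegL P') : P = P' := by
  obtain ⟨Pstar, hstar⟩ := hoff
  exact eq_of_principal_sub R hdegL hπ C.Qb C.Qb_inj C.rigid P P' hP hP' Pstar hstar
    ((C.cls_eq_iff hdegL P P').mp h)

/-- the points of a class of the kernel of reduction -/
noncomputable def pts (hdegL : ∀ P : Place L FL, P.deg = 1) (hR : RiemannGe L FL g)
    (z : J1 r) : Fin g → Place L FL := (C.exists_pts hdegL hR z.1 z.2).choose

theorem r_pts (hdegL : ∀ P : Place L FL, P.deg = 1) (hR : RiemannGe L FL g) (z : J1 r)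
    (i : Fin g) : r (C.pts hdegL hR z i) = C.Qb i :=
  (C.exists_pts hdegL hR z.1 z.2).choose_spec.1 i

theorem cls_pts (hdegL : ∀ P : Place L FL, P.deg = 1) (hR : RiemannGe L FL g) (z : J1 r) :
    C.cls hdegL (C.pts hdegL hR z) = (z : Pic0 L FL) :=
  (C.exists_pts hdegL hR z.1 z.2).choose_spec.2.symm

/-- characterisation of the points -/
theorem pts_eq [HasPrincipalDivisors k Fk] (hdegL : ∀ P : Place L FL, P.deg = 1)
    (hπ : Function.Surjective π) (hR : RiemannGe L FL g)
    (hoff : ∃ Pstar : Place L FL, ∀ i, C.Qb i ≠ r Pstar) (z : J1 r)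
    {P : Fin g → Place L FL} (hP : ∀ i, r (P i) = C.Qb i) (h : C.cls hdegL P = (z : Pic0 L FL)) :
    C.pts hdegL hR z = P :=
  C.pts_unique hdegL hπ hoff (C.r_pts hdegL hR z) hP (by rw [C.cls_pts hdegL hR z, h])

/-! ### Coordinates -/

/-- **The coordinates** of a class of the kernel of reduction: the values of the parameters at
its points. -/
noncomputable def coord (hdegL : ∀ P : Place L FL, P.deg = 1) (hR : RiemannGe L FL g)
    (z : J1 r) (i : Fin g) : A :=
  (C.disc hdegL i).valueAt (C.pts hdegL hR z i) (C.r_pts hdegL hR z i) (hdegL _)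

theorem coord_mem (hdegL : ∀ P : Place L FL, P.deg = 1) (hR : RiemannGe L FL g)
    (z : J1 r) (i : Fin g) : C.coord hdegL hR z i ∈ IsLocalRing.maximalIdeal A :=
  (C.disc hdegL i).valueAt_mem _ _ _

theorem valAt_coord (hdegL : ∀ P : Place L FL, P.deg = 1) (hR : RiemannGe L FL g)
    (z : J1 r) (i : Fin g) :
    ValAt (C.pts hdegL hR z i) ((C.T i : R.O) : FL) ((C.coord hdegL hR z i : A) : L) :=
  (C.disc hdegL i).valAt_valueAt _ _ _

/-- characterisation of the coordinates: if `z = [∑ P i - ∑ Q i]` with `P i` in the discs and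
`T i (P i) = x i`, then `coord z = x` -/
theorem coord_eq [HasPrincipalDivisors k Fk] (hdegL : ∀ P : Place L FL, P.deg = 1)
    (hπ : Function.Surjective π) (hR : RiemannGe L FL g)
    (hoff : ∃ Pstar : Place L FL, ∀ i, C.Qb i ≠ r Pstar) (z : J1 r)
    {P : Fin g → Place L FL} (hP : ∀ i, r (P i) = C.Qb i) (h : C.cls hdegL P = (z : Pic0 L FL))
    {x : Fin g → A} (hx : ∀ i, ValAt (P i) ((C.T i : R.O) : FL) ((x i : A) : L)) :
    C.coord hdegL hR z = x := by
  funext i
  have h1 := C.valAt_coord hdegL hR z i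
  rw [C.pts_eq hdegL hπ hR hoff z hP h] at h1
  exact Subtype.ext (h1.unique (hx i))

/-- the chart is injective -/
theorem coord_injective (hdegL : ∀ P : Place L FL, P.deg = 1) (hR : RiemannGe L FL g) :
    Function.Injective (C.coord hdegL hR) := by
  intro z z' h
  have hpts : C.pts hdegL hR z = C.pts hdegL hR z' := by
    funext i
    have h1 := C.valAt_coord hdegL hR z i
    have h2 := C.valAt_coord hdegL hR z' i
    rw [← h] at h2
    exact ((C.disc hdegL i).eq_of_valAt (C.r_pts hdegL hR z i) (C.r_pts hdegL hR z' i)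
      (C.coord_mem hdegL hR z i) h1 h2).symm
  apply Subtype.ext
  rw [← C.cls_pts hdegL hR z, ← C.cls_pts hdegL hR z', hpts]

/-- the chart is onto `𝔪_A ^ g` -/
theorem coord_surjective [HasPrincipalDivisors k Fk] (hdegL : ∀ P : Place L FL, P.deg = 1)
    (hπ : Function.Surjective π) (hR : RiemannGe L FL g)
    (hoff : ∃ Pstar : Place L FL, ∀ i, C.Qb i ≠ r Pstar) (x : Fin g → A)
    (hx : ∀ i, x i ∈ IsLocalRing.maximalIdeal A) : ∃ z : J1 r, C.coord hdegL hR z = x := by
  have h := fun i => (C.disc hdegL i).exists_place_of_mem (x i) (hx i)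
  choose P hP hPx using h
  exact ⟨⟨C.cls hdegL P, C.cls_mem_J1 hdegL P hP⟩,
    C.coord_eq hdegL hπ hR hoff _ hP rfl hPx⟩

/-- the origin has coordinates `0` -/
theorem coord_zero [HasPrincipalDivisors k Fk] (hdegL : ∀ P : Place L FL, P.deg = 1)
    (hπ : Function.Surjective π) (hR : RiemannGe L FL g)
    (hoff : ∃ Pstar : Place L FL, ∀ i, C.Qb i ≠ r Pstar) :
    C.coord hdegL hR 0 = 0 := by
  refine C.coord_eq hdegL hπ hR hoff 0 C.hQ (C.cls_Q hdegL) (x := 0) fun i => ?_
  have := (C.disc hdegL i).valAt_P0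
  simpa using this

/-- the class of `z + z'` from a linear equivalence -/
theorem cls_add (hdegL : ∀ P : Place L FL, P.deg = 1) (P P' P'' : Fin g → Place L FL)
    (h : (∑ i, Finsupp.single (P'' i) (1 : ℤ)) + (∑ i, Finsupp.single (C.Q i) (1 : ℤ)) -
        (∑ i, Finsupp.single (P i) (1 : ℤ)) - (∑ i, Finsupp.single (P' i) (1 : ℤ)) ∈
      Divisor.principal (K := L) (F := FL)) :
    C.cls hdegL P + C.cls hdegL P' = C.cls hdegL P'' := by
  unfold cls
  rw [← Pic0.mk_add, eq_comm, mk_eq_mk_iff]
  have : ((diffDiv hdegL P'' C.Q : Divisor.degZero (K := L) (F := FL)) : Divisor L FL) -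
      ((diffDiv hdegL P C.Q + diffDiv hdegL P' C.Q : Divisor.degZero (K := L) (F := FL)) :
        Divisor L FL) =
      (∑ i, Finsupp.single (P'' i) (1 : ℤ)) + (∑ i, Finsupp.single (C.Q i) (1 : ℤ)) -
        (∑ i, Finsupp.single (P i) (1 : ℤ)) - (∑ i, Finsupp.single (P' i) (1 : ℤ)) := by
    rw [AddSubgroup.coe_add, coe_diffDiv, coe_diffDiv, coe_diffDiv]; abel
  rw [this]; exact h

/-- **Identification of `coord (z + z')`** from a linear equivalence
`∑ P'' + ∑ Q ∼ ∑ P(z) + ∑ P(z')` with `P'' i` in the discs. -/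
theorem coord_add_eq [HasPrincipalDivisors k Fk] (hdegL : ∀ P : Place L FL, P.deg = 1)
    (hπ : Function.Surjective π) (hR : RiemannGe L FL g)
    (hoff : ∃ Pstar : Place L FL, ∀ i, C.Qb i ≠ r Pstar) (z z' : J1 r)
    {P'' : Fin g → Place L FL} (hP'' : ∀ i, r (P'' i) = C.Qb i)
    {x'' : Fin g → A} (hx'' : ∀ i, ValAt (P'' i) ((C.T i : R.O) : FL) ((x'' i : A) : L))
    (h : (∑ i, Finsupp.single (P'' i) (1 : ℤ)) + (∑ i, Finsupp.single (C.Q i) (1 : ℤ)) -
        (∑ i, Finsupp.single (C.pts hdegL hR z i) (1 : ℤ)) -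
        (∑ i, Finsupp.single (C.pts hdegL hR z' i) (1 : ℤ)) ∈
      Divisor.principal (K := L) (F := FL)) :
    C.coord hdegL hR (z + z') = x'' := by
  refine C.coord_eq hdegL hπ hR hoff (z + z') hP'' ?_ hx''
  rw [← C.cls_add hdegL _ _ _ h, C.cls_pts, C.cls_pts, AddSubgroup.coe_add]

end OriginChart

end ChartDef

/-! ### Symmetries -/

section Symm

/-- a ring endomorphism of `FL` transporting orders from `P` to `P'` transports valuations -/
theorem adicValuation_map_of_ord {P P' : Place L FL} (sF : FL →+* FL)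
    (hord : ∀ z : FL, P'.ord (sF z) = P.ord z) (z : FL) :
    P'.adicValuation (sF z) = P.adicValuation z := by
  rcases eq_or_ne z 0 with rfl | hz
  · rw [map_zero, map_zero, map_zero]
  · have hz' : sF z ≠ 0 := (map_ne_zero sF).mpr hz
    have h := hord z
    unfold Place.ord at h
    have h1 : WithZero.log (P'.adicValuation (sF z)) = WithZero.log (P.adicValuation z) :=
      neg_injective h
    rw [← WithZero.exp_log (P'.adicValuation_ne_zero hz'), h1,
      WithZero.exp_log (P.adicValuation_ne_zero hz)]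

/-- transport of values along a symmetry -/
theorem valAt_map {P P' : Place L FL} (sL : L →+* L) (sF : FL →+* FL)
    (hcomp : ∀ c : L, sF (algebraMap L FL c) = algebraMap L FL (sL c))
    (hval : ∀ z : FL, P'.adicValuation (sF z) = P.adicValuation z) {y : FL} {c : L}
    (h : ValAt P y c) : ValAt P' (sF y) (sL c) := by
  unfold ValAt at *
  rw [← hcomp, ← map_sub, hval]
  exact h

theorem degree_eq_zero_of_mem_principal [HasPrincipalDivisors L FL] {D : Divisor L FL}
    (hD : D ∈ Divisor.principal (K := L) (F := FL)) : Divisor.degree D = 0 := by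
  obtain ⟨f, hf, hfD⟩ := Divisor.mem_principal.mp hD
  obtain ⟨D0, hD0, hdeg⟩ := HasPrincipalDivisors.exists_divisor (K := L) f hf
  have : D = D0 := Finsupp.ext fun v => by rw [hfD, hD0]
  rw [this]; exact hdeg

namespace OriginChart

variable [HasPrincipalDivisors L FL] [HasPrincipalDivisors k Fk] {R : RedDatum A π r} {g : ℕ}

/-- **Equivariance of the coordinates**, point form: a symmetry `(sL, sF, sP)` of the generic
fibre carrying the parameters of the chart `C` to those of the chart `C'`, and the points of `z`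
to points in the discs of `C'` representing `z'`, carries `coord_C z` to `coord_C' z'`. -/
theorem coord_map_pts (C C' : OriginChart R g) (hdegL : ∀ P : Place L FL, P.deg = 1)
    (hπ : Function.Surjective π) (hR : RiemannGe L FL g)
    (hoff' : ∃ Pstar : Place L FL, ∀ i, C'.Qb i ≠ r Pstar)
    (sL : L →+* L) (sF : FL →+* FL) (sP : Place L FL → Place L FL)
    (hcomp : ∀ c : L, sF (algebraMap L FL c) = algebraMap L FL (sL c))
    (hord : ∀ (P : Place L FL) (y : FL), (sP P).ord (sF y) = P.ord y)
    (hT : ∀ i, ((C'.T i : R.O) : FL) = sF ((C.T i : R.O) : FL))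
    (z z' : J1 r)
    (hdisc : ∀ i, r (sP (C.pts hdegL hR z i)) = C'.Qb i)
    (hzz' : C'.cls hdegL (fun i => sP (C.pts hdegL hR z i)) = (z' : Pic0 L FL)) (i : Fin g) :
    ((C'.coord hdegL hR z' i : A) : L) = sL ((C.coord hdegL hR z i : A) : L) := by
  have h1 : ∀ j, ValAt (sP (C.pts hdegL hR z j)) ((C'.T j : R.O) : FL)
      (sL ((C.coord hdegL hR z j : A) : L)) := by
    intro j
    rw [hT j]
    exact valAt_map sL sF hcomp (adicValuation_map_of_ord sF (hord _)) (C.valAt_coord hdegL hR z j)
  have h2 : ∀ j, sL ((C.coord hdegL hR z j : A) : L) ∈ A := fun j =>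
    (valAt_param_mem R (C'.hT j) _ (hdisc j) (h1 j)).1
  have h3 := C'.coord_eq hdegL hπ hR hoff' z' hdisc hzz'
    (x := fun j => ⟨sL ((C.coord hdegL hR z j : A) : L), h2 j⟩) h1
  rw [h3]

/-- **Equivariance of the coordinates**, divisor form.  `sPk` is the induced map on the places of
the special fibre; `z'` is the image of `z` under the symmetry, in the sense that `z = [D]` and
`z' = [sP_* D]`. -/
theorem coord_map (C C' : OriginChart R g) (hdegL : ∀ P : Place L FL, P.deg = 1)
    (hπ : Function.Surjective π) (hR : RiemannGe L FL g)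
    (hoff' : ∃ Pstar : Place L FL, ∀ i, C'.Qb i ≠ r Pstar)
    (sL : L →+* L) (sF : FL →+* FL) (sP : Place L FL → Place L FL)
    (sPk : Place k Fk → Place k Fk)
    (hcomp : ∀ c : L, sF (algebraMap L FL c) = algebraMap L FL (sL c))
    (hord : ∀ (P : Place L FL) (y : FL), (sP P).ord (sF y) = P.ord y)
    (hr : ∀ P : Place L FL, r (sP P) = sPk (r P))
    (hprin : ∀ D : Divisor L FL, D ∈ Divisor.principal (K := L) (F := FL) →
      Finsupp.mapDomain sP D ∈ Divisor.principal (K := L) (F := FL))
    (hQb : ∀ i, C'.Qb i = sPk (C.Qb i)) (hQ : ∀ i, C'.Q i = sP (C.Q i))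
    (hT : ∀ i, ((C'.T i : R.O) : FL) = sF ((C.T i : R.O) : FL))
    (z z' : J1 r) (D D' : Divisor.degZero (K := L) (F := FL))
    (hD : Pic0.mk D = (z : Pic0 L FL)) (hD' : Pic0.mk D' = (z' : Pic0 L FL))
    (hDD' : (D' : Divisor L FL) = Finsupp.mapDomain sP (D : Divisor L FL)) (i : Fin g) :
    ((C'.coord hdegL hR z' i : A) : L) = sL ((C.coord hdegL hR z i : A) : L) := by
  refine coord_map_pts C C' hdegL hπ hR hoff' sL sF sP hcomp hord hT z z' (fun j => ?_) ?_ i
  · rw [hr, C.r_pts hdegL hR z j, hQb]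
  · rw [← hD']
    unfold cls
    rw [mk_eq_mk_iff, coe_diffDiv, hDD']
    have h1 : ((diffDiv hdegL (C.pts hdegL hR z) C.Q : Divisor.degZero (K := L) (F := FL)) :
        Divisor L FL) - (D : Divisor L FL) ∈ Divisor.principal (K := L) (F := FL) := by
      rw [← mk_eq_mk_iff, hD]
      exact C.cls_pts hdegL hR z
    have h2 := hprin _ h1
    rw [coe_diffDiv, Finsupp.mapDomain_sub, Finsupp.mapDomain_sub,
      mapDomain_sum_single (r := sP) (C.pts hdegL hR z) (fun j => sP (C.pts hdegL hR z j))
        (fun _ => rfl),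
      mapDomain_sum_single (r := sP) C.Q C'.Q (fun j => (hQ j).symm)] at h2
    exact h2

/-- **Rationality of the coordinates**: a class fixed by a symmetry `(sL, sF, sP)` which fixes the
chart (`sP` commutes with the reduction of places, fixes the base points, `sF` fixes the
parameters) has coordinates fixed by `sL`. -/
theorem coord_fixed (C : OriginChart R g) (hdegL : ∀ P : Place L FL, P.deg = 1)
    (hπ : Function.Surjective π) (hR : RiemannGe L FL g)
    (hoff : ∃ Pstar : Place L FL, ∀ i, C.Qb i ≠ r Pstar)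
    (sL : L →+* L) (sF : FL →+* FL) (sP : Place L FL → Place L FL)
    (hcomp : ∀ c : L, sF (algebraMap L FL c) = algebraMap L FL (sL c))
    (hord : ∀ (P : Place L FL) (y : FL), (sP P).ord (sF y) = P.ord y)
    (hr : ∀ P : Place L FL, r (sP P) = r P)
    (hprin : ∀ D : Divisor L FL, D ∈ Divisor.principal (K := L) (F := FL) →
      Finsupp.mapDomain sP D ∈ Divisor.principal (K := L) (F := FL))
    (hQ : ∀ i, sP (C.Q i) = C.Q i)
    (hT : ∀ i, sF ((C.T i : R.O) : FL) = ((C.T i : R.O) : FL))
    (z : J1 r) (D : Divisor.degZero (K := L) (F := FL)) (hD : Pic0.mk D = (z : Pic0 L FL))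
    (hfix : Finsupp.mapDomain sP (D : Divisor L FL) - (D : Divisor L FL) ∈
      Divisor.principal (K := L) (F := FL)) (i : Fin g) :
    sL ((C.coord hdegL hR z i : A) : L) = ((C.coord hdegL hR z i : A) : L) := by
  have hdeg : Finsupp.mapDomain sP (D : Divisor L FL) ∈ Divisor.degZero (K := L) (F := FL) := by
    have h1 := degree_eq_zero_of_mem_principal hfix
    rw [map_sub, Divisor.mem_degZero.mp D.2, sub_zero] at h1
    exact Divisor.mem_degZero.mpr h1
  have hD' : Pic0.mk (⟨Finsupp.mapDomain sP (D : Divisor L FL), hdeg⟩ :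
      Divisor.degZero (K := L) (F := FL)) = (z : Pic0 L FL) := by
    rw [← hD, mk_eq_mk_iff]
    exact hfix
  exact (coord_map C C hdegL hπ hR hoff sL sF sP id hcomp hord hr hprin (fun _ => rfl)
    (fun j => (hQ j).symm) (fun j => (hT j).symm) z z D _ hD hD' rfl i).symm

/-- **The addition law in coordinates**, wrapper: the literal conclusion of the geometric lemma
(`exists_add_congr`, applied to the points and the coordinates of `z`, `z'`) identifies its output
`x''` with `coord (z + z')`.  `Φ` is an arbitrary property of `(x'', c)`. -/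
theorem coord_add_of_exists (C : OriginChart R g) (hdegL : ∀ P : Place L FL, P.deg = 1)
    (hπ : Function.Surjective π) (hR : RiemannGe L FL g)
    (hoff : ∃ Pstar : Place L FL, ∀ i, C.Qb i ≠ r Pstar) (z z' : J1 r)
    {Φ : (Fin g → A) → A → Prop}
    (h : ∃ (P'' : Fin g → Place L FL) (x'' : Fin g → A) (c : A),
      c ∈ IsLocalRing.maximalIdeal A ∧ (∀ i, r (P'' i) = C.Qb i) ∧
      (∀ i, ValAt (P'' i) ((C.T i : R.O) : FL) ((x'' i : A) : L)) ∧
      (∀ i, C.coord hdegL hR z i ∈ Ideal.span {c} ∧ C.coord hdegL hR z' i ∈ Ideal.span {c} ∧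
        x'' i ∈ Ideal.span {c}) ∧
      ((∑ i, Finsupp.single (P'' i) (1 : ℤ)) + (∑ i, Finsupp.single (C.Q i) (1 : ℤ)) -
        (∑ i, Finsupp.single (C.pts hdegL hR z i) (1 : ℤ)) -
        (∑ i, Finsupp.single (C.pts hdegL hR z' i) (1 : ℤ)) ∈
          Divisor.principal (K := L) (F := FL)) ∧ Φ x'' c) :
    ∃ c : A, c ∈ IsLocalRing.maximalIdeal A ∧
      (∀ i, C.coord hdegL hR z i ∈ Ideal.span {c} ∧ C.coord hdegL hR z' i ∈ Ideal.span {c} ∧
        C.coord hdegL hR (z + z') i ∈ Ideal.span {c}) ∧ Φ (C.coord hdegL hR (z + z')) c := by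
  obtain ⟨P'', x'', c, hc, hP'', hx'', hspan, hprin, hΦ⟩ := h
  have heq := C.coord_add_eq hdegL hπ hR hoff z z' hP'' hx'' hprin
  rw [heq]
  exact ⟨c, hc, hspan, hΦ⟩

end OriginChart

end Symm

/-! ### Lifting divisors of the special fibre through a section of the reduction of places -/

section Lift

/-- if `s` is a section of `r` off `Bad` and `Dbar` is supported off `Bad`, then `s_* Dbar` is a
lift of `Dbar` -/
theorem mapDomain_section (s : Place k Fk → Place L FL) (Bad : Set (Place k Fk))
    (hs : ∀ Q, Q ∉ Bad → r (s Q) = Q) (Dbar : Divisor k Fk) (hD : ∀ Q ∈ Bad, Dbar Q = 0) :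
    Finsupp.mapDomain r (Finsupp.mapDomain s Dbar) = Dbar := by
  rw [← Finsupp.mapDomain_comp]
  have h : Finsupp.mapDomain (r ∘ s) Dbar = Finsupp.mapDomain id Dbar := by
    refine Finsupp.mapDomain_congr fun Q hQ => ?_
    have hQ' : Q ∉ Bad := fun hmem => (Finsupp.mem_support_iff.mp hQ) (hD Q hmem)
    exact hs Q hQ'
  rw [h, Finsupp.mapDomain_id]

/-- the support of `s_* Dbar` lies in the image of `s` on the support of `Dbar` -/
theorem mapDomain_section_support (s : Place k Fk → Place L FL) (Dbar : Divisor k Fk)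
    (P : Place L FL) (hP : Finsupp.mapDomain s Dbar P ≠ 0) : ∃ Q, Dbar Q ≠ 0 ∧ s Q = P := by
  classical
  have h1 : P ∈ (Finsupp.mapDomain s Dbar).support := Finsupp.mem_support_iff.mpr hP
  have h2 := Finsupp.mapDomain_support h1
  obtain ⟨Q, hQ, rfl⟩ := Finset.mem_image.mp h2
  exact ⟨Q, Finsupp.mem_support_iff.mp hQ, rfl⟩

/-- degrees: if all places have degree one on both fibres, any push-forward preserves degrees -/
theorem degree_mapDomain_of_deg_one {K₁ F₁ K₂ F₂ : Type*} [Field K₁] [Field F₁] [Algebra K₁ F₁]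
    [Field K₂] [Field F₂] [Algebra K₂ F₂] (h1 : ∀ P : Place K₁ F₁, P.deg = 1)
    (h2 : ∀ P : Place K₂ F₂, P.deg = 1) (f : Place K₁ F₁ → Place K₂ F₂) (D : Divisor K₁ F₁) :
    Divisor.degree (Finsupp.mapDomain f D) = Divisor.degree D := by
  induction D using Finsupp.induction with
  | zero => simp
  | single_add v n D _ _ ih =>
      rw [Finsupp.mapDomain_add, map_add, map_add, ih, Finsupp.mapDomain_single,
        Divisor.degree_single, Divisor.degree_single, h1, h2]

end Lift

end Fermat.Agent.S19.Chart
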