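/-
PROJECT F (S19), helper5's (C)(ii) (helper26): THE MOVING LEMMA on one function field.

`K` a field, `F/K` a field with its places (`AlgebraicCurve.Place K F`, discrete valuation
rings of `F` containing `K`).  From the multiplicative weak approximation theorem ON MAIN
(`S34/WeakApproxMul.exists_approx_mul'`):

* `arch`, `not_le_of_ne` : places are archimedean and pairwise incomparable;
* `exists_ord_eq` : (M1) for a finite set `S` of places and `n : Place K F → ℤ` there is
  `f ≠ 0` with `ord_v f = n v` for all `v ∈ S`;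
* `exists_ord_add_eq_zero` : (M2) for a divisor `D` and finite `Bad` there is `f ≠ 0` with
  `D v + ord_v f = 0` on `Bad`;
* `exists_equiv_disjoint` : (M3) class form (`[HasPrincipalDivisors K F]`): `D' - D` principal,
  same degree, `D' v = 0` on `Bad`;
* `exists_mk_eq_disjoint` : (M3') every class of `Pic0 K F` is `Pic0.mk` of a degree-zero
  divisor supported off `Bad`.
-/
import Mathlib
import Fermat.Prelude.Def_AlgebraicCurve_DivisorClassGroup
import Fermat.Agent.S24.Ord
import Fermat.Agent.S34.WeakApproxMul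

set_option autoImplicit false

namespace Fermat.Agent.S19.MovingLemma

open AlgebraicCurve Fermat.Agent.S34.WeakApprox Fermat.Agent.S34.WeakApproxMul

variable {K F : Type*} [Field K] [Field F] [Algebra K F]

theorem mem_iff_ord_nonneg (v : Place K F) {f : F} (hf : f ≠ 0) :
    f ∈ v.toValuationSubring ↔ 0 ≤ v.ord f := by
  rw [Fermat.Agent.S24.Ord.mem_iff, Fermat.Agent.S24.Ord.ord_nonneg_iff v hf]

/-- the unit group characterisation: a nonzero `f` is a unit of the valuation ring iff
`ord_v f = 0` -/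
theorem ord_eq_zero_of_sub_one_mem_nonunits (v : Place K F) {u : F}
    (hu : u - 1 ∈ v.toValuationSubring.nonunits) : v.ord u = 0 := by
  have h1 : u - 1 ∈ v.toValuationSubring := v.toValuationSubring.nonunits_subset hu
  have huA : u ∈ v.toValuationSubring := by
    have : u = (u - 1) + 1 := by ring
    rw [this]
    exact add_mem h1 (one_mem _)
  -- `u` is a unit of the valuation ring: its valuation is `1`
  have hval : v.toValuationSubring.valuation u = 1 := by
    have h2 : v.toValuationSubring.valuation (u - 1) < 1 :=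
      v.toValuationSubring.mem_nonunits_iff.mp hu
    have h3 : u = 1 + (u - 1) := by ring
    rw [h3]
    have := Valuation.map_add_eq_of_lt_left v.toValuationSubring.valuation
      (x := (1 : F)) (y := u - 1) (by rwa [map_one])
    rw [this, map_one]
  have hunit : IsUnit (⟨u, huA⟩ : v.toValuationSubring) := by
    rw [v.toValuationSubring.valuation_eq_one_iff]
    exact hval
  have := v.ord_coe_unit hunit.unit
  simpa using this

/-- a place is an archimedean valuation ring -/
theorem arch (v : Place K F) : Arch v.toValuationSubring := by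
  intro a c hc hc0
  rcases eq_or_ne a 0 with rfl | ha
  · exact ⟨0, by rw [zero_mul]; exact zero_mem _⟩
  -- `0 < ord c`
  have hcpos : 0 < v.ord c := by
    rw [Fermat.Agent.S24.Ord.ord_pos_iff v hc0]
    have hcA : c ∈ v.toValuationSubring := v.toValuationSubring.nonunits_subset hc
    have hle : v.adicValuation c ≤ 1 := (Fermat.Agent.S24.Ord.mem_iff v c).mp hcA
    refine lt_of_le_of_ne hle fun h1 => ?_
    have hunit : IsUnit (⟨c, hcA⟩ : v.toValuationSubring) :=
      (v.adicValuation_coe_eq_one_iff ⟨c, hcA⟩).mp h1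
    have hmem : ((⟨c, hcA⟩ : v.toValuationSubring) : F) ∈ v.toValuationSubring.nonunits := hc
    rw [ValuationSubring.coe_mem_nonunits_iff] at hmem
    exact hmem hunit
  refine ⟨(-(v.ord a)).toNat, ?_⟩
  have hne : a * c ^ (-(v.ord a)).toNat ≠ 0 := mul_ne_zero ha (pow_ne_zero _ hc0)
  rw [mem_iff_ord_nonneg v hne, v.ord_mul ha (pow_ne_zero _ hc0)]
  have hpow : v.ord (c ^ (-(v.ord a)).toNat) = ((-(v.ord a)).toNat : ℤ) * v.ord c := by
    have := v.ord_zpow c (((-(v.ord a)).toNat : ℕ) : ℤ)
    rwa [zpow_natCast] at this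
  rw [hpow]
  have h1 : (-(v.ord a)) ≤ ((-(v.ord a)).toNat : ℤ) := Int.self_le_toNat _
  have h2 : (0 : ℤ) ≤ ((-(v.ord a)).toNat : ℤ) := Int.natCast_nonneg _
  nlinarith

/-- distinct places are incomparable valuation rings -/
theorem not_le_of_ne {v w : Place K F} (h : v ≠ w) :
    ¬ v.toValuationSubring ≤ w.toValuationSubring := by
  intro hle
  apply h
  apply Place.ext
  exact le_antisymm hle ((arch v).le_of_le hle w.ne_top')

/-- **(M1)** prescribed orders at finitely many places -/
theorem exists_ord_eq (S : Finset (Place K F)) (n : Place K F → ℤ) :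
    ∃ f : F, f ≠ 0 ∧ ∀ v ∈ S, v.ord f = n v := by
  classical
  -- uniformisers
  have hπ : ∀ v : Place K F, ∃ π : v.toValuationSubring, Irreducible π := fun v =>
    IsDiscreteValuationRing.exists_irreducible v.toValuationSubring
  choose π hπirr using hπ
  let O : S → ValuationSubring F := fun i => i.1.toValuationSubring
  have hA : ∀ i, Arch (O i) := fun i => arch i.1
  have hinc : ∀ i j, i ≠ j → ¬ O i ≤ O j := fun i j hij =>
    not_le_of_ne (fun h => hij (Subtype.ext h))
  have hπ0 : ∀ v : Place K F, ((π v : v.toValuationSubring) : F) ≠ 0 := fun v => by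
    simpa [ne_eq, ZeroMemClass.coe_eq_zero] using (hπirr v).ne_zero
  let a : S → F := fun i => ((π i.1 : i.1.toValuationSubring) : F) ^ (n i.1)
  have ha : ∀ i, a i ≠ 0 := fun i => zpow_ne_zero _ (hπ0 i.1)
  obtain ⟨y, hy0, hy⟩ := exists_approx_mul' O hA hinc a ha
  refine ⟨y, hy0, fun v hv => ?_⟩
  have h1 := (hy ⟨v, hv⟩).1
  have h2 : v.ord (y / a ⟨v, hv⟩) = 0 := ord_eq_zero_of_sub_one_mem_nonunits v h1
  have h3 : v.ord (a ⟨v, hv⟩) = n v := by
    show v.ord (((π v : v.toValuationSubring) : F) ^ (n v)) = n v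
    rw [v.ord_zpow, v.ord_coe_irreducible (hπirr v), mul_one]
  have h4 : y = (y / a ⟨v, hv⟩) * a ⟨v, hv⟩ := by
    rw [div_mul_cancel₀ _ (ha ⟨v, hv⟩)]
  have hq0 : y / a ⟨v, hv⟩ ≠ 0 := div_ne_zero hy0 (ha ⟨v, hv⟩)
  rw [h4, v.ord_mul hq0 (ha ⟨v, hv⟩), h2, h3, zero_add]

/-- **(M2)** move a divisor off a finite set of places -/
theorem exists_ord_add_eq_zero (D : Divisor K F) (Bad : Finset (Place K F)) :
    ∃ f : F, f ≠ 0 ∧ ∀ v ∈ Bad, D v + v.ord f = 0 := by
  obtain ⟨f, hf0, hf⟩ := exists_ord_eq Bad (fun v => - D v)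
  exact ⟨f, hf0, fun v hv => by rw [hf v hv]; ring⟩

/-- **(M3)** class form: every divisor is linearly equivalent to one supported off `Bad` -/
theorem exists_equiv_disjoint [HasPrincipalDivisors K F] (D : Divisor K F)
    (Bad : Finset (Place K F)) :
    ∃ D' : Divisor K F, D' - D ∈ Divisor.principal (K := K) (F := F) ∧
      Divisor.degree D' = Divisor.degree D ∧ ∀ v ∈ Bad, D' v = 0 := by
  obtain ⟨f, hf0, hf⟩ := exists_ord_add_eq_zero D Bad
  obtain ⟨E, hE, hEdeg⟩ := HasPrincipalDivisors.exists_divisor (K := K) (F := F) f hf0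
  refine ⟨D + E, ?_, ?_, fun v hv => ?_⟩
  · rw [add_sub_cancel_left]
    exact ⟨f, hf0, hE⟩
  · rw [map_add, hEdeg, add_zero]
  · rw [Finsupp.add_apply, hE v, hf v hv]

/-- **(M3')** every class of `Pic⁰` has a representative supported off `Bad` -/
theorem exists_mk_eq_disjoint [HasPrincipalDivisors K F] (x : Pic0 K F)
    (Bad : Finset (Place K F)) :
    ∃ D : Divisor.degZero (K := K) (F := F), Pic0.mk D = x ∧
      ∀ v ∈ Bad, (D : Divisor K F) v = 0 := by
  obtain ⟨D₀, rfl⟩ := Pic0.mk_surjective x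
  obtain ⟨D', hpr, hdeg, hBad⟩ := exists_equiv_disjoint (D₀ : Divisor K F) Bad
  have hD'0 : D' ∈ Divisor.degZero (K := K) (F := F) := by
    rw [Divisor.mem_degZero, hdeg]
    exact Divisor.mem_degZero.mp D₀.2
  refine ⟨⟨D', hD'0⟩, ?_, hBad⟩
  show (QuotientAddGroup.mk (⟨D', hD'0⟩ : Divisor.degZero (K := K) (F := F)) : Pic0 K F)
    = QuotientAddGroup.mk D₀
  rw [QuotientAddGroup.eq, AddSubgroup.mem_addSubgroupOf]
  have h1 : ((-(⟨D', hD'0⟩ : Divisor.degZero (K := K) (F := F)) + D₀ :
      Divisor.degZero (K := K) (F := F)) : Divisor K F) = -(D' - (D₀ : Divisor K F)) := by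
    push_cast
    abel
  rw [h1]
  exact (Divisor.principal (K := K) (F := F)).neg_mem hpr

end Fermat.Agent.S19.MovingLemma
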