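import Mathlib
import Fermat.Agent.S19.RedSymm
import Fermat.Agent.S19.Chart
import Fermat.Agent.S19.MovingLemma

/-!
# S19, slice RedSymmJ1 (helper8): symmetries of a reduction datum and the kernel of reduction

Abstract frame of S18/Core, `J1 r` of `S19/Chart`:

* `Symm.mapDomain_smul` : `r_* (gL • D) = gk • r_* D`;
* `Symm.smul_mem_J1_iff` : `gL • x ∈ J1 r ↔ x ∈ J1 r`;
* `Symm.IsInertial.smul_sub_mem_J1` : `gL • x - x ∈ J1 r` for an inertial symmetry;
* `exists_fixed_base` : **(W7)** if a section `sec` of `r` off a finite set `Bad` has values fixed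
  by a set `G` of semilinear automorphisms, every class `x` has a `G`-fixed class `y` with
  `x - y ∈ J1 r` (moving lemma on the special fibre).
-/

set_option autoImplicit false
set_option linter.unusedSectionVars false
set_option linter.unusedVariables false

namespace Fermat.Agent.S19.RedSymmJ1

open AlgebraicCurve Fermat.Agent.S24.Ord Fermat.Agent.S18.CoreDefs Fermat.Agent.S18.CoreOrd
  Fermat.Agent.S18.Disc Fermat.Agent.S19.RedSymm Fermat.Agent.S19.Chart

variable {L : Type*} [Field L] {FL : Type*} [Field FL] [Algebra L FL]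
variable {k : Type*} [Field k] {Fk : Type*} [Field Fk] [Algebra k Fk]
variable {A : ValuationSubring L} {π : A →+* k} {r : Place L FL → Place k Fk}
variable {R : RedDatum A π r}

/-- the reduction of divisors is equivariant -/
theorem mapDomain_smul (s : Symm R) (D : Divisor L FL) :
    Finsupp.mapDomain r (s.gL • D) = s.gk • Finsupp.mapDomain r D := by
  rw [SemilinearAut.divisor_smul_def, SemilinearAut.divisor_smul_def, ← Finsupp.mapDomain_comp,
    ← Finsupp.mapDomain_comp]
  exact Finsupp.mapDomain_congr fun P _ => s.r_comm P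

theorem smul_mem_J1 (s : Symm R) {x : Pic0 L FL} (hx : x ∈ J1 r) : s.gL • x ∈ J1 r := by
  obtain ⟨D, rfl, hD⟩ := hx
  refine ⟨SemilinearAut.degZeroSMulHom s.gL D, rfl, ?_⟩
  rw [SemilinearAut.coe_degZeroSMulHom, mapDomain_smul]
  exact SemilinearAut.smul_mem_principal _ hD

/-- the kernel of reduction is stable under every symmetry -/
theorem smul_mem_J1_iff (s : Symm R) (x : Pic0 L FL) : s.gL • x ∈ J1 r ↔ x ∈ J1 r := by
  refine ⟨fun h => ?_, smul_mem_J1 s⟩
  have := smul_mem_J1 s.inv h
  rwa [show s.inv.gL = s.gL⁻¹ from rfl, inv_smul_smul] at this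

/-- an inertial symmetry acts trivially modulo the kernel of reduction -/
theorem smul_sub_mem_J1 {s : Symm R} (hs : s.IsInertial) (x : Pic0 L FL) :
    s.gL • x - x ∈ J1 r := by
  obtain ⟨D, rfl⟩ := Pic0.mk_surjective x
  refine ⟨SemilinearAut.degZeroSMulHom s.gL D - D, rfl, ?_⟩
  rw [AddSubgroup.coe_sub, SemilinearAut.coe_degZeroSMulHom, Finsupp.mapDomain_sub,
    mapDomain_smul, hs, one_smul, sub_self]
  exact zero_mem _

/-- **(W7), abstract form.** Given a section `sec` of the reduction of places off a finite set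
`Bad` whose values are fixed by all elements of `G`, every class has a `G`-fixed class in its coset
modulo the kernel of reduction. -/
theorem exists_fixed_base [HasPrincipalDivisors k Fk] (hdegL : ∀ P : Place L FL, P.deg = 1)
    (hdegk : ∀ Q : Place k Fk, Q.deg = 1)
    (Bad : Set (Place k Fk)) (hBad : Bad.Finite) (sec : Place k Fk → Place L FL)
    (hsec : ∀ Q, Q ∉ Bad → r (sec Q) = Q) (G : Set (SemilinearAut L FL))
    (hG : ∀ g ∈ G, ∀ Q, Q ∉ Bad → g • sec Q = sec Q) (x : Pic0 L FL) :
    ∃ y : Pic0 L FL, (∀ g ∈ G, g • y = y) ∧ x - y ∈ J1 r := by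
  classical
  obtain ⟨D0, rfl⟩ := Pic0.mk_surjective x
  obtain ⟨Db', hpr, hdeg, hoff⟩ := Fermat.Agent.S19.MovingLemma.exists_equiv_disjoint
    (Finsupp.mapDomain r (D0 : Divisor L FL)) hBad.toFinset
  have hoff' : ∀ Q ∈ Bad, Db' Q = 0 := fun Q hQ => hoff Q (hBad.mem_toFinset.mpr hQ)
  have hdeg0 : Divisor.degree (Finsupp.mapDomain sec Db') = 0 := by
    rw [degree_mapDomain_of_deg_one hdegk hdegL sec, hdeg,
      degree_mapDomain_of_deg_one hdegL hdegk]
    exact Divisor.mem_degZero.mp D0.2
  set E : Divisor.degZero (K := L) (F := FL) :=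
    ⟨Finsupp.mapDomain sec Db', Divisor.mem_degZero.mpr hdeg0⟩ with hE
  refine ⟨Pic0.mk E, fun g hg => ?_, ⟨D0 - E, rfl, ?_⟩⟩
  · rw [SemilinearAut.pic0_smul_mk]
    congr 1
    apply Subtype.ext
    rw [SemilinearAut.coe_degZeroSMulHom, SemilinearAut.divisor_smul_def]
    show Finsupp.mapDomain _ (Finsupp.mapDomain sec Db') = Finsupp.mapDomain sec Db'
    rw [← Finsupp.mapDomain_comp]
    refine Finsupp.mapDomain_congr fun Q hQ => ?_
    have hQ' : Q ∉ Bad := fun hmem => (Finsupp.mem_support_iff.mp hQ) (hoff' Q hmem)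
    exact hG g hg Q hQ'
  · rw [AddSubgroup.coe_sub, Finsupp.mapDomain_sub]
    show Finsupp.mapDomain r (D0 : Divisor L FL)
      - Finsupp.mapDomain r (Finsupp.mapDomain sec Db') ∈ _
    rw [mapDomain_section sec Bad hsec Db' hoff', ← neg_sub]
    exact neg_mem hpr

end Fermat.Agent.S19.RedSymmJ1
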