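import Mathlib
import Fermat.Agent.S19.ChartX0
import Fermat.Agent.S19.RedSymmJ1

/-!
# S19, slice BaseX0 (helper8): the kernel of reduction `J₁ ⊆ J₀(N)(ℚ̄)` and the inertia group

`J1X0 := Chart.J1 (rX0 N A hA hℓN)`, the kernel of reduction at `A` (`ℓ ∤ N`).

* `J1_inertia` : `τ • x - x ∈ J1X0` for `τ` in the inertia group;
* `J1_decomposition` : `σ • x ∈ J1X0 ↔ x ∈ J1X0` for `σ` in the decomposition group;
* `exists_section` : a section of the reduction of places off `Bad0` with inertia-fixed values;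
* `base` : **(W7)** every class `x` has an inertia-fixed class `y` with `x - y ∈ J1X0`
  (moving lemma on the special fibre + inertia-fixed lifts of the places off `Bad0`).
-/

set_option autoImplicit false
set_option synthInstance.maxHeartbeats 400000
set_option linter.unusedSectionVars false
set_option linter.style.haveILetI false

noncomputable section

namespace Fermat.Agent.S19.BaseX0

open AlgebraicCurve ModularCurve IntermediateField IsLocalRing
open Fermat.Agent.S18.CoreDefs Fermat.Agent.S18.CoreOrd Fermat.Agent.S18.Disc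
open Fermat.Agent.S37.Equivariance.GaussEquiv Fermat.Agent.S37.Equivariance.CoeffAut
open Fermat.Agent.S19.FrameX0 Fermat.Agent.S19.RedSymm Fermat.Agent.S19.SymmX0
open Fermat.Agent.S19.ArithX0 Fermat.Agent.S19.ChartX0 Fermat.Agent.S19.Chart
open Fermat.Agent.S19.RedSymmJ1

local notation "Kb" => AlgebraicClosure ℚ

variable {ℓ : ℕ} [Fact ℓ.Prime] (N : ℕ) [NeZero N] (A : ValuationSubring Kb)
variable (hA : A.LiesOverPrime ℓ) (hℓN : ¬ ℓ ∣ N)

/-- the kernel of reduction -/
def J1X0 : AddSubgroup (JZero N) := J1 (rX0 N A hA hℓN)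

/-- **`J1_σ`**: the kernel of reduction is stable under the decomposition group -/
theorem J1_decomposition (γ : A.decompositionSubgroup ℚ) (x : JZero N) :
    (γ : Kb ≃ₐ[ℚ] Kb) • x ∈ J1X0 N A hA hℓN ↔ x ∈ J1X0 N A hA hℓN :=
  smul_mem_J1_iff (symmX0 N A hA hℓN γ) x

/-- **`J1_I`**: inertia acts trivially modulo the kernel of reduction -/
theorem J1_inertia {τ : Kb ≃ₐ[ℚ] Kb} (hτ : τ ∈ A.inertiaSubgroupIn ℚ) (x : JZero N) :
    τ • x - x ∈ J1X0 N A hA hℓN := by
  obtain ⟨s, hs, hsL⟩ := exists_inertial N A hA hℓN hτ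
  have := smul_sub_mem_J1 hs x
  rwa [hsL] at this

/-- a section of the reduction of places off `Bad0`, with inertia-fixed values -/
theorem exists_section :
    ∃ s : Place (ResidueField ↥A) ↥(modularFunctionFieldFullC (ResidueField ↥A) N) →
        Place Kb ↥(modularFunctionFieldBar N),
      (∀ Q, Q ∉ Bad0 N A hA hℓN → rX0 N A hA hℓN (s Q) = Q) ∧
      ∀ Q, Q ∉ Bad0 N A hA hℓN → ∀ σ ∈ A.inertiaSubgroupIn ℚ,
        arithmeticGalois (modularFunctionFieldFull N) σ • s Q = s Q := by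
  classical
  have h : ∀ Q : Place (ResidueField ↥A) ↥(modularFunctionFieldFullC (ResidueField ↥A) N),
      ∃ P : Place Kb ↥(modularFunctionFieldBar N), Q ∉ Bad0 N A hA hℓN →
        (rX0 N A hA hℓN P = Q ∧ ∀ σ ∈ A.inertiaSubgroupIn ℚ,
          arithmeticGalois (modularFunctionFieldFull N) σ • P = P) := by
    intro Q
    by_cases hQ : Q ∈ Bad0 N A hA hℓN
    · obtain ⟨P, -⟩ := rX0_surjective N A hA hℓN Q
      exact ⟨P, fun h => absurd hQ h⟩
    · obtain ⟨c, P0, -, -, hP0, -, hfix⟩ := exists_fixed_param N A hA hℓN Q hQ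
      exact ⟨P0, fun _ => ⟨hP0, hfix⟩⟩
  choose s hs using h
  exact ⟨s, fun Q hQ => (hs Q hQ).1, fun Q hQ => (hs Q hQ).2⟩

/-- **(W7) `base`**: every class has an inertia-fixed class in its coset modulo the kernel of
reduction -/
theorem base (x : JZero N) :
    ∃ y : JZero N, (∀ τ ∈ A.inertiaSubgroupIn ℚ, τ • y = y) ∧ x - y ∈ J1X0 N A hA hℓN := by
  haveI := hasPrincipalDivisors_k N A
  obtain ⟨s, hs1, hs2⟩ := exists_section N A hA hℓN
  obtain ⟨y, hy1, hy2⟩ := exists_fixed_base (r := rX0 N A hA hℓN) (deg_eq_one_L N)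
    (deg_eq_one_k N A hA hℓN) (Bad0 N A hA hℓN) (finite_Bad0 N A hA hℓN) s hs1
    {g | ∃ τ ∈ A.inertiaSubgroupIn ℚ, g = arithmeticGalois (modularFunctionFieldFull N) τ}
    (by
      rintro g ⟨τ, hτ, rfl⟩ Q hQ
      exact hs2 Q hQ τ hτ) x
  exact ⟨y, fun τ hτ => hy1 _ ⟨τ, hτ, rfl⟩, hy2⟩

end Fermat.Agent.S19.BaseX0
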