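import Mathlib

/-!
S19 scratch (helper16): Artin-type lemmas for the semilinear action of a group on the functions
on a finite set, and the finite Stone-Weierstrass lemma.
-/

set_option autoImplicit false

namespace Fermat.Agent.S19.Artin

variable {K : Type*} [Field K] {Γ : Type*} [Group Γ] [MulSemiringAction Γ K]
variable {T : Type*}

/-- a function `f : T → K` is equivariant for `ρ : Γ → T → T` -/
def Equivariant (ρ : Γ → T → T) (f : T → K) : Prop := ∀ (τ : Γ) (t : T), f (ρ τ t) = τ • f t

section
variable {ρ : Γ → T → T}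

theorem Equivariant.add {f g : T → K} (hf : Equivariant ρ f) (hg : Equivariant ρ g) :
    Equivariant ρ (f + g) := fun τ t => by
  simp only [Pi.add_apply, hf τ t, hg τ t, smul_add]

theorem Equivariant.mul {f g : T → K} (hf : Equivariant ρ f) (hg : Equivariant ρ g) :
    Equivariant ρ (f * g) := fun τ t => by
  simp only [Pi.mul_apply, hf τ t, hg τ t, smul_mul']

theorem Equivariant.neg {f : T → K} (hf : Equivariant ρ f) : Equivariant ρ (-f) := fun τ t => by
  simp only [Pi.neg_apply, hf τ t, smul_neg]

theorem Equivariant.sub {f g : T → K} (hf : Equivariant ρ f) (hg : Equivariant ρ g) :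
    Equivariant ρ (f - g) := by
  rw [sub_eq_add_neg]; exact hf.add hg.neg

theorem Equivariant.zero : Equivariant ρ (0 : T → K) := fun τ t => by simp

theorem Equivariant.one : Equivariant ρ (1 : T → K) := fun τ t => by simp

theorem Equivariant.const_smul {f : T → K} (hf : Equivariant ρ f) {c : K}
    (hc : ∀ τ : Γ, τ • c = c) : Equivariant ρ (c • f) := fun τ t => by
  simp only [Pi.smul_apply, smul_eq_mul, hf τ t, smul_mul', hc τ]

theorem Equivariant.sum {ι : Type*} (s : Finset ι) {f : ι → T → K}
    (hf : ∀ i ∈ s, Equivariant ρ (f i)) : Equivariant ρ (∑ i ∈ s, f i) := by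
  classical
  induction s using Finset.induction_on with
  | empty => simpa using Equivariant.zero
  | insert a s ha ih =>
    rw [Finset.sum_insert ha]
    exact (hf a (Finset.mem_insert_self a s)).add
      (ih fun i hi => hf i (Finset.mem_insert_of_mem hi))

/-- **uniqueness of coordinates**: if `e` is a `K`-linearly independent family of functions
equivariant under one `τ` (with `ρ τ` surjective) and `∑ x i • e i` is equivariant under `τ`, then
the `x i` are `τ`-fixed -/
theorem coord_fixed {ι : Type*} [Fintype ι] {e : ι → T → K} (he : LinearIndependent K e)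
    (x : ι → K) (τ : Γ) (hτ : Function.Surjective (ρ τ))
    (heq : ∀ i t, e i (ρ τ t) = τ • e i t)
    (hf : ∀ t, (∑ i, x i • e i) (ρ τ t) = τ • (∑ i, x i • e i) t) : ∀ i, τ • x i = x i := by
  have h1 : ∑ i, (τ • x i - x i) • e i = 0 := by
    funext u
    obtain ⟨t, rfl⟩ := hτ u
    have h2 := hf t
    simp only [Finset.sum_apply, Pi.smul_apply, smul_eq_mul, Finset.smul_sum, smul_mul',
      Pi.zero_apply, sub_mul, Finset.sum_sub_distrib] at h2 ⊢
    rw [h2, sub_eq_zero]
    refine Finset.sum_congr rfl fun i _ => ?_
    rw [heq i t]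
  have h3 := Fintype.linearIndependent_iff.1 he _ h1
  intro i
  exact sub_eq_zero.1 (h3 i)

/-- applying `τ` to a linear relation between equivariant functions -/
theorem smul_relation {ι : Type*} [Fintype ι] {β : ι → T → K} (hβ : ∀ i, Equivariant ρ (β i))
    (τ : Γ) (hτ : Function.Surjective (ρ τ)) (x : ι → K) (hx : ∑ i, x i • β i = 0) :
    ∑ i, (τ • x i) • β i = 0 := by
  funext u
  obtain ⟨t, rfl⟩ := hτ u
  have h1 := congrFun hx t
  simp only [Finset.sum_apply, Pi.smul_apply, smul_eq_mul, Pi.zero_apply] at h1 ⊢
  have h2 : τ • (∑ i, x i * β i t) = 0 := by rw [h1, smul_zero]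
  rw [Finset.smul_sum] at h2
  rw [← h2]
  refine Finset.sum_congr rfl fun i _ => ?_
  rw [smul_mul', hβ i τ t]

/-- **Artin**: equivariant functions which are independent over the fixed elements of `K` are
independent over `K` -/
theorem linearIndependent_of_fixed {ι : Type*} [Fintype ι] (β : ι → T → K)
    (hβ : ∀ i, Equivariant ρ (β i)) (hρ : ∀ τ, Function.Surjective (ρ τ))
    (hF : ∀ x : ι → K, (∀ i (τ : Γ), τ • x i = x i) → ∑ i, x i • β i = 0 → ∀ i, x i = 0) :
    LinearIndependent K β := by
  classical
  rw [Fintype.linearIndependent_iff]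
  suffices H : ∀ (n : ℕ) (x : ι → K), ∑ i, x i • β i = 0 →
      (Finset.univ.filter fun i => x i ≠ 0).card = n → ∀ i, x i = 0 from
    fun x hx => H _ x hx rfl
  intro n
  induction n using Nat.strong_induction_on with
  | _ n ih =>
    intro x hx hn
    by_contra hcon
    rw [not_forall] at hcon
    obtain ⟨i₀, hi₀⟩ := hcon
    -- normalise `x i₀ = 1`
    set y : ι → K := fun i => (x i₀)⁻¹ * x i with hy
    have hy0 : y i₀ = 1 := by simp [hy, inv_mul_cancel₀ hi₀]
    have hyrel : ∑ i, y i • β i = 0 := by
      have : ∑ i, y i • β i = (x i₀)⁻¹ • ∑ i, x i • β i := by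
        rw [Finset.smul_sum]
        exact Finset.sum_congr rfl fun i _ => by rw [hy, smul_smul]
      rw [this, hx, smul_zero]
    have hysupp : ∀ i, y i ≠ 0 ↔ x i ≠ 0 := by
      intro i
      simp [hy, hi₀]
    have hfix : ∀ i (τ : Γ), τ • y i = y i := by
      intro i τ
      have hrel2 : ∑ j, (τ • y j - y j) • β j = 0 := by
        have h1 := smul_relation hβ τ (hρ τ) y hyrel
        simp only [sub_smul, Finset.sum_sub_distrib, h1, hyrel, sub_zero]
      have hsub : (Finset.univ.filter fun j => τ • y j - y j ≠ 0) ⊂
          (Finset.univ.filter fun j => x j ≠ 0) := by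
        rw [Finset.ssubset_iff_of_subset]
        · refine ⟨i₀, by simp [hi₀], ?_⟩
          simp [hy0]
        · intro j hj
          simp only [Finset.mem_filter, Finset.mem_univ, true_and] at hj ⊢
          intro hxj
          apply hj
          have : y j = 0 := by simp [hy, hxj]
          rw [this, smul_zero, sub_zero]
      have hlt : (Finset.univ.filter fun j => τ • y j - y j ≠ 0).card < n := by
        rw [← hn]; exact Finset.card_lt_card hsub
      exact sub_eq_zero.1 (ih _ hlt _ hrel2 rfl i)
    have := hF y hfix hyrel i₀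
    rw [hy0] at this
    exact one_ne_zero this

/-- **finite Stone-Weierstrass**: a `K`-subalgebra of `T → K` (`T` finite) which separates the
points is everything -/
theorem subalgebra_eq_top_of_separates [Finite T] (S : Subalgebra K (T → K))
    (hsep : ∀ s t : T, s ≠ t → ∃ f ∈ S, f s ≠ f t) : S = ⊤ := by
  classical
  cases nonempty_fintype T
  -- indicator functions
  have hind : ∀ t₀ : T, Pi.single t₀ (1 : K) ∈ S := by
    intro t₀
    choose! f hfS hf using hsep
    -- product over `s ≠ t₀` of `(f s t₀ - f s t₀ s) / (...)`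
    have hprod : (∏ s ∈ Finset.univ.erase t₀,
        ((f t₀ s t₀ - f t₀ s s)⁻¹ • (f t₀ s - algebraMap K (T → K) (f t₀ s s)))) ∈ S :=
      S.prod_mem fun s hs => S.smul_mem (S.sub_mem (hfS t₀ s (Finset.ne_of_mem_erase hs).symm)
        (S.algebraMap_mem _)) _
    convert hprod using 1
    funext u
    rw [Finset.prod_apply]
    by_cases hu : u = t₀
    · subst hu
      rw [Pi.single_eq_same]
      symm
      refine Finset.prod_eq_one fun s hs => ?_
      have hne := hf u s (Finset.ne_of_mem_erase hs).symm
      simp only [Pi.smul_apply, Pi.sub_apply, Pi.algebraMap_apply, Algebra.algebraMap_self_apply,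
        smul_eq_mul]
      exact inv_mul_cancel₀ (sub_ne_zero.2 hne)
    · rw [Pi.single_eq_of_ne hu]
      symm
      refine Finset.prod_eq_zero (Finset.mem_erase.2 ⟨hu, Finset.mem_univ u⟩) ?_
      simp
  rw [eq_top_iff]
  rintro g -
  have : g = ∑ t, g t • Pi.single t (1 : K) := by
    funext u
    simp [Finset.sum_apply, Pi.single_apply]
  rw [this]
  exact S.sum_mem fun t _ => S.smul_mem (hind t) _

end

end Fermat.Agent.S19.Artin
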