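import Mathlib

/-!
S19 scratch (helper16): FROBENIUS DESCENT OF LATTICES (abstract form of (W9)).

`R → W` rings, `ℓ : R` a "uniformiser" (`W/ℓW` is a field, its Frobenius-fixed elements come from
`R`), `σ : W →+* W` a Frobenius lift fixing `R`, `Λ` an `ℓ`-torsion-free `W`-module with a
`σ`-semilinear `Φ`, `H` an `R`-submodule of `Φ`-fixed elements, pure in `Λ`, with an `R`-basis.
Then `W • H` is `ℓ`-saturated in `Λ`; if moreover `ℓ^M Λ ⊆ W • H`, then `W • H = Λ`.
No Galois descent, no completion: one Frobenius element and a minimal-relation argument.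
-/

set_option autoImplicit false

namespace Fermat.Agent.S19.FrobDescent

open Submodule

variable {R W Λ : Type*} [CommRing R] [CommRing W] [Algebra R W]
  [AddCommGroup Λ] [Module W Λ] [Module R Λ] [IsScalarTower R W Λ]

/-- the hypotheses of the descent (`L = algebraMap R W ℓ`) -/
structure Datum (ℓ : R) (q : ℕ) (σ : W →+* W) (Φ : Λ →+ Λ) (H : Submodule R Λ) : Prop where
  /-- `W/ℓW` is a field -/
  unit_mod : ∀ w : W, ¬ algebraMap R W ℓ ∣ w → ∃ u : W, algebraMap R W ℓ ∣ u * w - 1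
  /-- `σ` fixes `R` -/
  σ_R : ∀ r : R, σ (algebraMap R W r) = algebraMap R W r
  /-- `σ` lifts the `q`-Frobenius -/
  σ_frob : ∀ w : W, algebraMap R W ℓ ∣ σ w - w ^ q
  /-- the Frobenius-fixed residues come from `R` -/
  fixed : ∀ w : W, algebraMap R W ℓ ∣ w ^ q - w → ∃ r : R, algebraMap R W ℓ ∣ w - algebraMap R W r
  /-- `Φ` is `σ`-semilinear -/
  Φ_smul : ∀ (w : W) (v : Λ), Φ (w • v) = σ w • Φ v
  /-- `H` is fixed by `Φ` -/
  Φ_H : ∀ h ∈ H, Φ h = h
  /-- `H` is pure in `Λ` -/
  pure : ∀ h ∈ H, (∃ v : Λ, h = ℓ • v) → ∃ h' ∈ H, h = ℓ • h'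

variable {ℓ : R} {q : ℕ} {σ : W →+* W} {Φ : Λ →+ Λ} {H : Submodule R Λ}

/-- the key independence statement: an `R`-independent-mod-`ℓ` family of `H` stays independent
mod `ℓ` over `W` -/
theorem Datum.coeff_dvd (D : Datum ℓ q σ Φ H) {ι : Type*} [Fintype ι]
    (h : ι → Λ) (hH : ∀ i, h i ∈ H)
    (hind : ∀ r : ι → R, (∃ h' ∈ H, ∑ i, r i • h i = ℓ • h') → ∀ i, ℓ ∣ r i)
    (w : ι → W) (hw : ∃ v : Λ, ∑ i, w i • h i = ℓ • v) :
    ∀ i, algebraMap R W ℓ ∣ w i := by
  classical
  set L : W := algebraMap R W ℓ with hL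
  have hLsmul : ∀ v : Λ, L • v = ℓ • v := fun v => by rw [hL, algebraMap_smul]
  have hσL : σ L = L := D.σ_R ℓ
  have hσdvd : ∀ y : W, L ∣ y → L ∣ σ y := by
    rintro y ⟨x, rfl⟩
    exact ⟨σ x, by rw [map_mul, hσL]⟩
  suffices H1 : ∀ (n : ℕ) (w : ι → W), (∃ v : Λ, ∑ i, w i • h i = ℓ • v) →
      (Finset.univ.filter fun i => ¬ L ∣ w i).card = n → ∀ i, L ∣ w i from
    H1 _ w hw rfl
  intro n
  induction n using Nat.strong_induction_on with
  | _ n ih =>
    intro w hw hn
    by_contra hcon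
    rw [not_forall] at hcon
    obtain ⟨i₀, hi₀⟩ := hcon
    obtain ⟨u, hu⟩ := D.unit_mod (w i₀) hi₀
    obtain ⟨v, hv⟩ := hw
    -- `u` is a unit mod `L`
    have hu_nd : ∀ y : W, L ∣ u * y → L ∣ y := by
      intro y hy
      have h1 : L ∣ (u * w i₀ - 1) * y := Dvd.dvd.mul_right hu y
      have h2 : L ∣ w i₀ * (u * y) := Dvd.dvd.mul_left hy _
      have : y = w i₀ * (u * y) - (u * w i₀ - 1) * y := by ring
      rw [this]
      exact dvd_sub h2 h1
    set w' : ι → W := fun i => u * w i with hw'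
    have hrel' : ∑ i, w' i • h i = ℓ • (u • v) := by
      rw [smul_comm, ← hv, Finset.smul_sum]
      exact Finset.sum_congr rfl fun i _ => (mul_smul _ _ _)
    -- apply `Φ`
    have hΦℓ : ∀ v' : Λ, Φ (ℓ • v') = ℓ • Φ v' := by
      intro v'
      rw [← hLsmul, D.Φ_smul, hσL, hLsmul]
    have hrelΦ : ∑ i, σ (w' i) • h i = ℓ • Φ (u • v) := by
      rw [← hΦℓ, ← hrel', map_sum]
      exact Finset.sum_congr rfl fun i _ => by rw [D.Φ_smul, D.Φ_H _ (hH i)]
    set w'' : ι → W := fun i => σ (w' i) - w' i with hw''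
    have hrel'' : ∃ v'' : Λ, ∑ i, w'' i • h i = ℓ • v'' := by
      refine ⟨Φ (u • v) - u • v, ?_⟩
      rw [smul_sub, ← hrelΦ, ← hrel', ← Finset.sum_sub_distrib]
      exact Finset.sum_congr rfl fun i _ => sub_smul _ _ _
    have hi₀'' : L ∣ w'' i₀ := by
      -- `w' i₀ = 1 + L x`
      obtain ⟨x, hx⟩ := hu
      have h1 : w' i₀ = 1 + L * x := by rw [hw']; linear_combination hx
      simp only [hw'']
      rw [h1, map_add, map_one, map_mul, hσL]
      exact ⟨σ x - x, by ring⟩
    have hsub : (Finset.univ.filter fun i => ¬ L ∣ w'' i) ⊂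
        (Finset.univ.filter fun i => ¬ L ∣ w i) := by
      rw [Finset.ssubset_iff_of_subset]
      · exact ⟨i₀, by simp [hi₀], by simp [hi₀'']⟩
      · intro i hi
        simp only [Finset.mem_filter, Finset.mem_univ, true_and] at hi ⊢
        intro hwi
        apply hi
        have h1 : L ∣ w' i := Dvd.dvd.mul_left hwi u
        exact dvd_sub (hσdvd _ h1) h1
    have hlt : (Finset.univ.filter fun i => ¬ L ∣ w'' i).card < n := by
      rw [← hn]; exact Finset.card_lt_card hsub
    have hdiv'' : ∀ i, L ∣ w'' i := ih _ hlt w'' hrel'' rfl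
    -- so every `w' i` is congruent to an element of `R`
    have hr : ∀ i, ∃ r : R, L ∣ w' i - algebraMap R W r := by
      intro i
      refine D.fixed (w' i) ?_
      have h1 := D.σ_frob (w' i)
      have h2 := hdiv'' i
      simp only [hw''] at h2
      have : w' i ^ q - w' i = (σ (w' i) - w' i) - (σ (w' i) - w' i ^ q) := by ring
      rw [this]
      exact dvd_sub h2 h1
    choose r hr using hr
    choose x hx using hr
    have hsumr : ∑ i, r i • h i = ℓ • (u • v - ∑ i, x i • h i) := by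
      rw [smul_sub, ← hrel', Finset.smul_sum, ← Finset.sum_sub_distrib]
      refine Finset.sum_congr rfl fun i _ => ?_
      rw [← hLsmul, ← mul_smul, ← sub_smul, ← algebraMap_smul W (r i) (h i)]
      congr 1
      linear_combination (-1 : W) * hx i
    have hmem : ∑ i, r i • h i ∈ H := H.sum_mem fun i _ => H.smul_mem _ (hH i)
    obtain ⟨h', hh', hh'eq⟩ := D.pure _ hmem ⟨_, hsumr⟩
    have hrdvd := hind r ⟨h', hh', hh'eq⟩
    -- hence `L ∣ w' i₀`, so `L ∣ w i₀`
    have : L ∣ w' i₀ := by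
      obtain ⟨r', hr'⟩ := hrdvd i₀
      have h1 : L ∣ algebraMap R W (r i₀) := ⟨algebraMap R W r', by rw [hr', map_mul]⟩
      have : w' i₀ = (w' i₀ - algebraMap R W (r i₀)) + algebraMap R W (r i₀) := by ring
      rw [this]
      exact dvd_add ⟨x i₀, hx i₀⟩ h1
    exact hi₀ (hu_nd _ this)

/-- **saturation**: `W • H` is `ℓ`-saturated in `Λ` when `H` has a finite `R`-basis -/
theorem Datum.saturated (D : Datum ℓ q σ Φ H) (tf : ∀ v : Λ, ℓ • v = 0 → v = 0)
    {ι : Type*} [Fintype ι] (b : Module.Basis ι R H) (v : Λ)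
    (hv : ℓ • v ∈ span W (Set.range fun i => (b i : Λ))) :
    v ∈ span W (Set.range fun i => (b i : Λ)) := by
  classical
  obtain ⟨w, hw⟩ := (Submodule.mem_span_range_iff_exists_fun W).1 hv
  have hind : ∀ r : ι → R, (∃ h' ∈ H, ∑ i, r i • (b i : Λ) = ℓ • h') → ∀ i, ℓ ∣ r i := by
    rintro r ⟨h', hh', hr⟩ i
    -- coordinates of `h'` in the basis
    have h1 : (∑ i, r i • b i : H) = ℓ • (⟨h', hh'⟩ : H) := by
      apply Subtype.ext
      simp only [Submodule.coe_sum, Submodule.coe_smul]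
      exact hr
    have h2 := congrArg (fun z => b.repr z i) h1
    simp only [map_sum, map_smul, Module.Basis.repr_self, Finsupp.smul_apply, smul_eq_mul,
      Finsupp.coe_finsetSum, Finset.sum_apply, Finsupp.single_apply, mul_ite, mul_one, mul_zero,
      Finset.sum_ite_eq', Finset.mem_univ, if_true] at h2
    exact ⟨_, h2⟩
  have hdvd := D.coeff_dvd (fun i => (b i : Λ)) (fun i => (b i).2) hind w ⟨v, hw⟩
  choose x hx using hdvd
  have : ℓ • v = ℓ • ∑ i, x i • (b i : Λ) := by
    rw [← hw, Finset.smul_sum]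
    refine Finset.sum_congr rfl fun i _ => ?_
    rw [hx i, mul_smul, algebraMap_smul]
  have h0 : ℓ • (v - ∑ i, x i • (b i : Λ)) = 0 := by rw [smul_sub, this, sub_self]
  have := tf _ h0
  rw [sub_eq_zero] at this
  rw [this]
  exact Submodule.sum_mem _ fun i _ => Submodule.smul_mem _ _ (Submodule.subset_span ⟨i, rfl⟩)

/-- **the descent**: if some power of `ℓ` carries `Λ` into `W • H`, then `W • H = Λ` -/
theorem Datum.span_eq_top (D : Datum ℓ q σ Φ H) (tf : ∀ v : Λ, ℓ • v = 0 → v = 0)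
    {ι : Type*} [Fintype ι] (b : Module.Basis ι R H) (M : ℕ)
    (hM : ∀ v : Λ, ℓ ^ M • v ∈ span W (Set.range fun i => (b i : Λ))) :
    span W (Set.range fun i => (b i : Λ)) = ⊤ := by
  rw [eq_top_iff]
  rintro v -
  have key : ∀ (m : ℕ) (v : Λ), ℓ ^ m • v ∈ span W (Set.range fun i => (b i : Λ)) →
      v ∈ span W (Set.range fun i => (b i : Λ)) := by
    intro m
    induction m with
    | zero => intro v hv; simpa using hv
    | succ m ih =>
      intro v hv
      refine ih v (D.saturated tf b _ ?_)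
      rw [← mul_smul, ← pow_succ']
      exact hv
  exact key M v (hM v)

end Fermat.Agent.S19.FrobDescent
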