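import Mathlib
import Fermat.Agent.S19.Artin
import Fermat.Agent.S19.FrobDescent

/-!
S19 scratch (helper16): THE BACK END of the finite-level route, abstractly.

`R → W → K` rings (think `ℤ_(ℓ) → W(A) → ℚ̄`), `Γ` a group acting on the field `K`, `T` a finite
abelian group with an additive action `ρ` of `Γ`.  Given a `W`-order `HW ⊆ Map(T, K)` (finite over
`W`, `I`-equivariant, Frobenius-stable, separating, comultiplication-closed), the `R`-algebra
`H := HW ∩ {Γ-equivariant functions}` is a "Hopf order": finite over `R`, equivariant, separating,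
comultiplication-closed and stable under `f ↦ f ∘ neg`.
-/

set_option autoImplicit false
set_option linter.unusedSectionVars false

namespace Fermat.Agent.S19.BackEnd

open Submodule Fermat.Agent.S19.Artin Fermat.Agent.S19.FrobDescent

section General

variable {K : Type*} [Field K] {T : Type*} [Finite T]

/-- a multiplicatively closed set of functions which contains `1` and separates the points of the
finite set `T` contains a `K`-basis of `T → K` -/
theorem exists_basis_of_separates (S : Set (T → K)) (h1 : (1 : T → K) ∈ S)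
    (hmul : ∀ f g, f ∈ S → g ∈ S → f * g ∈ S)
    (hsep : ∀ s t : T, s ≠ t → ∃ f ∈ S, f s ≠ f t) :
    ∃ b : Set (T → K), b ⊆ S ∧ b.Finite ∧ LinearIndependent K (Subtype.val : b → T → K) ∧
      span K b = ⊤ := by
  classical
  cases nonempty_fintype T
  let M : Submonoid (T → K) := { carrier := S, mul_mem' := fun {f g} hf hg => hmul f g hf hg,
                                  one_mem' := h1 }
  have htop : Algebra.adjoin K S = ⊤ := by
    apply subalgebra_eq_top_of_separates
    intro s t hst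
    obtain ⟨f, hf, hne⟩ := hsep s t hst
    exact ⟨f, Algebra.subset_adjoin hf, hne⟩
  have hspan : span K S = ⊤ := by
    have h2 := Algebra.adjoin_eq_span (R := K) (s := S)
    have h3 : (Submonoid.closure S : Set (T → K)) = S := by
      have := Submonoid.closure_eq M
      exact congrArg (fun N : Submonoid (T → K) => (N : Set (T → K))) this
    rw [h3, htop] at h2
    rw [← h2]
    rfl
  obtain ⟨b, hbS, hbspan, hbli⟩ := exists_linearIndependent K S
  exact ⟨b, hbS, hbli.setFinite, hbli, by rw [hbspan, hspan]⟩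

end General

section Main

variable {R W K Γ T : Type*} [CommRing R] [IsDomain R] [IsPrincipalIdealRing R]
  [CommRing W] [Field K] [Algebra R W] [Algebra W K] [Algebra R K] [IsScalarTower R W K]
  [Group Γ] [MulSemiringAction Γ K] [AddCommGroup T]

/-- equivariance under a subgroup -/
def EquivOn (I : Subgroup Γ) (ρ : Γ → T → T) (f : T → K) : Prop :=
  ∀ τ ∈ I, ∀ t, f (ρ τ t) = τ • f t

/-- the abstract frame: `R → W → K`, the action, the inertia group, one Frobenius element -/
structure Frame (ρ : Γ → T → T) (ℓ : R) (q : ℕ) (σ : Γ) (σW : W →+* W) (I : Subgroup Γ) :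
    Prop where
  ρ_add : ∀ τ s t, ρ τ (s + t) = ρ τ s + ρ τ t
  ρ_mul : ∀ τ τ' t, ρ (τ * τ') t = ρ τ (ρ τ' t)
  ρ_one : ∀ t, ρ 1 t = t
  injR : Function.Injective (algebraMap R K)
  injW : Function.Injective (algebraMap W K)
  ℓ_ne : ℓ ≠ 0
  /-- `Γ` fixes `R` -/
  fixR : ∀ (τ : Γ) (r : R), τ • algebraMap R K r = algebraMap R K r
  /-- the `Γ`-fixed elements of `K` are fractions of `R` -/
  fixed_frac : ∀ x : K, (∀ τ : Γ, τ • x = x) →
    ∃ r s : R, s ≠ 0 ∧ algebraMap R K s * x = algebraMap R K r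
  /-- `W ∩ K^Γ = R` -/
  fixed_W : ∀ w : W, (∀ τ : Γ, τ • algebraMap W K w = algebraMap W K w) →
    ∃ r : R, algebraMap R W r = w
  /-- the `I`-fixed elements of `K` have bounded `ℓ`-denominators in `W` -/
  inertia : ∀ x : K, (∀ τ ∈ I, τ • x = x) →
    ∃ (M : ℕ) (w : W), algebraMap R K ℓ ^ M * x = algebraMap W K w
  /-- `σ` preserves `W` -/
  σW_spec : ∀ w : W, algebraMap W K (σW w) = σ • algebraMap W K w
  /-- `σ` lifts the `q`-Frobenius of `W/ℓ` -/
  σ_frob : ∀ w : W, algebraMap R W ℓ ∣ σW w - w ^ q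
  /-- the Frobenius-fixed residues come from `R` -/
  frob_fixed : ∀ w : W, algebraMap R W ℓ ∣ w ^ q - w →
    ∃ r : R, algebraMap R W ℓ ∣ w - algebraMap R W r
  /-- `W/ℓ` is a field -/
  unit_mod : ∀ w : W, ¬ algebraMap R W ℓ ∣ w → ∃ u : W, algebraMap R W ℓ ∣ u * w - 1
  /-- Galois descent for the finite `Γ`-set `T`: equivariant functions separate the points -/
  sepA0 : ∀ s t : T, s ≠ t → ∃ f : T → K, Equivariant ρ f ∧ f s ≠ f t

/-- a `W`-order in `Map(T, K)` -/
structure WOrder (ρ : Γ → T → T) (σ : Γ) (I : Subgroup Γ) (HW : Subalgebra W (T → K)) :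
    Prop where
  fg : (Subalgebra.toSubmodule HW).FG
  equivI : ∀ f ∈ HW, EquivOn I ρ f
  frob : ∀ f ∈ HW, (fun t => σ • f (ρ σ⁻¹ t)) ∈ HW
  sep : ∀ s t : T, s ≠ t → ∃ f ∈ HW, f s ≠ f t
  comul : ∀ f ∈ HW, ∃ (n : ℕ) (a b : Fin n → T → K), (∀ i, a i ∈ HW) ∧ (∀ i, b i ∈ HW) ∧
    ∀ s t, f (s + t) = ∑ i, a i s * b i t

/-- the output contract ("Hopf order" at function level) -/
structure IsHopfOrderFn (ρ : Γ → T → T) (H : Subalgebra R (T → K)) : Prop where
  fg : Module.Finite R H
  equiv : ∀ f ∈ H, Equivariant ρ f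
  sep : ∀ s t : T, s ≠ t → ∃ f ∈ H, f s ≠ f t
  comul : ∀ f ∈ H, ∃ (n : ℕ) (a b : Fin n → T → K), (∀ i, a i ∈ H) ∧ (∀ i, b i ∈ H) ∧
    ∀ s t, f (s + t) = ∑ i, a i s * b i t
  neg : ∀ f ∈ H, (fun t => f (-t)) ∈ H

variable {ρ : Γ → T → T} {ℓ : R} {q : ℕ} {σ : Γ} {σW : W →+* W} {I : Subgroup Γ}

theorem Frame.ρ_apply_inv (F : Frame (K := K) ρ ℓ q σ σW I) (τ : Γ) (t : T) :
    ρ τ (ρ τ⁻¹ t) = t := by
  rw [← F.ρ_mul, mul_inv_cancel, F.ρ_one]

theorem Frame.ρ_surj (F : Frame (K := K) ρ ℓ q σ σW I) (τ : Γ) : Function.Surjective (ρ τ) :=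
  fun t => ⟨ρ τ⁻¹ t, F.ρ_apply_inv τ t⟩

theorem Frame.L_ne (F : Frame (K := K) ρ ℓ q σ σW I) : algebraMap R K ℓ ≠ 0 := fun h =>
  F.ℓ_ne (F.injR (by rw [h, map_zero]))

/-- the descended algebra: the equivariant elements of `HW` -/
def descend (F : Frame (K := K) ρ ℓ q σ σW I) (HW : Subalgebra W (T → K)) :
    Subalgebra R (T → K) where
  carrier := {f | f ∈ HW ∧ Equivariant ρ f}
  mul_mem' := fun {f g} hf hg => ⟨HW.mul_mem hf.1 hg.1, hf.2.mul hg.2⟩
  add_mem' := fun {f g} hf hg => ⟨HW.add_mem hf.1 hg.1, hf.2.add hg.2⟩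
  algebraMap_mem' := fun r => by
    refine ⟨?_, fun τ t => ?_⟩
    · have : algebraMap R (T → K) r = algebraMap W (T → K) (algebraMap R W r) := by
        funext t
        simp only [Pi.algebraMap_apply]
        exact IsScalarTower.algebraMap_apply R W K r
      rw [this]
      exact HW.algebraMap_mem _
    · simp only [Pi.algebraMap_apply]
      exact (F.fixR τ r).symm

theorem mem_descend (F : Frame (K := K) ρ ℓ q σ σW I) (HW : Subalgebra W (T → K)) (f : T → K) :
    f ∈ descend F HW ↔ f ∈ HW ∧ Equivariant ρ f := Iff.rfl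

end Main

section Lemmas

variable {R W K Γ T : Type*} [CommRing R] [IsDomain R] [IsPrincipalIdealRing R]
  [CommRing W] [Field K] [Algebra R W] [Algebra W K] [Algebra R K] [IsScalarTower R W K]
  [Group Γ] [MulSemiringAction Γ K] [AddCommGroup T] [Finite T]
variable {ρ : Γ → T → T} {ℓ : R} {q : ℕ} {σ : Γ} {σW : W →+* W} {I : Subgroup Γ}

/-- indexed form of `exists_basis_of_separates` -/
theorem exists_indexed_basis (S : Set (T → K)) (h1 : (1 : T → K) ∈ S)
    (hmul : ∀ f g, f ∈ S → g ∈ S → f * g ∈ S)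
    (hsep : ∀ s t : T, s ≠ t → ∃ f ∈ S, f s ≠ f t) :
    ∃ (n : ℕ) (e : Fin n → T → K), (∀ i, e i ∈ S) ∧ LinearIndependent K e ∧
      ∀ f : T → K, ∃ x : Fin n → K, f = ∑ i, x i • e i := by
  classical
  obtain ⟨b, hbS, hfin, hli, hspan⟩ := exists_basis_of_separates S h1 hmul hsep
  have := hfin.fintype
  let eq := Fintype.equivFin ↥b
  refine ⟨Fintype.card ↥b, fun i => ((eq.symm i : ↥b) : T → K), fun i => hbS (eq.symm i).2,
    hli.comp eq.symm eq.symm.injective, fun f => ?_⟩
  have hr : Set.range (fun i => ((eq.symm i : ↥b) : T → K)) = b := by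
    ext g
    constructor
    · rintro ⟨i, rfl⟩
      exact (eq.symm i).2
    · intro hg
      exact ⟨eq ⟨g, hg⟩, by simp⟩
  have hf : f ∈ span K (Set.range (fun i => ((eq.symm i : ↥b) : T → K))) := by
    rw [hr, hspan]; trivial
  obtain ⟨x, hx⟩ := (Submodule.mem_span_range_iff_exists_fun K).1 hf
  exact ⟨x, hx.symm⟩

omit [Finite T] in
/-- coordinates of an `I`-equivariant function in an `I`-equivariant basis are `I`-fixed -/
theorem coord_fixed_on {n : ℕ} {e : Fin n → T → K} (he : LinearIndependent K e)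
    (heI : ∀ i, EquivOn I ρ (e i)) (hρ : ∀ τ, Function.Surjective (ρ τ)) (x : Fin n → K)
    (hf : EquivOn I ρ (∑ i, x i • e i)) : ∀ i, ∀ τ ∈ I, τ • x i = x i := fun i τ hτ =>
  coord_fixed he x τ (hρ τ) (fun i t => heI i τ hτ t) (fun t => hf τ hτ t) i

omit [Finite T] in
/-- bounded denominators -/
theorem exists_pow_coeff (F : Frame (K := K) ρ ℓ q σ σW I) {n : ℕ} (x : Fin n → K)
    (hx : ∀ i, ∀ τ ∈ I, τ • x i = x i) :
    ∃ (M : ℕ) (w : Fin n → W), ∀ i, algebraMap R K ℓ ^ M * x i = algebraMap W K (w i) := by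
  classical
  choose Mi wi hw using fun i => F.inertia (x i) (hx i)
  refine ⟨Finset.univ.sup Mi, fun i => algebraMap R W ℓ ^ (Finset.univ.sup Mi - Mi i) * wi i,
    fun i => ?_⟩
  have hle : Mi i ≤ Finset.univ.sup Mi := Finset.le_sup (Finset.mem_univ i)
  rw [map_mul, map_pow, ← hw i, ← IsScalarTower.algebraMap_apply R W K, ← mul_assoc,
    ← pow_add, Nat.sub_add_cancel hle]

omit [Finite T] [IsDomain R] [IsPrincipalIdealRing R] in
theorem smul_fun_eq (w : W) (g : T → K) : w • g = (algebraMap W K w) • g := by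
  funext t
  simp only [Pi.smul_apply, Algebra.smul_def, Algebra.algebraMap_self_apply]

omit [Finite T] [IsDomain R] [IsPrincipalIdealRing R] in
theorem smul_fun_eq' (r : R) (g : T → K) : r • g = (algebraMap R K r) • g := by
  funext t
  simp only [Pi.smul_apply, Algebra.smul_def, Algebra.algebraMap_self_apply]

omit [Finite T] [IsDomain R] [IsPrincipalIdealRing R] in
theorem smul_fun_eq'' (r : R) (g : T → K) : r • g = (algebraMap R W r) • g := by
  funext t
  simp only [Pi.smul_apply, Algebra.smul_def, ← IsScalarTower.algebraMap_apply R W K]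

end Lemmas

section Descent

variable {R W K Γ T : Type*} [CommRing R] [IsDomain R] [IsPrincipalIdealRing R]
  [CommRing W] [Field K] [Algebra R W] [Algebra W K] [Algebra R K] [IsScalarTower R W K]
  [Group Γ] [MulSemiringAction Γ K] [AddCommGroup T] [Finite T]
variable {ρ : Γ → T → T} {ℓ : R} {q : ℕ} {σ : Γ} {σW : W →+* W} {I : Subgroup Γ}
variable {HW : Subalgebra W (T → K)}

omit [IsDomain R] [IsPrincipalIdealRing R] [Finite T] in
theorem smul_mem_HW (r : R) {f : T → K} (hf : f ∈ HW) : r • f ∈ HW := by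
  rw [smul_fun_eq'' (W := W)]
  exact HW.smul_mem hf _

/-- an `I`-equivariant function has a multiple `ℓ^M f` in `HW` -/
theorem exists_pow_smul_mem (F : Frame (K := K) ρ ℓ q σ σW I) (O : WOrder ρ σ I HW)
    (f : T → K) (hf : EquivOn I ρ f) : ∃ M : ℕ, ℓ ^ M • f ∈ HW := by
  obtain ⟨n, h, hhHW, hli, hspan⟩ := exists_indexed_basis (HW : Set (T → K)) HW.one_mem
    (fun f g hf hg => HW.mul_mem hf hg) O.sep
  obtain ⟨x, hx⟩ := hspan f
  have hxI := coord_fixed_on hli (fun i => O.equivI _ (hhHW i)) F.ρ_surj x (hx ▸ hf)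
  obtain ⟨M, w, hw⟩ := exists_pow_coeff F x hxI
  refine ⟨M, ?_⟩
  have : ℓ ^ M • f = ∑ i, w i • h i := by
    rw [hx, Finset.smul_sum]
    refine Finset.sum_congr rfl fun i _ => ?_
    rw [smul_fun_eq (w i), ← hw i, smul_fun_eq', smul_smul, map_pow]
  rw [this]
  exact HW.sum_mem fun i _ => HW.smul_mem (hhHW i) _

/-- uniformly bounded denominators of `HW` with respect to an equivariant basis -/
theorem exists_uniform_pow (F : Frame (K := K) ρ ℓ q σ σW I) (O : WOrder ρ σ I HW) {n : ℕ}
    (e : Fin n → T → K) (heq : ∀ i, Equivariant ρ (e i)) (hli : LinearIndependent K e)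
    (hspan : ∀ f : T → K, ∃ x : Fin n → K, f = ∑ i, x i • e i) :
    ∃ M : ℕ, ∀ f ∈ HW, ∃ w : Fin n → W, ℓ ^ M • f = ∑ i, w i • e i := by
  classical
  have pointwise : ∀ f : T → K, f ∈ HW → ∃ (M : ℕ) (w : Fin n → W),
      ℓ ^ M • f = ∑ i, w i • e i := by
    intro f hf
    obtain ⟨x, hx⟩ := hspan f
    have hxI := coord_fixed_on hli (fun i τ _ t => heq i τ t) F.ρ_surj x (hx ▸ O.equivI f hf)
    obtain ⟨M, w, hw⟩ := exists_pow_coeff F x hxI
    refine ⟨M, w, ?_⟩
    rw [hx, Finset.smul_sum]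
    refine Finset.sum_congr rfl fun i _ => ?_
    rw [smul_fun_eq (w i), ← hw i, smul_fun_eq', smul_smul, map_pow]
  choose! Mf wf hMf using pointwise
  let Sub : ℕ → Submodule W (T → K) := fun M =>
    { carrier := {f | ∃ w : Fin n → W, ℓ ^ M • f = ∑ i, w i • e i}
      add_mem' := by
        rintro f g ⟨w, hw⟩ ⟨w', hw'⟩
        refine ⟨w + w', ?_⟩
        rw [smul_add, hw, hw', ← Finset.sum_add_distrib]
        exact Finset.sum_congr rfl fun i _ => (add_smul _ _ _).symm
      zero_mem' := ⟨0, by simp⟩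
      smul_mem' := by
        rintro c f ⟨w, hw⟩
        refine ⟨fun i => c * w i, ?_⟩
        rw [smul_comm, hw, Finset.smul_sum]
        exact Finset.sum_congr rfl fun i _ => (mul_smul _ _ _).symm }
  have hmono : ∀ M M', M ≤ M' → Sub M ≤ Sub M' := by
    rintro M M' hle f ⟨w, hw⟩
    refine ⟨fun i => algebraMap R W (ℓ ^ (M' - M)) * w i, ?_⟩
    have : ℓ ^ M' • f = ℓ ^ (M' - M) • ℓ ^ M • f := by
      rw [smul_smul, ← pow_add, Nat.sub_add_cancel hle]
    rw [this, hw, Finset.smul_sum]
    refine Finset.sum_congr rfl fun i _ => ?_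
    rw [mul_smul, smul_fun_eq'' (W := W)]
  obtain ⟨G, hG⟩ := O.fg
  refine ⟨G.sup Mf, fun f hf => ?_⟩
  have hle : span W (G : Set (T → K)) ≤ Sub (G.sup Mf) := by
    rw [span_le]
    intro g hg
    have hgHW : g ∈ HW := by
      have : g ∈ span W (G : Set (T → K)) := subset_span hg
      rw [hG] at this
      exact this
    exact hmono _ _ (Finset.le_sup hg) ⟨wf g, hMf g hgHW⟩
  have : f ∈ span W (G : Set (T → K)) := by rw [hG]; exact hf
  exact hle this

end Descent

section DatumSec

variable {R W K Γ T : Type*} [CommRing R] [IsDomain R] [IsPrincipalIdealRing R]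
  [CommRing W] [Field K] [Algebra R W] [Algebra W K] [Algebra R K] [IsScalarTower R W K]
  [Group Γ] [MulSemiringAction Γ K] [AddCommGroup T] [Finite T]
variable {ρ : Γ → T → T} {ℓ : R} {q : ℕ} {σ : Γ} {σW : W →+* W} {I : Subgroup Γ}
variable {HW : Subalgebra W (T → K)}

/-- the lattice `Λ = HW` as a `W`-module -/
abbrev Lam (HW : Subalgebra W (T → K)) : Submodule W (T → K) := Subalgebra.toSubmodule HW

/-- the Frobenius-semilinear endomorphism of `HW` -/
def frobΦ (O : WOrder ρ σ I HW) : ↥(Lam HW) →+ ↥(Lam HW) where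
  toFun v := ⟨fun t => σ • (v : T → K) (ρ σ⁻¹ t), O.frob _ v.2⟩
  map_zero' := by
    apply Subtype.ext
    funext t
    simp
  map_add' u v := by
    apply Subtype.ext
    funext t
    simp [smul_add]

theorem frobΦ_apply (O : WOrder ρ σ I HW) (v : ↥(Lam HW)) (t : T) :
    ((frobΦ O v : ↥(Lam HW)) : T → K) t = σ • (v : T → K) (ρ σ⁻¹ t) := rfl

/-- the equivariant elements of `HW`, as an `R`-submodule of `Λ` -/
def Hsub (F : Frame (K := K) ρ ℓ q σ σW I) (HW : Subalgebra W (T → K)) :
    Submodule R ↥(Lam HW) where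
  carrier := {v | Equivariant ρ (v : T → K)}
  add_mem' := fun {u v} hu hv => by
    have : Equivariant ρ ((u : T → K) + (v : T → K)) := Equivariant.add hu hv
    exact this
  zero_mem' := by
    have : Equivariant ρ (0 : T → K) := Equivariant.zero
    exact this
  smul_mem' := fun r v hv => by
    have h1 : ((r • v : ↥(Lam HW)) : T → K) = (algebraMap R K r) • (v : T → K) := by
      rw [← smul_fun_eq']; rfl
    show Equivariant ρ ((r • v : ↥(Lam HW)) : T → K)
    rw [h1]
    exact Equivariant.const_smul hv (fun τ => F.fixR τ r)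

theorem mem_Hsub (F : Frame (K := K) ρ ℓ q σ σW I) (v : ↥(Lam HW)) :
    v ∈ Hsub F HW ↔ Equivariant ρ (v : T → K) := Iff.rfl

theorem coe_smul_Lam (r : R) (v : ↥(Lam HW)) (t : T) :
    ((r • v : ↥(Lam HW)) : T → K) t = algebraMap R K r * (v : T → K) t := by
  show (r • (v : T → K)) t = _
  rw [smul_fun_eq']; rfl

theorem coe_smul_Lam' (w : W) (v : ↥(Lam HW)) (t : T) :
    ((w • v : ↥(Lam HW)) : T → K) t = algebraMap W K w * (v : T → K) t := by
  show (w • (v : T → K)) t = _
  rw [smul_fun_eq]; rfl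

/-- the descent datum -/
theorem datum (F : Frame (K := K) ρ ℓ q σ σW I) (O : WOrder ρ σ I HW) :
    Datum ℓ q σW (frobΦ O) (Hsub F HW) where
  unit_mod := F.unit_mod
  σ_R := fun r => F.injW (by
    rw [F.σW_spec, ← IsScalarTower.algebraMap_apply R W K, F.fixR])
  σ_frob := F.σ_frob
  fixed := F.frob_fixed
  Φ_smul := fun w v => by
    apply Subtype.ext
    funext t
    rw [frobΦ_apply, coe_smul_Lam', coe_smul_Lam', frobΦ_apply, smul_mul', F.σW_spec]
  Φ_H := fun h hh => by
    apply Subtype.ext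
    funext t
    rw [frobΦ_apply, ← hh σ (ρ σ⁻¹ t), F.ρ_apply_inv]
  pure := by
    rintro h hh ⟨v, rfl⟩
    refine ⟨v, ?_, rfl⟩
    intro τ t
    have h1 := hh τ t
    rw [coe_smul_Lam, coe_smul_Lam, smul_mul', F.fixR] at h1
    exact mul_left_cancel₀ F.L_ne h1

theorem torsionFree_Lam (F : Frame (K := K) ρ ℓ q σ σW I) (v : ↥(Lam HW)) (hv : ℓ • v = 0) :
    v = 0 := by
  apply Subtype.ext
  funext t
  have h1 : ((ℓ • v : ↥(Lam HW)) : T → K) t = 0 := by rw [hv]; rfl
  rw [coe_smul_Lam] at h1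
  exact (mul_eq_zero.1 h1).resolve_left F.L_ne

end DatumSec

section Final

variable {R W K Γ T : Type*} [CommRing R] [IsDomain R] [IsPrincipalIdealRing R]
  [CommRing W] [Field K] [Algebra R W] [Algebra W K] [Algebra R K] [IsScalarTower R W K]
  [Group Γ] [MulSemiringAction Γ K] [AddCommGroup T] [Finite T]
variable {ρ : Γ → T → T} {ℓ : R} {q : ℕ} {σ : Γ} {σW : W →+* W} {I : Subgroup Γ}
variable {HW : Subalgebra W (T → K)}

/-- the underlying function of an element of `Hsub`, as an `R`-linear map -/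
def toFn (F : Frame (K := K) ρ ℓ q σ σW I) (HW : Subalgebra W (T → K)) :
    ↥(Hsub F HW) →ₗ[R] (T → K) :=
  ((Lam HW).subtype.restrictScalars R) ∘ₗ (Hsub F HW).subtype

theorem toFn_apply (F : Frame (K := K) ρ ℓ q σ σW I) (v : ↥(Hsub F HW)) :
    toFn F HW v = ((v : ↥(Lam HW)) : T → K) := rfl

theorem toFn_injective (F : Frame (K := K) ρ ℓ q σ σW I) :
    Function.Injective (toFn F HW) := fun _ _ h =>
  Subtype.ext (Subtype.ext h)

theorem toFn_mem (F : Frame (K := K) ρ ℓ q σ σW I) (v : ↥(Hsub F HW)) : toFn F HW v ∈ HW :=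
  (v : ↥(Lam HW)).2

theorem toFn_equiv (F : Frame (K := K) ρ ℓ q σ σW I) (v : ↥(Hsub F HW)) :
    Equivariant ρ (toFn F HW v) := v.2

theorem exists_toFn_eq (F : Frame (K := K) ρ ℓ q σ σW I) (f : T → K) (hf : f ∈ HW)
    (hfe : Equivariant ρ f) : ∃ v : ↥(Hsub F HW), toFn F HW v = f :=
  ⟨⟨⟨f, hf⟩, hfe⟩, rfl⟩

theorem smul_ne_zero_fn (F : Frame (K := K) ρ ℓ q σ σW I) {r : R} (hr : r ≠ 0) {f : T → K}
    (hf : r • f = 0) : f = 0 := by
  funext t
  have h1 := congrFun hf t
  rw [smul_fun_eq'] at h1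
  simp only [Pi.smul_apply, smul_eq_mul, Pi.zero_apply] at h1
  exact (mul_eq_zero.1 h1).resolve_left fun h => hr (F.injR (by rw [h, map_zero]))

/-- `Hsub` is a finite `R`-module (bounded denominators) -/
theorem finite_Hsub (F : Frame (K := K) ρ ℓ q σ σW I) (O : WOrder ρ σ I HW) :
    Module.Finite R ↥(Hsub F HW) := by
  classical
  obtain ⟨n, e, heq, hli, hspan⟩ := exists_indexed_basis {f : T → K | Equivariant ρ f}
    Equivariant.one (fun f g hf hg => Equivariant.mul hf hg) (fun s t hst => F.sepA0 s t hst)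
  obtain ⟨M, hM⟩ := exists_uniform_pow F O e heq hli hspan
  let E : Submodule R (T → K) := span R (Set.range e)
  have hEfg : E.FG := fg_span (Set.finite_range e)
  have : IsNoetherian R E := isNoetherian_of_fg_of_noetherian E hEfg
  have hmem : ∀ v : ↥(Hsub F HW), ℓ ^ M • toFn F HW v ∈ E := by
    intro v
    obtain ⟨w, hw⟩ := hM _ (toFn_mem F v)
    have hfix : ∀ i, ∀ τ : Γ, τ • algebraMap W K (w i) = algebraMap W K (w i) := by
      have heqv : Equivariant ρ (∑ i, (algebraMap W K (w i)) • e i) := by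
        have : (∑ i, (algebraMap W K (w i)) • e i) = ℓ ^ M • toFn F HW v := by
          rw [hw]; exact Finset.sum_congr rfl fun i _ => (smul_fun_eq _ _).symm
        rw [this, smul_fun_eq']
        exact Equivariant.const_smul (toFn_equiv F v) (fun τ => F.fixR τ _)
      intro i τ
      exact coord_fixed hli (fun i => algebraMap W K (w i)) τ (F.ρ_surj τ)
        (fun i t => heq i τ t) (fun t => heqv τ t) i
    choose r hr using fun i => F.fixed_W (w i) (hfix i)
    rw [hw]
    refine E.sum_mem fun i _ => ?_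
    rw [← hr i, ← smul_fun_eq'' (W := W)]
    exact E.smul_mem _ (subset_span ⟨i, rfl⟩)
  let φ : ↥(Hsub F HW) →ₗ[R] E :=
    LinearMap.codRestrict E ((LinearMap.lsmul R (T → K) (ℓ ^ M)) ∘ₗ toFn F HW) hmem
  refine Module.Finite.of_injective φ ?_
  intro u v huv
  have h1 : ℓ ^ M • toFn F HW u = ℓ ^ M • toFn F HW v := congrArg Subtype.val huv
  apply toFn_injective F
  have h2 : ℓ ^ M • (toFn F HW u - toFn F HW v) = 0 := by rw [smul_sub, h1, sub_self]
  exact sub_eq_zero.1 (smul_ne_zero_fn F (pow_ne_zero M F.ℓ_ne) h2)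

theorem torsionFree_Hsub (F : Frame (K := K) ρ ℓ q σ σW I) :
    Module.IsTorsionFree R ↥(Hsub F HW) := by
  refine (Module.isTorsionFree_iff_smul_eq_zero (R := R) (M := ↥(Hsub F HW))).2 ?_
  intro r v hrv
  by_cases hr : r = 0
  · exact Or.inl hr
  · right
    apply toFn_injective F
    rw [map_zero]
    apply smul_ne_zero_fn F hr
    rw [← map_smul, hrv, map_zero]

end Final

section Basis

variable {R W K Γ T : Type*} [CommRing R] [IsDomain R] [IsPrincipalIdealRing R]
  [CommRing W] [Field K] [Algebra R W] [Algebra W K] [Algebra R K] [IsScalarTower R W K]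
  [Group Γ] [MulSemiringAction Γ K] [AddCommGroup T] [Finite T]
variable {ρ : Γ → T → T} {ℓ : R} {q : ℕ} {σ : Γ} {σW : W →+* W} {I : Subgroup Γ}
variable {HW : Subalgebra W (T → K)}

/-- **the descent**: an `R`-basis of the equivariant elements of `HW` which is a `W`-basis of `HW`
and `K`-linearly independent -/
theorem exists_good_basis (F : Frame (K := K) ρ ℓ q σ σW I) (O : WOrder ρ σ I HW) :
    ∃ (n : ℕ) (β : Fin n → T → K),
      (∀ i, β i ∈ HW) ∧ (∀ i, Equivariant ρ (β i)) ∧
      (∀ f ∈ HW, Equivariant ρ f → ∃ r : Fin n → R, f = ∑ i, r i • β i) ∧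
      (∀ f ∈ HW, ∃ w : Fin n → W, f = ∑ i, w i • β i) ∧
      LinearIndependent K β := by
  classical
  have := finite_Hsub F O
  have := torsionFree_Hsub (HW := HW) F
  obtain ⟨n, bas⟩ := Module.basisOfFiniteTypeTorsionFree' (R := R) (M := ↥(Hsub F HW))
  let β : Fin n → T → K := fun i => toFn F HW (bas i)
  have hβmem : ∀ i, β i ∈ HW := fun i => toFn_mem F (bas i)
  have hβeq : ∀ i, Equivariant ρ (β i) := fun i => toFn_equiv F (bas i)
  have hR : ∀ f ∈ HW, Equivariant ρ f → ∃ r : Fin n → R, f = ∑ i, r i • β i := by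
    intro f hf hfe
    obtain ⟨v, rfl⟩ := exists_toFn_eq F f hf hfe
    refine ⟨fun i => bas.repr v i, ?_⟩
    conv_lhs => rw [← bas.sum_repr v]
    rw [map_sum]
    exact Finset.sum_congr rfl fun i _ => map_smul _ _ _
  -- the `W`-span
  have hspanW : span W (Set.range fun i => ((bas i : ↥(Hsub F HW)) : ↥(Lam HW))) = ⊤ := by
    obtain ⟨m, e, heq, hli, hspan⟩ := exists_indexed_basis {f : T → K | Equivariant ρ f}
      Equivariant.one (fun f g hf hg => Equivariant.mul hf hg) (fun s t hst => F.sepA0 s t hst)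
    obtain ⟨M1, hM1⟩ := exists_uniform_pow F O e heq hli hspan
    choose M2i hM2i using fun i => exists_pow_smul_mem F O (e i) (fun τ _ t => heq i τ t)
    have hM2 : ∀ i, ℓ ^ (Finset.univ.sup M2i) • e i ∈ HW := by
      intro i
      have hle : M2i i ≤ Finset.univ.sup M2i := Finset.le_sup (Finset.mem_univ i)
      have : ℓ ^ (Finset.univ.sup M2i) • e i =
          ℓ ^ (Finset.univ.sup M2i - M2i i) • ℓ ^ (M2i i) • e i := by
        rw [smul_smul, ← pow_add, Nat.sub_add_cancel hle]
      rw [this]; exact smul_mem_HW _ (hM2i i)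
    refine (datum F O).span_eq_top (torsionFree_Lam F) bas (M1 + Finset.univ.sup M2i) ?_
    intro v
    obtain ⟨w, hw⟩ := hM1 _ v.2
    have hE : ∀ i, Equivariant ρ (ℓ ^ (Finset.univ.sup M2i) • e i) := fun i => by
      rw [smul_fun_eq']; exact (heq i).const_smul (fun τ => F.fixR τ _)
    let ε : Fin m → ↥(Hsub F HW) := fun i => ⟨⟨ℓ ^ (Finset.univ.sup M2i) • e i, hM2 i⟩, hE i⟩
    have hεmem : ∀ i, ((ε i : ↥(Hsub F HW)) : ↥(Lam HW)) ∈
        span W (Set.range fun i => ((bas i : ↥(Hsub F HW)) : ↥(Lam HW))) := by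
      intro i
      have h1 : (ε i) = ∑ j, bas.repr (ε i) j • bas j := (bas.sum_repr (ε i)).symm
      have h2 : ((ε i : ↥(Hsub F HW)) : ↥(Lam HW)) = ∑ j, (algebraMap R W (bas.repr (ε i) j)) •
          ((bas j : ↥(Hsub F HW)) : ↥(Lam HW)) := by
        conv_lhs => rw [h1]
        rw [Submodule.coe_sum]
        refine Finset.sum_congr rfl fun j _ => ?_
        rw [Submodule.coe_smul, algebraMap_smul]
      rw [h2]
      exact Submodule.sum_mem _ fun j _ => Submodule.smul_mem _ _ (subset_span ⟨j, rfl⟩)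
    have hv : ℓ ^ (M1 + Finset.univ.sup M2i) • v =
        ∑ i, w i • ((ε i : ↥(Hsub F HW)) : ↥(Lam HW)) := by
      apply Subtype.ext
      rw [Submodule.coe_sum]
      have h3 : ((ℓ ^ (M1 + Finset.univ.sup M2i) • v : ↥(Lam HW)) : T → K) =
          ℓ ^ (Finset.univ.sup M2i) • ℓ ^ M1 • (v : T → K) := by
        rw [smul_smul, ← pow_add, add_comm]; rfl
      rw [h3, hw, Finset.smul_sum]
      refine Finset.sum_congr rfl fun i _ => ?_
      rw [smul_comm]; rfl
    rw [hv]
    exact Submodule.sum_mem _ fun i _ => Submodule.smul_mem _ _ (hεmem i)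
  have hW : ∀ f ∈ HW, ∃ w : Fin n → W, f = ∑ i, w i • β i := by
    intro f hf
    have hmem : (⟨f, hf⟩ : ↥(Lam HW)) ∈
        span W (Set.range fun i => ((bas i : ↥(Hsub F HW)) : ↥(Lam HW))) := by
      rw [hspanW]; trivial
    obtain ⟨w, hw⟩ := (Submodule.mem_span_range_iff_exists_fun W).1 hmem
    refine ⟨w, ?_⟩
    have h1 := congrArg (fun v : ↥(Lam HW) => (v : T → K)) hw
    simp only [Submodule.coe_sum] at h1
    rw [← h1]
    rfl
  refine ⟨n, β, hβmem, hβeq, hR, hW, ?_⟩
  -- `K`-independence by Artin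
  refine linearIndependent_of_fixed β hβeq F.ρ_surj ?_
  intro x hx hrel
  choose r s hs hrs using fun i => F.fixed_frac (x i) (hx i)
  set S : R := ∏ i, s i with hS
  have hS0 : S ≠ 0 := Finset.prod_ne_zero_iff.2 fun i _ => hs i
  have hSK : algebraMap R K S ≠ 0 := fun h => hS0 (F.injR (by rw [h, map_zero]))
  set r' : Fin n → R := fun i => (∏ j ∈ Finset.univ.erase i, s j) * r i with hr'
  have hr'x : ∀ i, algebraMap R K S * x i = algebraMap R K (r' i) := by
    intro i
    rw [hr', map_mul, ← hrs i, ← mul_assoc, ← map_mul,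
      Finset.prod_erase_mul _ _ (Finset.mem_univ i)]
  have hrel' : ∑ i, r' i • bas i = 0 := by
    apply toFn_injective F
    rw [map_sum, map_zero]
    have : ∑ i, toFn F HW (r' i • bas i) = (algebraMap R K S) • ∑ i, x i • β i := by
      rw [Finset.smul_sum]
      refine Finset.sum_congr rfl fun i _ => ?_
      rw [map_smul, smul_fun_eq', ← hr'x i, mul_smul]
    rw [this, hrel, smul_zero]
  have hr'0 := Fintype.linearIndependent_iff.1 bas.linearIndependent r' hrel'
  intro i
  have h1 := hr'x i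
  rw [hr'0 i, map_zero] at h1
  exact (mul_eq_zero.1 h1).resolve_left hSK

end Basis

section MainTheorem

variable {R W K Γ T : Type*} [CommRing R] [IsDomain R] [IsPrincipalIdealRing R]
  [CommRing W] [Field K] [Algebra R W] [Algebra W K] [Algebra R K] [IsScalarTower R W K]
  [Group Γ] [MulSemiringAction Γ K] [AddCommGroup T] [Finite T]
variable {ρ : Γ → T → T} {ℓ : R} {q : ℕ} {σ : Γ} {σW : W →+* W} {I : Subgroup Γ}
variable {HW : Subalgebra W (T → K)}

omit [IsDomain R] [IsPrincipalIdealRing R] [Algebra R W] [Algebra R K] [IsScalarTower R W K]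
  [Finite T] [AddCommGroup T] [CommRing R] in
theorem sum_smul_apply {n : ℕ} (w : Fin n → W) (β : Fin n → T → K) (s : T) :
    (∑ i, w i • β i) s = ∑ i, algebraMap W K (w i) * β i s := by
  simp [Finset.sum_apply, Algebra.smul_def]

omit [IsDomain R] [IsPrincipalIdealRing R] [Algebra R W] [Algebra R K] [IsScalarTower R W K]
  [Finite T] [AddCommGroup T] [CommRing R] [CommRing W] [Algebra W K] in
/-- independence of the products `β i ⊗ β j` -/
theorem coeff_zero_of_tensor {n : ℕ} {β : Fin n → T → K} (hli : LinearIndependent K β)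
    (d : Fin n → Fin n → K) (h : ∀ s t, ∑ i, ∑ j, d i j * (β i s * β j t) = 0) :
    ∀ i j, d i j = 0 := by
  have h1 : ∀ t i, ∑ j, d i j * β j t = 0 := by
    intro t
    refine Fintype.linearIndependent_iff.1 hli (fun i => ∑ j, d i j * β j t) ?_
    funext s
    simp only [Finset.sum_apply, Pi.smul_apply, smul_eq_mul, Pi.zero_apply]
    rw [← h s t]
    refine Finset.sum_congr rfl fun i _ => ?_
    rw [Finset.sum_mul]
    refine Finset.sum_congr rfl fun j _ => ?_
    ring
  intro i
  refine Fintype.linearIndependent_iff.1 hli (fun j => d i j) ?_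
  funext t
  simp only [Finset.sum_apply, Pi.smul_apply, smul_eq_mul, Pi.zero_apply]
  exact h1 t i

/-- **BACK END**: the equivariant elements of a `W`-order form a Hopf order over `R` -/
theorem isHopfOrderFn_descend (F : Frame (K := K) ρ ℓ q σ σW I) (O : WOrder ρ σ I HW) :
    IsHopfOrderFn ρ (descend F HW) := by
  classical
  obtain ⟨n, β, hβmem, hβeq, hR, hW, hli⟩ := exists_good_basis F O
  have hβH : ∀ i, β i ∈ descend F HW := fun i => ⟨hβmem i, hβeq i⟩
  -- comultiplication
  have hcomul : ∀ f ∈ descend F HW, ∃ (m : ℕ) (a b : Fin m → T → K),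
      (∀ i, a i ∈ descend F HW) ∧ (∀ i, b i ∈ descend F HW) ∧
      ∀ s t, f (s + t) = ∑ i, a i s * b i t := by
    rintro f ⟨hfW, hfe⟩
    obtain ⟨m, a, b, ha, hb, hab⟩ := O.comul f hfW
    choose u hu using fun k => hW (a k) (ha k)
    choose v hv using fun k => hW (b k) (hb k)
    set C : Fin n → Fin n → K := fun i j => algebraMap W K (∑ k, u k i * v k j) with hC
    have hexp : ∀ s t, f (s + t) = ∑ i, ∑ j, C i j * (β i s * β j t) := by
      intro s t
      rw [hab]
      calc ∑ k, a k s * b k t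
          = ∑ k, ∑ i, ∑ j, (algebraMap W K (u k i) * algebraMap W K (v k j)) *
              (β i s * β j t) := by
            refine Finset.sum_congr rfl fun k _ => ?_
            rw [hu k, hv k, sum_smul_apply, sum_smul_apply, Finset.sum_mul_sum]
            refine Finset.sum_congr rfl fun i _ => Finset.sum_congr rfl fun j _ => ?_
            ring
        _ = ∑ i, ∑ k, ∑ j, (algebraMap W K (u k i) * algebraMap W K (v k j)) *
              (β i s * β j t) := Finset.sum_comm
        _ = ∑ i, ∑ j, ∑ k, (algebraMap W K (u k i) * algebraMap W K (v k j)) *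
              (β i s * β j t) := Finset.sum_congr rfl fun i _ => Finset.sum_comm
        _ = ∑ i, ∑ j, C i j * (β i s * β j t) := by
            refine Finset.sum_congr rfl fun i _ => Finset.sum_congr rfl fun j _ => ?_
            rw [hC]
            simp only [map_sum, map_mul, Finset.sum_mul]
    have hfix : ∀ i j (τ : Γ), τ • C i j = C i j := by
      intro i j τ
      have hrel : ∀ s' t', ∑ i, ∑ j, (τ • C i j - C i j) * (β i s' * β j t') = 0 := by
        intro s' t'
        obtain ⟨s, rfl⟩ := F.ρ_surj τ s'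
        obtain ⟨t, rfl⟩ := F.ρ_surj τ t'
        have h1 : f (ρ τ s + ρ τ t) = τ • f (s + t) := by rw [← F.ρ_add, hfe]
        rw [hexp, hexp, Finset.smul_sum] at h1
        have h2 : ∑ i, ∑ j, (τ • C i j) * (β i (ρ τ s) * β j (ρ τ t)) =
            ∑ i, ∑ j, C i j * (β i (ρ τ s) * β j (ρ τ t)) := by
          rw [h1]
          refine Finset.sum_congr rfl fun i _ => ?_
          rw [Finset.smul_sum]
          refine Finset.sum_congr rfl fun j _ => ?_
          rw [smul_mul', smul_mul', hβeq i τ s, hβeq j τ t]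
        rw [← sub_eq_zero, ← Finset.sum_sub_distrib] at h2
        rw [← h2]
        refine Finset.sum_congr rfl fun i _ => ?_
        rw [← Finset.sum_sub_distrib]
        refine Finset.sum_congr rfl fun j _ => ?_
        ring
      exact sub_eq_zero.1 (coeff_zero_of_tensor hli (fun i j => τ • C i j - C i j) hrel i j)
    choose rr hrr using fun i j => F.fixed_W (∑ k, u k i * v k j) (hfix i j)
    refine ⟨n * n, fun p => rr (finProdFinEquiv.symm p).1 (finProdFinEquiv.symm p).2 •
        β (finProdFinEquiv.symm p).1, fun p => β (finProdFinEquiv.symm p).2,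
      fun p => (descend F HW).smul_mem (hβH _) _, fun p => hβH _, fun s t => ?_⟩
    rw [hexp, Equiv.sum_comp finProdFinEquiv.symm
      (fun p : Fin n × Fin n => (rr p.1 p.2 • β p.1) s * β p.2 t), Fintype.sum_prod_type]
    refine Finset.sum_congr rfl fun i _ => Finset.sum_congr rfl fun j _ => ?_
    rw [hC]
    simp only
    rw [← hrr i j, ← IsScalarTower.algebraMap_apply R W K, smul_fun_eq']
    simp only [Pi.smul_apply, smul_eq_mul]
    ring
  -- multiplication by `m + 1`
  have hmul : ∀ (m : ℕ) (f : T → K), f ∈ descend F HW →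
      (fun t => f ((m + 1) • t)) ∈ descend F HW := by
    intro m
    induction m with
    | zero =>
      intro f hf
      simpa using hf
    | succ m ih =>
      intro f hf
      obtain ⟨k, a, b, ha, hb, hab⟩ := hcomul f hf
      have : (fun t => f ((m + 1 + 1) • t)) = ∑ i, (fun t => a i ((m + 1) • t)) * b i := by
        funext t
        rw [succ_nsmul, hab, Finset.sum_apply]
        rfl
      rw [this]
      exact (descend F HW).sum_mem fun i _ => (descend F HW).mul_mem (ih _ (ha i)) (hb i)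
  refine ⟨?_, fun f hf => hf.2, ?_, hcomul, ?_⟩
  · -- finiteness
    have hspan : Subalgebra.toSubmodule (descend F HW) = span R (Set.range β) := by
      apply le_antisymm
      · rintro f ⟨hfW, hfe⟩
        obtain ⟨r, hr⟩ := hR f hfW hfe
        rw [hr]
        exact Submodule.sum_mem _ fun i _ => Submodule.smul_mem _ _ (subset_span ⟨i, rfl⟩)
      · rw [span_le]
        rintro _ ⟨i, rfl⟩
        exact hβH i
    have hfg : (Subalgebra.toSubmodule (descend F HW)).FG := by
      rw [hspan]; exact fg_span (Set.finite_range β)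
    exact Module.Finite.iff_fg.2 hfg
  · -- separation
    intro s t hst
    obtain ⟨f, hfe, hne⟩ := F.sepA0 s t hst
    obtain ⟨M, hM⟩ := exists_pow_smul_mem F O f (fun τ _ t => hfe τ t)
    refine ⟨ℓ ^ M • f, ⟨hM, ?_⟩, ?_⟩
    · rw [smul_fun_eq']; exact hfe.const_smul (fun τ => F.fixR τ _)
    · rw [smul_fun_eq']
      simp only [Pi.smul_apply, smul_eq_mul]
      intro h
      apply hne
      refine mul_left_cancel₀ ?_ h
      rw [map_pow]
      exact pow_ne_zero M F.L_ne
  · -- inversion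
    intro f hf
    have hN : 0 < Nat.card T := Nat.card_pos
    have key : ∀ t : T, (2 * Nat.card T - 2 + 1) • t = -t := by
      intro t
      rw [eq_neg_iff_add_eq_zero, ← succ_nsmul]
      have : 2 * Nat.card T - 2 + 1 + 1 = 2 * Nat.card T := by omega
      rw [this, mul_nsmul', card_nsmul_eq_zero', smul_zero]
    have := hmul (2 * Nat.card T - 2) f hf
    simp only [key] at this
    exact this

end MainTheorem

end Fermat.Agent.S19.BackEnd
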