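import Mathlib

/-!
S19 scratch (helper16): the CLOSURE TOOLKIT for finite-set function algebras.

`O` noetherian local, `OL` a local ring finite over `O`, `S` a finite set, `P = S → OL`.
* `mem_of_forall_approx` : a submodule of `P` is adically closed (Krull).
* `inv_mem_of_isUnit` : the inverse of a unit of `P` lying in a subalgebra lies in the subalgebra.
* `newton_mem` : Newton closure.
-/

set_option autoImplicit false

namespace Fermat.Agent.S19.ClosedAlg

open IsLocalRing

section Krull

variable {O : Type*} [CommRing O] [IsNoetherianRing O] [IsLocalRing O]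
variable {P : Type*} [AddCommGroup P] [Module O P] [Module.Finite O P]

/-- **Krull closedness**: a submodule of a finite module over a noetherian local ring is closed
for the adic topology -/
theorem mem_of_forall_approx (N : Submodule O P) (x : P)
    (h : ∀ n : ℕ, ∃ r ∈ N, x - r ∈ (maximalIdeal O ^ n) • (⊤ : Submodule O P)) : x ∈ N := by
  have hbot := Ideal.iInf_pow_smul_eq_bot_of_isLocalRing (R := O) (M := P ⧸ N) (maximalIdeal O)
    (Ideal.IsPrime.ne_top inferInstance)
  have hx : N.mkQ x ∈ (⨅ i : ℕ, (maximalIdeal O ^ i) • (⊤ : Submodule O (P ⧸ N))) := by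
    rw [Submodule.mem_iInf]
    intro n
    obtain ⟨r, hr, hxr⟩ := h n
    have h1 : N.mkQ x = N.mkQ (x - r) := by
      have hr0 : N.mkQ r = 0 := by
        rw [Submodule.mkQ_apply]; exact (Submodule.Quotient.mk_eq_zero N).2 hr
      rw [map_sub, hr0, sub_zero]
    rw [h1]
    have h2 : N.mkQ (x - r) ∈ Submodule.map N.mkQ ((maximalIdeal O ^ n) • (⊤ : Submodule O P)) :=
      Submodule.mem_map_of_mem hxr
    rw [Submodule.map_smul''] at h2
    exact Submodule.smul_mono le_rfl le_top h2
  rw [hbot, Submodule.mem_bot, Submodule.mkQ_apply] at hx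
  exact (Submodule.Quotient.mk_eq_zero N).1 hx

end Krull

section UnitInv

open Polynomial

variable {R P : Type*} [CommRing R] [CommRing P] [Algebra R P]

/-- the inverse of a unit `δ` of `P`, when integral over `R`, is a polynomial in `δ`: it lies in
every subalgebra containing `δ` -/
theorem exists_mul_eq_one_of_isIntegral_inv (M : Subalgebra R P) {δ y : P} (hδ : δ ∈ M)
    (hy : δ * y = 1) (hint : IsIntegral R y) : ∃ δ' ∈ M, δ * δ' = 1 := by
  obtain ⟨q, hq, hqy⟩ := hint
  set n := q.natDegree with hn
  have hsum : y ^ n + ∑ i ∈ Finset.range n, algebraMap R P (q.coeff i) * y ^ i = 0 := by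
    have h := hqy
    rw [hq.as_sum, eval₂_add, eval₂_pow, eval₂_X, eval₂_finsetSum] at h
    rw [← h]
    congr 1
    refine Finset.sum_congr rfl fun i _ => ?_
    rw [eval₂_mul, eval₂_C, eval₂_pow, eval₂_X]
  -- multiply by `δ ^ n`
  have hpow : ∀ i ≤ n, δ ^ n * y ^ i = δ ^ (n - i) := by
    intro i hi
    have : δ ^ n = δ ^ (n - i) * δ ^ i := by rw [← pow_add, Nat.sub_add_cancel hi]
    rw [this, mul_assoc, ← mul_pow, hy, one_pow, mul_one]
  have hmul : δ ^ n * (y ^ n + ∑ i ∈ Finset.range n, algebraMap R P (q.coeff i) * y ^ i) = 0 := by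
    rw [hsum, mul_zero]
  rw [mul_add, hpow n le_rfl, Nat.sub_self, pow_zero, Finset.mul_sum] at hmul
  have hterm : ∀ i ∈ Finset.range n, δ ^ n * (algebraMap R P (q.coeff i) * y ^ i) =
      δ * (algebraMap R P (q.coeff i) * δ ^ (n - 1 - i)) := by
    intro i hi
    have hi' : i < n := Finset.mem_range.1 hi
    rw [mul_left_comm, hpow i hi'.le]
    have : n - i = (n - 1 - i) + 1 := by omega
    rw [this, pow_succ]
    ring
  rw [Finset.sum_congr rfl hterm, ← Finset.mul_sum] at hmul
  refine ⟨-∑ i ∈ Finset.range n, algebraMap R P (q.coeff i) * δ ^ (n - 1 - i), ?_, ?_⟩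
  · refine M.neg_mem (M.sum_mem fun i _ => M.mul_mem (M.algebraMap_mem _) (M.pow_mem hδ _))
  · rw [mul_neg]
    have h2 := eq_neg_of_add_eq_zero_right hmul
    rw [h2, neg_neg]

end UnitInv

section Fun

variable {O : Type*} [CommRing O] [IsNoetherianRing O] [IsLocalRing O]
variable {OL : Type*} [CommRing OL] [IsLocalRing OL] [Algebra O OL] [Module.Finite O OL]
variable [IsLocalHom (algebraMap O OL)]
variable {S : Type*} [Finite S]

/-- the `m_L`-adic and the `m_O`-adic topologies of `OL` coincide -/
theorem exists_pow_maximalIdeal_le :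
    ∃ e : ℕ, maximalIdeal OL ^ e ≤ (maximalIdeal O).map (algebraMap O OL) := by
  have : IsNoetherianRing OL := IsNoetherianRing.of_finite O OL
  set J := (maximalIdeal O).map (algebraMap O OL) with hJ
  have hJle : J ≤ maximalIdeal OL := by
    rw [hJ, Ideal.map_le_iff_le_comap]
    intro a ha
    rw [Ideal.mem_comap, mem_maximalIdeal, mem_nonunits_iff]
    intro hu
    exact (mem_nonunits_iff.1 ((mem_maximalIdeal a).1 ha)) (isUnit_of_map_unit (algebraMap O OL) a hu)
  have hrad : maximalIdeal OL ≤ J.radical := by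
    rw [Ideal.radical_eq_sInf]
    refine le_sInf ?_
    rintro 𝔮 ⟨hJ𝔮, h𝔮⟩
    have := h𝔮
    have hcomap : 𝔮.comap (algebraMap O OL) = maximalIdeal O := by
      have hle : maximalIdeal O ≤ 𝔮.comap (algebraMap O OL) :=
        Ideal.map_le_iff_le_comap.1 hJ𝔮
      have hne : 𝔮.comap (algebraMap O OL) ≠ ⊤ := (Ideal.comap_isPrime _ 𝔮).ne_top
      exact ((maximalIdeal.isMaximal O).eq_of_le hne hle).symm
    have : Algebra.IsIntegral O OL := Algebra.IsIntegral.of_finite O OL
    have hmax : 𝔮.IsMaximal :=
      Ideal.isMaximal_of_isIntegral_of_isMaximal_comap 𝔮 (hcomap ▸ maximalIdeal.isMaximal O)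
    rw [IsLocalRing.eq_maximalIdeal hmax]
  obtain ⟨e, he⟩ := Ideal.exists_radical_pow_le_of_fg J (IsNoetherian.noetherian J.radical)
  exact ⟨e, (Ideal.pow_right_mono hrad e).trans he⟩

omit [IsNoetherianRing O] [IsLocalRing O] [IsLocalRing OL] [Module.Finite O OL]
  [IsLocalHom (algebraMap O OL)] in
/-- pointwise smallness gives smallness in the function module -/
theorem pi_mem_smul_top (I : Ideal O) (f : S → OL)
    (hf : ∀ s, f s ∈ I • (⊤ : Submodule O OL)) : f ∈ I • (⊤ : Submodule O (S → OL)) := by
  classical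
  cases nonempty_fintype S
  rw [← Finset.univ_sum_single f]
  refine Submodule.sum_mem _ fun s _ => ?_
  have h1 : (LinearMap.single O (fun _ : S => OL) s) (f s) ∈
      Submodule.map (LinearMap.single O (fun _ : S => OL) s) (I • (⊤ : Submodule O OL)) :=
    Submodule.mem_map_of_mem (hf s)
  rw [Submodule.map_smul''] at h1
  exact Submodule.smul_mono le_rfl le_top h1

/-- **closedness, pointwise `m_L`-adic form** -/
theorem mem_of_forall_pointwise_approx (N : Submodule O (S → OL)) (x : S → OL)
    (h : ∀ b : ℕ, ∃ r ∈ N, ∀ s, x s - r s ∈ maximalIdeal OL ^ b) : x ∈ N := by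
  obtain ⟨e, he⟩ := exists_pow_maximalIdeal_le (O := O) (OL := OL)
  refine mem_of_forall_approx N x fun n => ?_
  obtain ⟨r, hr, hxr⟩ := h (e * n)
  refine ⟨r, hr, pi_mem_smul_top _ _ fun s => ?_⟩
  have h1 : x s - r s ∈ (maximalIdeal OL ^ e) ^ n := by rw [← pow_mul]; exact hxr s
  have h2 : x s - r s ∈ ((maximalIdeal O).map (algebraMap O OL)) ^ n :=
    Ideal.pow_right_mono he n h1
  rw [← Ideal.map_pow] at h2
  rw [Ideal.smul_top_eq_map]
  exact h2

omit [IsNoetherianRing O] [IsLocalRing O] [IsLocalRing OL] [IsLocalHom (algebraMap O OL)] in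
/-- **unit lemma**: a function in the subalgebra with unit values has its inverse in the
subalgebra -/
theorem exists_inv_mem (M : Subalgebra O (S → OL)) {δ : S → OL} (hδ : δ ∈ M)
    (hu : ∀ s, IsUnit (δ s)) : ∃ δ' ∈ M, δ * δ' = 1 := by
  have : Algebra.IsIntegral O (S → OL) := Algebra.IsIntegral.of_finite O (S → OL)
  refine exists_mul_eq_one_of_isIntegral_inv M (y := fun s => ((hu s).unit⁻¹ : OLˣ)) hδ ?_
    (Algebra.IsIntegral.isIntegral _)
  funext s
  simp

open Polynomial in
/-- **Newton closure**: a pointwise-small function `ξ` which is an approximate root, to every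
order, of a "power series" with coefficients in the subalgebra `M` and unit linear coefficient,
lies in `M` -/
theorem newton_mem (M : Subalgebra O (S → OL)) (α : ℕ → S → OL) (hα : ∀ i, α i ∈ M)
    (h1 : ∀ s, IsUnit (α 1 s)) (ξ : S → OL) (hξ : ∀ s, ξ s ∈ maximalIdeal OL)
    (hroot : ∀ b s, ∑ i ∈ Finset.range b, α i s * ξ s ^ i ∈ maximalIdeal OL ^ b) : ξ ∈ M := by
  have hα0 : ∀ s, α 0 s ∈ maximalIdeal OL := by
    intro s
    have := hroot 1 s
    simpa using this
  have key : ∀ b : ℕ, ∃ x ∈ M, (∀ s, x s ∈ maximalIdeal OL) ∧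
      ∀ s, ξ s - x s ∈ maximalIdeal OL ^ (b + 1) := by
    intro b
    induction b with
    | zero => exact ⟨0, M.zero_mem, fun s => by simp, fun s => by simpa using hξ s⟩
    | succ b ih =>
      obtain ⟨x, hxM, hxm, hxξ⟩ := ih
      set B := b + 2 with hB
      set F : S → OL[X] := fun s => ∑ i ∈ Finset.range B, C (α i s) * X ^ i with hF
      -- values of `F` and of its derivative at `x`, as functions
      set Fx : S → OL := fun s => (F s).eval (x s) with hFx
      set D : S → OL := fun s => (derivative (F s)).eval (x s) with hD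
      have hFxM : Fx ∈ M := by
        have : Fx = ∑ i ∈ Finset.range B, α i * x ^ i := by
          funext s
          simp only [hFx, hF, eval_finsetSum, eval_mul, eval_C, eval_pow, eval_X,
            Finset.sum_apply, Pi.mul_apply, Pi.pow_apply]
        rw [this]
        exact M.sum_mem fun i _ => M.mul_mem (hα i) (M.pow_mem hxM i)
      have hDM : D ∈ M := by
        have : D = ∑ i ∈ Finset.range B, α i * ((i : S → OL) * x ^ (i - 1)) := by
          funext s
          simp only [hD, hF, derivative_sum, derivative_C_mul_X_pow, eval_finsetSum, eval_mul,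
            eval_C, eval_pow, eval_X, Finset.sum_apply, Pi.mul_apply, Pi.pow_apply,
            Pi.natCast_apply]
          refine Finset.sum_congr rfl fun i _ => ?_
          ring
        rw [this]
        exact M.sum_mem fun i _ => M.mul_mem (hα i)
          (M.mul_mem (by simp) (M.pow_mem hxM _))
      have hcoeff : ∀ s j, j < B → (F s).coeff j = α j s := by
        intro s j hj
        simp only [hF, finsetSum_coeff, coeff_C_mul_X_pow]
        rw [Finset.sum_eq_single j]
        · simp
        · intro i _ hij; simp [Ne.symm hij]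
        · intro hj'; exact absurd (Finset.mem_range.2 hj) hj'
      have hFx_m : ∀ s, Fx s ∈ maximalIdeal OL := by
        intro s
        have hdvd : x s - 0 ∣ (F s).eval (x s) - (F s).eval 0 := sub_dvd_eval_sub _ _ _
        rw [sub_zero] at hdvd
        have h0 : (F s).eval 0 = α 0 s := by
          rw [← coeff_zero_eq_eval_zero, hcoeff s 0 (by omega)]
        have h2 : (F s).eval (x s) - (F s).eval 0 ∈ maximalIdeal OL :=
          Ideal.mem_of_dvd _ hdvd (hxm s)
        have : Fx s = ((F s).eval (x s) - (F s).eval 0) + α 0 s := by rw [h0]; simp [hFx]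
        rw [this]
        exact Ideal.add_mem _ h2 (hα0 s)
      have hD_u : ∀ s, IsUnit (D s) := by
        intro s
        have hdvd : x s - 0 ∣ (derivative (F s)).eval (x s) - (derivative (F s)).eval 0 :=
          sub_dvd_eval_sub _ _ _
        rw [sub_zero] at hdvd
        have h0 : (derivative (F s)).eval 0 = α 1 s := by
          rw [← coeff_zero_eq_eval_zero, coeff_derivative, hcoeff s 1 (by omega)]
          simp
        have h2 : D s - α 1 s ∈ maximalIdeal OL := by
          rw [← h0]
          exact Ideal.mem_of_dvd _ hdvd (hxm s)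
        by_contra hnu
        have h3 : D s ∈ maximalIdeal OL := (mem_maximalIdeal _).2 (mem_nonunits_iff.2 hnu)
        have h4 : α 1 s ∈ maximalIdeal OL := by
          have := Ideal.sub_mem _ h3 h2
          simpa using this
        exact (mem_nonunits_iff.1 ((mem_maximalIdeal _).1 h4)) (h1 s)
      obtain ⟨D', hD'M, hDD'⟩ := exists_inv_mem M hDM hD_u
      refine ⟨x - Fx * D', M.sub_mem hxM (M.mul_mem hFxM hD'M), fun s => ?_, fun s => ?_⟩
      · exact Ideal.sub_mem _ (hxm s) (Ideal.mul_mem_right _ _ (hFx_m s))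
      · -- the Newton estimate
        obtain ⟨k, hk⟩ := binomExpansion (F s) (x s) (ξ s - x s)
        have hev : (F s).eval (ξ s) ∈ maximalIdeal OL ^ (b + 2) := by
          have := hroot B s
          simpa [hF, eval_finsetSum] using this
        have hy2 : (ξ s - x s) ^ 2 ∈ maximalIdeal OL ^ (b + 2) := by
          have h5 : (ξ s - x s) ^ 2 ∈ (maximalIdeal OL ^ (b + 1)) ^ 2 :=
            Ideal.pow_mem_pow (hxξ s) 2
          rw [← pow_mul] at h5
          exact Ideal.pow_le_pow_right (by omega) h5
        have hone : D s * D' s = 1 := by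
          have := congrFun hDD' s
          simpa using this
        have hident : ξ s - (x - Fx * D') s =
            D' s * (F s).eval (ξ s) - D' s * k * (ξ s - x s) ^ 2 := by
          have hk' : (F s).eval (ξ s) = Fx s + D s * (ξ s - x s) + k * (ξ s - x s) ^ 2 := by
            have : x s + (ξ s - x s) = ξ s := by ring
            rw [this] at hk
            exact hk
          simp only [Pi.sub_apply, Pi.mul_apply]
          rw [hk']
          have : D' s * (Fx s + D s * (ξ s - x s) + k * (ξ s - x s) ^ 2) =
              D' s * Fx s + (D s * D' s) * (ξ s - x s) + D' s * k * (ξ s - x s) ^ 2 := by ring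
          rw [this, hone]
          ring
        rw [hident]
        exact Ideal.sub_mem _ (Ideal.mul_mem_left _ _ hev) (Ideal.mul_mem_left _ _ hy2)
  refine mem_of_forall_pointwise_approx (O := O) M.toSubmodule ξ fun b => ?_
  obtain ⟨x, hxM, -, hx⟩ := key b
  exact ⟨x, hxM, fun s => Ideal.pow_le_pow_right (Nat.le_succ b) (hx s)⟩

/-- **Taylor closure**: a function which is, to every order, a polynomial in a pointwise-small
`ξ ∈ M` with coefficients in `M`, lies in `M` -/
theorem taylor_mem (M : Subalgebra O (S → OL)) (c : ℕ → S → OL) (hc : ∀ i, c i ∈ M)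
    (ξ : S → OL) (hξM : ξ ∈ M) (φ : S → OL)
    (happrox : ∀ b s, φ s - ∑ i ∈ Finset.range b, c i s * ξ s ^ i ∈ maximalIdeal OL ^ b) :
    φ ∈ M := by
  refine mem_of_forall_pointwise_approx (O := O) M.toSubmodule φ fun b => ?_
  refine ⟨∑ i ∈ Finset.range b, c i * ξ ^ i,
    M.sum_mem fun i _ => M.mul_mem (hc i) (M.pow_mem hξM i), fun s => ?_⟩
  have := happrox b s
  simpa [Finset.sum_apply] using this

omit [IsNoetherianRing O] [IsLocalRing O] [IsLocalRing OL] [IsLocalHom (algebraMap O OL)] in
/-- the unit lemma in the subtype -/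
theorem isUnit_of_pointwise (M : Subalgebra O (S → OL)) (δ : M)
    (hu : ∀ s, IsUnit ((δ : S → OL) s)) : IsUnit δ := by
  obtain ⟨δ', hδ'M, h⟩ := exists_inv_mem M δ.2 hu
  exact IsUnit.of_mul_eq_one (⟨δ', hδ'M⟩ : M) (Subtype.ext h)

omit [IsNoetherianRing O] [IsLocalRing O] [IsLocalRing OL] [IsLocalHom (algebraMap O OL)] in
/-- **Cramer closure**: the (unique) solution of a square linear system with coefficients in `M`
and pointwise unit determinant has its coordinates in `M` -/
theorem cramer_mem {n : Type*} [Fintype n] [DecidableEq n] (M : Subalgebra O (S → OL))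
    (A : Matrix n n (S → OL)) (hA : ∀ i j, A i j ∈ M) (hdet : ∀ s, IsUnit (A.det s))
    (v w : n → S → OL) (hw : ∀ i, w i ∈ M) (hAv : A.mulVec v = w) : ∀ i, v i ∈ M := by
  set A' : Matrix n n M := fun i j => ⟨A i j, hA i j⟩ with hA'
  set w' : n → M := fun i => ⟨w i, hw i⟩ with hw'
  have hmap : A = A'.map M.val := by
    ext i j; rfl
  have hdet' : IsUnit A'.det := by
    refine isUnit_of_pointwise M _ fun s => ?_
    have : ((A'.det : M) : S → OL) = A.det := by
      rw [hmap]
      exact (RingHom.map_det M.val.toRingHom A')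
    rw [this]
    exact hdet s
  have hdetP : IsUnit A.det := by
    rw [hmap]
    have := hdet'.map M.val.toRingHom
    rwa [RingHom.map_det] at this
  set v' : n → M := A'⁻¹.mulVec w' with hv'
  have h1 : A'.mulVec v' = w' := by
    rw [hv', Matrix.mulVec_mulVec, Matrix.mul_nonsing_inv _ hdet', Matrix.one_mulVec]
  have h2 : A.mulVec (fun i => (v' i : S → OL)) = w := by
    funext i
    have h := RingHom.map_mulVec M.val.toRingHom A' v' i
    rw [h1] at h
    rw [hmap]
    exact h.symm
  have hinv : A⁻¹ * A = 1 := Matrix.nonsing_inv_mul _ hdetP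
  have h3 : v = fun i => (v' i : S → OL) := by
    have e1 : v = A⁻¹.mulVec w := by
      rw [← hAv, Matrix.mulVec_mulVec, hinv, Matrix.one_mulVec]
    have e2 : (fun i => (v' i : S → OL)) = A⁻¹.mulVec w := by
      rw [← h2, Matrix.mulVec_mulVec, hinv, Matrix.one_mulVec]
    rw [e1, e2]
  intro i
  rw [h3]
  exact (v' i).2

end Fun

end Fermat.Agent.S19.ClosedAlg
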