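import Mathlib
import Fermat.Agent.S19.ClosedAlg
import Fermat.Agent.S19.BackEnd

/-!
S19 scratch (helper16): GENERATOR-LEVEL CRITERION for `BackEnd.WOrder` (abstract form of (W8)).

`HW := Algebra.adjoin W (coset idempotents ∪ coset-supported coordinate functions)`.  Hypotheses
only on the generators: values in a finite local `W`-subalgebra `OL` of `K`, `I`-equivariance,
stability of the generating family under the Frobenius `Φ`, injectivity on each coset and the
finite-level congruences for the addition.  Conclusion: `WOrder ρ σ I HW`.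
-/

set_option autoImplicit false
set_option linter.unusedSectionVars false

namespace Fermat.Agent.S19.OrderGen

open Submodule IsLocalRing Fermat.Agent.S19.Artin Fermat.Agent.S19.BackEnd

section Tens

variable {W K T : Type*} [CommRing W] [Field K] [Algebra W K] [AddCommGroup T]

/-- sums of products `a(s) b(t)` with `a, b ∈ HW` -/
def IsTens (HW : Subalgebra W (T → K)) (F : T × T → K) : Prop :=
  ∃ (ι : Type) (_ : Fintype ι) (a b : ι → T → K), (∀ i, a i ∈ HW) ∧ (∀ i, b i ∈ HW) ∧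
    ∀ p : T × T, F p = ∑ i, a i p.1 * b i p.2

variable {HW : Subalgebra W (T → K)}

theorem IsTens.add {F G : T × T → K} (hF : IsTens HW F) (hG : IsTens HW G) :
    IsTens HW (F + G) := by
  obtain ⟨ι, _, a, b, ha, hb, hab⟩ := hF
  obtain ⟨ι', _, a', b', ha', hb', hab'⟩ := hG
  refine ⟨ι ⊕ ι', inferInstance, Sum.elim a a', Sum.elim b b', ?_, ?_, fun p => ?_⟩
  · rintro (i | i)
    · exact ha i
    · exact ha' i
  · rintro (i | i)
    · exact hb i
    · exact hb' i
  · rw [Fintype.sum_sum_type, Pi.add_apply, hab, hab']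
    rfl

theorem IsTens.mul {F G : T × T → K} (hF : IsTens HW F) (hG : IsTens HW G) :
    IsTens HW (F * G) := by
  obtain ⟨ι, _, a, b, ha, hb, hab⟩ := hF
  obtain ⟨ι', _, a', b', ha', hb', hab'⟩ := hG
  refine ⟨ι × ι', inferInstance, fun i => a i.1 * a' i.2, fun i => b i.1 * b' i.2,
    fun i => HW.mul_mem (ha _) (ha' _), fun i => HW.mul_mem (hb _) (hb' _), fun p => ?_⟩
  rw [Fintype.sum_prod_type, Pi.mul_apply, hab, hab', Finset.sum_mul_sum]
  refine Finset.sum_congr rfl fun i _ => Finset.sum_congr rfl fun j _ => ?_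
  simp only [Pi.mul_apply]
  ring

theorem isTens_algebraMap (w : W) : IsTens HW (algebraMap W (T × T → K) w) := by
  refine ⟨Unit, inferInstance, fun _ => algebraMap W (T → K) w, fun _ => 1,
    fun _ => HW.algebraMap_mem w, fun _ => HW.one_mem, fun p => ?_⟩
  simp

/-- a product `a(s) b(t)` -/
theorem IsTens.of_mul {a b : T → K} (ha : a ∈ HW) (hb : b ∈ HW) :
    IsTens HW (fun p => a p.1 * b p.2) :=
  ⟨Unit, inferInstance, fun _ => a, fun _ => b, fun _ => ha, fun _ => hb, fun p => by simp⟩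

/-- the `W`-subalgebra of `Map(T × T, K)` of sums of products -/
def Tens (HW : Subalgebra W (T → K)) : Subalgebra W (T × T → K) where
  carrier := {F | IsTens HW F}
  mul_mem' := fun hF hG => IsTens.mul hF hG
  add_mem' := fun hF hG => IsTens.add hF hG
  algebraMap_mem' := fun w => isTens_algebraMap w

theorem mem_Tens {F : T × T → K} : F ∈ Tens HW ↔ IsTens HW F := Iff.rfl

/-- `f ↦ ((s, t) ↦ f (s + t))` as an algebra homomorphism -/
def comulHom : (T → K) →ₐ[W] (T × T → K) where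
  toFun f := fun p => f (p.1 + p.2)
  map_one' := rfl
  map_mul' _ _ := rfl
  map_zero' := rfl
  map_add' _ _ := rfl
  commutes' _ := rfl

theorem comulHom_apply (f : T → K) (p : T × T) :
    comulHom (W := W) f p = f (p.1 + p.2) := rfl

/-- comultiplication-closedness may be checked on generators -/
theorem isTens_of_adjoin (G : Set (T → K))
    (h : ∀ g ∈ G, IsTens (Algebra.adjoin W G) (fun p => g (p.1 + p.2))) :
    ∀ f ∈ Algebra.adjoin W G, IsTens (Algebra.adjoin W G) (fun p => f (p.1 + p.2)) := by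
  have hle : Algebra.adjoin W G ≤ (Tens (Algebra.adjoin W G)).comap (comulHom (W := W)) := by
    apply Algebra.adjoin_le
    intro g hg
    exact h g hg
  intro f hf
  exact hle hf

/-- conversion to the `Fin n`-indexed form -/
theorem IsTens.exists_fin {F : T × T → K} (hF : IsTens HW F) :
    ∃ (n : ℕ) (a b : Fin n → T → K), (∀ i, a i ∈ HW) ∧ (∀ i, b i ∈ HW) ∧
      ∀ s t, F (s, t) = ∑ i, a i s * b i t := by
  obtain ⟨ι, _, a, b, ha, hb, hab⟩ := hF
  refine ⟨Fintype.card ι, fun i => a ((Fintype.equivFin ι).symm i),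
    fun i => b ((Fintype.equivFin ι).symm i), fun i => ha _, fun i => hb _, fun s t => ?_⟩
  rw [hab, Equiv.sum_comp (Fintype.equivFin ι).symm (fun i => a i s * b i t)]

/-- polynomial expressions stay in a subalgebra -/
theorem aeval_mem {A : Type*} [CommRing A] [Algebra W A] (M : Subalgebra W A) {κ : Type*}
    (f : κ → A) (hf : ∀ i, f i ∈ M) (P : MvPolynomial κ W) : MvPolynomial.aeval f P ∈ M := by
  have h1 : MvPolynomial.aeval f P ∈ (MvPolynomial.aeval f : MvPolynomial κ W →ₐ[W] A).range :=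
    ⟨P, rfl⟩
  rw [MvPolynomial.aeval_range] at h1
  refine Algebra.adjoin_le ?_ h1
  rintro _ ⟨i, rfl⟩
  exact hf i

end Tens

section Approx

variable {W K : Type*} [CommRing W] [Field K] [Algebra W K] [IsNoetherianRing W] [IsLocalRing W]
variable (OL : Subalgebra W K) [IsLocalRing OL] [Module.Finite W OL]
  [IsLocalHom (algebraMap W OL)] {S : Type*} [Finite S]

/-- `K`-valued form of `ClosedAlg.mem_of_forall_pointwise_approx` -/
theorem mem_of_approx_sub (N : Submodule W (S → K)) (x : S → K) (hx : ∀ s, x s ∈ OL)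
    (h : ∀ b : ℕ, ∃ r ∈ N, (∀ s, r s ∈ OL) ∧
      ∀ s, ∃ e : OL, e ∈ maximalIdeal OL ^ b ∧ x s - r s = e) : x ∈ N := by
  let φ : (S → OL) →ₗ[W] (S → K) := (OL.val.toLinearMap).compLeft S
  have hφ : ∀ (y : S → OL) (s : S), φ y s = (y s : K) := fun _ _ => rfl
  set x' : S → OL := fun s => ⟨x s, hx s⟩ with hx'
  have hxx : φ x' = x := by
    funext s
    rfl
  have key : x' ∈ N.comap φ := by
    refine ClosedAlg.mem_of_forall_pointwise_approx (O := W) (OL := OL) (N.comap φ) x' fun b => ?_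
    obtain ⟨r, hrN, hrOL, hr⟩ := h b
    refine ⟨fun s => ⟨r s, hrOL s⟩, ?_, fun s => ?_⟩
    · show φ (fun s => ⟨r s, hrOL s⟩) ∈ N
      have : φ (fun s => (⟨r s, hrOL s⟩ : OL)) = r := by
        funext s
        rfl
      rw [this]
      exact hrN
    · obtain ⟨e, he, hxe⟩ := hr s
      have : x' s - (⟨r s, hrOL s⟩ : OL) = e := by
        apply Subtype.ext
        rw [← hxe]
        rfl
      rw [this]
      exact he
  have := (Submodule.mem_comap).1 key
  rw [hxx] at this
  exact this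

end Approx

section Gen

variable {W K Γ T : Type*} [CommRing W] [Field K] [Algebra W K] [IsNoetherianRing W]
  [IsLocalRing W] [Group Γ] [MulSemiringAction Γ K] [AddCommGroup T] [Finite T]
variable (OL : Subalgebra W K) [IsLocalRing OL] [Module.Finite W OL]
  [IsLocalHom (algebraMap W OL)]
variable (T0 : AddSubgroup T)

open scoped Classical in
/-- the indicator function of a coset of `T0` -/
noncomputable def ind (q : T ⧸ T0) : T → K := fun t =>
  if (QuotientAddGroup.mk t : T ⧸ T0) = q then 1 else 0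

variable {T0}

theorem ind_eq_one {q : T ⧸ T0} {t : T} (h : (QuotientAddGroup.mk t : T ⧸ T0) = q) :
    ind (K := K) T0 q t = 1 := by
  classical
  simp [ind, h]

theorem ind_eq_zero {q : T ⧸ T0} {t : T} (h : (QuotientAddGroup.mk t : T ⧸ T0) ≠ q) :
    ind (K := K) T0 q t = 0 := by
  classical
  simp [ind, h]

theorem ind_mem (q : T ⧸ T0) (t : T) : ind (K := K) T0 q t ∈ OL := by
  by_cases h : (QuotientAddGroup.mk t : T ⧸ T0) = q
  · rw [ind_eq_one h]; exact OL.one_mem
  · rw [ind_eq_zero h]; exact OL.zero_mem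

variable (T0)

/-- the hypotheses on the generators (without the Frobenius) -/
structure GenData0 (ρ : Γ → T → T) (I : Subgroup Γ) {g : ℕ} {Ξ : Type*}
    (κ : Ξ → T ⧸ T0) (X : Ξ → Fin g → T → K) : Prop where
  ρ_add : ∀ τ s t, ρ τ (s + t) = ρ τ s + ρ τ t
  ρ_mul : ∀ τ τ' t, ρ (τ * τ') t = ρ τ (ρ τ' t)
  ρ_one : ∀ t, ρ 1 t = t
  /-- `I` fixes `W` -/
  fixW : ∀ τ ∈ I, ∀ w : W, τ • algebraMap W K w = algebraMap W K w
  /-- `I` preserves the cosets of `T0` -/
  T0_I : ∀ τ ∈ I, ∀ t, ρ τ t - t ∈ T0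
  supp : ∀ ξ i t, (QuotientAddGroup.mk t : T ⧸ T0) ≠ κ ξ → X ξ i t = 0
  val : ∀ ξ i t, X ξ i t ∈ OL
  inj : ∀ ξ s t, (QuotientAddGroup.mk s : T ⧸ T0) = κ ξ → (QuotientAddGroup.mk t : T ⧸ T0) = κ ξ →
    (∀ i, X ξ i s = X ξ i t) → s = t
  cover : ∀ q : T ⧸ T0, ∃ ξ, κ ξ = q
  equivI : ∀ ξ i, EquivOn I ρ (X ξ i)
  /-- the finite-level congruences for the addition -/
  add : ∀ ξ'' (q₁ q₂ : T ⧸ T0), q₁ + q₂ = κ ξ'' → ∃ ξ₁ ξ₂, κ ξ₁ = q₁ ∧ κ ξ₂ = q₂ ∧
    ∀ (i : Fin g) (b : ℕ), ∃ P : MvPolynomial (Fin g ⊕ Fin g) W, ∀ s t : T,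
      (QuotientAddGroup.mk s : T ⧸ T0) = q₁ → (QuotientAddGroup.mk t : T ⧸ T0) = q₂ →
      ∃ e : OL, e ∈ maximalIdeal OL ^ b ∧
        X ξ'' i (s + t) - MvPolynomial.aeval
          (Sum.elim (fun j => X ξ₁ j s) (fun j => X ξ₂ j t)) P = e

/-- the hypotheses on the generators, with a Frobenius-stable generating family -/
structure GenData (ρ : Γ → T → T) (σ : Γ) (σW : W →+* W) (I : Subgroup Γ) {g : ℕ} {Ξ : Type*}
    (κ : Ξ → T ⧸ T0) (X : Ξ → Fin g → T → K) : Prop extends GenData0 OL T0 ρ I κ X where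
  /-- `σ` preserves `W` -/
  σW_spec : ∀ w : W, algebraMap W K (σW w) = σ • algebraMap W K w
  /-- `σ` preserves `T0` -/
  T0_σ : ∀ t, ρ σ t ∈ T0 ↔ t ∈ T0
  /-- the generating family is stable under the Frobenius -/
  frob : ∀ ξ, ∃ ξ', ∀ i t, σ • X ξ i (ρ σ⁻¹ t) = X ξ' i t

variable {g : ℕ} {Ξ : Type*}

/-- the generators -/
def gens (X : Ξ → Fin g → T → K) : Set (T → K) :=
  Set.range (ind (K := K) T0) ∪ {f | ∃ ξ i, f = X ξ i}

/-- the generated `W`-algebra -/
def HWgen (W : Type*) [CommRing W] [Algebra W K] (X : Ξ → Fin g → T → K) :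
    Subalgebra W (T → K) := Algebra.adjoin W (gens T0 X)

variable {T0} {ρ : Γ → T → T} {σ : Γ} {σW : W →+* W} {I : Subgroup Γ}
  {κ : Ξ → T ⧸ T0} {X : Ξ → Fin g → T → K}

theorem ind_mem_HWgen (q : T ⧸ T0) : ind (K := K) T0 q ∈ HWgen T0 W X :=
  Algebra.subset_adjoin (Or.inl ⟨q, rfl⟩)

theorem X_mem_HWgen (ξ : Ξ) (i : Fin g) : X ξ i ∈ HWgen T0 W X :=
  Algebra.subset_adjoin (Or.inr ⟨ξ, i, rfl⟩)

theorem GenData0.ρ_apply_inv (D : GenData0 OL T0 ρ I κ X) (τ : Γ) (t : T) :
    ρ τ (ρ τ⁻¹ t) = t := by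
  rw [← D.ρ_mul, mul_inv_cancel, D.ρ_one]

theorem GenData0.ρ_sub (D : GenData0 OL T0 ρ I κ X) (τ : Γ) (s t : T) :
    ρ τ (s - t) = ρ τ s - ρ τ t := by
  rw [eq_sub_iff_add_eq, ← D.ρ_add, sub_add_cancel]

/-- all elements of `HWgen` take their values in `OL` -/
theorem GenData0.val_mem (D : GenData0 OL T0 ρ I κ X) :
    ∀ f ∈ HWgen T0 W X, ∀ t, f t ∈ OL := by
  let V : Subalgebra W (T → K) :=
    { carrier := {f | ∀ t, f t ∈ OL}
      mul_mem' := fun {f g} hf hg t => OL.mul_mem (hf t) (hg t)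
      add_mem' := fun {f g} hf hg t => OL.add_mem (hf t) (hg t)
      algebraMap_mem' := fun w t => OL.algebraMap_mem w }
  have hle : HWgen T0 W X ≤ V := by
    apply Algebra.adjoin_le
    rintro f (⟨q, rfl⟩ | ⟨ξ, i, rfl⟩)
    · exact fun t => ind_mem OL q t
    · exact D.val ξ i
  exact fun f hf => hle hf

/-- (H1) -/
theorem GenData0.fg (D : GenData0 OL T0 ρ I κ X) :
    (Subalgebra.toSubmodule (HWgen T0 W X)).FG := by
  have hN : IsNoetherian W (T → OL) := isNoetherian_of_isNoetherianRing_of_finite W (T → OL)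
  let ψ : ↥(Subalgebra.toSubmodule (HWgen T0 W X)) →ₗ[W] (T → OL) :=
    { toFun := fun f t => ⟨(f : T → K) t, D.val_mem OL f.1 f.2 t⟩
      map_add' := fun f g => by
        funext t
        apply Subtype.ext
        rfl
      map_smul' := fun w f => by
        funext t
        apply Subtype.ext
        rfl }
  have hψ : Function.Injective ψ := by
    intro f g hfg
    apply Subtype.ext
    funext t
    exact congrArg (fun h : T → OL => ((h t : OL) : K)) hfg
  have := Module.Finite.of_injective ψ hψ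
  exact Module.Finite.iff_fg.1 this

/-- (H2) -/
theorem GenData0.equivOn (D : GenData0 OL T0 ρ I κ X) :
    ∀ f ∈ HWgen T0 W X, EquivOn I ρ f := by
  let V : Subalgebra W (T → K) :=
    { carrier := {f | EquivOn I ρ f}
      mul_mem' := fun {f g} hf hg τ hτ t => by
        simp only [Pi.mul_apply, hf τ hτ t, hg τ hτ t, smul_mul']
      add_mem' := fun {f g} hf hg τ hτ t => by
        simp only [Pi.add_apply, hf τ hτ t, hg τ hτ t, smul_add]
      algebraMap_mem' := fun w τ hτ t => by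
        simp only [Pi.algebraMap_apply]
        exact (D.fixW τ hτ w).symm }
  have hle : HWgen T0 W X ≤ V := by
    apply Algebra.adjoin_le
    rintro f (⟨q, rfl⟩ | ⟨ξ, i, rfl⟩)
    · intro τ hτ t
      have h1 : (QuotientAddGroup.mk (ρ τ t) : T ⧸ T0) = QuotientAddGroup.mk t := by
        rw [QuotientAddGroup.eq]
        have := T0.neg_mem (D.T0_I τ hτ t)
        rwa [neg_sub, sub_eq_neg_add] at this
      by_cases h : (QuotientAddGroup.mk t : T ⧸ T0) = q
      · rw [ind_eq_one h, ind_eq_one (h1.trans h), smul_one]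
      · rw [ind_eq_zero h, ind_eq_zero (fun h' => h (h1.symm.trans h')), smul_zero]
    · exact D.equivI ξ i
  exact fun f hf => hle hf

/-- (H3) -/
theorem GenData.frob_mem (D : GenData OL T0 ρ σ σW I κ X) :
    ∀ f ∈ HWgen T0 W X, (fun t => σ • f (ρ σ⁻¹ t)) ∈ HWgen T0 W X := by
  let V : Subalgebra W (T → K) :=
    { carrier := {f | (fun t => σ • f (ρ σ⁻¹ t)) ∈ HWgen T0 W X}
      mul_mem' := fun {f g} hf hg => by
        have : (fun t => σ • (f * g) (ρ σ⁻¹ t)) =
            (fun t => σ • f (ρ σ⁻¹ t)) * (fun t => σ • g (ρ σ⁻¹ t)) := by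
          funext t
          simp only [Pi.mul_apply, smul_mul']
        show (fun t => σ • (f * g) (ρ σ⁻¹ t)) ∈ HWgen T0 W X
        rw [this]
        exact (HWgen T0 W X).mul_mem hf hg
      add_mem' := fun {f g} hf hg => by
        have : (fun t => σ • (f + g) (ρ σ⁻¹ t)) =
            (fun t => σ • f (ρ σ⁻¹ t)) + (fun t => σ • g (ρ σ⁻¹ t)) := by
          funext t
          simp only [Pi.add_apply, smul_add]
        show (fun t => σ • (f + g) (ρ σ⁻¹ t)) ∈ HWgen T0 W X
        rw [this]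
        exact (HWgen T0 W X).add_mem hf hg
      algebraMap_mem' := fun w => by
        have : (fun t => σ • (algebraMap W (T → K) w) (ρ σ⁻¹ t)) =
            algebraMap W (T → K) (σW w) := by
          funext t
          simp only [Pi.algebraMap_apply]
          exact (D.σW_spec w).symm
        show (fun t => σ • (algebraMap W (T → K) w) (ρ σ⁻¹ t)) ∈ HWgen T0 W X
        rw [this]
        exact (HWgen T0 W X).algebraMap_mem _ }
  have hle : HWgen T0 W X ≤ V := by
    apply Algebra.adjoin_le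
    rintro f (⟨q, rfl⟩ | ⟨ξ, i, rfl⟩)
    · -- the indicator of the image coset
      show (fun t => σ • ind (K := K) T0 q (ρ σ⁻¹ t)) ∈ HWgen T0 W X
      obtain ⟨t₀, rfl⟩ := QuotientAddGroup.mk_surjective q
      have : (fun t => σ • ind (K := K) T0 (QuotientAddGroup.mk t₀) (ρ σ⁻¹ t)) =
          ind (K := K) T0 (QuotientAddGroup.mk (ρ σ t₀)) := by
        funext t
        have hiff : (QuotientAddGroup.mk (ρ σ⁻¹ t) : T ⧸ T0) = QuotientAddGroup.mk t₀ ↔
            (QuotientAddGroup.mk t : T ⧸ T0) = QuotientAddGroup.mk (ρ σ t₀) := by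
          rw [QuotientAddGroup.eq, QuotientAddGroup.eq, ← D.T0_σ (-ρ σ⁻¹ t + t₀)]
          have : ρ σ (-ρ σ⁻¹ t + t₀) = -t + ρ σ t₀ := by
            rw [neg_add_eq_sub, D.toGenData0.ρ_sub, D.toGenData0.ρ_apply_inv, neg_add_eq_sub]
          rw [this]
        by_cases h : (QuotientAddGroup.mk (ρ σ⁻¹ t) : T ⧸ T0) = QuotientAddGroup.mk t₀
        · rw [ind_eq_one h, ind_eq_one (hiff.1 h), smul_one]
        · rw [ind_eq_zero h, ind_eq_zero (fun h' => h (hiff.2 h')), smul_zero]
      rw [this]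
      exact ind_mem_HWgen _
    · obtain ⟨ξ', hξ'⟩ := D.frob ξ
      show (fun t => σ • X ξ i (ρ σ⁻¹ t)) ∈ HWgen T0 W X
      have : (fun t => σ • X ξ i (ρ σ⁻¹ t)) = X ξ' i := funext fun t => hξ' i t
      rw [this]
      exact X_mem_HWgen ξ' i
  exact fun f hf => hle hf

/-- (H4) -/
theorem GenData0.sep (D : GenData0 OL T0 ρ I κ X) :
    ∀ s t : T, s ≠ t → ∃ f ∈ HWgen T0 W X, f s ≠ f t := by
  intro s t hst
  by_cases h : (QuotientAddGroup.mk s : T ⧸ T0) = QuotientAddGroup.mk t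
  · obtain ⟨ξ, hξ⟩ := D.cover (QuotientAddGroup.mk t)
    by_contra hcon
    simp only [not_exists, not_and, not_not] at hcon
    exact hst (D.inj ξ s t (h.trans hξ.symm) hξ.symm fun i => hcon _ (X_mem_HWgen ξ i))
  · refine ⟨ind (K := K) T0 (QuotientAddGroup.mk t), ind_mem_HWgen _, ?_⟩
    rw [ind_eq_zero h, ind_eq_one rfl]
    exact zero_ne_one

end Gen

section Comul

variable {W K Γ T : Type*} [CommRing W] [Field K] [Algebra W K] [IsNoetherianRing W]
  [IsLocalRing W] [Group Γ] [MulSemiringAction Γ K] [AddCommGroup T] [Finite T]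
variable (OL : Subalgebra W K) [IsLocalRing OL] [Module.Finite W OL]
  [IsLocalHom (algebraMap W OL)]
variable {T0 : AddSubgroup T} {g : ℕ} {Ξ : Type*}
  {ρ : Γ → T → T} {σ : Γ} {σW : W →+* W} {I : Subgroup Γ}
  {κ : Ξ → T ⧸ T0} {X : Ξ → Fin g → T → K}

/-- evaluation of a polynomial expression in functions -/
theorem aeval_fun_apply {S κ' : Type*} (F : κ' → S → K) (P : MvPolynomial κ' W) (p : S) :
    (MvPolynomial.aeval F P) p = MvPolynomial.aeval (fun j => F j p) P :=
  MvPolynomial.comp_aeval_apply F (Pi.evalAlgHom W (fun _ : S => K) p) P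

/-- the comultiplication of a coset idempotent -/
theorem isTens_ind (q : T ⧸ T0) :
    IsTens (HWgen T0 W X) (fun p => ind (K := K) T0 q (p.1 + p.2)) := by
  classical
  cases nonempty_fintype T
  have : (fun p : T × T => ind (K := K) T0 q (p.1 + p.2)) =
      ∑ q₁ : T ⧸ T0, (fun p : T × T => ind (K := K) T0 q₁ p.1 * ind (K := K) T0 (q - q₁) p.2) := by
    funext p
    rw [Finset.sum_apply, Finset.sum_eq_single (QuotientAddGroup.mk p.1 : T ⧸ T0)]
    · rw [ind_eq_one rfl, one_mul]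
      by_cases h : (QuotientAddGroup.mk (p.1 + p.2) : T ⧸ T0) = q
      · rw [ind_eq_one h, ind_eq_one]
        rw [← h, QuotientAddGroup.mk_add, add_sub_cancel_left]
      · rw [ind_eq_zero h, ind_eq_zero]
        intro h'
        apply h
        rw [QuotientAddGroup.mk_add, h', add_sub_cancel]
    · intro q₁ _ hq₁
      rw [ind_eq_zero (Ne.symm hq₁), zero_mul]
    · intro h
      exact absurd (Finset.mem_univ _) h
  rw [this]
  exact (Tens (HWgen T0 W X)).sum_mem fun q₁ _ =>
    IsTens.of_mul (ind_mem_HWgen q₁) (ind_mem_HWgen (q - q₁))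

/-- the comultiplication of a coordinate function -/
theorem GenData0.isTens_X (D : GenData0 OL T0 ρ I κ X) (ξ'' : Ξ) (i : Fin g) :
    IsTens (HWgen T0 W X) (fun p => X ξ'' i (p.1 + p.2)) := by
  classical
  cases nonempty_fintype T
  choose ξ₁ ξ₂ hκ₁ hκ₂ hP using fun q₁ : T ⧸ T0 =>
    D.add ξ'' q₁ (κ ξ'' - q₁) (add_sub_cancel q₁ (κ ξ''))
  refine mem_of_approx_sub OL (Subalgebra.toSubmodule (Tens (HWgen T0 W X)))
    (fun p => X ξ'' i (p.1 + p.2)) (fun p => D.val ξ'' i _) fun b => ?_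
  choose P hP' using fun q₁ : T ⧸ T0 => hP q₁ i b
  -- the approximation
  set r : T × T → K := ∑ q₁ : T ⧸ T0,
    (fun p : T × T => ind (K := K) T0 q₁ p.1 * ind (K := K) T0 (κ ξ'' - q₁) p.2) *
      MvPolynomial.aeval (Sum.elim (fun j (p : T × T) => X (ξ₁ q₁) j p.1)
        (fun j (p : T × T) => X (ξ₂ q₁) j p.2)) (P q₁) with hr
  have hr_apply : ∀ p : T × T, r p = ∑ q₁ : T ⧸ T0,
      (ind (K := K) T0 q₁ p.1 * ind (K := K) T0 (κ ξ'' - q₁) p.2) *
        MvPolynomial.aeval (Sum.elim (fun j => X (ξ₁ q₁) j p.1)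
          (fun j => X (ξ₂ q₁) j p.2)) (P q₁) := by
    intro p
    rw [hr, Finset.sum_apply]
    refine Finset.sum_congr rfl fun q₁ _ => ?_
    have hfun : (fun j => Sum.elim (fun j (p : T × T) => X (ξ₁ q₁) j p.1)
        (fun j (p : T × T) => X (ξ₂ q₁) j p.2) j p) =
        Sum.elim (fun j => X (ξ₁ q₁) j p.1) (fun j => X (ξ₂ q₁) j p.2) := by
      funext j
      cases j <;> rfl
    rw [Pi.mul_apply, aeval_fun_apply, hfun]
  refine ⟨r, ?_, ?_, ?_⟩
  · -- `r ∈ Tens`
    refine (Tens (HWgen T0 W X)).sum_mem fun q₁ _ => (Tens (HWgen T0 W X)).mul_mem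
      (IsTens.of_mul (ind_mem_HWgen q₁) (ind_mem_HWgen _)) (aeval_mem _ _ ?_ _)
    rintro (j | j)
    · have := IsTens.of_mul (X_mem_HWgen (W := W) (X := X) (T0 := T0) (ξ₁ q₁) j)
        (HWgen T0 W X).one_mem
      show IsTens (HWgen T0 W X) _
      simpa using this
    · have := IsTens.of_mul (HWgen T0 W X).one_mem
        (X_mem_HWgen (W := W) (X := X) (T0 := T0) (ξ₂ q₁) j)
      show IsTens (HWgen T0 W X) _
      simpa using this
  · -- values in `OL`
    intro p
    rw [hr_apply]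
    refine OL.sum_mem fun q₁ _ => OL.mul_mem (OL.mul_mem (ind_mem OL _ _) (ind_mem OL _ _))
      (aeval_mem OL _ ?_ _)
    rintro (j | j)
    · exact D.val _ _ _
    · exact D.val _ _ _
  · -- the congruence
    rintro ⟨s, t⟩
    rw [hr_apply]
    simp only
    rw [Finset.sum_eq_single (QuotientAddGroup.mk s : T ⧸ T0)]
    · rw [ind_eq_one rfl, one_mul]
      by_cases h : (QuotientAddGroup.mk t : T ⧸ T0) = κ ξ'' - QuotientAddGroup.mk s
      · rw [ind_eq_one h, one_mul]
        exact hP' _ s t rfl h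
      · rw [ind_eq_zero h, zero_mul, sub_zero]
        refine ⟨0, Ideal.zero_mem _, ?_⟩
        rw [D.supp ξ'' i (s + t)]
        · rfl
        · intro h'
          apply h
          rw [← h', QuotientAddGroup.mk_add, add_sub_cancel_left]
    · intro q₁ _ hq₁
      rw [ind_eq_zero (Ne.symm hq₁), zero_mul, zero_mul]
    · intro h
      exact absurd (Finset.mem_univ _) h

/-- (H5) -/
theorem GenData0.comul (D : GenData0 OL T0 ρ I κ X) :
    ∀ f ∈ HWgen T0 W X, ∃ (n : ℕ) (a b : Fin n → T → K), (∀ i, a i ∈ HWgen T0 W X) ∧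
      (∀ i, b i ∈ HWgen T0 W X) ∧ ∀ s t, f (s + t) = ∑ i, a i s * b i t := by
  intro f hf
  have h := isTens_of_adjoin (gens T0 X) (fun g hg => by
    rcases hg with ⟨q, rfl⟩ | ⟨ξ, i, rfl⟩
    · exact isTens_ind q
    · exact D.isTens_X OL ξ i) f hf
  exact IsTens.exists_fin h

/-- a `W`-order without the Frobenius condition: values in `OL`, `I`-equivariant, separating,
comultiplication-closed -/
structure PreWOrder (ρ : Γ → T → T) (I : Subgroup Γ) (HW0 : Subalgebra W (T → K)) : Prop where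
  val : ∀ f ∈ HW0, ∀ t, f t ∈ OL
  equivI : ∀ f ∈ HW0, EquivOn I ρ f
  sep : ∀ s t : T, s ≠ t → ∃ f ∈ HW0, f s ≠ f t
  comul : ∀ f ∈ HW0, IsTens HW0 (fun p => f (p.1 + p.2))

/-- the generated algebra is a `W`-order without the Frobenius condition -/
theorem GenData0.preWOrder (D : GenData0 OL T0 ρ I κ X) : PreWOrder OL ρ I (HWgen T0 W X) where
  val := D.val_mem OL
  equivI := D.equivOn OL
  sep := D.sep OL
  comul := isTens_of_adjoin (gens T0 X) (fun g hg => by
    rcases hg with ⟨q, rfl⟩ | ⟨ξ, i, rfl⟩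
    · exact isTens_ind q
    · exact D.isTens_X OL ξ i)

/-- **the generator-level criterion** -/
theorem GenData.wOrder (D : GenData OL T0 ρ σ σW I κ X) : WOrder ρ σ I (HWgen T0 W X) where
  fg := D.toGenData0.fg OL
  equivI := D.toGenData0.equivOn OL
  frob := D.frob_mem OL
  sep := D.toGenData0.sep OL
  comul := D.toGenData0.comul OL

end Comul

end Fermat.Agent.S19.OrderGen
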