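import Mathlib
import Fermat.Agent.S19.OrderGen

/-!
S19 scratch (helper16): THE FROBENIUS CLOSURE of a `W`-order.

If `HW0` is a `W`-subalgebra of `Map(T, K)` with values in a finite `W`-algebra `OL`, `I`-equivariant,
separating and comultiplication-closed, then the smallest `Φ`-stable subalgebra containing `HW0`
(`Φ f = σ • f ∘ ρ σ⁻¹`) is a `BackEnd.WOrder`, provided `σ` normalises `I` and preserves `OL`.
(The comultiplication commutes with `Φ`.)
-/

set_option autoImplicit false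
set_option linter.unusedSectionVars false

namespace Fermat.Agent.S19.FrobClosure

open Fermat.Agent.S19.Artin Fermat.Agent.S19.BackEnd Fermat.Agent.S19.OrderGen

variable {W K Γ T : Type*} [CommRing W] [Field K] [Algebra W K]
  [Group Γ] [MulSemiringAction Γ K] [AddCommGroup T]

/-- the Frobenius operator on functions -/
def frobOp (ρ : Γ → T → T) (σ : Γ) (f : T → K) : T → K := fun t => σ • f (ρ σ⁻¹ t)

theorem frobOp_apply (ρ : Γ → T → T) (σ : Γ) (f : T → K) (t : T) :
    frobOp ρ σ f t = σ • f (ρ σ⁻¹ t) := rfl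

/-- the smallest `Φ`-stable subalgebra containing `HW0` -/
def frobClosure (ρ : Γ → T → T) (σ : Γ) (HW0 : Subalgebra W (T → K)) : Subalgebra W (T → K) :=
  sInf {S | HW0 ≤ S ∧ ∀ f ∈ S, frobOp ρ σ f ∈ S}

variable {ρ : Γ → T → T} {σ : Γ} {HW0 : Subalgebra W (T → K)}

theorem le_frobClosure : HW0 ≤ frobClosure ρ σ HW0 :=
  le_sInf fun _ hS => hS.1

theorem frobOp_mem_frobClosure {f : T → K} (hf : f ∈ frobClosure ρ σ HW0) :
    frobOp ρ σ f ∈ frobClosure ρ σ HW0 := by
  rw [frobClosure, Algebra.mem_sInf] at hf ⊢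
  intro S hS
  exact hS.2 f (hf S hS)

theorem frobClosure_le {S : Subalgebra W (T → K)} (h0 : HW0 ≤ S)
    (hΦ : ∀ f ∈ S, frobOp ρ σ f ∈ S) : frobClosure ρ σ HW0 ≤ S :=
  sInf_le ⟨h0, hΦ⟩

section Main

variable [IsNoetherianRing W] [Finite T]
variable (OL : Subalgebra W K) [Module.Finite W OL] {I : Subgroup Γ}

/-- the frame facts used by the closure -/
structure FrobFrame (ρ : Γ → T → T) (σ : Γ) (I : Subgroup Γ) : Prop where
  ρ_add : ∀ τ s t, ρ τ (s + t) = ρ τ s + ρ τ t
  ρ_mul : ∀ τ τ' t, ρ (τ * τ') t = ρ τ (ρ τ' t)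
  /-- `I` fixes `W` -/
  fixW : ∀ τ ∈ I, ∀ w : W, τ • algebraMap W K w = algebraMap W K w
  /-- `σ` normalises `I` -/
  I_normal : ∀ τ ∈ I, σ⁻¹ * τ * σ ∈ I
  /-- `σ` preserves `OL` -/
  σ_OL : ∀ x ∈ OL, σ • x ∈ OL

variable {OL}

theorem val_frobClosure (Fr : FrobFrame (W := W) OL ρ σ I) (P : PreWOrder OL ρ I HW0) :
    ∀ f ∈ frobClosure ρ σ HW0, ∀ t, f t ∈ OL := by
  let V : Subalgebra W (T → K) :=
    { carrier := {f | ∀ t, f t ∈ OL}
      mul_mem' := fun {f g} hf hg t => OL.mul_mem (hf t) (hg t)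
      add_mem' := fun {f g} hf hg t => OL.add_mem (hf t) (hg t)
      algebraMap_mem' := fun w t => OL.algebraMap_mem w }
  have hle : frobClosure ρ σ HW0 ≤ V :=
    frobClosure_le (fun f hf => P.val f hf) (fun f hf t => Fr.σ_OL _ (hf _))
  exact fun f hf => hle hf

theorem equivOn_frobClosure (Fr : FrobFrame (W := W) OL ρ σ I) (P : PreWOrder OL ρ I HW0) :
    ∀ f ∈ frobClosure ρ σ HW0, EquivOn I ρ f := by
  let V : Subalgebra W (T → K) :=
    { carrier := {f | EquivOn I ρ f}
      mul_mem' := fun {f g} hf hg τ hτ t => by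
        simp only [Pi.mul_apply, hf τ hτ t, hg τ hτ t, smul_mul']
      add_mem' := fun {f g} hf hg τ hτ t => by
        simp only [Pi.add_apply, hf τ hτ t, hg τ hτ t, smul_add]
      algebraMap_mem' := fun w τ hτ t => by
        simp only [Pi.algebraMap_apply]
        exact (Fr.fixW τ hτ w).symm }
  have hle : frobClosure ρ σ HW0 ≤ V := by
    refine frobClosure_le (fun f hf => P.equivI f hf) (fun f hf τ hτ t => ?_)
    -- `σ⁻¹ τ = (σ⁻¹ τ σ) σ⁻¹`
    have h1 : σ⁻¹ * τ = (σ⁻¹ * τ * σ) * σ⁻¹ := by group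
    have h2 : σ * (σ⁻¹ * τ * σ) = τ * σ := by group
    rw [frobOp_apply, frobOp_apply, ← Fr.ρ_mul, h1, Fr.ρ_mul,
      hf (σ⁻¹ * τ * σ) (Fr.I_normal τ hτ), ← mul_smul, h2, mul_smul]
  exact fun f hf => hle hf

theorem isTens_mono {H1 H2 : Subalgebra W (T → K)} (h : H1 ≤ H2) {F : T × T → K}
    (hF : IsTens H1 F) : IsTens H2 F := by
  obtain ⟨ι, _, a, b, ha, hb, hab⟩ := hF
  exact ⟨ι, inferInstance, a, b, fun i => h (ha i), fun i => h (hb i), hab⟩

theorem comul_frobClosure (Fr : FrobFrame (W := W) OL ρ σ I) (P : PreWOrder OL ρ I HW0) :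
    ∀ f ∈ frobClosure ρ σ HW0, IsTens (frobClosure ρ σ HW0) (fun p => f (p.1 + p.2)) := by
  have hle : frobClosure ρ σ HW0 ≤
      (Tens (frobClosure ρ σ HW0)).comap (comulHom (W := W)) := by
    refine frobClosure_le (fun f hf => isTens_mono le_frobClosure (P.comul f hf))
      (fun f hf => ?_)
    obtain ⟨ι, _, a, b, ha, hb, hab⟩ := (hf : IsTens (frobClosure ρ σ HW0) _)
    refine ⟨ι, inferInstance, fun i => frobOp ρ σ (a i), fun i => frobOp ρ σ (b i),
      fun i => frobOp_mem_frobClosure (ha i), fun i => frobOp_mem_frobClosure (hb i),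
      fun p => ?_⟩
    have this : f (ρ σ⁻¹ p.1 + ρ σ⁻¹ p.2) = ∑ i, a i (ρ σ⁻¹ p.1) * b i (ρ σ⁻¹ p.2) :=
      hab (ρ σ⁻¹ p.1, ρ σ⁻¹ p.2)
    show σ • f (ρ σ⁻¹ (p.1 + p.2)) = _
    rw [Fr.ρ_add, this, Finset.smul_sum]
    refine Finset.sum_congr rfl fun i _ => ?_
    rw [smul_mul']
    rfl
  exact fun f hf => hle hf

/-- **the Frobenius closure of a `W`-order is a `W`-order** -/
theorem wOrder_frobClosure (Fr : FrobFrame (W := W) OL ρ σ I) (P : PreWOrder OL ρ I HW0) :
    WOrder ρ σ I (frobClosure ρ σ HW0) where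
  fg := by
    have hN : IsNoetherian W (T → OL) := isNoetherian_of_isNoetherianRing_of_finite W (T → OL)
    let ψ : ↥(Subalgebra.toSubmodule (frobClosure ρ σ HW0)) →ₗ[W] (T → OL) :=
      { toFun := fun f t => ⟨(f : T → K) t, val_frobClosure Fr P f.1 f.2 t⟩
        map_add' := fun f g => by
          funext t
          apply Subtype.ext
          rfl
        map_smul' := fun w f => by
          funext t
          apply Subtype.ext
          rfl }
    have hψ : Function.Injective ψ := by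
      intro f g hfg
      apply Subtype.ext
      funext t
      exact congrArg (fun h : T → OL => ((h t : OL) : K)) hfg
    have := Module.Finite.of_injective ψ hψ
    exact Module.Finite.iff_fg.1 this
  equivI := equivOn_frobClosure Fr P
  frob := fun f hf => frobOp_mem_frobClosure hf
  sep := fun s t hst => by
    obtain ⟨f, hf, hne⟩ := P.sep s t hst
    exact ⟨f, le_frobClosure hf, hne⟩
  comul := fun f hf => IsTens.exists_fin (comul_frobClosure Fr P f hf)

end Main

end Fermat.Agent.S19.FrobClosure
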