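import Mathlib
import Fermat.Agent.S19.OrderGen
import Fermat.Agent.S19.FrobClosure

/-!
S19 (helper16): THE ABSTRACT GLUE `ChartAPI ⟹ OrderGen.GenData0 ⟹ BackEnd.WOrder` (orbit form).

`J` an abelian group with an action `act` of `Γ`, `J1 ≤ J` ("kernel of reduction"), `ι : T →+ J`
an equivariant embedding of the finite group `T`, ONE inertia-fixed chart with coordinates
`coord : J → Fin g → K` (only meaningful on `J1`) and truncated addition polynomials `Ψ n i` over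
`W`.  The generators are `t ↦ 1_q(t) coord (ι t - y) i` for `q` a coset of `T0 = ι⁻¹ J1` and `y` an
inertia-fixed base point of `q`; the `W`-order is the Frobenius closure of the algebra they
generate (`FrobClosure`), so no transport of the chart by the Frobenius is needed.
-/

set_option autoImplicit false
set_option linter.unusedSectionVars false

namespace Fermat.Agent.S19.ChartGlue

open IsLocalRing Fermat.Agent.S19.Artin Fermat.Agent.S19.BackEnd Fermat.Agent.S19.OrderGen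

section PolyCongr

variable {W K : Type*} [CommRing W] [Field K] [Algebra W K]

/-- polynomial expressions respect congruences modulo `c ^ n • A` -/
theorem aeval_congr_mod (A : Subalgebra W K) (c : K) (hc : c ∈ A) (n : ℕ) {κ : Type*}
    (u u' : κ → K) (hu : ∀ v, u v ∈ A) (hu' : ∀ v, u' v ∈ A)
    (h : ∀ v, ∃ a ∈ A, u v - u' v = c ^ n * a) (Q : MvPolynomial κ W) :
    ∃ a ∈ A, MvPolynomial.aeval u Q - MvPolynomial.aeval u' Q = c ^ n * a := by
  set U : κ → A := fun v => ⟨u v, hu v⟩ with hU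
  set U' : κ → A := fun v => ⟨u' v, hu' v⟩ with hU'
  set cA : A := ⟨c, hc⟩ with hcA
  set 𝔞 : Ideal A := Ideal.span {cA ^ n} with h𝔞
  have hUU' : ∀ v, U v - U' v ∈ 𝔞 := by
    intro v
    obtain ⟨a, ha, hav⟩ := h v
    rw [h𝔞, Ideal.mem_span_singleton']
    refine ⟨⟨a, ha⟩, ?_⟩
    apply Subtype.ext
    show a * c ^ n = u v - u' v
    rw [hav, mul_comm]
  have key : MvPolynomial.aeval U Q - MvPolynomial.aeval U' Q ∈ 𝔞 := by
    rw [← Ideal.Quotient.eq_zero_iff_mem, map_sub, sub_eq_zero]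
    have h1 := MvPolynomial.comp_aeval_apply U (Ideal.Quotient.mkₐ W 𝔞) Q
    have h2 := MvPolynomial.comp_aeval_apply U' (Ideal.Quotient.mkₐ W 𝔞) Q
    have h3 : (fun i => (Ideal.Quotient.mkₐ W 𝔞) (U i)) =
        (fun i => (Ideal.Quotient.mkₐ W 𝔞) (U' i)) := by
      funext v
      exact Ideal.Quotient.eq.2 (hUU' v)
    rw [h3] at h1
    exact h1.trans h2.symm
  rw [h𝔞, Ideal.mem_span_singleton'] at key
  obtain ⟨a, ha⟩ := key
  refine ⟨a, a.2, ?_⟩
  have h4 := congrArg (fun x : A => (x : K)) ha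
  have h5 : ∀ V : κ → A, ((MvPolynomial.aeval V Q : A) : K) =
      MvPolynomial.aeval (fun v => (V v : K)) Q := fun V =>
    MvPolynomial.comp_aeval_apply V A.val Q
  simp only [Subalgebra.coe_mul, Subalgebra.coe_sub, Subalgebra.coe_pow] at h4
  rw [h5 U, h5 U'] at h4
  rw [← h4, mul_comm]

end PolyCongr

section API

variable {W K Γ T J : Type*} [CommRing W] [Field K] [Algebra W K] [IsNoetherianRing W]
  [IsLocalRing W] [Group Γ] [MulSemiringAction Γ K] [AddCommGroup T] [Finite T] [AddCommGroup J]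
variable (OL : Subalgebra W K) [IsLocalRing OL] [Module.Finite W OL]
  [IsLocalHom (algebraMap W OL)]

/-- the abstract chart interface (ONE inertia-fixed chart) -/
structure ChartAPI (A : Subalgebra W K) (small : K → Prop) (act : Γ → J → J)
    (J1 : AddSubgroup J) (ι : T →+ J) (ρ : Γ → T → T) (I : Subgroup Γ)
    {g : ℕ} (coord : J → Fin g → K)
    (Ψ : ℕ → Fin g → MvPolynomial (Fin g ⊕ Fin g) W) : Prop where
  ρ_add : ∀ τ s t, ρ τ (s + t) = ρ τ s + ρ τ t
  ρ_mul : ∀ τ τ' t, ρ (τ * τ') t = ρ τ (ρ τ' t)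
  ρ_one : ∀ t, ρ 1 t = t
  act_add : ∀ τ x y, act τ (x + y) = act τ x + act τ y
  ι_inj : Function.Injective ι
  ι_ρ : ∀ τ t, ι (ρ τ t) = act τ (ι t)
  /-- `I` fixes `W` -/
  fixW : ∀ τ ∈ I, ∀ w : W, τ • algebraMap W K w = algebraMap W K w
  /-- inertia acts trivially modulo `J1` -/
  J1_I : ∀ τ ∈ I, ∀ x, act τ x - x ∈ J1
  coord_inj : ∀ z z', z ∈ J1 → z' ∈ J1 → coord z = coord z' → z = z'
  coord_mem : ∀ z i, z ∈ J1 → coord z i ∈ A
  coord_I : ∀ τ ∈ I, ∀ z ∈ J1, ∀ i, coord (act τ z) i = τ • coord z i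
  /-- `A^I = W` -/
  AI : ∀ a ∈ A, (∀ τ ∈ I, τ • a = a) → ∃ w : W, algebraMap W K w = a
  /-- every class has an inertia-fixed base point -/
  base : ∀ x : J, ∃ y, (∀ τ ∈ I, act τ y = y) ∧ x - y ∈ J1
  /-- `OL` contains the elements of `A` fixed by the kernel of `I → Sym T` -/
  hOL : ∀ a ∈ A, (∀ τ ∈ I, (∀ t, ρ τ t = t) → τ • a = a) → a ∈ OL
  small_mem : ∀ c, small c → c ∈ A
  /-- the `c`-adic topology (for `c` small) is finer than the `m_OL`-adic one on `OL` -/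
  V : ∀ c, small c → ∀ b : ℕ, ∃ n : ℕ, ∀ x : OL, (∃ a ∈ A, (x : K) = c ^ n * a) →
    x ∈ maximalIdeal OL ^ b
  /-- the truncated addition law -/
  coord_add : ∀ z z', z ∈ J1 → z' ∈ J1 → ∃ c, small c ∧ ∀ (n : ℕ) (i : Fin g), ∃ a ∈ A,
    coord (z + z') i - MvPolynomial.aeval (Sum.elim (coord z) (coord z')) (Ψ n i) =
      c ^ n * a

variable {A : Subalgebra W K} {small : K → Prop} {act : Γ → J → J}
  {J1 : AddSubgroup J} {ι : T →+ J} {ρ : Γ → T → T} {I : Subgroup Γ}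
  {g : ℕ} {coord : J → Fin g → K}
  {Ψ : ℕ → Fin g → MvPolynomial (Fin g ⊕ Fin g) W}

/-- the index type of the generators: a coset and an inertia-fixed base point -/
structure Idx (act : Γ → J → J) (J1 : AddSubgroup J) (ι : T →+ J) (I : Subgroup Γ)
    where
  y : J
  q : T ⧸ (J1.comap ι)
  fixed : ∀ τ ∈ I, act τ y = y
  mem : ∀ t : T, (QuotientAddGroup.mk t : T ⧸ (J1.comap ι)) = q → ι t - y ∈ J1

open scoped Classical in
/-- the coordinate functions -/
noncomputable def Xfun (coord : J → Fin g → K) (ξ : Idx act J1 ι I) (i : Fin g) :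
    T → K := fun t =>
  if (QuotientAddGroup.mk t : T ⧸ (J1.comap ι)) = ξ.q then coord (ι t - ξ.y) i else 0

theorem Xfun_eq (ξ : Idx act J1 ι I) (i : Fin g) {t : T}
    (h : (QuotientAddGroup.mk t : T ⧸ (J1.comap ι)) = ξ.q) :
    Xfun coord ξ i t = coord (ι t - ξ.y) i := by
  classical
  simp [Xfun, h]

theorem Xfun_zero (ξ : Idx act J1 ι I) (i : Fin g) {t : T}
    (h : (QuotientAddGroup.mk t : T ⧸ (J1.comap ι)) ≠ ξ.q) :
    Xfun coord ξ i t = 0 := by
  classical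
  simp [Xfun, h]

/-- the `W`-algebra generated by the coset idempotents and the coordinate functions -/
noncomputable def HW0 (act : Γ → J → J) (J1 : AddSubgroup J) (ι : T →+ J) (I : Subgroup Γ)
    (coord : J → Fin g → K) : Subalgebra W (T → K) :=
  HWgen (J1.comap ι) W (Xfun (I := I) (act := act) (J1 := J1) (ι := ι) coord)

theorem HW0_def : HW0 (W := W) act J1 ι I coord =
    HWgen (J1.comap ι) W (Xfun (I := I) (act := act) (J1 := J1) (ι := ι) coord) := rfl

namespace ChartAPI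

variable (C : ChartAPI OL A small act J1 ι ρ I coord Ψ)
include C

theorem act_zero (τ : Γ) : act τ 0 = 0 := by
  have := C.act_add τ 0 0
  rw [add_zero] at this
  exact left_eq_add.1 this

theorem act_neg (τ : Γ) (x : J) : act τ (-x) = -act τ x := by
  rw [eq_neg_iff_add_eq_zero, ← C.act_add, neg_add_cancel, C.act_zero OL]

theorem act_sub (τ : Γ) (x y : J) : act τ (x - y) = act τ x - act τ y := by
  rw [sub_eq_add_neg, C.act_add, C.act_neg OL, sub_eq_add_neg]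

theorem ρ_apply_inv (τ : Γ) (t : T) : ρ τ (ρ τ⁻¹ t) = t := by
  rw [← C.ρ_mul, mul_inv_cancel, C.ρ_one]

/-- cosets of `T0` are `I`-stable -/
theorem mk_ρ_I {τ : Γ} (hτ : τ ∈ I) (t : T) :
    (QuotientAddGroup.mk (ρ τ t) : T ⧸ (J1.comap ι)) = QuotientAddGroup.mk t := by
  rw [QuotientAddGroup.eq, AddSubgroup.mem_comap, map_add, map_neg, C.ι_ρ]
  have := J1.neg_mem (C.J1_I τ hτ (ι t))
  rwa [neg_sub, sub_eq_neg_add] at this

/-- values in `OL` -/
theorem coord_mem_OL (z : J) (hz : z ∈ J1)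
    (hfix : ∀ τ ∈ I, (∀ t, ρ τ t = t) → act τ z = z) (i : Fin g) : coord z i ∈ OL := by
  refine C.hOL _ (C.coord_mem z i hz) fun τ hτ hρ => ?_
  rw [← C.coord_I τ hτ z hz i, hfix τ hτ hρ]

theorem base_fix (ξ : Idx act J1 ι I) (t : T) {τ : Γ} (hτ : τ ∈ I) (hρ : ∀ t, ρ τ t = t) :
    act τ (ι t - ξ.y) = ι t - ξ.y := by
  rw [C.act_sub OL, ← C.ι_ρ, hρ, ξ.fixed τ hτ]

end ChartAPI

end API

section Build

variable {W K Γ T J : Type*} [CommRing W] [Field K] [Algebra W K] [IsNoetherianRing W]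
  [IsLocalRing W] [Group Γ] [MulSemiringAction Γ K] [AddCommGroup T] [Finite T] [AddCommGroup J]
variable (OL : Subalgebra W K) [IsLocalRing OL] [Module.Finite W OL]
  [IsLocalHom (algebraMap W OL)]
variable {A : Subalgebra W K} {small : K → Prop} {act : Γ → J → J}
  {J1 : AddSubgroup J} {ι : T →+ J} {ρ : Γ → T → T} {I : Subgroup Γ}
  {g : ℕ} {coord : J → Fin g → K}
  {Ψ : ℕ → Fin g → MvPolynomial (Fin g ⊕ Fin g) W}

namespace ChartAPI

variable (C : ChartAPI OL A small act J1 ι ρ I coord Ψ)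
include C

theorem ρ_sub (τ : Γ) (s t : T) : ρ τ (s - t) = ρ τ s - ρ τ t := by
  rw [eq_sub_iff_add_eq, ← C.ρ_add, sub_add_cancel]

/-- two elements of the same coset differ by an element of `J1` -/
theorem sub_mem_of_mk_eq {s t : T}
    (h : (QuotientAddGroup.mk s : T ⧸ (J1.comap ι)) = QuotientAddGroup.mk t) :
    ι s - ι t ∈ J1 := by
  rw [QuotientAddGroup.eq, AddSubgroup.mem_comap, map_add, map_neg] at h
  have := J1.neg_mem h
  have h2 : -(-ι s + ι t) = ι s - ι t := by abel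
  rwa [h2] at this

/-- every coset has an index -/
theorem exists_idx (q : T ⧸ (J1.comap ι)) :
    ∃ ξ : Idx act J1 ι I, ξ.q = q := by
  obtain ⟨t₀, rfl⟩ := QuotientAddGroup.mk_surjective q
  obtain ⟨y, hyfix, hy⟩ := C.base (ι t₀)
  refine ⟨⟨y, QuotientAddGroup.mk t₀, hyfix, fun t ht => ?_⟩, rfl⟩
  have h1 := C.sub_mem_of_mk_eq OL ht
  have : ι t - y = (ι t - ι t₀) + (ι t₀ - y) := by abel
  rw [this]
  exact J1.add_mem h1 hy

theorem V_mono {c : K} (hc : small c) {b n₀ n : ℕ}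
    (h0 : ∀ x : OL, (∃ a ∈ A, (x : K) = c ^ n₀ * a) → x ∈ maximalIdeal OL ^ b) (hn : n₀ ≤ n)
    (x : OL) (hx : ∃ a ∈ A, (x : K) = c ^ n * a) : x ∈ maximalIdeal OL ^ b := by
  obtain ⟨a, ha, hxa⟩ := hx
  refine h0 x ⟨c ^ (n - n₀) * a, A.mul_mem (A.pow_mem (C.small_mem c hc) _) ha, ?_⟩
  rw [hxa, ← mul_assoc, ← pow_add, Nat.add_sub_cancel' hn]

end ChartAPI

end Build

section Add

variable {W K Γ T J : Type*} [CommRing W] [Field K] [Algebra W K] [IsNoetherianRing W]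
  [IsLocalRing W] [Group Γ] [MulSemiringAction Γ K] [AddCommGroup T] [Finite T] [AddCommGroup J]
variable (OL : Subalgebra W K) [IsLocalRing OL] [Module.Finite W OL]
  [IsLocalHom (algebraMap W OL)]
variable {A : Subalgebra W K} {small : K → Prop} {act : Γ → J → J}
  {J1 : AddSubgroup J} {ι : T →+ J} {ρ : Γ → T → T} {I : Subgroup Γ}
  {g : ℕ} {coord : J → Fin g → K}
  {Ψ : ℕ → Fin g → MvPolynomial (Fin g ⊕ Fin g) W}

namespace ChartAPI

variable (C : ChartAPI OL A small act J1 ι ρ I coord Ψ)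
include C

/-- the finite-level congruences for the addition, in the generator form -/
theorem add_congr (ξ'' : Idx act J1 ι I) (q₁ q₂ : T ⧸ (J1.comap ι)) (hq : q₁ + q₂ = ξ''.q) :
    ∃ ξ₁ ξ₂ : Idx act J1 ι I, ξ₁.q = q₁ ∧ ξ₂.q = q₂ ∧
      ∀ (i : Fin g) (b : ℕ), ∃ P : MvPolynomial (Fin g ⊕ Fin g) W, ∀ s t : T,
        (QuotientAddGroup.mk s : T ⧸ (J1.comap ι)) = q₁ →
        (QuotientAddGroup.mk t : T ⧸ (J1.comap ι)) = q₂ →
        ∃ e : OL, e ∈ maximalIdeal OL ^ b ∧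
          Xfun coord ξ'' i (s + t) - MvPolynomial.aeval
            (Sum.elim (fun j => Xfun coord ξ₁ j s) (fun j => Xfun coord ξ₂ j t)) P = e := by
  classical
  obtain ⟨ξ₁, hq₁⟩ := C.exists_idx OL q₁
  obtain ⟨ξ₂, hq₂⟩ := C.exists_idx OL q₂
  refine ⟨ξ₁, ξ₂, hq₁, hq₂, fun i b => ?_⟩
  -- the inertia-fixed class `w`
  set w : J := ξ₁.y + ξ₂.y - ξ''.y with hw
  have hwfix : ∀ τ ∈ I, act τ w = w := by
    intro τ hτ
    rw [hw, C.act_sub OL, C.act_add, ξ₁.fixed τ hτ, ξ₂.fixed τ hτ, ξ''.fixed τ hτ]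
  have hsum : ∀ s t : T, (QuotientAddGroup.mk s : T ⧸ (J1.comap ι)) = q₁ →
      (QuotientAddGroup.mk t : T ⧸ (J1.comap ι)) = q₂ →
      (QuotientAddGroup.mk (s + t) : T ⧸ (J1.comap ι)) = ξ''.q := by
    intro s t hs ht
    rw [QuotientAddGroup.mk_add, hs, ht, hq]
  have hdecomp : ∀ s t : T, ι (s + t) - ξ''.y = (ι s - ξ₁.y) + (ι t - ξ₂.y) + w := by
    intro s t
    rw [hw, map_add]
    abel
  have hw1 : w ∈ J1 := by
    obtain ⟨t₁, ht₁⟩ := QuotientAddGroup.mk_surjective q₁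
    obtain ⟨t₂, ht₂⟩ := QuotientAddGroup.mk_surjective q₂
    have h1 := ξ''.mem (t₁ + t₂) (hsum t₁ t₂ ht₁ ht₂)
    have h2 := ξ₁.mem t₁ (ht₁.trans hq₁.symm)
    have h3 := ξ₂.mem t₂ (ht₂.trans hq₂.symm)
    have : w = (ι (t₁ + t₂) - ξ''.y) - (ι t₁ - ξ₁.y) - (ι t₂ - ξ₂.y) := by
      rw [hdecomp]; abel
    rw [this]
    exact J1.sub_mem (J1.sub_mem h1 h2) h3
  have hwW : ∀ j, ∃ wc : W, algebraMap W K wc = coord w j := by
    intro j
    refine C.AI _ (C.coord_mem w j hw1) fun τ hτ => ?_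
    rw [← C.coord_I τ hτ w hw1 j, hwfix τ hτ]
  choose wc hwc using hwW
  -- the finite set of pairs
  let S : Type _ := {p : T × T // (QuotientAddGroup.mk p.1 : T ⧸ (J1.comap ι)) = q₁ ∧
    (QuotientAddGroup.mk p.2 : T ⧸ (J1.comap ι)) = q₂}
  have : Finite S := Subtype.finite
  cases nonempty_fintype S
  have hz : ∀ p : S, ι p.1.1 - ξ₁.y ∈ J1 := fun p => ξ₁.mem _ (p.2.1.trans hq₁.symm)
  have hz' : ∀ p : S, ι p.1.2 - ξ₂.y ∈ J1 := fun p => ξ₂.mem _ (p.2.2.trans hq₂.symm)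
  choose c₁ hc₁s hc₁ using fun p : S => C.coord_add _ _ (hz p) (hz' p)
  choose c₂ hc₂s hc₂ using fun p : S =>
    C.coord_add _ _ (J1.add_mem (hz p) (hz' p)) hw1
  choose n₁ hn₁ using fun p : S => C.V (c₁ p) (hc₁s p) b
  choose n₂ hn₂ using fun p : S => C.V (c₂ p) (hc₂s p) b
  set n : ℕ := Finset.univ.sup (fun p : S => max (n₁ p) (n₂ p)) with hn
  have hn₁le : ∀ p : S, n₁ p ≤ n := fun p =>
    le_trans (le_max_left _ _) (Finset.le_sup (f := fun p : S => max (n₁ p) (n₂ p))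
      (Finset.mem_univ p))
  have hn₂le : ∀ p : S, n₂ p ≤ n := fun p =>
    le_trans (le_max_right _ _) (Finset.le_sup (f := fun p : S => max (n₁ p) (n₂ p))
      (Finset.mem_univ p))
  refine ⟨MvPolynomial.bind₁ (Sum.elim (fun j => Ψ n j) (fun j => MvPolynomial.C (wc j)))
    (Ψ n i), fun s t hs ht => ?_⟩
  set p : S := ⟨(s, t), hs, ht⟩ with hp
  set z : J := ι s - ξ₁.y with hzdef
  set z' : J := ι t - ξ₂.y with hz'def
  have hzJ : z ∈ J1 := hz p
  have hz'J : z' ∈ J1 := hz' p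
  have hzzJ : z + z' ∈ J1 := J1.add_mem hzJ hz'J
  -- inertia-fixedness (for the kernel of `I → Sym T`)
  have hfz : ∀ τ ∈ I, (∀ t, ρ τ t = t) → act τ z = z := fun τ hτ hρ => C.base_fix OL ξ₁ s hτ hρ
  have hfz' : ∀ τ ∈ I, (∀ t, ρ τ t = t) → act τ z' = z' := fun τ hτ hρ =>
    C.base_fix OL ξ₂ t hτ hρ
  have hfzz : ∀ τ ∈ I, (∀ t, ρ τ t = t) → act τ (z + z') = z + z' := fun τ hτ hρ => by
    rw [C.act_add, hfz τ hτ hρ, hfz' τ hτ hρ]
  have hfzzw : ∀ τ ∈ I, (∀ t, ρ τ t = t) → act τ (z + z' + w) = z + z' + w := fun τ hτ hρ => by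
    rw [C.act_add, hfzz τ hτ hρ, hwfix τ hτ]
  -- the three values
  set u : Fin g ⊕ Fin g → K := Sum.elim (coord (z + z')) (coord w) with hu
  set f : Fin g ⊕ Fin g → K := Sum.elim (coord z) (coord z') with hf
  set u' : Fin g ⊕ Fin g → K :=
    Sum.elim (fun j => MvPolynomial.aeval f (Ψ n j)) (coord w) with hu'
  have hfA : ∀ v, f v ∈ A := by
    rintro (j | j)
    · exact C.coord_mem z j hzJ
    · exact C.coord_mem z' j hz'J
  have hfOL : ∀ v, f v ∈ OL := by
    rintro (j | j)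
    · exact C.coord_mem_OL OL z hzJ hfz j
    · exact C.coord_mem_OL OL z' hz'J hfz' j
  have huA : ∀ v, u v ∈ A := by
    rintro (j | j)
    · exact C.coord_mem _ j hzzJ
    · exact C.coord_mem w j hw1
  have huOL : ∀ v, u v ∈ OL := by
    rintro (j | j)
    · exact C.coord_mem_OL OL _ hzzJ hfzz j
    · show coord w j ∈ OL
      rw [← hwc j]; exact OL.algebraMap_mem _
  have hu'A : ∀ v, u' v ∈ A := by
    rintro (j | j)
    · exact aeval_mem A f hfA _
    · exact C.coord_mem w j hw1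
  have hu'OL : ∀ v, u' v ∈ OL := by
    rintro (j | j)
    · exact aeval_mem OL f hfOL _
    · show coord w j ∈ OL
      rw [← hwc j]; exact OL.algebraMap_mem _
  -- rewrite the two sides
  have hX'' : Xfun coord ξ'' i (s + t) = coord (z + z' + w) i := by
    rw [Xfun_eq ξ'' i (hsum s t hs ht), hdecomp]
  have hP : MvPolynomial.aeval
      (Sum.elim (fun j => Xfun coord ξ₁ j s) (fun j => Xfun coord ξ₂ j t))
      (MvPolynomial.bind₁ (Sum.elim (fun j => Ψ n j) (fun j => MvPolynomial.C (wc j)))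
        (Ψ n i)) = MvPolynomial.aeval u' (Ψ n i) := by
    have hff : (Sum.elim (fun j => Xfun coord ξ₁ j s) (fun j => Xfun coord ξ₂ j t)) = f := by
      funext v
      rcases v with j | j
      · show Xfun coord ξ₁ j s = coord z j
        rw [Xfun_eq ξ₁ j (hs.trans hq₁.symm)]
      · show Xfun coord ξ₂ j t = coord z' j
        rw [Xfun_eq ξ₂ j (ht.trans hq₂.symm)]
    have hfun : (fun v => MvPolynomial.aeval f
        (Sum.elim (fun j => Ψ n j) (fun j => MvPolynomial.C (wc j)) v)) = u' := by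
      funext v
      rcases v with j | j
      · rfl
      · show MvPolynomial.aeval f (MvPolynomial.C (wc j)) = coord w j
        rw [MvPolynomial.aeval_C, hwc j]
    rw [hff, MvPolynomial.aeval_bind₁, hfun]
  rw [hX'', hP]
  -- first error term
  obtain ⟨a₂, ha₂, he₂⟩ := hc₂ p n i
  have hx₁OL : coord (z + z' + w) i ∈ OL :=
    C.coord_mem_OL OL _ (J1.add_mem hzzJ hw1) hfzzw i
  have hx₂OL : MvPolynomial.aeval u (Ψ n i) ∈ OL := aeval_mem OL u huOL _
  have hx₃OL : MvPolynomial.aeval u' (Ψ n i) ∈ OL := aeval_mem OL u' hu'OL _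
  have hE₁ : (⟨coord (z + z' + w) i - MvPolynomial.aeval u (Ψ n i),
      OL.sub_mem hx₁OL hx₂OL⟩ : OL) ∈ maximalIdeal OL ^ b :=
    C.V_mono OL (hc₂s p) (hn₂ p) (hn₂le p) _ ⟨a₂, ha₂, he₂⟩
  -- second error term
  obtain ⟨a₁, ha₁, he₁⟩ := aeval_congr_mod A (c₁ p) (C.small_mem _ (hc₁s p)) n u u' huA hu'A
    (fun v => by
      rcases v with j | j
      · exact hc₁ p n j
      · exact ⟨0, A.zero_mem, by simp [hu, hu']⟩) (Ψ n i)
  have hE₂ : (⟨MvPolynomial.aeval u (Ψ n i) - MvPolynomial.aeval u' (Ψ n i),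
      OL.sub_mem hx₂OL hx₃OL⟩ : OL) ∈ maximalIdeal OL ^ b :=
    C.V_mono OL (hc₁s p) (hn₁ p) (hn₁le p) _ ⟨a₁, ha₁, he₁⟩
  refine ⟨_, Ideal.add_mem _ hE₁ hE₂, ?_⟩
  simp only [Subalgebra.coe_add]
  ring

/-- **the glue**: a chart interface gives generator data -/
theorem genData0 : GenData0 OL (J1.comap ι) ρ I (fun ξ : Idx act J1 ι I => ξ.q)
    (Xfun coord) where
  ρ_add := C.ρ_add
  ρ_mul := C.ρ_mul
  ρ_one := C.ρ_one
  fixW := C.fixW
  T0_I := fun τ hτ t => by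
    rw [AddSubgroup.mem_comap, map_sub, C.ι_ρ]
    exact C.J1_I τ hτ (ι t)
  supp := fun ξ i t h => Xfun_zero ξ i h
  val := fun ξ i t => by
    by_cases h : (QuotientAddGroup.mk t : T ⧸ (J1.comap ι)) = ξ.q
    · rw [Xfun_eq ξ i h]
      exact C.coord_mem_OL OL _ (ξ.mem t h) (fun τ hτ hρ => C.base_fix OL ξ t hτ hρ) i
    · rw [Xfun_zero ξ i h]; exact OL.zero_mem
  inj := fun ξ s t hs ht h => by
    have h1 : coord (ι s - ξ.y) = coord (ι t - ξ.y) := by
      funext i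
      have := h i
      rwa [Xfun_eq ξ i hs, Xfun_eq ξ i ht] at this
    have h2 := C.coord_inj _ _ (ξ.mem s hs) (ξ.mem t ht) h1
    exact C.ι_inj (sub_left_injective h2)
  cover := fun q => C.exists_idx OL q
  equivI := fun ξ i τ hτ t => by
    by_cases h : (QuotientAddGroup.mk t : T ⧸ (J1.comap ι)) = ξ.q
    · rw [Xfun_eq ξ i h, Xfun_eq ξ i ((C.mk_ρ_I OL hτ t).trans h)]
      have : ι (ρ τ t) - ξ.y = act τ (ι t - ξ.y) := by
        rw [C.act_sub OL, ← C.ι_ρ, ξ.fixed τ hτ]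
      rw [this, C.coord_I τ hτ _ (ξ.mem t h) i]
    · rw [Xfun_zero ξ i h, Xfun_zero ξ i (fun h' => h ((C.mk_ρ_I OL hτ t).symm.trans h')),
        smul_zero]
  add := fun ξ'' q₁ q₂ hq => C.add_congr OL ξ'' q₁ q₂ hq

/-- **(W8) from the chart interface**: the Frobenius closure of the generated algebra is a
`W`-order -/
theorem wOrder {σ : Γ} (Fr : FrobClosure.FrobFrame (W := W) OL ρ σ I) :
    WOrder ρ σ I (FrobClosure.frobClosure ρ σ (HW0 (W := W) act J1 ι I coord)) :=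
  FrobClosure.wOrder_frobClosure Fr ((C.genData0 OL).preWOrder OL)

end ChartAPI

end Add

section Top

variable {R W K Γ T J : Type*} [CommRing R] [IsDomain R] [IsPrincipalIdealRing R]
  [CommRing W] [Field K] [Algebra R W] [Algebra W K] [Algebra R K] [IsScalarTower R W K]
  [IsNoetherianRing W] [IsLocalRing W] [Group Γ] [MulSemiringAction Γ K]
  [AddCommGroup T] [Finite T] [AddCommGroup J]
variable (OL : Subalgebra W K) [IsLocalRing OL] [Module.Finite W OL]
  [IsLocalHom (algebraMap W OL)]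
variable {A : Subalgebra W K} {small : K → Prop} {act : Γ → J → J}
  {J1 : AddSubgroup J} {ι : T →+ J} {ρ : Γ → T → T} {I : Subgroup Γ}
  {g : ℕ} {coord : J → Fin g → K}
  {Ψ : ℕ → Fin g → MvPolynomial (Fin g ⊕ Fin g) W}

/-- **S19 at function level**: arithmetic frame + chart interface + Frobenius frame give a Hopf
order over `R` on the finite group `T` -/
theorem isHopfOrderFn_of_chartAPI {ℓ : R} {q : ℕ} {σ : Γ} {σW : W →+* W}
    (F : BackEnd.Frame (K := K) ρ ℓ q σ σW I)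
    (C : ChartAPI OL A small act J1 ι ρ I coord Ψ)
    (Fr : FrobClosure.FrobFrame (W := W) OL ρ σ I) :
    IsHopfOrderFn ρ
      (descend F (FrobClosure.frobClosure ρ σ (HW0 (W := W) act J1 ι I coord))) :=
  isHopfOrderFn_descend F (C.wOrder OL Fr)

end Top

end Fermat.Agent.S19.ChartGlue
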