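/-
PROJECT F (S19), slice X0-INSTANTIATION / (A0) (helper26): Galois-equivariant functions on a
set with open stabilisers separate points.

`K/k` Galois (possibly infinite), `Γ = Gal(K/k)` acting on a type `T` such that every point is
fixed by `Gal(K/E)` for some finite `E/k` (`OpenStab`).  Then for `t ≠ t'` there is a
`Γ`-equivariant `φ : T → K` (`φ (σ • s) = σ (φ s)`) with `φ t ≠ φ t'`.

Proof: different orbits are separated by the indicator function of an orbit; inside one orbit,
the stabiliser `S` of `t` is open, hence closed, so by the infinite Galois correspondence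
(`InfiniteGalois.fixingSubgroup_fixedField`) there is `α ∈ K^S` moved by any given `τ ∉ S`, and
`σ • t ↦ σ α` is well defined and equivariant on the orbit.
-/
import Mathlib

set_option autoImplicit false

namespace Fermat.Agent.S19.EquivSep

variable {k K : Type*} [Field k] [Field K] [Algebra k K]
variable {T : Type*} [MulAction Gal(K/k) T]

/-- the point `t` is fixed by `Gal(K/E)` for a finite subextension `E/k` -/
def OpenStab (k K : Type*) [Field k] [Field K] [Algebra k K] {T : Type*} [MulAction Gal(K/k) T]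
    (t : T) : Prop :=
  ∃ E : IntermediateField k K, FiniteDimensional k E ∧
    ∀ σ : Gal(K/k), (∀ a ∈ E, σ a = a) → σ • t = t

theorem stabilizer_isOpen {t : T} (h : OpenStab k K t) :
    IsOpen (MulAction.stabilizer Gal(K/k) t : Set Gal(K/k)) := by
  obtain ⟨E, hE, hfix⟩ := h
  have hle : E.fixingSubgroup ≤ MulAction.stabilizer Gal(K/k) t := by
    intro σ hσ
    rw [MulAction.mem_stabilizer_iff]
    refine hfix σ fun a ha => ?_
    exact (IntermediateField.mem_fixingSubgroup_iff E σ).mp hσ a ha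
  exact Subgroup.isOpen_mono hle E.fixingSubgroup_isOpen

theorem stabilizer_isClosed {t : T} (h : OpenStab k K t) :
    IsClosed (MulAction.stabilizer Gal(K/k) t : Set Gal(K/k)) :=
  OpenSubgroup.isClosed ⟨MulAction.stabilizer Gal(K/k) t, stabilizer_isOpen h⟩

variable [IsGalois k K]

/-- an element outside the stabiliser of `t` moves some element of the fixed field of the
stabiliser -/
theorem exists_fixed_moved {t : T} (h : OpenStab k K t) {τ : Gal(K/k)} (hτ : τ • t ≠ t) :
    ∃ α : K, (∀ σ : Gal(K/k), σ • t = t → σ α = α) ∧ τ α ≠ α := by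
  let S : ClosedSubgroup Gal(K/k) := ⟨MulAction.stabilizer Gal(K/k) t, stabilizer_isClosed h⟩
  have hS := InfiniteGalois.fixingSubgroup_fixedField (k := k) (K := K) S
  have hτS : τ ∉ (IntermediateField.fixedField S.toSubgroup).fixingSubgroup := by
    rw [hS]
    exact fun hmem => hτ (MulAction.mem_stabilizer_iff.mp hmem)
  rw [IntermediateField.mem_fixingSubgroup_iff] at hτS
  push Not at hτS
  obtain ⟨α, hα, hτα⟩ := hτS
  refine ⟨α, fun σ hσ => ?_, hτα⟩
  rw [IntermediateField.mem_fixedField_iff] at hα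
  exact hα σ (MulAction.mem_stabilizer_iff.mpr hσ)

open Classical in
/-- **(A0)**: the `Γ`-equivariant functions `T → K` separate the points of `T` -/
theorem exists_equivariant_separating (hopen : ∀ t : T, OpenStab k K t) {t t' : T} (h : t ≠ t') :
    ∃ φ : T → K, (∀ (σ : Gal(K/k)) (s : T), φ (σ • s) = σ (φ s)) ∧ φ t ≠ φ t' := by
  by_cases horb : ∃ τ : Gal(K/k), τ • t = t'
  · -- same orbit
    obtain ⟨τ, rfl⟩ := horb
    have hτ : τ • t ≠ t := fun h' => h h'.symm
    obtain ⟨α, hα, hτα⟩ := exists_fixed_moved (hopen t) hτ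
    -- `σ • t ↦ σ α` on the orbit, `0` elsewhere
    have hwd : ∀ ρ ρ' : Gal(K/k), ρ • t = ρ' • t → ρ α = ρ' α := by
      intro ρ ρ' hρ
      have h1 : (ρ'⁻¹ * ρ) • t = t := by
        rw [mul_smul, hρ, inv_smul_smul]
      have h2 := hα _ h1
      have h3 : ρ' ((ρ'⁻¹ * ρ) α) = ρ' α := by rw [h2]
      simpa [AlgEquiv.mul_apply] using h3
    let φ : T → K := fun s => if hs : ∃ ρ : Gal(K/k), ρ • t = s then hs.choose α else 0
    have hφ : ∀ ρ : Gal(K/k), φ (ρ • t) = ρ α := by
      intro ρ
      have hs : ∃ ρ' : Gal(K/k), ρ' • t = ρ • t := ⟨ρ, rfl⟩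
      show (if hs : ∃ ρ' : Gal(K/k), ρ' • t = ρ • t then hs.choose α else 0) = ρ α
      rw [dif_pos hs]
      exact hwd _ _ hs.choose_spec
    refine ⟨φ, fun σ s => ?_, ?_⟩
    · by_cases hs : ∃ ρ : Gal(K/k), ρ • t = s
      · obtain ⟨ρ, rfl⟩ := hs
        rw [← mul_smul, hφ, hφ, AlgEquiv.mul_apply]
      · have hs' : ¬ ∃ ρ : Gal(K/k), ρ • t = σ • s := by
          rintro ⟨ρ, hρ⟩
          exact hs ⟨σ⁻¹ * ρ, by rw [mul_smul, hρ, inv_smul_smul]⟩
        show (if hs : ∃ ρ : Gal(K/k), ρ • t = σ • s then hs.choose α else 0)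
          = σ (if hs : ∃ ρ : Gal(K/k), ρ • t = s then hs.choose α else 0)
        rw [dif_neg hs, dif_neg hs', map_zero]
    · have h1 : φ t = α := by
        have := hφ 1
        rwa [one_smul, AlgEquiv.one_apply] at this
      rw [h1, hφ]
      exact fun h' => hτα h'.symm
  · -- different orbits: the indicator function of the orbit of `t`
    let φ : T → K := fun s => if ∃ ρ : Gal(K/k), ρ • t = s then 1 else 0
    refine ⟨φ, fun σ s => ?_, ?_⟩
    · by_cases hs : ∃ ρ : Gal(K/k), ρ • t = s
      · have hs' : ∃ ρ : Gal(K/k), ρ • t = σ • s := by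
          obtain ⟨ρ, rfl⟩ := hs
          exact ⟨σ * ρ, mul_smul _ _ _⟩
        show (if ∃ ρ : Gal(K/k), ρ • t = σ • s then (1 : K) else 0)
          = σ (if ∃ ρ : Gal(K/k), ρ • t = s then (1 : K) else 0)
        rw [if_pos hs, if_pos hs', map_one]
      · have hs' : ¬ ∃ ρ : Gal(K/k), ρ • t = σ • s := by
          rintro ⟨ρ, hρ⟩
          exact hs ⟨σ⁻¹ * ρ, by rw [mul_smul, hρ, inv_smul_smul]⟩
        show (if ∃ ρ : Gal(K/k), ρ • t = σ • s then (1 : K) else 0)
          = σ (if ∃ ρ : Gal(K/k), ρ • t = s then (1 : K) else 0)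
        rw [if_neg hs, if_neg hs', map_zero]
    · have h1 : φ t = 1 := if_pos ⟨1, one_smul _ _⟩
      have h2 : φ t' = 0 := if_neg horb
      rw [h1, h2]
      exact one_ne_zero

end Fermat.Agent.S19.EquivSep
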