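/-
PROJECT F (S19), slice X0-INSTANTIATION / (A0) at X0 (helper26), on top of helper8's
`TorsionX0` (`T N m`, `galAct`) and the abstract `EquivSep`:

* `mulAction : MulAction G_ℚ (T N m)` through `galAct` (a `def`, not an instance);
* `openStab` : every point of `J₀(N)[m]` has an open stabiliser;
* `exists_equivariant_separating` : **(A0)** for `x ≠ y` in `J₀(N)[m]` there is
  `φ : J₀(N)[m] → ℚ̄` with `φ (galAct σ s) = σ (φ s)` for all `σ, s` and `φ x ≠ φ y`.
-/
import Fermat.Agent.S19.EquivSep
import Fermat.Agent.S19.TorsionX0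
import Fermat.Agent.Lib.FrobeniusExists

set_option autoImplicit false

noncomputable section

namespace Fermat.Agent.S19.SepX0

open ModularCurve Fermat.Agent.S19.TorsionX0

local notation "Qbar" => AlgebraicClosure ℚ
local notation "GQ" => (AlgebraicClosure ℚ ≃ₐ[ℚ] AlgebraicClosure ℚ)

variable {N : ℕ} [NeZero N] {m : ℤ}

/-- the `G_ℚ`-action on `J₀(N)[m]` (a `def`, not an instance) -/
@[instance_reducible]
def mulAction : MulAction GQ ↥(T N m) where
  smul σ x := galAct σ x
  one_smul := galAct_one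
  mul_smul := galAct_mul

attribute [local instance] mulAction

theorem smul_def (σ : GQ) (x : ↥(T N m)) : σ • x = galAct σ x := rfl

/-- every point of `J₀(N)[m]` has an open stabiliser -/
theorem openStab (x : ↥(T N m)) : EquivSep.OpenStab ℚ Qbar x := by
  obtain ⟨E, hE, hfix⟩ := Fermat.Agent.S30.Arith.Smooth.exists_finite_fixing N (x : JZero N)
  exact ⟨E, hE, fun σ hσ => Subtype.ext (hfix σ hσ)⟩

/-- **(A0)** the `G_ℚ`-equivariant functions `J₀(N)[m] → ℚ̄` separate points -/
theorem exists_equivariant_separating {x y : ↥(T N m)} (h : x ≠ y) :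
    ∃ φ : ↥(T N m) → Qbar, (∀ (σ : GQ) (s : ↥(T N m)), φ (galAct σ s) = σ (φ s)) ∧ φ x ≠ φ y :=
  haveI : IsGalois ℚ Qbar := IsAlgClosure.isGalois ℚ Qbar
  EquivSep.exists_equivariant_separating (k := ℚ) (K := Qbar) openStab h

end Fermat.Agent.S19.SepX0
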