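/-
PROJECT F (S19), slice X0-INSTANTIATION (helper26): the ARITHMETIC FRAME of helper16's back end
at `X₀(N)`: one structure literal

  `frameX0 hA hσ : BackEnd.Frame (fun τ => galAct τ) ℓ ℓ σ (sigmaW hσ) (A.inertiaSubgroupIn ℚ)`

with `R := ℤ_(ℓ) = GaloisRep.ratLocalizedAt ℓ`, `W := WQ A = A ∩ K0 A ⊆ ℚ̄` (helper8's `ArithX0`),
`K := ℚ̄`, `Γ := G_ℚ`, `T := J₀(N)[m]` (helper8's `TorsionX0`), from `ArithX0` (w1)-(w5),
`SepX0.exists_equivariant_separating` (the field `sepA0`), and `S28/ZlBase` (instances on `ℤ_(ℓ)`).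
-/
import Fermat.Agent.S19.BackEnd
import Fermat.Agent.S19.ArithX0
import Fermat.Agent.S19.SepX0
import Fermat.Agent.S28.ZlBase

set_option autoImplicit false

noncomputable section

namespace Fermat.Agent.S19.FrameArithX0

open ModularCurve Fermat.Agent.S19.ArithX0 Fermat.Agent.S19.TorsionX0 Fermat.Agent.S19.BackEnd
open Fermat.Agent.S19.Artin GaloisRep

local notation "Qbar" => AlgebraicClosure ℚ
local notation "GQ" => (AlgebraicClosure ℚ ≃ₐ[ℚ] AlgebraicClosure ℚ)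

variable {A : ValuationSubring Qbar} {ℓ : ℕ} [hℓ : Fact ℓ.Prime]

/-- `ℤ_(ℓ) → WQ A` -/
def ratToWQ (hA : A.LiesOverPrime ℓ) : ↥(ratLocalizedAt ℓ) →+* ↥(WQ A) :=
  ((algebraMap ℚ Qbar).comp (ratLocalizedAt ℓ).subtype).codRestrict (WQ A) (fun r => by
    have h := (ratCast_mem_WQ_iff hA (r : ℚ)).mpr r.2
    simpa [eq_ratCast] using h)

@[simp] theorem coe_ratToWQ (hA : A.LiesOverPrime ℓ) (r : ↥(ratLocalizedAt ℓ)) :
    ((ratToWQ hA r : ↥(WQ A)) : Qbar) = algebraMap ℚ Qbar (r : ℚ) := rfl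

/-- the `ℤ_(ℓ)`-algebra structure of `WQ A` (a `def`: it depends on `hA`) -/
@[instance_reducible]
def algebraRW (hA : A.LiesOverPrime ℓ) : Algebra ↥(ratLocalizedAt ℓ) ↥(WQ A) :=
  (ratToWQ hA).toAlgebra

theorem isScalarTower (hA : A.LiesOverPrime ℓ) :
    letI := algebraRW hA
    IsScalarTower ↥(ratLocalizedAt ℓ) ↥(WQ A) Qbar :=
  letI := algebraRW hA
  IsScalarTower.of_algebraMap_eq fun _ => rfl

/-- the restriction of a Frobenius element to `WQ A` -/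
def sigmaW {σ : GQ} (hσ : A.IsFrobeniusAt σ ℓ) : ↥(WQ A) →+* ↥(WQ A) :=
  ((σ : Qbar →+* Qbar).comp (WQ A).subtype).codRestrict (WQ A) (fun w => frob_mem hσ w.2)

@[simp] theorem coe_sigmaW {σ : GQ} (hσ : A.IsFrobeniusAt σ ℓ) (w : ↥(WQ A)) :
    ((sigmaW hσ w : ↥(WQ A)) : Qbar) = σ (w : Qbar) := rfl

theorem coe_ratToWQ_ell (hA : A.LiesOverPrime ℓ) :
    ((ratToWQ hA ((ℓ : ℕ) : ↥(ratLocalizedAt ℓ)) : ↥(WQ A)) : Qbar) = ((ℓ : ℕ) : Qbar) := by
  rw [coe_ratToWQ]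
  push_cast
  simp

/-- divisibility by `ℓ` in `WQ A`, in the shape of `ArithX0` -/
theorem ell_dvd_iff (hA : A.LiesOverPrime ℓ) (w : ↥(WQ A)) :
    ratToWQ hA ((ℓ : ℕ) : ↥(ratLocalizedAt ℓ)) ∣ w ↔
      ∃ v ∈ WQ A, (w : Qbar) = ((ℓ : ℕ) : Qbar) * v := by
  constructor
  · rintro ⟨v, rfl⟩
    refine ⟨(v : Qbar), v.2, ?_⟩
    rw [Subring.coe_mul, coe_ratToWQ_ell]
  · rintro ⟨v, hv, hwv⟩
    refine ⟨⟨v, hv⟩, Subtype.ext ?_⟩
    rw [Subring.coe_mul, coe_ratToWQ_ell, hwv]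

omit hℓ in
/-- the `G_ℚ`-fixed elements of `ℚ̄` are rational -/
theorem exists_rat_of_fixed {x : Qbar} (hx : ∀ τ : GQ, τ x = x) :
    ∃ q : ℚ, algebraMap ℚ Qbar q = x := by
  haveI : IsGalois ℚ Qbar := IsAlgClosure.isGalois ℚ Qbar
  have := (InfiniteGalois.mem_range_algebraMap_iff_fixed (k := ℚ) (K := Qbar) x).mpr hx
  exact this

/-- **the arithmetic frame at `X₀(N)`** -/
theorem frameX0 {N : ℕ} [NeZero N] {m : ℤ} (hA : A.LiesOverPrime ℓ) {σ : GQ}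
    (hσ : A.IsFrobeniusAt σ ℓ) :
    letI := algebraRW (A := A) hA
    haveI := isScalarTower (A := A) hA
    Frame (R := ↥(ratLocalizedAt ℓ)) (W := ↥(WQ A)) (K := Qbar) (Γ := GQ) (T := ↥(T N m))
      (fun τ => galAct τ) ((ℓ : ℕ) : ↥(ratLocalizedAt ℓ)) ℓ σ (sigmaW hσ)
      (A.inertiaSubgroupIn ℚ) := by
  letI := algebraRW (A := A) hA
  haveI := isScalarTower (A := A) hA
  have hAM : ∀ r : ↥(ratLocalizedAt ℓ), algebraMap ↥(ratLocalizedAt ℓ) ↥(WQ A) r = ratToWQ hA r :=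
    fun _ => rfl
  have hRK : ∀ r : ↥(ratLocalizedAt ℓ),
      algebraMap ↥(ratLocalizedAt ℓ) Qbar r = algebraMap ℚ Qbar (r : ℚ) := fun _ => rfl
  have hWK : ∀ w : ↥(WQ A), algebraMap ↥(WQ A) Qbar w = (w : Qbar) := fun _ => rfl
  refine
    { ρ_add := fun τ s t => map_add (galAct τ) s t
      ρ_mul := fun τ τ' t => galAct_mul τ τ' t
      ρ_one := fun t => galAct_one t
      injR := ?_
      injW := ?_
      ℓ_ne := Fermat.Agent.S28.ZlBase.ell_ne_zero ℓ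
      fixR := ?_
      fixed_frac := ?_
      fixed_W := ?_
      inertia := ?_
      σW_spec := fun w => rfl
      σ_frob := ?_
      frob_fixed := ?_
      unit_mod := ?_
      sepA0 := fun s t hst => SepX0.exists_equivariant_separating hst }
  · -- injR
    intro r r' h
    rw [hRK, hRK] at h
    exact Subtype.ext ((algebraMap ℚ Qbar).injective h)
  · -- injW
    intro w w' h
    exact Subtype.ext h
  · -- fixR
    intro τ r
    rw [hRK]
    exact τ.commutes (r : ℚ)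
  · -- fixed_frac
    intro x hx
    obtain ⟨q, rfl⟩ := exists_rat_of_fixed hx
    refine ⟨⟨(q.num : ℚ), Fermat.Agent.S28.ZlBase.zl_intCast_mem ℓ q.num⟩,
      ⟨((q.den : ℤ) : ℚ), Fermat.Agent.S28.ZlBase.zl_intCast_mem ℓ (q.den : ℤ)⟩, ?_, ?_⟩
    · intro h
      have h1 := congrArg Subtype.val h
      simp at h1
    · rw [hRK, hRK, ← map_mul]
      congr 1
      show ((q.den : ℤ) : ℚ) * q = (q.num : ℚ)
      push_cast
      exact Rat.den_mul_eq_num q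
  · -- fixed_W
    intro w hw
    obtain ⟨q, hq⟩ := exists_rat_of_fixed (x := (w : Qbar)) hw
    have hqmem : q ∈ ratLocalizedAt ℓ := by
      rw [← ratCast_mem_WQ_iff hA q]
      have : ((q : ℚ) : Qbar) = (w : Qbar) := by rw [← hq, eq_ratCast]
      rw [this]
      exact w.2
    exact ⟨⟨q, hqmem⟩, Subtype.ext hq⟩
  · -- inertia
    intro x hx
    obtain ⟨n, hn⟩ := exists_pow_mul_mem hA hx
    refine ⟨n, ⟨_, hn⟩, ?_⟩
    rw [hRK, hWK]
    push_cast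
    simp
  · -- σ_frob
    intro w
    rw [hAM, ell_dvd_iff]
    obtain ⟨v, hv, hvw⟩ := frob_congr hA hσ w.2
    exact ⟨v, hv, by simpa using hvw⟩
  · -- frob_fixed
    intro w hw
    rw [hAM, ell_dvd_iff] at hw
    obtain ⟨v, hv, hvw⟩ := hw
    obtain ⟨n, v', hv', hn⟩ := exists_int_congr hA w.2 ⟨v, hv, by simpa using hvw⟩
    refine ⟨(n : ↥(ratLocalizedAt ℓ)), ?_⟩
    rw [hAM, ell_dvd_iff]
    refine ⟨v', hv', ?_⟩
    rw [← hn]
    simp [hAM]
  · -- unit_mod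
    intro w hw
    rw [hAM, ell_dvd_iff] at hw
    obtain ⟨u, hu, huw⟩ := exists_inv_mod hA w.2 (by simpa using hw)
    refine ⟨⟨u, hu⟩, ?_⟩
    have : (⟨u, hu⟩ : ↥(WQ A)) * w - 1 = 0 := by
      apply Subtype.ext
      simp [huw]
    rw [this]
    exact dvd_zero _

end Fermat.Agent.S19.FrameArithX0
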