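/-
PROJECT F (S19), slice X0-INSTANTIATION (helper26): the ARITHMETIC FRAME of helper16's back end
at `X₀(N)` with `W := S18/C/SmallDVR.W A` (the small DVR `A ∩ K0 A` as a valuation subring of the
inertia field `K0 A`, which is the base ring of helper25's `IntegralW.OL A K`), obtained from
`FrameArithX0.frameX0` (`W := ArithX0.WQ A ⊆ ℚ̄`) by transport along the ring isomorphism
`WQ A ≃+* W A`:

* `Frame.transport` : `BackEnd.Frame` is invariant under an isomorphism `e : W ≃+* W'` of the middle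
  ring which is compatible with the two structure maps;
* `ringEquivW : ↥(WQ A) ≃+* ↥(W A)`;
* `algebraRW hA : Algebra ℤ_(ℓ) (W A)` (a `def`), `isScalarTower hA`, `sigmaW hσ : W A →+* W A`;
* `frameW hA hσ : BackEnd.Frame (W := ↥(W A)) (fun τ => galAct τ) ℓ ℓ σ (sigmaW hσ) I_A`;
* `isNoetherianRing_W hA`, (and `IsLocalRing (W A)` is an instance): the ring hypotheses of
  helper16's `OrderGen`.
-/
import Fermat.Agent.S19.FrameArithX0

set_option autoImplicit false

noncomputable section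

namespace Fermat.Agent.S19.FrameWX0

open ModularCurve Fermat.Agent.S19.ArithX0 Fermat.Agent.S19.TorsionX0 Fermat.Agent.S19.BackEnd
open Fermat.Agent.S19.Artin GaloisRep Fermat.Agent.S18.C.SmallDVR

local notation "Qbar" => AlgebraicClosure ℚ
local notation "GQ" => (AlgebraicClosure ℚ ≃ₐ[ℚ] AlgebraicClosure ℚ)

section Transport

variable {R W W' K Γ T : Type*} [CommRing R] [IsDomain R] [IsPrincipalIdealRing R]
  [CommRing W] [CommRing W'] [Field K] [Algebra R W] [Algebra W K] [Algebra R W'] [Algebra W' K]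
  [Algebra R K] [IsScalarTower R W K] [IsScalarTower R W' K]
  [Group Γ] [MulSemiringAction Γ K] [AddCommGroup T]

/-- `BackEnd.Frame` transports along an isomorphism of the middle ring -/
theorem Frame.transport {ρ : Γ → T → T} {ℓ : R} {q : ℕ} {σ : Γ} {σW : W →+* W} {I : Subgroup Γ}
    (F : Frame (W := W) (K := K) ρ ℓ q σ σW I) (e : W ≃+* W')
    (heK : ∀ w : W, algebraMap W' K (e w) = algebraMap W K w)
    (heR : ∀ r : R, algebraMap R W' r = e (algebraMap R W r)) :
    Frame (W := W') (K := K) ρ ℓ q σ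
      ((e.toRingHom.comp σW).comp e.symm.toRingHom) I := by
  have heK' : ∀ w' : W', algebraMap W' K w' = algebraMap W K (e.symm w') := fun w' => by
    rw [← heK, RingEquiv.apply_symm_apply]
  have hdvd : ∀ w' : W', algebraMap R W' ℓ ∣ w' ↔ algebraMap R W ℓ ∣ e.symm w' := by
    intro w'
    rw [heR]
    constructor
    · intro h
      have := map_dvd e.symm h
      rwa [RingEquiv.symm_apply_apply] at this
    · intro h
      have := map_dvd e h
      rwa [RingEquiv.apply_symm_apply] at this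
  refine
    { ρ_add := F.ρ_add
      ρ_mul := F.ρ_mul
      ρ_one := F.ρ_one
      injR := F.injR
      injW := ?_
      ℓ_ne := F.ℓ_ne
      fixR := F.fixR
      fixed_frac := F.fixed_frac
      fixed_W := ?_
      inertia := ?_
      σW_spec := ?_
      σ_frob := ?_
      frob_fixed := ?_
      unit_mod := ?_
      sepA0 := F.sepA0 }
  · intro w w' h
    rw [heK', heK'] at h
    exact e.symm.injective (F.injW h)
  · intro w' hw'
    obtain ⟨r, hr⟩ := F.fixed_W (e.symm w') (by simpa only [← heK'] using hw')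
    refine ⟨r, ?_⟩
    rw [heR, hr, RingEquiv.apply_symm_apply]
  · intro x hx
    obtain ⟨M, w, hw⟩ := F.inertia x hx
    exact ⟨M, e w, by rw [heK, hw]⟩
  · intro w'
    show algebraMap W' K (e (σW (e.symm w'))) = _
    rw [heK, F.σW_spec, ← heK']
  · intro w'
    rw [hdvd]
    have := F.σ_frob (e.symm w')
    convert this using 1
    show e.symm (e (σW (e.symm w')) - w' ^ q) = _
    rw [map_sub, map_pow, RingEquiv.symm_apply_apply]
  · intro w' hw'
    rw [hdvd, map_sub, map_pow] at hw'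
    obtain ⟨r, hr⟩ := F.frob_fixed (e.symm w') hw'
    refine ⟨r, ?_⟩
    rw [hdvd, map_sub, heR, RingEquiv.symm_apply_apply]
    exact hr
  · intro w' hw'
    rw [hdvd] at hw'
    obtain ⟨u, hu⟩ := F.unit_mod (e.symm w') hw'
    refine ⟨e u, ?_⟩
    rw [hdvd, map_sub, map_mul, RingEquiv.symm_apply_apply, map_one]
    exact hu

end Transport

variable {A : ValuationSubring Qbar} {ℓ : ℕ} [hℓ : Fact ℓ.Prime]

/-- the identification of helper8's `WQ A ⊆ ℚ̄` with the small DVR `W A ⊆ K0 A` -/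
def ringEquivW : ↥(WQ A) ≃+* ↥(W A) where
  toFun := toW
  invFun := ofW
  left_inv := ofW_toW
  right_inv := toW_ofW
  map_mul' := fun _ _ => rfl
  map_add' := fun _ _ => rfl

@[simp] theorem coe_ringEquivW (x : ↥(WQ A)) :
    (((ringEquivW x : ↥(W A)) : K0 A) : Qbar) = (x : Qbar) := rfl

@[simp] theorem coe_ringEquivW_symm (y : ↥(W A)) :
    ((ringEquivW.symm y : ↥(WQ A)) : Qbar) = ((y : K0 A) : Qbar) := rfl

/-- `ℤ_(ℓ) → W A` -/
def ratToW (hA : A.LiesOverPrime ℓ) : ↥(ratLocalizedAt ℓ) →+* ↥(W A) :=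
  (ringEquivW (A := A)).toRingHom.comp (FrameArithX0.ratToWQ hA)

@[simp] theorem coe_ratToW (hA : A.LiesOverPrime ℓ) (r : ↥(ratLocalizedAt ℓ)) :
    (((ratToW hA r : ↥(W A)) : K0 A) : Qbar) = algebraMap ℚ Qbar (r : ℚ) := rfl

/-- the `ℤ_(ℓ)`-algebra structure of `W A` (a `def`: it depends on `hA`) -/
@[instance_reducible]
def algebraRW (hA : A.LiesOverPrime ℓ) : Algebra ↥(ratLocalizedAt ℓ) ↥(W A) :=
  (ratToW hA).toAlgebra

theorem isScalarTower (hA : A.LiesOverPrime ℓ) :
    letI := algebraRW hA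
    IsScalarTower ↥(ratLocalizedAt ℓ) ↥(W A) Qbar :=
  letI := algebraRW hA
  IsScalarTower.of_algebraMap_eq fun _ => rfl

/-- the restriction of a Frobenius element to `W A` -/
def sigmaW {σ : GQ} (hσ : A.IsFrobeniusAt σ ℓ) : ↥(W A) →+* ↥(W A) :=
  ((ringEquivW (A := A)).toRingHom.comp (FrameArithX0.sigmaW hσ)).comp
    (ringEquivW (A := A)).symm.toRingHom

@[simp] theorem coe_sigmaW {σ : GQ} (hσ : A.IsFrobeniusAt σ ℓ) (w : ↥(W A)) :
    (((sigmaW hσ w : ↥(W A)) : K0 A) : Qbar) = σ ((w : K0 A) : Qbar) := rfl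

theorem algebraMap_sigmaW {σ : GQ} (hσ : A.IsFrobeniusAt σ ℓ) (w : ↥(W A)) :
    algebraMap ↥(W A) Qbar (sigmaW hσ w) = σ (algebraMap ↥(W A) Qbar w) := rfl

/-- **the arithmetic frame at `X₀(N)` over the small DVR `W A`** -/
theorem frameW {N : ℕ} [NeZero N] {m : ℤ} (hA : A.LiesOverPrime ℓ) {σ : GQ}
    (hσ : A.IsFrobeniusAt σ ℓ) :
    letI := algebraRW (A := A) hA
    haveI := isScalarTower (A := A) hA
    Frame (R := ↥(ratLocalizedAt ℓ)) (W := ↥(W A)) (K := Qbar) (Γ := GQ) (T := ↥(T N m))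
      (fun τ => galAct τ) ((ℓ : ℕ) : ↥(ratLocalizedAt ℓ)) ℓ σ (sigmaW hσ)
      (A.inertiaSubgroupIn ℚ) := by
  letI := FrameArithX0.algebraRW (A := A) hA
  haveI := FrameArithX0.isScalarTower (A := A) hA
  letI := algebraRW (A := A) hA
  haveI := isScalarTower (A := A) hA
  exact Frame.transport (FrameArithX0.frameX0 (N := N) (m := m) hA hσ) (ringEquivW (A := A))
    (fun _ => rfl) (fun _ => rfl)

/-- the ring hypotheses of helper16's `OrderGen` on `W A` -/
theorem isNoetherianRing_W (hA : A.LiesOverPrime ℓ) : IsNoetherianRing ↥(W A) :=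
  haveI := isDiscreteValuationRing_W hA
  inferInstance

theorem isLocalRing_W : IsLocalRing ↥(W A) := inferInstance

end Fermat.Agent.S19.FrameWX0
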