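import Mathlib

/-!
# Hopf orders, part A: descent and finite Stone-Weierstrass

Elementary linear algebra used by the packaging lemma `Hopf order ==> frozen S19 / IsFlatAt tail`.
-/

set_option autoImplicit false

noncomputable section

namespace Fermat.Agent.S19.HopfOrderA

local notation "Kb" => AlgebraicClosure ℚ
local notation "Γ" => (AlgebraicClosure ℚ ≃ₐ[ℚ] AlgebraicClosure ℚ)

/-- An element of `ℚ̄` fixed by the whole Galois group is rational. -/
theorem exists_rat_of_fixed (x : Kb) (hx : ∀ σ : Γ, σ x = x) :
    ∃ q : ℚ, algebraMap ℚ Kb q = x := by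
  have : Algebra.IsAlgebraic ℚ Kb := AlgebraicClosure.isAlgebraic ℚ
  have : IsAlgClosure ℚ Kb := ⟨inferInstance, inferInstance⟩
  have : IsGalois ℚ Kb :=
    { to_isSeparable := inferInstance
      to_normal := IsAlgClosure.normal ℚ Kb }
  exact (InfiniteGalois.mem_range_algebraMap_iff_fixed (k := ℚ) (K := Kb) x).2 hx

section Descent

variable {T : Type*} {ι : Type*}

/-- **Artin-type descent**: Galois-equivariant functions `T → ℚ̄` which are linearly independent
over `ℚ` are linearly independent over `ℚ̄`. -/
theorem linearIndependent_of_equivariant (ρ : Γ → T → T) (hρ : ∀ σ, Function.Surjective (ρ σ))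
    (v : ι → T → Kb) (hv : ∀ i σ t, v i (ρ σ t) = σ (v i t))
    (hQ : LinearIndependent ℚ v) : LinearIndependent Kb v := by
  classical
  rw [linearIndependent_iff']
  -- strong induction on the size of the support
  suffices H : ∀ n : ℕ, ∀ s : Finset ι, s.card ≤ n → ∀ g : ι → Kb,
      (∑ i ∈ s, g i • v i = 0) → ∀ i ∈ s, g i = 0 from
    fun s g hg i hi => H s.card s le_rfl g hg i hi
  intro n
  induction n with
  | zero =>
    intro s hs g _ i hi
    have : s = ∅ := Finset.card_eq_zero.1 (Nat.le_zero.1 hs)
    simp [this] at hi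
  | succ n ih =>
    intro s hs g hg
    by_contra hcon
    push Not at hcon
    obtain ⟨i₀, hi₀, hgi₀⟩ := hcon
    -- normalise the coefficient at `i₀`
    set h : ι → Kb := fun i => g i / g i₀ with hh
    have hh0 : h i₀ = 1 := by simp [hh, hgi₀]
    have hrel : ∑ i ∈ s, h i • v i = 0 := by
      have : ∑ i ∈ s, h i • v i = (g i₀)⁻¹ • ∑ i ∈ s, g i • v i := by
        rw [Finset.smul_sum]
        refine Finset.sum_congr rfl fun i _ => ?_
        rw [smul_smul]
        congr 1
        simp [hh, div_eq_inv_mul]
      rw [this, hg, smul_zero]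
    -- the conjugate relation
    have hconj : ∀ σ : Γ, ∑ i ∈ s, σ (h i) • v i = 0 := by
      intro σ
      funext t
      obtain ⟨t', rfl⟩ := hρ σ t
      have h1 : (∑ i ∈ s, h i • v i) t' = 0 := by rw [hrel]; rfl
      have h2 : σ ((∑ i ∈ s, h i • v i) t') = 0 := by rw [h1, map_zero]
      simp only [Finset.sum_apply, Pi.smul_apply, smul_eq_mul, map_sum, map_mul] at h2
      simp only [Finset.sum_apply, Pi.smul_apply, smul_eq_mul, Pi.zero_apply]
      rw [← h2]
      exact Finset.sum_congr rfl fun i _ => by rw [hv]
    -- all coefficients are Galois-fixed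
    have hfix : ∀ i ∈ s, ∀ σ : Γ, σ (h i) = h i := by
      intro i hi σ
      by_cases hii : i = i₀
      · subst hii; rw [hh0, map_one]
      · have hsub : ∑ j ∈ s.erase i₀, (σ (h j) - h j) • v j = 0 := by
          have h3 : ∑ j ∈ s, (σ (h j) - h j) • v j = 0 := by
            simp only [sub_smul, Finset.sum_sub_distrib, hconj σ, hrel, sub_zero]
          rw [← Finset.add_sum_erase s _ hi₀] at h3
          simpa [hh0] using h3
        have hcard : (s.erase i₀).card ≤ n := by
          rw [Finset.card_erase_of_mem hi₀]
          omega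
        have := ih (s.erase i₀) hcard _ hsub i (Finset.mem_erase.2 ⟨hii, hi⟩)
        exact sub_eq_zero.1 this
    -- hence rational
    choose! q hq using fun i (hi : i ∈ s) => exists_rat_of_fixed (h i) (hfix i hi)
    have hrelQ : ∑ i ∈ s, q i • v i = 0 := by
      rw [← hrel]
      refine Finset.sum_congr rfl fun i hi => ?_
      rw [← hq i hi, algebraMap_smul]
    have := (linearIndependent_iff'.1 hQ) s q hrelQ i₀ hi₀
    have h1 : h i₀ = 0 := by rw [← hq i₀ hi₀, this, map_zero]
    rw [hh0] at h1
    exact one_ne_zero h1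

end Descent

section StoneWeierstrass

variable {T : Type*} [Finite T]

/-- **Finite Stone-Weierstrass**: a subalgebra of `T → k` (`T` finite, `k` a field) which
separates the points is everything. -/
theorem subalgebra_eq_top_of_separates {k : Type*} [Field k] (S : Subalgebra k (T → k))
    (hsep : ∀ s t : T, s ≠ t → ∃ f ∈ S, f s ≠ f t) : S = ⊤ := by
  classical
  have : Fintype T := Fintype.ofFinite T
  -- indicator functions
  have hind : ∀ t : T, (Pi.single t (1 : k) : T → k) ∈ S := by
    intro t
    choose! f hfS hf using fun s (hs : s ≠ t) => hsep s t hs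
    have hprod : (∏ s ∈ Finset.univ.erase t,
        (algebraMap k (T → k) ((f s t - f s s)⁻¹)) * (f s - algebraMap k (T → k) (f s s))) ∈ S := by
      refine Subalgebra.prod_mem _ fun s hs => ?_
      have hs' : s ≠ t := (Finset.mem_erase.1 hs).1
      exact S.mul_mem (S.algebraMap_mem _) (S.sub_mem (hfS s hs') (S.algebraMap_mem _))
    convert hprod using 1
    funext u
    rw [Finset.prod_apply]
    by_cases hu : u = t
    · subst hu
      rw [Pi.single_eq_same]
      symm
      refine Finset.prod_eq_one fun s hs => ?_
      have hs' : s ≠ u := (Finset.mem_erase.1 hs).1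
      simp only [Pi.mul_apply, Pi.sub_apply, Pi.algebraMap_apply, Algebra.algebraMap_self_apply]
      exact inv_mul_cancel₀ (sub_ne_zero.2 (hf s hs').symm)
    · rw [Pi.single_eq_of_ne hu]
      symm
      refine Finset.prod_eq_zero (Finset.mem_erase.2 ⟨hu, Finset.mem_univ u⟩) ?_
      simp
  rw [eq_top_iff]
  intro g _
  have : g = ∑ t : T, g t • (Pi.single t (1 : k) : T → k) := by
    funext u
    simp [Finset.sum_apply, Pi.single_apply]
  rw [this]
  exact Subalgebra.sum_mem _ fun t _ => S.smul_mem (hind t) _

/-- An algebra homomorphism `(T → k) → k` is an evaluation. -/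
theorem exists_eval_of_algHom {k : Type*} [Field k] (χ : (T → k) →ₐ[k] k) :
    ∃ t : T, ∀ f : T → k, χ f = f t := by
  classical
  have : Fintype T := Fintype.ofFinite T
  have hsum : ∑ t : T, χ (Pi.single t 1) = 1 := by
    rw [← map_sum, ← map_one χ]
    congr 1
    funext u
    simp [Finset.sum_apply, Pi.single_apply]
  have hidem : ∀ t : T, χ (Pi.single t 1) = 0 ∨ χ (Pi.single t 1) = 1 := by
    intro t
    have : χ (Pi.single t 1) * χ (Pi.single t 1) = χ (Pi.single t 1) := by
      rw [← map_mul]
      congr 1
      funext u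
      simp [Pi.single_apply]
    rcases eq_or_ne (χ (Pi.single t 1)) 0 with h | h
    · exact Or.inl h
    · exact Or.inr (mul_right_cancel₀ h (by rw [this, one_mul]))
  obtain ⟨t, ht⟩ : ∃ t : T, χ (Pi.single t 1) = 1 := by
    by_contra hcon
    push Not at hcon
    have : ∑ t : T, χ (Pi.single t 1) = 0 :=
      Finset.sum_eq_zero fun t _ => (hidem t).resolve_right (hcon t)
    rw [this] at hsum
    exact zero_ne_one hsum
  refine ⟨t, fun f => ?_⟩
  have h1 : f * Pi.single t 1 = f t • (Pi.single t (1 : k) : T → k) := by
    funext u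
    by_cases hu : u = t
    · subst hu; simp
    · simp [Pi.single_eq_of_ne hu]
  have h2 : χ f = χ (f * Pi.single t 1) := by rw [map_mul, ht, mul_one]
  rw [h2, h1, map_smul, ht, smul_eq_mul, mul_one]

end StoneWeierstrass

end Fermat.Agent.S19.HopfOrderA
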