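import Mathlib

/-!
# Hopf orders, part B: evaluation maps on tensor products

For `R`-algebras `A₁, A₂` embedded in function algebras `X₁ → k`, `X₂ → k` (`k` a field over `R`)
we define the evaluation `A₁ ⊗[R] A₂ →ₐ[R] (X₁ × X₂ → k)` and show that it is injective as soon
as `A₁, A₂` have `R`-bases which stay linearly independent over `k` (`KIndep`).
-/

set_option autoImplicit false

noncomputable section

namespace Fermat.Agent.S19.HopfOrderB

open scoped TensorProduct

variable {R : Type*} [CommRing R] {k : Type*} [Field k] [Algebra R k]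

/-- Pull back functions along a map of index types, as an algebra homomorphism. -/
def pullAlg (R : Type*) [CommRing R] {k : Type*} [Field k] [Algebra R k] {X₁ X₂ : Type*}
    (f : X₂ → X₁) : (X₁ → k) →ₐ[R] (X₂ → k) :=
  AlgHom.pi (fun x => Pi.evalAlgHom R (fun _ => k) (f x))

@[simp] theorem pullAlg_apply {X₁ X₂ : Type*} (f : X₂ → X₁) (g : X₁ → k) (x : X₂) :
    pullAlg R f g x = g (f x) := rfl

section Eval

variable {A₁ A₂ : Type*} [Semiring A₁] [Semiring A₂] [Algebra R A₁] [Algebra R A₂]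
  {X₁ X₂ : Type*}

/-- The evaluation map of a tensor product of two algebras of functions. -/
def tensorEval (ι₁ : A₁ →ₐ[R] (X₁ → k)) (ι₂ : A₂ →ₐ[R] (X₂ → k)) :
    A₁ ⊗[R] A₂ →ₐ[R] (X₁ × X₂ → k) :=
  Algebra.TensorProduct.lift ((pullAlg R Prod.fst).comp ι₁) ((pullAlg R Prod.snd).comp ι₂)
    (fun _ _ => Commute.all _ _)

@[simp] theorem tensorEval_tmul (ι₁ : A₁ →ₐ[R] (X₁ → k)) (ι₂ : A₂ →ₐ[R] (X₂ → k))
    (a : A₁) (b : A₂) (p : X₁ × X₂) :
    tensorEval ι₁ ι₂ (a ⊗ₜ[R] b) p = ι₁ a p.1 * ι₂ b p.2 := by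
  simp [tensorEval]

end Eval

/-- Products of linearly independent families of functions are linearly independent. -/
theorem linearIndependent_prod_mul {κ₁ κ₂ X₁ X₂ : Type*} [Fintype κ₁] [Fintype κ₂]
    (v : κ₁ → X₁ → k) (w : κ₂ → X₂ → k)
    (hv : LinearIndependent k v) (hw : LinearIndependent k w) :
    LinearIndependent k (fun (p : κ₁ × κ₂) (x : X₁ × X₂) => v p.1 x.1 * w p.2 x.2) := by
  classical
  rw [Fintype.linearIndependent_iff]
  intro g hg
  have hv' := Fintype.linearIndependent_iff.1 hv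
  have hw' := Fintype.linearIndependent_iff.1 hw
  have key : ∀ i : κ₁, ∑ j : κ₂, g (i, j) • w j = 0 := by
    intro i
    funext y
    have hy : ∑ i : κ₁, (∑ j : κ₂, g (i, j) * w j y) • v i = 0 := by
      funext x
      have := congrFun hg (x, y)
      simp only [Finset.sum_apply, Pi.smul_apply, smul_eq_mul, Pi.zero_apply,
        Fintype.sum_prod_type] at this ⊢
      rw [← this]
      refine Finset.sum_congr rfl fun i _ => ?_
      rw [Finset.sum_mul]
      refine Finset.sum_congr rfl fun j _ => ?_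
      ring
    have := hv' _ hy i
    simpa [Finset.sum_apply] using this
  rintro ⟨i, j⟩
  exact hw' _ (key i) j

/-- `A` has an `R`-basis whose image under `ι` is linearly independent over the field `k`. -/
def KIndep {A : Type*} [Semiring A] [Algebra R A] {X : Type*} (ι : A →ₐ[R] (X → k)) : Prop :=
  ∃ (κ : Type) (_ : Fintype κ) (b : Module.Basis κ R A), LinearIndependent k (fun i => ι (b i))

theorem KIndep.injective {A : Type*} [Semiring A] [Algebra R A] {X : Type*}
    {ι : A →ₐ[R] (X → k)} (h : KIndep ι) (hR : Function.Injective (algebraMap R k)) :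
    Function.Injective ι := by
  classical
  obtain ⟨κ, _, b, hb⟩ := h
  have h1 : ∀ a : A, ι a = ∑ i : κ, algebraMap R k (b.repr a i) • ι (b i) := by
    intro a
    conv_lhs => rw [← b.sum_repr a]
    rw [map_sum]
    refine Finset.sum_congr rfl fun i _ => ?_
    rw [map_smul, algebraMap_smul]
  intro a a' haa'
  have h2 : ∑ i : κ, (algebraMap R k (b.repr a i) - algebraMap R k (b.repr a' i)) • ι (b i) = 0 := by
    simp only [sub_smul, Finset.sum_sub_distrib]
    rw [← h1 a, ← h1 a', haa', sub_self]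
  have h3 := Fintype.linearIndependent_iff.1 hb _ h2
  apply b.repr.injective
  ext i
  exact hR (sub_eq_zero.1 (h3 i))

theorem KIndep.tensor {A₁ A₂ : Type*} [Semiring A₁] [Semiring A₂] [Algebra R A₁] [Algebra R A₂]
    {X₁ X₂ : Type*} {ι₁ : A₁ →ₐ[R] (X₁ → k)} {ι₂ : A₂ →ₐ[R] (X₂ → k)}
    (h₁ : KIndep ι₁) (h₂ : KIndep ι₂) : KIndep (tensorEval ι₁ ι₂) := by
  obtain ⟨κ₁, _, b₁, hb₁⟩ := h₁
  obtain ⟨κ₂, _, b₂, hb₂⟩ := h₂
  refine ⟨κ₁ × κ₂, inferInstance, b₁.tensorProduct b₂, ?_⟩
  have := linearIndependent_prod_mul _ _ hb₁ hb₂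
  convert this using 1
  funext p x
  rw [Module.Basis.tensorProduct_apply, tensorEval_tmul]

end Fermat.Agent.S19.HopfOrderB
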