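import Mathlib
import Fermat.Prelude.Def_GaloisRep_Flat
import Fermat.Agent.S28.ZlBase
import Fermat.Agent.S19.HopfOrderA
import Fermat.Agent.S19.HopfOrderB

/-!
# Hopf orders, part C: the Hopf algebra structure and its points
-/

set_option autoImplicit false
set_option linter.unusedSectionVars false

noncomputable section

namespace Fermat.Agent.S19.HopfOrder

open scoped TensorProduct
open Fermat.Agent.S19.HopfOrderA Fermat.Agent.S19.HopfOrderB Fermat.Agent.S28.ZlBase

local notation "Kb" => AlgebraicClosure ℚ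
local notation "Γ" => (AlgebraicClosure ℚ ≃ₐ[ℚ] AlgebraicClosure ℚ)

/-- The base ring `ℤ_(ℓ)` of the frozen statements, as a type. -/
abbrev Zl (ℓ : ℕ) : Type := ↥(GaloisRep.ratLocalizedAt ℓ)

variable {ℓ : ℕ} [hℓ : Fact ℓ.Prime]

variable {T : Type} [AddCommGroup T] [Finite T]

omit hℓ in
theorem algebraMap_apply_Kb (r : (Zl ℓ)) : algebraMap (Zl ℓ) Kb r = algebraMap ℚ Kb (r : ℚ) := rfl

theorem algebraMap_injective_Kb : Function.Injective (algebraMap (Zl ℓ) Kb) := by
  rw [IsScalarTower.algebraMap_eq (Zl ℓ) ℚ Kb]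
  exact (algebraMap ℚ Kb).injective.comp (IsFractionRing.injective (Zl ℓ) ℚ)

instance instTorsionFreeKb : Module.IsTorsionFree (Zl ℓ) Kb :=
  Module.isTorsionFree_iff_algebraMap_injective.mpr algebraMap_injective_Kb

/-- A Hopf order in the algebra of Galois-equivariant functions on a finite Galois module `T`. -/
structure IsHopfOrder (ρ : Γ → T → T) (H : Subalgebra (Zl ℓ) (T → Kb)) : Prop where
  surj : ∀ σ, Function.Surjective (ρ σ)
  map_zero : ∀ σ, ρ σ 0 = 0
  finite : Module.Finite (Zl ℓ) H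
  equivariant : ∀ φ ∈ H, ∀ (σ : Γ) (t : T), φ (ρ σ t) = σ (φ t)
  separates : ∀ s t : T, s ≠ t → ∃ φ ∈ H, φ s ≠ φ t
  comul : ∀ φ ∈ H, ∃ (n : ℕ) (a b : Fin n → H), ∀ s t : T,
    φ (s + t) = ∑ i, (a i : T → Kb) s * (b i : T → Kb) t
  neg : ∀ φ ∈ H, (fun t => φ (-t)) ∈ H

namespace IsHopfOrder

variable {ρ : Γ → T → T} {H : Subalgebra (Zl ℓ) (T → Kb)}

theorem kIndep (h : IsHopfOrder ρ H) : KIndep (k := Kb) H.val := by
  have := h.finite
  let b := Module.Free.chooseBasis (Zl ℓ) H
  refine ⟨Module.Free.ChooseBasisIndex (Zl ℓ) H, inferInstance, b, ?_⟩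
  apply linearIndependent_of_equivariant ρ h.surj
  · intro i σ t
    exact h.equivariant _ (b i).2 σ t
  · rw [← LinearIndependent.iff_fractionRing (Zl ℓ) ℚ]
    exact b.linearIndependent.map' H.val.toLinearMap
      (LinearMap.ker_eq_bot.2 Subtype.val_injective)

/-- Evaluation at a point, as an algebra homomorphism `H → ℚ̄`. -/
def evalH (H : Subalgebra (Zl ℓ) (T → Kb)) (t : T) : H →ₐ[Zl ℓ] Kb :=
  (Pi.evalAlgHom (Zl ℓ) (fun _ : T => Kb) t).comp H.val

@[simp] theorem evalH_apply (H : Subalgebra (Zl ℓ) (T → Kb)) (t : T) (φ : H) :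
    evalH H t φ = (φ : T → Kb) t := rfl

/-- The `ℚ̄`-span of a Hopf order is the whole function algebra. -/
theorem span_eq_top (h : IsHopfOrder ρ H) {κ : Type} [Fintype κ] (b : Module.Basis κ (Zl ℓ) H) :
    Submodule.span Kb (Set.range fun i => ((b i : H) : T → Kb)) = ⊤ := by
  classical
  set M : Submodule Kb (T → Kb) := Submodule.span Kb (Set.range fun i => ((b i : H) : T → Kb))
    with hM
  have hHM : ∀ φ : H, (φ : T → Kb) ∈ M := by
    intro φ
    have h1 : (φ : T → Kb) = ∑ i : κ, algebraMap (Zl ℓ) Kb (b.repr φ i) • ((b i : H) : T → Kb) := by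
      conv_lhs => rw [← b.sum_repr φ]
      rw [AddSubmonoidClass.coe_finsetSum]
      refine Finset.sum_congr rfl fun i _ => ?_
      rw [Subalgebra.coe_smul, algebraMap_smul]
    rw [h1]
    exact Submodule.sum_mem _ fun i _ => Submodule.smul_mem _ _ (Submodule.subset_span ⟨i, rfl⟩)
  have hmul : ∀ x y : T → Kb, x ∈ M → y ∈ M → x * y ∈ M := by
    have hMM : M * M ≤ M := by
      rw [hM, Submodule.span_mul_span, Submodule.span_le]
      rintro _ ⟨_, ⟨i, rfl⟩, _, ⟨j, rfl⟩, rfl⟩
      exact hHM (b i * b j)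
    intro x y hx hy
    exact hMM (Submodule.mul_mem_mul hx hy)
  have hone : (1 : T → Kb) ∈ M := hHM 1
  let S : Subalgebra Kb (T → Kb) := M.toSubalgebra hone hmul
  have hS : S = ⊤ := subalgebra_eq_top_of_separates S (fun s t hst => by
    obtain ⟨φ, hφ, hne⟩ := h.separates s t hst
    exact ⟨φ, hHM ⟨φ, hφ⟩, hne⟩)
  rw [eq_top_iff]
  intro x _
  have : x ∈ S := by rw [hS]; trivial
  exact this

/-- Every algebra homomorphism from a Hopf order to `ℚ̄` is the evaluation at a point. -/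
theorem exists_eval (h : IsHopfOrder ρ H) (χ : H →ₐ[Zl ℓ] Kb) :
    ∃ t : T, ∀ φ : H, χ φ = (φ : T → Kb) t := by
  classical
  obtain ⟨κ, _, b, hb⟩ := h.kIndep
  have hspan := h.span_eq_top b
  let B : Module.Basis κ Kb (T → Kb) := Module.Basis.mk hb (le_of_eq hspan.symm)
  have hB : ∀ i, B i = ((b i : H) : T → Kb) := fun i => by
    simp [B]
  let χK : (T → Kb) →ₗ[Kb] Kb := B.constr Kb (fun i => χ (b i))
  have hχB : ∀ i, χK (B i) = χ (b i) := fun i => by simp [χK]
  have hχH : ∀ φ : H, χK (φ : T → Kb) = χ φ := by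
    intro φ
    have h1 : (φ : T → Kb) = ∑ i : κ, algebraMap (Zl ℓ) Kb (b.repr φ i) • B i := by
      conv_lhs => rw [← b.sum_repr φ]
      rw [AddSubmonoidClass.coe_finsetSum]
      refine Finset.sum_congr rfl fun i _ => ?_
      rw [Subalgebra.coe_smul, algebraMap_smul, hB]
    have h2 : χ φ = ∑ i : κ, algebraMap (Zl ℓ) Kb (b.repr φ i) * χ (b i) := by
      conv_lhs => rw [← b.sum_repr φ]
      rw [map_sum]
      refine Finset.sum_congr rfl fun i _ => ?_
      rw [map_smul, Algebra.smul_def]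
    rw [h1, map_sum, h2]
    refine Finset.sum_congr rfl fun i _ => ?_
    rw [map_smul, hχB, smul_eq_mul]
  have hmulB : ∀ i j, χK (B i * B j) = χK (B i) * χK (B j) := by
    intro i j
    have : B i * B j = ((b i * b j : H) : T → Kb) := by rw [hB, hB]; rfl
    rw [this, hχH, map_mul, hχB, hχB]
  have hmul : ∀ x y, χK (x * y) = χK x * χK y := by
    intro x y
    have hy : ∀ i, χK (B i * y) = χK (B i) * χK y := by
      intro i
      have := LinearMap.congr_fun (B.ext (f₁ := χK ∘ₗ LinearMap.mulLeft Kb (B i))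
        (f₂ := (χK (B i)) • χK) (fun j => by simp [hmulB])) y
      simpa using this
    have := LinearMap.congr_fun (B.ext (f₁ := χK ∘ₗ LinearMap.mulRight Kb y)
        (f₂ := (χK y) • χK) (fun i => by
          simp only [LinearMap.coe_comp, Function.comp_apply, LinearMap.mulRight_apply,
            LinearMap.smul_apply, smul_eq_mul]
          rw [hy, mul_comm])) x
    simpa [mul_comm] using this
  have hone : χK 1 = 1 := by
    have := hχH 1
    simpa using this
  let χA : (T → Kb) →ₐ[Kb] Kb := AlgHom.ofLinearMap χK hone hmul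
  obtain ⟨t, ht⟩ := exists_eval_of_algHom χA
  exact ⟨t, fun φ => by rw [← hχH φ]; exact ht _⟩

theorem evalH_injective (h : IsHopfOrder ρ H) {s t : T} (hst : evalH H s = evalH H t) : s = t := by
  by_contra hne
  obtain ⟨φ, hφ, hφne⟩ := h.separates s t hne
  exact hφne (AlgHom.congr_fun hst ⟨φ, hφ⟩)

end IsHopfOrder

end Fermat.Agent.S19.HopfOrder
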