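import Mathlib
import Fermat.Agent.S19.HopfOrderC

/-!
# Hopf orders, part D: comultiplication, counit, antipode
-/

set_option autoImplicit false
set_option linter.unusedSectionVars false
set_option synthInstance.maxHeartbeats 20000
set_option maxHeartbeats 400000

noncomputable section

namespace Fermat.Agent.S19.HopfOrder

open scoped TensorProduct
open Fermat.Agent.S19.HopfOrderA Fermat.Agent.S19.HopfOrderB Fermat.Agent.S28.ZlBase

local notation "Kb" => AlgebraicClosure ℚ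
local notation "Γ" => (AlgebraicClosure ℚ ≃ₐ[ℚ] AlgebraicClosure ℚ)

variable {ℓ : ℕ} [hℓ : Fact ℓ.Prime]
variable {T : Type} [AddCommGroup T] [Finite T]
variable {ρ : Γ → T → T} {H : Subalgebra (Zl ℓ) (T → Kb)}

namespace IsHopfOrder

/-- Evaluation of `H ⊗ H` on `T × T`. -/
abbrev ev₂ (H : Subalgebra (Zl ℓ) (T → Kb)) : H ⊗[Zl ℓ] H →ₐ[Zl ℓ] (T × T → Kb) :=
  tensorEval (k := Kb) H.val H.val

theorem ev₂_injective (h : IsHopfOrder ρ H) : Function.Injective (ev₂ H) :=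
  (h.kIndep.tensor h.kIndep).injective algebraMap_injective_Kb

/-- Evaluation of `H ⊗ (H ⊗ H)` on `T × (T × T)`. -/
abbrev ev₃ (H : Subalgebra (Zl ℓ) (T → Kb)) :
    H ⊗[Zl ℓ] (H ⊗[Zl ℓ] H) →ₐ[Zl ℓ] (T × (T × T) → Kb) :=
  tensorEval (k := Kb) H.val (ev₂ H)

theorem ev₃_injective (h : IsHopfOrder ρ H) : Function.Injective (ev₃ H) :=
  (h.kIndep.tensor (h.kIndep.tensor h.kIndep)).injective algebraMap_injective_Kb

/-- Evaluation of `(H ⊗ H) ⊗ H` on `(T × T) × T`. -/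
abbrev ev₃' (H : Subalgebra (Zl ℓ) (T → Kb)) :
    (H ⊗[Zl ℓ] H) ⊗[Zl ℓ] H →ₐ[Zl ℓ] ((T × T) × T → Kb) :=
  tensorEval (k := Kb) (ev₂ H) H.val

/-- `φ ↦ ((s, t) ↦ φ (s + t))`. -/
def Δ₀ (H : Subalgebra (Zl ℓ) (T → Kb)) : H →ₐ[Zl ℓ] (T × T → Kb) :=
  (pullAlg (Zl ℓ) (fun p : T × T => p.1 + p.2)).comp H.val

@[simp] theorem Δ₀_apply (φ : H) (p : T × T) : Δ₀ H φ p = (φ : T → Kb) (p.1 + p.2) := rfl

theorem Δ₀_mem_range (h : IsHopfOrder ρ H) (φ : H) : Δ₀ H φ ∈ (ev₂ H).range := by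
  obtain ⟨n, a, b, hab⟩ := h.comul φ φ.2
  refine ⟨∑ i, a i ⊗ₜ[Zl ℓ] b i, ?_⟩
  funext p
  rw [map_sum, Finset.sum_apply, Δ₀_apply, hab]
  exact Finset.sum_congr rfl fun i _ => tensorEval_tmul _ _ _ _ _

/-- The comultiplication of a Hopf order. -/
def comulH (h : IsHopfOrder ρ H) : H →ₐ[Zl ℓ] H ⊗[Zl ℓ] H :=
  ((AlgEquiv.ofInjective (ev₂ H) h.ev₂_injective).symm : (ev₂ H).range →ₐ[Zl ℓ] _).comp
    ((Δ₀ H).codRestrict (ev₂ H).range h.Δ₀_mem_range)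

theorem ev₂_comulH (h : IsHopfOrder ρ H) (φ : H) : ev₂ H (h.comulH φ) = Δ₀ H φ := by
  have := (AlgEquiv.ofInjective (ev₂ H) h.ev₂_injective).apply_symm_apply
    ((Δ₀ H).codRestrict (ev₂ H).range h.Δ₀_mem_range φ)
  exact congrArg Subtype.val this

theorem ev₂_comulH_apply (h : IsHopfOrder ρ H) (φ : H) (s t : T) :
    ev₂ H (h.comulH φ) (s, t) = (φ : T → Kb) (s + t) := by
  rw [ev₂_comulH]; rfl

/-- The value at `0` of an element of a Hopf order lies in `ℤ_(ℓ)`. -/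
theorem eval_zero_mem_range (h : IsHopfOrder ρ H) (φ : H) :
    evalH H 0 φ ∈ (Algebra.ofId (Zl ℓ) Kb).range := by
  have := h.finite
  have hfix : ∀ σ : Γ, σ ((φ : T → Kb) 0) = (φ : T → Kb) 0 := fun σ => by
    rw [← h.equivariant _ φ.2 σ 0, h.map_zero]
  obtain ⟨q, hq⟩ := exists_rat_of_fixed _ hfix
  have hint : IsIntegral (Zl ℓ) ((φ : T → Kb) 0) :=
    (Algebra.IsIntegral.isIntegral (R := Zl ℓ) φ).map (evalH H 0)
  rw [← hq] at hint
  have hintq : IsIntegral (Zl ℓ) q :=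
    (isIntegral_algebraMap_iff (algebraMap ℚ Kb).injective).1 hint
  obtain ⟨r, hr⟩ := IsIntegrallyClosed.isIntegral_iff.1 hintq
  refine ⟨r, ?_⟩
  show algebraMap (Zl ℓ) Kb r = _
  rw [evalH_apply, ← hq, ← hr]
  rfl

theorem ofId_injective : Function.Injective (Algebra.ofId (Zl ℓ) Kb) :=
  algebraMap_injective_Kb

/-- The counit of a Hopf order. -/
def counitH (h : IsHopfOrder ρ H) : H →ₐ[Zl ℓ] Zl ℓ :=
  ((AlgEquiv.ofInjective (Algebra.ofId (Zl ℓ) Kb) ofId_injective).symm :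
      (Algebra.ofId (Zl ℓ) Kb).range →ₐ[Zl ℓ] _).comp
    ((evalH H 0).codRestrict (Algebra.ofId (Zl ℓ) Kb).range h.eval_zero_mem_range)

theorem algebraMap_counitH (h : IsHopfOrder ρ H) (φ : H) :
    algebraMap (Zl ℓ) Kb (h.counitH φ) = (φ : T → Kb) 0 := by
  have := (AlgEquiv.ofInjective (Algebra.ofId (Zl ℓ) Kb) ofId_injective).apply_symm_apply
    ((evalH H 0).codRestrict (Algebra.ofId (Zl ℓ) Kb).range h.eval_zero_mem_range φ)
  exact congrArg Subtype.val this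

/-- The antipode of a Hopf order. -/
def antipodeH (h : IsHopfOrder ρ H) : H →ₐ[Zl ℓ] H :=
  ((pullAlg (Zl ℓ) (fun t : T => -t)).comp H.val).codRestrict H (fun φ => h.neg φ φ.2)

@[simp] theorem antipodeH_apply (h : IsHopfOrder ρ H) (φ : H) (t : T) :
    ((h.antipodeH φ : H) : T → Kb) t = (φ : T → Kb) (-t) := rfl

end IsHopfOrder

end Fermat.Agent.S19.HopfOrder
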