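import Mathlib
import Fermat.Agent.S19.HopfOrderD

/-!
# Hopf orders, part E: the bialgebra and Hopf algebra axioms
-/

set_option autoImplicit false
set_option linter.unusedSectionVars false
set_option synthInstance.maxHeartbeats 20000
set_option maxHeartbeats 400000

noncomputable section

namespace Fermat.Agent.S19.HopfOrder

open scoped TensorProduct
open Fermat.Agent.S19.HopfOrderA Fermat.Agent.S19.HopfOrderB Fermat.Agent.S28.ZlBase

local notation "Kb" => AlgebraicClosure ℚ
local notation "Γ" => (AlgebraicClosure ℚ ≃ₐ[ℚ] AlgebraicClosure ℚ)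

variable {ℓ : ℕ} [hℓ : Fact ℓ.Prime]
variable {T : Type} [AddCommGroup T] [Finite T]
variable {ρ : Γ → T → T} {H : Subalgebra (Zl ℓ) (T → Kb)}

namespace IsHopfOrder

theorem ev₃_assoc (z : (H ⊗[Zl ℓ] H) ⊗[Zl ℓ] H) (s t u : T) :
    ev₃ H (Algebra.TensorProduct.assoc (Zl ℓ) (Zl ℓ) (Zl ℓ) H H H z) (s, (t, u)) =
      ev₃' H z ((s, t), u) := by
  induction z using TensorProduct.induction_on with
  | zero => simp
  | add x y hx hy => simp only [map_add, Pi.add_apply, hx, hy]
  | tmul x c =>
    induction x using TensorProduct.induction_on with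
    | zero => simp
    | add x y hx hy => simp only [TensorProduct.add_tmul, map_add, Pi.add_apply, hx, hy]
    | tmul a b => simp [mul_assoc]

theorem ev₃'_map_comul (h : IsHopfOrder ρ H) (z : H ⊗[Zl ℓ] H) (s t u : T) :
    ev₃' H (Algebra.TensorProduct.map h.comulH (AlgHom.id (Zl ℓ) H) z) ((s, t), u) =
      ev₂ H z (s + t, u) := by
  induction z using TensorProduct.induction_on with
  | zero => simp
  | add x y hx hy => simp only [map_add, Pi.add_apply, hx, hy]
  | tmul a b => simp [ev₂_comulH_apply]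

theorem ev₃_map_comul (h : IsHopfOrder ρ H) (z : H ⊗[Zl ℓ] H) (s t u : T) :
    ev₃ H (Algebra.TensorProduct.map (AlgHom.id (Zl ℓ) H) h.comulH z) (s, (t, u)) =
      ev₂ H z (s, t + u) := by
  induction z using TensorProduct.induction_on with
  | zero => simp
  | add x y hx hy => simp only [map_add, Pi.add_apply, hx, hy]
  | tmul a b => simp [ev₂_comulH_apply]

theorem coassocH (h : IsHopfOrder ρ H) :
    (Algebra.TensorProduct.assoc (Zl ℓ) (Zl ℓ) (Zl ℓ) H H H).toAlgHom.comp
      ((Algebra.TensorProduct.map h.comulH (.id (Zl ℓ) H)).comp h.comulH)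
      = (Algebra.TensorProduct.map (.id (Zl ℓ) H) h.comulH).comp h.comulH := by
  ext φ
  apply h.ev₃_injective
  funext ⟨s, t, u⟩
  have e1 := ev₃_assoc (H := H)
    (Algebra.TensorProduct.map h.comulH (AlgHom.id (Zl ℓ) H) (h.comulH φ)) s t u
  refine e1.trans ?_
  rw [ev₃'_map_comul, ev₂_comulH_apply]
  refine Eq.trans ?_ (h.ev₃_map_comul (h.comulH φ) s t u).symm
  rw [ev₂_comulH_apply, add_assoc]

theorem lid_map_counit (h : IsHopfOrder ρ H) (z : H ⊗[Zl ℓ] H) (t : T) :
    ((Algebra.TensorProduct.lid (Zl ℓ) H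
      (Algebra.TensorProduct.map h.counitH (AlgHom.id (Zl ℓ) H) z) : H) : T → Kb) t =
      ev₂ H z (0, t) := by
  induction z using TensorProduct.induction_on with
  | zero => simp
  | add x y hx hy => simp only [map_add, Pi.add_apply, Subalgebra.coe_add, hx, hy]
  | tmul a b =>
    simp only [Algebra.TensorProduct.map_tmul, AlgHom.coe_id, id_eq, Algebra.TensorProduct.lid_tmul,
      tensorEval_tmul, Subalgebra.coe_val, Subalgebra.coe_smul, Pi.smul_apply]
    rw [Algebra.smul_def, algebraMap_counitH]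

theorem rid_map_counit (h : IsHopfOrder ρ H) (z : H ⊗[Zl ℓ] H) (t : T) :
    ((Algebra.TensorProduct.rid (Zl ℓ) (Zl ℓ) H
      (Algebra.TensorProduct.map (AlgHom.id (Zl ℓ) H) h.counitH z) : H) : T → Kb) t =
      ev₂ H z (t, 0) := by
  induction z using TensorProduct.induction_on with
  | zero => simp
  | add x y hx hy => simp only [map_add, Pi.add_apply, Subalgebra.coe_add, hx, hy]
  | tmul a b =>
    simp only [Algebra.TensorProduct.map_tmul, AlgHom.coe_id, id_eq, Algebra.TensorProduct.rid_tmul,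
      tensorEval_tmul, Subalgebra.coe_val, Subalgebra.coe_smul, Pi.smul_apply]
    rw [Algebra.smul_def, algebraMap_counitH, mul_comm]

theorem rTensorH (h : IsHopfOrder ρ H) :
    (Algebra.TensorProduct.map h.counitH (.id (Zl ℓ) H)).comp h.comulH
      = (Algebra.TensorProduct.lid (Zl ℓ) H).symm := by
  ext φ
  apply (Algebra.TensorProduct.lid (Zl ℓ) H).injective
  apply Subtype.val_injective
  funext t
  have e2 : (Algebra.TensorProduct.lid (Zl ℓ) H) ((Algebra.TensorProduct.lid (Zl ℓ) H).symm φ) = φ :=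
    AlgEquiv.apply_symm_apply _ _
  refine (h.lid_map_counit (h.comulH φ) t).trans ?_
  rw [ev₂_comulH_apply, zero_add]
  exact congrArg (fun ψ : H => (ψ : T → Kb) t) e2.symm

theorem lTensorH (h : IsHopfOrder ρ H) :
    (Algebra.TensorProduct.map (.id (Zl ℓ) H) h.counitH).comp h.comulH
      = (Algebra.TensorProduct.rid (Zl ℓ) (Zl ℓ) H).symm := by
  ext φ
  apply (Algebra.TensorProduct.rid (Zl ℓ) (Zl ℓ) H).injective
  apply Subtype.val_injective
  funext t
  have e2 : (Algebra.TensorProduct.rid (Zl ℓ) (Zl ℓ) H)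
      ((Algebra.TensorProduct.rid (Zl ℓ) (Zl ℓ) H).symm φ) = φ :=
    AlgEquiv.apply_symm_apply _ _
  refine (h.rid_map_counit (h.comulH φ) t).trans ?_
  rw [ev₂_comulH_apply, add_zero]
  exact congrArg (fun ψ : H => (ψ : T → Kb) t) e2.symm

/-- The bialgebra structure of a Hopf order. -/
@[reducible] def bialgebraH (h : IsHopfOrder ρ H) : Bialgebra (Zl ℓ) H :=
  Bialgebra.ofAlgHom h.comulH h.counitH h.coassocH h.rTensorH h.lTensorH

end IsHopfOrder

end Fermat.Agent.S19.HopfOrder
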