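import Mathlib
import Fermat.Agent.S19.HopfOrderE

/-!
# Hopf orders, part F: the antipode axioms, cocommutativity, points, and the packaging theorem
-/

set_option autoImplicit false
set_option linter.unusedSectionVars false
set_option synthInstance.maxHeartbeats 20000
set_option maxHeartbeats 400000

noncomputable section

namespace Fermat.Agent.S19.HopfOrder

open scoped TensorProduct
open Fermat.Agent.S19.HopfOrderA Fermat.Agent.S19.HopfOrderB Fermat.Agent.S28.ZlBase

local notation "Kb" => AlgebraicClosure ℚ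
local notation "Γ" => (AlgebraicClosure ℚ ≃ₐ[ℚ] AlgebraicClosure ℚ)

variable {ℓ : ℕ} [hℓ : Fact ℓ.Prime]
variable {T : Type} [AddCommGroup T] [Finite T]
variable {ρ : Γ → T → T} {H : Subalgebra (Zl ℓ) (T → Kb)}

namespace IsHopfOrder

theorem lift_antipode_id (h : IsHopfOrder ρ H) (z : H ⊗[Zl ℓ] H) (t : T) :
    ((Algebra.TensorProduct.lift h.antipodeH (AlgHom.id (Zl ℓ) H) (fun _ _ => Commute.all _ _) z :
      H) : T → Kb) t = ev₂ H z (-t, t) := by
  induction z using TensorProduct.induction_on with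
  | zero => simp
  | add x y hx hy => simp only [map_add, Pi.add_apply, Subalgebra.coe_add, hx, hy]
  | tmul a b => simp

theorem lift_id_antipode (h : IsHopfOrder ρ H) (z : H ⊗[Zl ℓ] H) (t : T) :
    ((Algebra.TensorProduct.lift (AlgHom.id (Zl ℓ) H) h.antipodeH (fun _ _ => Commute.all _ _) z :
      H) : T → Kb) t = ev₂ H z (t, -t) := by
  induction z using TensorProduct.induction_on with
  | zero => simp
  | add x y hx hy => simp only [map_add, Pi.add_apply, Subalgebra.coe_add, hx, hy]
  | tmul a b => simp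

theorem ev₂_comm (z : H ⊗[Zl ℓ] H) (s t : T) :
    ev₂ H (TensorProduct.comm (Zl ℓ) H H z) (s, t) = ev₂ H z (t, s) := by
  induction z using TensorProduct.induction_on with
  | zero => simp
  | add x y hx hy => simp only [map_add, Pi.add_apply, hx, hy]
  | tmul a b => simp [mul_comm]

theorem lift_eval (z : H ⊗[Zl ℓ] H) (s t : T) :
    Algebra.TensorProduct.lift (evalH H s) (evalH H t) (fun _ _ => Commute.all _ _) z =
      ev₂ H z (s, t) := by
  induction z using TensorProduct.induction_on with
  | zero => simp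
  | add x y hx hy => simp only [map_add, Pi.add_apply, hx, hy]
  | tmul a b => simp

theorem coe_algebraMap_apply (r : Zl ℓ) (t : T) :
    ((algebraMap (Zl ℓ) H r : H) : T → Kb) t = algebraMap (Zl ℓ) Kb r := rfl

/-- The Hopf algebra structure of a Hopf order. -/
@[reducible] def hopfAlgebraH (h : IsHopfOrder ρ H) : HopfAlgebra (Zl ℓ) H :=
  letI := h.bialgebraH
  HopfAlgebra.ofAlgHom h.antipodeH
    (by
      ext φ t
      refine (h.lift_antipode_id (h.comulH φ) t).trans ?_
      rw [ev₂_comulH_apply, neg_add_cancel]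
      exact (h.algebraMap_counitH φ).symm)
    (by
      ext φ t
      refine (h.lift_id_antipode (h.comulH φ) t).trans ?_
      rw [ev₂_comulH_apply, add_neg_cancel]
      exact (h.algebraMap_counitH φ).symm)

theorem isCocommH (h : IsHopfOrder ρ H) :
    letI := h.hopfAlgebraH
    Coalgebra.IsCocomm (Zl ℓ) H := by
  let _ := h.hopfAlgebraH
  refine ⟨?_⟩
  ext φ
  apply h.ev₂_injective
  funext ⟨s, t⟩
  refine (ev₂_comm (h.comulH φ) s t).trans ?_
  rw [ev₂_comulH_apply]
  refine Eq.trans ?_ (h.ev₂_comulH_apply φ s t).symm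
  rw [add_comm]

/-- The points of a Hopf order are the points of `T`. -/
def pointsEquiv (h : IsHopfOrder ρ H) : WithConv (H →ₐ[Zl ℓ] Kb) ≃ T where
  toFun χ := Classical.choose (h.exists_eval χ.ofConv)
  invFun t := WithConv.toConv (evalH H t)
  left_inv χ := by
    apply WithConv.ext
    ext φ
    exact (Classical.choose_spec (h.exists_eval χ.ofConv) φ).symm
  right_inv t := by
    apply h.evalH_injective
    ext φ
    exact (Classical.choose_spec (h.exists_eval (evalH H t)) φ).symm

theorem pointsEquiv_spec (h : IsHopfOrder ρ H) (χ : WithConv (H →ₐ[Zl ℓ] Kb)) (φ : H) :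
    χ φ = (φ : T → Kb) (h.pointsEquiv χ) :=
  Classical.choose_spec (h.exists_eval χ.ofConv) φ

theorem pointsEquiv_eq_of (h : IsHopfOrder ρ H) (χ : WithConv (H →ₐ[Zl ℓ] Kb)) (t : T)
    (ht : ∀ φ : H, χ φ = (φ : T → Kb) t) : h.pointsEquiv χ = t := by
  apply h.evalH_injective
  ext φ
  rw [evalH_apply, evalH_apply, ← h.pointsEquiv_spec χ φ, ht]

end IsHopfOrder

/-- **Packaging theorem**: a Hopf order in the algebra of Galois-equivariant functions on a finite
Galois module `T` gives the existential tail of the frozen statements S19 / `IsFlatAt`. -/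
theorem exists_hopfAlgebra_of_isHopfOrder (h : IsHopfOrder ρ H) :
    ∃ (H' : Type) (_ : CommRing H') (_ : HopfAlgebra (GaloisRep.ratLocalizedAt ℓ) H'),
      Module.Finite (GaloisRep.ratLocalizedAt ℓ) H' ∧
      Module.Flat (GaloisRep.ratLocalizedAt ℓ) H' ∧
      Coalgebra.IsCocomm (GaloisRep.ratLocalizedAt ℓ) H' ∧
      ∃ e : WithConv (H' →ₐ[GaloisRep.ratLocalizedAt ℓ] AlgebraicClosure ℚ) ≃ T,
        (∀ f g : WithConv (H' →ₐ[GaloisRep.ratLocalizedAt ℓ] AlgebraicClosure ℚ),
          e (f * g) = e f + e g) ∧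
        ∀ (σ : Γ) (f g : WithConv (H' →ₐ[GaloisRep.ratLocalizedAt ℓ] AlgebraicClosure ℚ)),
          (∀ x : H', g x = σ (f x)) → e g = ρ σ (e f) := by
  have hfin := h.finite
  refine ⟨H, inferInstance, h.hopfAlgebraH, hfin, inferInstance, h.isCocommH, h.pointsEquiv, ?_, ?_⟩
  · intro f g
    obtain ⟨s, rfl⟩ := h.pointsEquiv.symm.surjective f
    obtain ⟨t, rfl⟩ := h.pointsEquiv.symm.surjective g
    rw [Equiv.apply_symm_apply, Equiv.apply_symm_apply]
    apply h.pointsEquiv_eq_of
    intro φ
    letI := h.hopfAlgebraH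
    rw [AlgHom.convMul_apply]
    exact (IsHopfOrder.lift_eval (H := H) (h.comulH φ) s t).trans (h.ev₂_comulH_apply φ s t)
  · intro σ f g hfg
    apply h.pointsEquiv_eq_of
    intro φ
    rw [hfg φ, h.pointsEquiv_spec f φ, h.equivariant _ φ.2]

end Fermat.Agent.S19.HopfOrder
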