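import Mathlib
import Fermat.Prelude.Def_ModularCurve_ArithmeticGalois
import Fermat.Prelude.Def_GaloisRep_Flat
import Fermat.Agent.S19.HopfOrderF

/-!
# The frozen S19 statement from a Hopf order on `J₀(p)[ℓ^k]`
-/

set_option autoImplicit false
set_option linter.unusedSectionVars false

noncomputable section

namespace Fermat.Agent.S19.HopfOrder

open ModularCurve

local notation "Kb" => AlgebraicClosure ℚ
local notation "Γ" => (AlgebraicClosure ℚ ≃ₐ[ℚ] AlgebraicClosure ℚ)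

variable (p : ℕ) [NeZero p] (ℓ : ℕ) [Fact ℓ.Prime] (k : ℕ)

/-- The Galois action on the torsion points of `J₀(p)`. -/
def torsionAct (σ : Γ) (z : Submodule.torsionBy ℤ (JZero p) ((ℓ : ℤ) ^ k)) :
    Submodule.torsionBy ℤ (JZero p) ((ℓ : ℤ) ^ k) :=
  ⟨σ • (z : JZero p), by
    have hz := z.2
    rw [Submodule.mem_torsionBy_iff] at hz ⊢
    have := map_zsmul (DistribSMul.toAddMonoidHom (JZero p) σ) ((ℓ : ℤ) ^ k) (z : JZero p)
    simp only [DistribSMul.toAddMonoidHom_apply] at this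
    rw [← this, hz, smul_zero]⟩

theorem torsionAct_surjective (σ : Γ) : Function.Surjective (torsionAct p ℓ k σ) := by
  intro z
  refine ⟨torsionAct p ℓ k σ⁻¹ z, ?_⟩
  apply Subtype.ext
  simp [torsionAct]

theorem torsionAct_zero (σ : Γ) : torsionAct p ℓ k σ 0 = 0 := by
  apply Subtype.ext
  simp [torsionAct]

/-- The frozen statement S19 (conclusion verbatim) from a Hopf order on `J₀(p)[ℓ^k]`. -/
theorem s19_of_isHopfOrder [Finite (Submodule.torsionBy ℤ (JZero p) ((ℓ : ℤ) ^ k))]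
    {H : Subalgebra (Zl ℓ) (Submodule.torsionBy ℤ (JZero p) ((ℓ : ℤ) ^ k) → Kb)}
    (h : IsHopfOrder (torsionAct p ℓ k) H) :
    ∃ (H : Type) (_ : CommRing H) (_ : HopfAlgebra (GaloisRep.ratLocalizedAt ℓ) H),
      Module.Finite (GaloisRep.ratLocalizedAt ℓ) H ∧ Module.Flat (GaloisRep.ratLocalizedAt ℓ) H ∧
      Coalgebra.IsCocomm (GaloisRep.ratLocalizedAt ℓ) H ∧
      ∃ e : WithConv (H →ₐ[GaloisRep.ratLocalizedAt ℓ] AlgebraicClosure ℚ) ≃
          ↥(Submodule.torsionBy ℤ (JZero p) ((ℓ : ℤ) ^ k)),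
        (∀ f g, e (f * g) = e f + e g) ∧
        ∀ (σ : AlgebraicClosure ℚ ≃ₐ[ℚ] AlgebraicClosure ℚ)
          (f g : WithConv (H →ₐ[GaloisRep.ratLocalizedAt ℓ] AlgebraicClosure ℚ)),
          (∀ h : H, g h = σ (f h)) → ((e g : JZero p)) = σ • (e f : JZero p) := by
  obtain ⟨H', i1, i2, h1, h2, h3, e, he1, he2⟩ := exists_hopfAlgebra_of_isHopfOrder h
  refine ⟨H', i1, i2, h1, h2, h3, e, he1, fun σ f g hfg => ?_⟩
  rw [he2 σ f g hfg]
  rfl

end Fermat.Agent.S19.HopfOrder
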