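/-
PROJECT F (S19), slice (W11) FINAL ASSEMBLY (helper26): the conclusion of the frozen statement S19
from the ONE remaining geometric input, a `W`-order at `X₀(p)`:

* `isHopfOrder_of_fn` : helper16's function-level output contract `BackEnd.IsHopfOrderFn` is
  helper27's input contract `HopfOrder.IsHopfOrder` (the two were written independently);
* `torsionAct_eq_galAct` : helper27's `torsionAct` is helper8's `galAct`;
* `s19_of_isHopfOrderFn` : `BackEnd.IsHopfOrderFn galAct H` gives the frozen conclusion;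
* `s19_of_wOrder` : for ONE valuation subring `A` of `ℚ̄` over `ℓ`, one Frobenius element `σ` at `A`
  and ONE `W A`-subalgebra `HW ⊆ Map(J₀(p)[ℓ^k], ℚ̄)` with `BackEnd.WOrder galAct σ I_A HW`, the frozen
  conclusion (`FrameWX0.frameW` + `BackEnd.isHopfOrderFn_descend` + `HopfOrder.s19_of_isHopfOrder`);
* `s19_of_forall_wOrder` : the same with `(A, σ)` supplied by `Lib.FrobeniusExists`.

No hypothesis on `p` beyond `NeZero p`; `ℓ ∤ p` is only needed by whoever produces `HW`.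
-/
import Fermat.Agent.S19.HopfOrderS19
import Fermat.Agent.S19.FrameWX0
import Fermat.Agent.Lib.FrobeniusExists

set_option autoImplicit false
set_option linter.style.haveILetI false

noncomputable section

namespace Fermat.Agent.S19.Final

open ModularCurve Fermat.Agent.S19.TorsionX0 Fermat.Agent.S19.BackEnd
open Fermat.Agent.S19.Artin GaloisRep Fermat.Agent.S18.C.SmallDVR Fermat.Agent.S19.HopfOrder

local notation "Qbar" => AlgebraicClosure ℚ
local notation "GQ" => (AlgebraicClosure ℚ ≃ₐ[ℚ] AlgebraicClosure ℚ)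

/-- helper16's output contract is helper27's input contract -/
theorem isHopfOrder_of_fn {ℓ : ℕ} [Fact ℓ.Prime] {T : Type} [AddCommGroup T] [Finite T]
    {ρ : GQ → T → T} (hsurj : ∀ τ, Function.Surjective (ρ τ)) (hzero : ∀ τ, ρ τ 0 = 0)
    {H : Subalgebra (Zl ℓ) (T → Qbar)} (h : IsHopfOrderFn ρ H) : IsHopfOrder ρ H where
  surj := hsurj
  map_zero := hzero
  finite := h.fg
  equivariant := fun φ hφ τ t => h.equiv φ hφ τ t
  separates := h.sep
  comul := fun φ hφ => by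
    obtain ⟨n, a, b, ha, hb, hab⟩ := h.comul φ hφ
    exact ⟨n, fun i => ⟨a i, ha i⟩, fun i => ⟨b i, hb i⟩, hab⟩
  neg := h.neg

variable (p : ℕ) [NeZero p] (ℓ : ℕ) [Fact ℓ.Prime] (k : ℕ)

/-- helper27's action is helper8's action -/
theorem torsionAct_eq_galAct :
    torsionAct p ℓ k = fun τ => ⇑(galAct (N := p) (m := (ℓ : ℤ) ^ k) τ) := rfl

theorem pow_ne_zero_int : ((ℓ : ℤ) ^ k) ≠ 0 :=
  pow_ne_zero _ (Int.natCast_ne_zero.mpr (Fact.out : ℓ.Prime).ne_zero)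

/-- the frozen conclusion from a function-level Hopf order -/
theorem s19_of_isHopfOrderFn
    {H : Subalgebra (Zl ℓ) (↥(T p ((ℓ : ℤ) ^ k)) → Qbar)}
    (h : IsHopfOrderFn (fun τ => ⇑(galAct (N := p) (m := (ℓ : ℤ) ^ k) τ)) H) :
    ∃ (H : Type) (_ : CommRing H) (_ : HopfAlgebra (GaloisRep.ratLocalizedAt ℓ) H),
      Module.Finite (GaloisRep.ratLocalizedAt ℓ) H ∧ Module.Flat (GaloisRep.ratLocalizedAt ℓ) H ∧
      Coalgebra.IsCocomm (GaloisRep.ratLocalizedAt ℓ) H ∧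
      ∃ e : WithConv (H →ₐ[GaloisRep.ratLocalizedAt ℓ] AlgebraicClosure ℚ) ≃
          ↥(Submodule.torsionBy ℤ (JZero p) ((ℓ : ℤ) ^ k)),
        (∀ f g, e (f * g) = e f + e g) ∧
        ∀ (σ : AlgebraicClosure ℚ ≃ₐ[ℚ] AlgebraicClosure ℚ)
          (f g : WithConv (H →ₐ[GaloisRep.ratLocalizedAt ℓ] AlgebraicClosure ℚ)),
          (∀ h : H, g h = σ (f h)) → ((e g : JZero p)) = σ • (e f : JZero p) := by
  haveI : Finite ↥(Submodule.torsionBy ℤ (JZero p) ((ℓ : ℤ) ^ k)) :=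
    finite_T (N := p) (pow_ne_zero_int ℓ k)
  refine s19_of_isHopfOrder p ℓ k (H := H) ?_
  rw [torsionAct_eq_galAct]
  exact isHopfOrder_of_fn (fun τ => galAct_surjective τ) (fun τ => map_zero (galAct τ)) h

variable {p ℓ k}

/-- the function-level Hopf order over `ℤ_(ℓ)` from ONE `W A`-order at `X₀(p)` (the input of the
S32 transfer) -/
theorem exists_isHopfOrderFn_of_wOrder {A : ValuationSubring Qbar} (hA : A.LiesOverPrime ℓ) {σ : GQ}
    (hσ : A.IsFrobeniusAt σ ℓ)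
    (HW : Subalgebra ↥(W A) (↥(T p ((ℓ : ℤ) ^ k)) → Qbar))
    (O : WOrder (fun τ => ⇑(galAct (N := p) (m := (ℓ : ℤ) ^ k) τ)) σ
      (A.inertiaSubgroupIn ℚ) HW) :
    ∃ H : Subalgebra (Zl ℓ) (↥(T p ((ℓ : ℤ) ^ k)) → Qbar),
      IsHopfOrderFn (fun τ => ⇑(galAct (N := p) (m := (ℓ : ℤ) ^ k) τ)) H := by
  letI := FrameWX0.algebraRW (A := A) hA
  haveI := FrameWX0.isScalarTower (A := A) hA
  haveI : Finite ↥(T p ((ℓ : ℤ) ^ k)) := finite_T (N := p) (pow_ne_zero_int ℓ k)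
  have F := FrameWX0.frameW (N := p) (m := (ℓ : ℤ) ^ k) hA hσ
  exact ⟨descend F HW, isHopfOrderFn_descend F O⟩

/-- the same with `(A, σ)` supplied -/
theorem exists_isHopfOrderFn_of_forall_wOrder
    (h : ∀ (A : ValuationSubring Qbar) (_ : A.LiesOverPrime ℓ) (σ : GQ) (_ : A.IsFrobeniusAt σ ℓ),
      ∃ HW : Subalgebra ↥(W A) (↥(T p ((ℓ : ℤ) ^ k)) → Qbar),
        WOrder (fun τ => ⇑(galAct (N := p) (m := (ℓ : ℤ) ^ k) τ)) σ (A.inertiaSubgroupIn ℚ) HW) :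
    ∃ H : Subalgebra (Zl ℓ) (↥(T p ((ℓ : ℤ) ^ k)) → Qbar),
      IsHopfOrderFn (fun τ => ⇑(galAct (N := p) (m := (ℓ : ℤ) ^ k) τ)) H := by
  obtain ⟨A, σ, hA, hσ⟩ :=
    Fermat.Agent.Lib.FrobeniusExists.exists_valuationSubring_isFrobeniusAt ℓ (Fact.out : ℓ.Prime)
  obtain ⟨HW, O⟩ := h A hA σ hσ
  exact exists_isHopfOrderFn_of_wOrder hA hσ HW O

/-- **(W11)**: the frozen conclusion from ONE `W A`-order at `X₀(p)` -/
theorem s19_of_wOrder {A : ValuationSubring Qbar} (hA : A.LiesOverPrime ℓ) {σ : GQ}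
    (hσ : A.IsFrobeniusAt σ ℓ)
    (HW : Subalgebra ↥(W A) (↥(T p ((ℓ : ℤ) ^ k)) → Qbar))
    (O : WOrder (fun τ => ⇑(galAct (N := p) (m := (ℓ : ℤ) ^ k) τ)) σ
      (A.inertiaSubgroupIn ℚ) HW) :
    ∃ (H : Type) (_ : CommRing H) (_ : HopfAlgebra (GaloisRep.ratLocalizedAt ℓ) H),
      Module.Finite (GaloisRep.ratLocalizedAt ℓ) H ∧ Module.Flat (GaloisRep.ratLocalizedAt ℓ) H ∧
      Coalgebra.IsCocomm (GaloisRep.ratLocalizedAt ℓ) H ∧
      ∃ e : WithConv (H →ₐ[GaloisRep.ratLocalizedAt ℓ] AlgebraicClosure ℚ) ≃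
          ↥(Submodule.torsionBy ℤ (JZero p) ((ℓ : ℤ) ^ k)),
        (∀ f g, e (f * g) = e f + e g) ∧
        ∀ (σ : AlgebraicClosure ℚ ≃ₐ[ℚ] AlgebraicClosure ℚ)
          (f g : WithConv (H →ₐ[GaloisRep.ratLocalizedAt ℓ] AlgebraicClosure ℚ)),
          (∀ h : H, g h = σ (f h)) → ((e g : JZero p)) = σ • (e f : JZero p) := by
  letI := FrameWX0.algebraRW (A := A) hA
  haveI := FrameWX0.isScalarTower (A := A) hA
  haveI : Finite ↥(T p ((ℓ : ℤ) ^ k)) := finite_T (N := p) (pow_ne_zero_int ℓ k)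
  have F := FrameWX0.frameW (N := p) (m := (ℓ : ℤ) ^ k) hA hσ
  exact s19_of_isHopfOrderFn p ℓ k (isHopfOrderFn_descend F O)

/-- **(W11)** with `(A, σ)` supplied: it suffices to produce a `W A`-order for every valuation
subring `A` of `ℚ̄` over `ℓ` and every Frobenius element at `A` -/
theorem s19_of_forall_wOrder
    (h : ∀ (A : ValuationSubring Qbar) (_ : A.LiesOverPrime ℓ) (σ : GQ) (_ : A.IsFrobeniusAt σ ℓ),
      ∃ HW : Subalgebra ↥(W A) (↥(T p ((ℓ : ℤ) ^ k)) → Qbar),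
        WOrder (fun τ => ⇑(galAct (N := p) (m := (ℓ : ℤ) ^ k) τ)) σ (A.inertiaSubgroupIn ℚ) HW) :
    ∃ (H : Type) (_ : CommRing H) (_ : HopfAlgebra (GaloisRep.ratLocalizedAt ℓ) H),
      Module.Finite (GaloisRep.ratLocalizedAt ℓ) H ∧ Module.Flat (GaloisRep.ratLocalizedAt ℓ) H ∧
      Coalgebra.IsCocomm (GaloisRep.ratLocalizedAt ℓ) H ∧
      ∃ e : WithConv (H →ₐ[GaloisRep.ratLocalizedAt ℓ] AlgebraicClosure ℚ) ≃
          ↥(Submodule.torsionBy ℤ (JZero p) ((ℓ : ℤ) ^ k)),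
        (∀ f g, e (f * g) = e f + e g) ∧
        ∀ (σ : AlgebraicClosure ℚ ≃ₐ[ℚ] AlgebraicClosure ℚ)
          (f g : WithConv (H →ₐ[GaloisRep.ratLocalizedAt ℓ] AlgebraicClosure ℚ)),
          (∀ h : H, g h = σ (f h)) → ((e g : JZero p)) = σ • (e f : JZero p) := by
  obtain ⟨A, σ, hA, hσ⟩ :=
    Fermat.Agent.Lib.FrobeniusExists.exists_valuationSubring_isFrobeniusAt ℓ (Fact.out : ℓ.Prime)
  obtain ⟨HW, O⟩ := h A hA σ hσ
  exact s19_of_wOrder hA hσ HW O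

end Fermat.Agent.S19.Final
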