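/-
PROJECT F (S19), slice F-IntegralW (helper25): THE CLOSEDALG FRAME AT X0.

`A` a valuation subring of `ℚ̄`, `K0 A` its inertia field, `W A = A ∩ K0 A` (a DVR when `A` lies over a
prime `ℓ`, `S18/C/SmallDVR`).

* `isIntegral_W_of_mem` : every element of `A` is integral over `W A` (orbit polynomial under the inertia
  group: finite orbit, invariant coefficients, roots in `A`; no Galois correspondence);
* `OL A K := A ∩ K` for `K : IntermediateField (K0 A) ℚ̄`, a `W A`-subalgebra of `ℚ̄`: it is a local ring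
  (`isLocalRing_OL`), `W A → OL A K` is a local homomorphism, `mem_maximalIdeal_iff`,
  `isUnit_iff_valuation`, it is the integral closure of `W A` in `K` (`isIntegralClosure_OL`), hence
  a finite `W A`-module when `K / K0 A` is finite (`finite_OL`);
* `mem_pow_maximalIdeal_of_valuation_le`, `mem_pow_maximalIdeal_of_eq_mul` : the division lemma
  (`x = a ^ b * u`, `a ∈ 𝔪_L`, `u ∈ A` gives `x ∈ 𝔪_L ^ b`);
* `exists_finiteDimensional_of_finite` : a finite subset of `ℚ̄` lies in some `K` finite over `K0 A`.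
-/
import Fermat.Agent.S18.C.SmallDVR
import Fermat.Agent.S05.Local

set_option autoImplicit false

noncomputable section

namespace Fermat.Agent.S19.IntegralW

open IsLocalRing Polynomial Fermat.Agent.S18.C.SmallDVR

local notation "Qbar" => AlgebraicClosure ℚ

variable (A : ValuationSubring Qbar)

/-! ### Every element of `A` is integral over `W A` -/

/-- the orbit of `x` under the inertia group, as a set -/
def orbitSet (x : Qbar) : Set Qbar := {y | ∃ σ ∈ A.inertiaSubgroupIn ℚ, σ x = y}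

theorem orbitSet_finite (x : Qbar) : (orbitSet A x).Finite := by
  have halg : IsAlgebraic ℚ x := Algebra.IsAlgebraic.isAlgebraic x
  have hint : IsIntegral ℚ x := halg.isIntegral
  refine ((minpoly ℚ x).rootSet_finite Qbar).subset ?_
  rintro y ⟨σ, -, rfl⟩
  rw [Polynomial.mem_rootSet]
  refine ⟨minpoly.ne_zero hint, ?_⟩
  rw [Polynomial.aeval_algEquiv, AlgHom.comp_apply]
  simp [minpoly.aeval]

theorem self_mem_orbitSet (x : Qbar) : x ∈ orbitSet A x := ⟨1, one_mem _, rfl⟩

theorem orbitSet_subset {x : Qbar} (hx : x ∈ A) : ∀ y ∈ orbitSet A x, y ∈ A := by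
  rintro y ⟨σ, hσ, rfl⟩
  exact Fermat.Agent.S05.Local.apply_mem_of_mem_inertia ℚ hσ hx

theorem image_orbitSet (x : Qbar) {σ : Qbar ≃ₐ[ℚ] Qbar} (hσ : σ ∈ A.inertiaSubgroupIn ℚ) :
    σ '' (orbitSet A x) = orbitSet A x := by
  ext y
  constructor
  · rintro ⟨z, ⟨τ, hτ, rfl⟩, rfl⟩
    exact ⟨σ * τ, mul_mem hσ hτ, rfl⟩
  · rintro ⟨τ, hτ, rfl⟩
    refine ⟨(σ⁻¹ * τ) x, ⟨σ⁻¹ * τ, mul_mem (inv_mem hσ) hτ, rfl⟩, ?_⟩
    simp [AlgEquiv.mul_apply]

/-- the orbit polynomial -/
def orbitPoly (x : Qbar) : Qbar[X] := ∏ y ∈ (orbitSet_finite A x).toFinset, (X - C y)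

theorem orbitPoly_monic (x : Qbar) : (orbitPoly A x).Monic :=
  monic_prod_of_monic _ _ fun y _ => monic_X_sub_C y

theorem orbitPoly_eval (x : Qbar) : (orbitPoly A x).eval x = 0 := by
  rw [orbitPoly, eval_prod]
  refine Finset.prod_eq_zero ((orbitSet_finite A x).mem_toFinset.2 (self_mem_orbitSet A x)) ?_
  simp

theorem orbitPoly_map (x : Qbar) {σ : Qbar ≃ₐ[ℚ] Qbar} (hσ : σ ∈ A.inertiaSubgroupIn ℚ) :
    (orbitPoly A x).map (σ : Qbar →+* Qbar) = orbitPoly A x := by
  classical
  rw [orbitPoly, Polynomial.map_prod]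
  have h1 : ∀ y ∈ (orbitSet_finite A x).toFinset,
      (X - C y : Qbar[X]).map (σ : Qbar →+* Qbar) = X - C (σ y) := by
    intro y _
    simp
  rw [Finset.prod_congr rfl h1]
  have h2 : (orbitSet_finite A x).toFinset.image σ = (orbitSet_finite A x).toFinset := by
    ext y
    rw [Finset.mem_image, Set.Finite.mem_toFinset]
    constructor
    · rintro ⟨z, hz, rfl⟩
      rw [Set.Finite.mem_toFinset] at hz
      rw [← image_orbitSet A x hσ]
      exact ⟨z, hz, rfl⟩
    · intro hy
      rw [← image_orbitSet A x hσ] at hy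
      obtain ⟨z, hz, rfl⟩ := hy
      exact ⟨z, (Set.Finite.mem_toFinset _).2 hz, rfl⟩
  conv_rhs => rw [← h2]
  rw [Finset.prod_image]
  intro a _ b _ hab
  exact σ.injective hab

theorem orbitPoly_coeff_mem_A {x : Qbar} (hx : x ∈ A) (n : ℕ) : (orbitPoly A x).coeff n ∈ A := by
  have h : orbitPoly A x ∈ Polynomial.liftsRing (A.subtype) := by
    rw [orbitPoly]
    refine Subring.prod_mem _ fun y hy => ?_
    have hyA : y ∈ A := orbitSet_subset A hx y ((orbitSet_finite A x).mem_toFinset.1 hy)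
    refine Subring.sub_mem _ ?_ ?_
    · rw [← lifts_iff_liftsRing]; exact X_mem_lifts _
    · rw [← lifts_iff_liftsRing]; exact C'_mem_lifts ⟨⟨y, hyA⟩, rfl⟩
  rw [← lifts_iff_liftsRing, lifts_iff_coeff_lifts] at h
  obtain ⟨a, ha⟩ := h n
  rw [← ha]
  exact a.2

theorem orbitPoly_coeff_mem_K0 (x : Qbar) (n : ℕ) : (orbitPoly A x).coeff n ∈ K0 A := by
  rw [mem_K0_iff]
  intro σ hσ
  have h := congrArg (fun p => Polynomial.coeff p n) (orbitPoly_map A x hσ)
  simpa [Polynomial.coeff_map] using h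

/-- **every element of `A` is integral over `W A`** -/
theorem isIntegral_W_of_mem {x : Qbar} (hx : x ∈ A) : IsIntegral (W A) x := by
  have hl : orbitPoly A x ∈ Polynomial.lifts (algebraMap (W A) Qbar) := by
    rw [lifts_iff_coeff_lifts]
    intro n
    refine ⟨⟨⟨(orbitPoly A x).coeff n, orbitPoly_coeff_mem_K0 A x n⟩, ?_⟩, rfl⟩
    rw [mem_W_iff]
    exact orbitPoly_coeff_mem_A A hx n
  obtain ⟨q, hq, -, hqm⟩ := lifts_and_degree_eq_and_monic hl (orbitPoly_monic A x)
  refine ⟨q, hqm, ?_⟩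
  rw [← Polynomial.eval_map, hq]
  exact orbitPoly_eval A x

/-! ### The ring `OL K = A ∩ K` -/

variable (K : IntermediateField (K0 A) Qbar)

/-- `OL K := A ∩ K`, as a `W A`-subalgebra of `ℚ̄` -/
def OL : Subalgebra (W A) Qbar where
  carrier := {x | x ∈ A ∧ x ∈ K}
  mul_mem' := fun ha hb => ⟨A.mul_mem _ _ ha.1 hb.1, K.mul_mem ha.2 hb.2⟩
  add_mem' := fun ha hb => ⟨A.add_mem _ _ ha.1 hb.1, K.add_mem ha.2 hb.2⟩
  algebraMap_mem' := fun w => ⟨coe_mem A w, K.algebraMap_mem (w : K0 A)⟩

variable {A K}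

theorem mem_OL_iff {x : Qbar} : x ∈ OL A K ↔ x ∈ A ∧ x ∈ K := Iff.rfl

theorem coe_mem_A (x : OL A K) : (x : Qbar) ∈ A := x.2.1

theorem coe_mem_K (x : OL A K) : (x : Qbar) ∈ K := x.2.2

theorem valuation_le_one (x : OL A K) : A.valuation (x : Qbar) ≤ 1 :=
  (A.valuation_le_one_iff _).2 x.2.1

theorem isUnit_iff_valuation (x : OL A K) : IsUnit x ↔ A.valuation (x : Qbar) = 1 := by
  constructor
  · rintro ⟨⟨u, v, huv, hvu⟩, rfl⟩
    have h1 : (u : Qbar) * (v : Qbar) = 1 := by
      have := congrArg (fun z : OL A K => (z : Qbar)) huv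
      simpa using this
    have h2 : A.valuation (u : Qbar) * A.valuation (v : Qbar) = 1 := by
      rw [← map_mul, h1, map_one]
    refine le_antisymm (valuation_le_one u) ?_
    by_contra hlt
    rw [not_le] at hlt
    have : A.valuation (u : Qbar) * A.valuation (v : Qbar) < 1 :=
      mul_lt_one_of_nonneg_of_lt_one_left zero_le hlt (valuation_le_one v)
    rw [h2] at this
    exact lt_irrefl _ this
  · intro h
    have hx0 : (x : Qbar) ≠ 0 := by
      intro h0
      rw [h0, map_zero] at h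
      exact zero_ne_one h
    have hinv : (x : Qbar)⁻¹ ∈ OL A K := by
      refine ⟨?_, K.inv_mem x.2.2⟩
      rw [← A.valuation_le_one_iff, map_inv₀, h, inv_one]
    refine isUnit_iff_exists_inv.mpr ⟨⟨(x : Qbar)⁻¹, hinv⟩, ?_⟩
    apply Subtype.ext
    show (x : Qbar) * (x : Qbar)⁻¹ = 1
    exact mul_inv_cancel₀ hx0

instance isLocalRing_OL : IsLocalRing (OL A K) := by
  refine IsLocalRing.of_isUnit_or_isUnit_one_sub_self fun x => ?_
  by_cases h : A.valuation (x : Qbar) = 1
  · exact Or.inl ((isUnit_iff_valuation x).2 h)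
  · right
    rw [isUnit_iff_valuation]
    have hlt : A.valuation (x : Qbar) < 1 := lt_of_le_of_ne (valuation_le_one x) h
    have : ((1 - x : OL A K) : Qbar) = 1 - (x : Qbar) := rfl
    rw [this]
    exact Valuation.map_one_sub_of_lt _ hlt

theorem mem_maximalIdeal_iff (x : OL A K) :
    x ∈ maximalIdeal (OL A K) ↔ A.valuation (x : Qbar) < 1 := by
  rw [mem_maximalIdeal, mem_nonunits_iff, isUnit_iff_valuation]
  exact ⟨fun h => lt_of_le_of_ne (valuation_le_one x) h, fun h => ne_of_lt h⟩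

theorem algebraMap_OL_coe (w : W A) :
    ((algebraMap (W A) (OL A K) w : OL A K) : Qbar) = ((w : K0 A) : Qbar) := rfl

instance isLocalHom_algebraMap_OL : IsLocalHom (algebraMap (W A) (OL A K)) where
  map_nonunit w hw := by
    rw [isUnit_iff_valuation, algebraMap_OL_coe] at hw
    exact (Fermat.Agent.S18.C.SmallDVR.isUnit_iff_valuation A w).2 hw


/-! ### `OL K` is the integral closure of `W A` in `K` -/

/-- the inclusion `OL K → K` -/
def toK : OL A K →+* K where
  toFun x := ⟨(x : Qbar), x.2.2⟩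
  map_one' := rfl
  map_mul' _ _ := rfl
  map_zero' := rfl
  map_add' _ _ := rfl

instance algebraOLK : Algebra (OL A K) K := (toK (A := A) (K := K)).toAlgebra

theorem coe_algebraMap_OL_K (x : OL A K) : ((algebraMap (OL A K) K x : K) : Qbar) = (x : Qbar) := rfl

instance isScalarTower_W_OL_K : IsScalarTower (W A) (OL A K) K :=
  IsScalarTower.of_algebraMap_eq fun _ => rfl

instance isScalarTower_W_K_Qbar : IsScalarTower (W A) K Qbar :=
  IsScalarTower.of_algebraMap_eq fun _ => rfl

theorem mem_A_of_isIntegral {x : Qbar} (hx : IsIntegral (W A) x) : x ∈ A := by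
  have h1 : IsIntegral A x := hx.tower_top
  obtain ⟨y, rfl⟩ := IsIntegrallyClosed.isIntegral_iff.1 h1
  exact y.2

instance isIntegralClosure_OL : IsIntegralClosure (OL A K) (W A) K where
  algebraMap_injective := by
    intro x y h
    apply Subtype.ext
    have := congrArg (fun z : K => (z : Qbar)) h
    exact this
  isIntegral_iff := by
    intro x
    constructor
    · intro hx
      have h1 : IsIntegral (W A) (algebraMap K Qbar x) := hx.algebraMap
      exact ⟨⟨(x : Qbar), mem_A_of_isIntegral h1, x.2⟩, rfl⟩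
    · rintro ⟨y, rfl⟩
      have h1 : IsIntegral (W A) (y : Qbar) := isIntegral_W_of_mem A y.2.1
      exact (isIntegral_algebraMap_iff (B := Qbar) (algebraMap K Qbar).injective).1 h1

/-- **`OL K` is a finite `W A`-module** when `K / K0` is finite -/
theorem finite_OL {ℓ : ℕ} [Fact ℓ.Prime] (hA : A.LiesOverPrime ℓ) [FiniteDimensional (K0 A) K] :
    Module.Finite (W A) (OL A K) := by
  have := isDiscreteValuationRing_W hA
  exact IsIntegralClosure.finite (W A) (K0 A) K (OL A K)


/-! ### The division lemma -/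

/-- if `v(x) ≤ v(a) ^ b` with `a ∈ 𝔪_L`, then `x ∈ 𝔪_L ^ b` -/
theorem mem_pow_maximalIdeal_of_valuation_le (x a : OL A K) (ha : a ∈ maximalIdeal (OL A K)) (b : ℕ)
    (h : A.valuation (x : Qbar) ≤ A.valuation (a : Qbar) ^ b) :
    x ∈ maximalIdeal (OL A K) ^ b := by
  by_cases ha0 : (a : Qbar) = 0
  · rcases Nat.eq_zero_or_pos b with rfl | hb
    · rw [pow_zero, Ideal.one_eq_top]; exact Submodule.mem_top
    · rw [ha0, map_zero, zero_pow hb.ne'] at h
      have hx0 : (x : Qbar) = 0 := (map_eq_zero _).1 (le_antisymm h zero_le)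
      have : x = 0 := Subtype.ext hx0
      rw [this]
      exact Ideal.zero_mem _
  · have hab0 : (a : Qbar) ^ b ≠ 0 := pow_ne_zero _ ha0
    have hu : (x : Qbar) / (a : Qbar) ^ b ∈ OL A K := by
      refine ⟨?_, K.div_mem x.2.2 (pow_mem a.2.2 b)⟩
      rw [← A.valuation_le_one_iff, map_div₀, map_pow]
      exact div_le_one_of_le₀ h zero_le
    have hx : x = a ^ b * ⟨_, hu⟩ := by
      apply Subtype.ext
      show (x : Qbar) = (a : Qbar) ^ b * ((x : Qbar) / (a : Qbar) ^ b)
      rw [mul_div_cancel₀ _ hab0]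
    rw [hx]
    exact Ideal.mul_mem_right _ _ (Ideal.pow_mem_pow ha b)

/-- **the division lemma**: `x = a ^ b * u` with `a ∈ 𝔪_L` and `u ∈ A` gives `x ∈ 𝔪_L ^ b` -/
theorem mem_pow_maximalIdeal_of_eq_mul (x a : OL A K) (ha : a ∈ maximalIdeal (OL A K)) (b : ℕ)
    (u : Qbar) (hu : u ∈ A) (h : (x : Qbar) = (a : Qbar) ^ b * u) :
    x ∈ maximalIdeal (OL A K) ^ b := by
  refine mem_pow_maximalIdeal_of_valuation_le x a ha b ?_
  rw [h, map_mul, map_pow]
  exact mul_le_of_le_one_right' ((A.valuation_le_one_iff _).2 hu)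

/-- elements of `𝔪_L ^ b` have valuation `≤` the `b`-th power of some element of `𝔪_L` is not needed;
we only record: elements of `𝔪_L` have valuation `< 1`, and the maximal ideal is the contraction of
`𝔪_A`. -/
theorem mem_maximalIdeal_iff_mem_nonunits (x : OL A K) :
    x ∈ maximalIdeal (OL A K) ↔ (x : Qbar) ∈ A.nonunits := by
  rw [mem_maximalIdeal_iff, ValuationSubring.mem_nonunits_iff]

/-- the inclusion `OL K → A` -/
def toA' : OL A K →+* A where
  toFun x := ⟨(x : Qbar), x.2.1⟩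
  map_one' := rfl
  map_mul' _ _ := rfl
  map_zero' := rfl
  map_add' _ _ := rfl

@[simp] theorem coe_toA' (x : OL A K) : ((toA' x : A) : Qbar) = (x : Qbar) := rfl

theorem isUnit_iff_isUnit_toA' (x : OL A K) : IsUnit x ↔ IsUnit (toA' x) := by
  rw [isUnit_iff_valuation, A.valuation_eq_one_iff]
  exact Iff.rfl

instance isLocalHom_toA' : IsLocalHom (toA' (A := A) (K := K)) where
  map_nonunit x hx := (isUnit_iff_isUnit_toA' x).2 hx

theorem mem_maximalIdeal_iff_toA' (x : OL A K) :
    x ∈ maximalIdeal (OL A K) ↔ toA' x ∈ maximalIdeal A := by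
  rw [mem_maximalIdeal, mem_maximalIdeal, mem_nonunits_iff, mem_nonunits_iff, isUnit_iff_isUnit_toA']

theorem isUnit_iff_residue_ne_zero (x : OL A K) : IsUnit x ↔ residue A (toA' x) ≠ 0 := by
  rw [isUnit_iff_isUnit_toA', Ne, residue_eq_zero_iff, mem_maximalIdeal, mem_nonunits_iff, not_not]

/-! ### Enough finite layers -/

variable (A) in
/-- a finite subset of `ℚ̄` lies in an intermediate field finite over `K0 A` -/
theorem exists_finiteDimensional_of_finite (s : Set Qbar) (hs : s.Finite) :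
    ∃ K : IntermediateField (K0 A) Qbar, FiniteDimensional (K0 A) K ∧ s ⊆ K := by
  have := isAlgebraic_K0 A
  refine ⟨IntermediateField.adjoin (K0 A) s, ?_, IntermediateField.subset_adjoin _ _⟩
  have : Finite s := hs
  exact IntermediateField.finiteDimensional_adjoin fun x _ =>
    (Algebra.IsAlgebraic.isAlgebraic (R := K0 A) x).isIntegral

variable (A) in
/-- a finite family of elements of `A` lies in some `OL A K` with `K / K0 A` finite -/
theorem exists_OL_of_finite {ι : Type*} [Finite ι] (f : ι → Qbar) (hf : ∀ i, f i ∈ A) :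
    ∃ K : IntermediateField (K0 A) Qbar, FiniteDimensional (K0 A) K ∧ ∀ i, f i ∈ OL A K := by
  obtain ⟨K, hK, hsub⟩ := exists_finiteDimensional_of_finite A (Set.range f) (Set.finite_range f)
  exact ⟨K, hK, fun i => ⟨hf i, hsub ⟨i, rfl⟩⟩⟩

/-- monotonicity in `K` -/
theorem OL_mono {K K' : IntermediateField (K0 A) Qbar} (h : K ≤ K') : OL A K ≤ OL A K' :=
  fun _ hx => ⟨hx.1, h hx.2⟩

end Fermat.Agent.S19.IntegralW
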