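/-
PROJECT F (S19), slice X0-INSTANTIATION, arithmetic fields of helper16's `ChartAPI`/`OrderGen`
(helper26): for `A` a valuation subring of `ℚ̄`, `I = I_A` its inertia group, `T` a finite set with
an action `ρ` of `G_ℚ`:

* `KT A ρ` : the fixed field of `I_T = {τ ∈ I | ρ τ = id}`, an intermediate field of `ℚ̄ / K0 A`;
* `finiteDimensional_KT` : `KT / K0 A` is finite.  NO topology (closedness of `I` is not used): the
  `I`-orbit of `x ∈ KT` injects into `T → T`, so helper25's orbit polynomial bounds the degree of `x`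
  over `K0 A` by `|T|^|T|`, and a separable algebraic extension of bounded degree is finite
  (primitive element theorem);
* `finite_OLT` : `OL A (KT A ρ)` is a finite `W A`-module (`IsLocalRing`, `IsLocalHom` are instances
  of `IntegralW`); `mem_OL_of_fixed` (`hOL`), `apply_mem_OL_of_equivOn`;
* `conj_mem_inertia` (`I_normal`), `map_mem_KT`, `map_mem_OL` (`sigma_OL`) for `σ` in the
  decomposition group, `mem_range_algebraMap_W` (`AI`);
* `exists_pow_eq_ell_mul` and `mem_pow_maximalIdeal_of_eq_pow_mul` (`(V)`): for `c ∈ 𝔪_A` and every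
  `b` there is `n` such that `OL ∩ c ^ n A ⊆ 𝔪_OL ^ b`.
-/
import Fermat.Agent.S19.IntegralW
import Fermat.Agent.S19.ClosedAlg
import Fermat.Agent.S37.Reduction

set_option autoImplicit false
set_option linter.style.haveILetI false

noncomputable section

namespace Fermat.Agent.S19.OLX0

open IsLocalRing Polynomial Fermat.Agent.S18.C.SmallDVR Fermat.Agent.S19.IntegralW

local notation "Qbar" => AlgebraicClosure ℚ
local notation "GQ" => (AlgebraicClosure ℚ ≃ₐ[ℚ] AlgebraicClosure ℚ)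

variable (A : ValuationSubring Qbar) {T : Type*} (ρ : GQ → T → T)

/-- the fixed field of `I_T = {τ ∈ I_A | ρ τ = id}` -/
def KT : IntermediateField (K0 A) Qbar where
  carrier := {x | ∀ τ ∈ A.inertiaSubgroupIn ℚ, (∀ t, ρ τ t = t) → τ x = x}
  mul_mem' := fun {x y} hx hy τ hτ h => by rw [map_mul, hx τ hτ h, hy τ hτ h]
  one_mem' := fun τ _ _ => map_one τ
  add_mem' := fun {x y} hx hy τ hτ h => by rw [map_add, hx τ hτ h, hy τ hτ h]
  zero_mem' := fun τ _ _ => map_zero τ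
  algebraMap_mem' := fun x τ hτ _ => coe_fixed A x hτ
  inv_mem' := fun x hx τ hτ h => by rw [map_inv₀, hx τ hτ h]

variable {A ρ}

theorem mem_KT_iff {x : Qbar} :
    x ∈ KT A ρ ↔ ∀ τ ∈ A.inertiaSubgroupIn ℚ, (∀ t, ρ τ t = t) → τ x = x := Iff.rfl

/-! ### The degree bound -/

theorem natDegree_orbitPoly (x : Qbar) :
    (orbitPoly A x).natDegree = (orbitSet_finite A x).toFinset.card := by
  rw [orbitPoly, natDegree_prod_of_monic _ _ (fun y _ => monic_X_sub_C y)]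
  simp

theorem card_orbit_le [Finite T] (hmul : ∀ τ τ' t, ρ (τ * τ') t = ρ τ (ρ τ' t))
    (hone : ∀ t, ρ 1 t = t) {x : Qbar} (hx : x ∈ KT A ρ) :
    (orbitSet_finite A x).toFinset.card ≤ Nat.card (T → T) := by
  classical
  haveI : Fintype (T → T) := Fintype.ofFinite _
  rw [Nat.card_eq_fintype_card, ← Finset.card_univ]
  have hch : ∀ y ∈ (orbitSet_finite A x).toFinset, ∃ τ, τ ∈ A.inertiaSubgroupIn ℚ ∧ τ x = y :=
    fun y hy => (orbitSet_finite A x).mem_toFinset.1 hy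
  choose! τ hτ using hch
  refine Finset.card_le_card_of_injOn (fun y => ρ (τ y)) (fun _ _ => Finset.mem_univ _) ?_
  intro y hy y' hy' h
  have hy1 := hτ y hy
  have hy2 := hτ y' hy'
  have hI : (τ y)⁻¹ * τ y' ∈ A.inertiaSubgroupIn ℚ := mul_mem (inv_mem hy1.1) hy2.1
  have htriv : ∀ t, ρ ((τ y)⁻¹ * τ y') t = t := by
    intro t
    have h' : ρ (τ y') t = ρ (τ y) t := (congrFun h t).symm
    rw [hmul, h', ← hmul, inv_mul_cancel, hone]
  have h1 : ((τ y)⁻¹ * τ y') x = x := hx _ hI htriv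
  have h2 : (τ y)⁻¹ (τ y' x) = x := h1
  rw [hy2.2] at h2
  have h3 : τ y ((τ y)⁻¹ y') = τ y x := by rw [h2]
  have h4 : τ y ((τ y)⁻¹ y') = y' := by
    show (τ y * (τ y)⁻¹) y' = y'
    rw [mul_inv_cancel]; rfl
  rw [h4, hy1.2] at h3
  exact h3.symm

/-- every element of `KT` has degree at most `|T → T|` over `K0 A` -/
theorem natDegree_minpoly_le [Finite T] (hmul : ∀ τ τ' t, ρ (τ * τ') t = ρ τ (ρ τ' t))
    (hone : ∀ t, ρ 1 t = t) {x : Qbar} (hx : x ∈ KT A ρ) :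
    (minpoly (K0 A) x).natDegree ≤ Nat.card (T → T) := by
  have hl : orbitPoly A x ∈ Polynomial.lifts (algebraMap (K0 A) Qbar) := by
    rw [lifts_iff_coeff_lifts]
    intro n
    exact ⟨⟨(orbitPoly A x).coeff n, orbitPoly_coeff_mem_K0 A x n⟩, rfl⟩
  obtain ⟨q, hq, hdeg, hqm⟩ := lifts_and_degree_eq_and_monic hl (orbitPoly_monic A x)
  have hroot : aeval x q = 0 := by
    rw [aeval_def, ← eval_map, hq]
    exact orbitPoly_eval A x
  have h1 := natDegree_le_natDegree (minpoly.min (K0 A) x hqm hroot)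
  have h2 : q.natDegree = (orbitPoly A x).natDegree := natDegree_eq_natDegree hdeg
  rw [h2, natDegree_orbitPoly] at h1
  exact h1.trans (card_orbit_le hmul hone hx)

/-- **`KT / K0 A` is finite** -/
theorem finiteDimensional_KT [Finite T] (hmul : ∀ τ τ' t, ρ (τ * τ') t = ρ τ (ρ τ' t))
    (hone : ∀ t, ρ 1 t = t) : FiniteDimensional (K0 A) (KT A ρ) := by
  haveI := isAlgebraic_K0 A
  haveI : Algebra.IsAlgebraic (K0 A) (KT A ρ) :=
    Algebra.IsAlgebraic.of_injective (KT A ρ).val Subtype.val_injective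
  by_contra hnfd
  obtain ⟨L, hfin, hL⟩ :=
    IntermediateField.exists_lt_finrank_of_infinite_dimensional hnfd (Nat.card (T → T))
  haveI := hfin
  obtain ⟨z, hz⟩ := Field.exists_primitive_element (K0 A) L
  have h1 : (minpoly (K0 A) z).natDegree = Module.finrank (K0 A) L :=
    (Field.primitive_element_iff_minpoly_natDegree_eq (K0 A) z).1 hz
  have h2 : minpoly (K0 A) z = minpoly (K0 A) (((z : L) : KT A ρ) : Qbar) := by
    rw [IntermediateField.minpoly_eq, IntermediateField.minpoly_eq]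
  have h3 := natDegree_minpoly_le hmul hone (((z : L) : KT A ρ)).2
  rw [← h2, h1] at h3
  exact absurd hL (not_lt.2 h3)

/-! ### The ring `OL A (KT A ρ)` -/

/-- `OL A (KT A ρ)` is a finite `W A`-module -/
theorem finite_OLT [Finite T] (hmul : ∀ τ τ' t, ρ (τ * τ') t = ρ τ (ρ τ' t))
    (hone : ∀ t, ρ 1 t = t) {ℓ : ℕ} [Fact ℓ.Prime] (hA : A.LiesOverPrime ℓ) :
    Module.Finite (W A) (OL A (KT A ρ)) := by
  haveI := finiteDimensional_KT (A := A) hmul hone
  exact finite_OL hA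

/-- (`hOL`) an element of `A` fixed by `I_T` lies in `OL A (KT A ρ)` -/
theorem mem_OL_of_fixed {a : Qbar} (ha : a ∈ A)
    (h : ∀ τ ∈ A.inertiaSubgroupIn ℚ, (∀ t, ρ τ t = t) → τ a = a) : a ∈ OL A (KT A ρ) :=
  ⟨ha, h⟩

/-- the values of an `I`-equivariant `A`-valued function lie in `OL A (KT A ρ)` -/
theorem apply_mem_OL_of_equivOn {f : T → Qbar}
    (hf : ∀ τ ∈ A.inertiaSubgroupIn ℚ, ∀ t, f (ρ τ t) = τ (f t)) (t : T) (ht : f t ∈ A) :
    f t ∈ OL A (KT A ρ) :=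
  mem_OL_of_fixed ht fun τ hτ h => by rw [← hf τ hτ t, h t]

/-- (`AI`) an inertia-fixed element of `A` comes from `W A` -/
theorem mem_range_algebraMap_W {a : Qbar} (ha : a ∈ A)
    (h : ∀ τ ∈ A.inertiaSubgroupIn ℚ, τ a = a) : ∃ w : W A, algebraMap (W A) Qbar w = a :=
  ⟨⟨⟨a, (mem_K0_iff A).2 h⟩, ha⟩, rfl⟩

/-! ### The decomposition group -/

/-- (`I_normal`) -/
theorem conj_mem_inertia {σ τ : GQ} (hσ : σ ∈ A.decompositionSubgroup ℚ)
    (hτ : τ ∈ A.inertiaSubgroupIn ℚ) : σ⁻¹ * τ * σ ∈ A.inertiaSubgroupIn ℚ := by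
  have h1 := Fermat.Agent.S37.Reduction.conj_mem_inertiaSubgroupIn A (inv_mem hσ) hτ
  rwa [inv_inv] at h1

theorem map_mem_A {σ : GQ} (hσ : σ ∈ A.decompositionSubgroup ℚ) {x : Qbar} (hx : x ∈ A) :
    σ x ∈ A :=
  ((⟨σ, hσ⟩ : A.decompositionSubgroup ℚ) • (⟨x, hx⟩ : A)).2

/-- the decomposition group preserves `KT` -/
theorem map_mem_KT (hmul : ∀ τ τ' t, ρ (τ * τ') t = ρ τ (ρ τ' t)) (hone : ∀ t, ρ 1 t = t)
    {σ : GQ} (hσ : σ ∈ A.decompositionSubgroup ℚ) {x : Qbar} (hx : x ∈ KT A ρ) :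
    σ x ∈ KT A ρ := by
  intro τ hτ h
  have h1 := conj_mem_inertia hσ hτ
  have h2 : ∀ t, ρ (σ⁻¹ * τ * σ) t = t := by
    intro t
    rw [hmul, hmul, h, ← hmul, inv_mul_cancel, hone]
  have h3 : (σ⁻¹ * τ * σ) x = x := hx _ h1 h2
  have h4 : σ⁻¹ (τ (σ x)) = x := h3
  have h5 : σ (σ⁻¹ (τ (σ x))) = σ x := by rw [h4]
  have h6 : σ (σ⁻¹ (τ (σ x))) = τ (σ x) := by
    show (σ * σ⁻¹) (τ (σ x)) = _
    rw [mul_inv_cancel]; rfl
  rw [h6] at h5
  exact h5

/-- (`sigma_OL`) the decomposition group preserves `OL A (KT A ρ)` -/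
theorem map_mem_OL (hmul : ∀ τ τ' t, ρ (τ * τ') t = ρ τ (ρ τ' t)) (hone : ∀ t, ρ 1 t = t)
    {σ : GQ} (hσ : σ ∈ A.decompositionSubgroup ℚ) {x : Qbar} (hx : x ∈ OL A (KT A ρ)) :
    σ x ∈ OL A (KT A ρ) :=
  ⟨map_mem_A hσ hx.1, map_mem_KT hmul hone hσ hx.2⟩

/-! ### `(V)`: the `c`-adic topology on `OL` is finer than the `𝔪_OL`-adic one -/

variable {ℓ : ℕ} [hℓ : Fact ℓ.Prime]

/-- a power of a non-unit of `A` is divisible by `ℓ` in `A` -/
theorem exists_pow_eq_ell_mul (hA : A.LiesOverPrime ℓ) {c : Qbar} (hc : c ∈ A)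
    (hc1 : A.valuation c < 1) : ∃ e : ℕ, ∃ u ∈ A, c ^ e = ((ℓ : ℕ) : Qbar) * u := by
  haveI := isAlgebraic_K0 A
  set K' : IntermediateField (K0 A) Qbar := IntermediateField.adjoin (K0 A) {c} with hK'
  haveI : FiniteDimensional (K0 A) K' :=
    IntermediateField.adjoin.finiteDimensional
      (Algebra.IsAlgebraic.isAlgebraic (R := K0 A) c).isIntegral
  haveI : Module.Finite (W A) (OL A K') := finite_OL hA
  haveI := isDiscreteValuationRing_W hA
  let c' : OL A K' := ⟨c, hc, IntermediateField.mem_adjoin_simple_self (K0 A) c⟩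
  have hc' : c' ∈ maximalIdeal (OL A K') := (IntegralW.mem_maximalIdeal_iff c').2 hc1
  obtain ⟨e, he⟩ := Fermat.Agent.S19.ClosedAlg.exists_pow_maximalIdeal_le (O := W A)
    (OL := OL A K')
  have h1 : c' ^ e ∈ (maximalIdeal (W A)).map (algebraMap (W A) (OL A K')) :=
    he (Ideal.pow_mem_pow hc' e)
  rw [maximalIdeal_W_eq hA, Ideal.map_span, Set.image_singleton, Ideal.mem_span_singleton] at h1
  obtain ⟨u, hu⟩ := h1
  refine ⟨e, (u : Qbar), u.2.1, ?_⟩
  have h2 := congrArg (fun z : OL A K' => (z : Qbar)) hu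
  simp only [MulMemClass.coe_mul, SubmonoidClass.coe_pow] at h2
  rw [show ((c' : OL A K') : Qbar) = c from rfl, algebraMap_OL_coe, coe_natCast_W] at h2
  exact h2

/-- **`(V)`**: for a non-unit `c` of `A` and every `b` there is `n` with
`OL A K ∩ c ^ n A ⊆ 𝔪 ^ b` -/
theorem mem_pow_maximalIdeal_of_eq_pow_mul (hA : A.LiesOverPrime ℓ)
    (K : IntermediateField (K0 A) Qbar) {c : Qbar} (hc : c ∈ A) (hc1 : A.valuation c < 1) (b : ℕ) :
    ∃ n : ℕ, ∀ x : OL A K, (∃ a ∈ A, (x : Qbar) = c ^ n * a) →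
      x ∈ maximalIdeal (OL A K) ^ b := by
  obtain ⟨e, u, hu, hcu⟩ := exists_pow_eq_ell_mul hA hc hc1
  refine ⟨e * b, fun x hx => ?_⟩
  obtain ⟨a, ha, hxa⟩ := hx
  set l' : OL A K := algebraMap (W A) (OL A K) ((ℓ : ℕ) : W A) with hl'
  have hl'coe : (l' : Qbar) = ((ℓ : ℕ) : Qbar) := by
    rw [hl', algebraMap_OL_coe, coe_natCast_W]
  have hl'm : l' ∈ maximalIdeal (OL A K) := by
    rw [IntegralW.mem_maximalIdeal_iff, hl'coe]
    exact valuation_ell_lt_one hA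
  refine mem_pow_maximalIdeal_of_eq_mul x l' hl'm b (u ^ b * a)
    (A.mul_mem _ _ (pow_mem hu b) ha) ?_
  rw [hxa, pow_mul, hcu, mul_pow, hl'coe]
  ring

end Fermat.Agent.S19.OLX0
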