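/-
PROJECT F (S19), slice X0-INSTANTIATION (helper26): helper16's `FrobClosure.FrobFrame` at `X₀(N)`,
`W := SmallDVR.W A`, `OL := IntegralW.OL A (OLX0.KT A galAct)`, `σ` a Frobenius element at `A`,
together with the instance block of `OrderGen` / `ChartGlue` / `FrobClosure` at these objects.
-/
import Fermat.Agent.S19.FrobClosure
import Fermat.Agent.S19.OLX0
import Fermat.Agent.S19.FrameWX0

set_option autoImplicit false
set_option linter.style.haveILetI false
set_option linter.unusedSectionVars false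

noncomputable section

namespace Fermat.Agent.S19.FrobFrameX0

open ModularCurve Fermat.Agent.S19.TorsionX0 Fermat.Agent.S19.BackEnd
open Fermat.Agent.S18.C.SmallDVR Fermat.Agent.S19.IntegralW Fermat.Agent.S19.OLX0
open Fermat.Agent.S19.FrobClosure

local notation "Qbar" => AlgebraicClosure ℚ
local notation "GQ" => (AlgebraicClosure ℚ ≃ₐ[ℚ] AlgebraicClosure ℚ)

variable (A : ValuationSubring Qbar) (N : ℕ) [NeZero N] (m : ℤ)

/-- the Galois action on `T = J₀(N)[m]` as a bare function (the `ρ` of the back end) -/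
abbrev rhoX0 : GQ → ↥(T N m) → ↥(T N m) := fun τ => ⇑(galAct (N := N) (m := m) τ)

/-- the field `K_T` at `X₀(N)` -/
abbrev KTX0 : IntermediateField (K0 A) Qbar := KT A (rhoX0 N m)

/-- the finite local `W A`-algebra `OL = A ∩ K_T` at `X₀(N)` -/
abbrev OLX : Subalgebra (W A) Qbar := OL A (KTX0 A N m)

variable {A N m}

theorem rhoX0_mul (τ τ' : GQ) (t : ↥(T N m)) : rhoX0 N m (τ * τ') t = rhoX0 N m τ (rhoX0 N m τ' t) :=
  galAct_mul τ τ' t

theorem rhoX0_one (t : ↥(T N m)) : rhoX0 N m 1 t = t := galAct_one t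

theorem rhoX0_add (τ : GQ) (s t : ↥(T N m)) :
    rhoX0 N m τ (s + t) = rhoX0 N m τ s + rhoX0 N m τ t := map_add (galAct τ) s t

variable {ℓ : ℕ} [Fact ℓ.Prime]

/-- `OL` is a finite `W A`-module -/
theorem finite_OLX (hm : m ≠ 0) (hA : A.LiesOverPrime ℓ) : Module.Finite (W A) (OLX A N m) :=
  haveI := finite_T (N := N) hm
  finite_OLT rhoX0_mul rhoX0_one hA

/-- inertia fixes `W A` -/
theorem fixW {τ : GQ} (hτ : τ ∈ A.inertiaSubgroupIn ℚ) (w : W A) :
    τ • algebraMap (W A) Qbar w = algebraMap (W A) Qbar w :=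
  coe_fixed A (w : K0 A) hτ

/-- **helper16's `FrobFrame` at `X₀(N)`** -/
theorem frobFrameX0 (hm : m ≠ 0) (hA : A.LiesOverPrime ℓ) {σ : GQ} (hσ : A.IsFrobeniusAt σ ℓ) :
    haveI := finite_T (N := N) hm
    haveI := FrameWX0.isNoetherianRing_W hA
    haveI := finite_OLX (N := N) hm hA
    FrobFrame (W := ↥(W A)) (OLX A N m) (rhoX0 N m) σ (A.inertiaSubgroupIn ℚ) := by
  haveI := finite_T (N := N) hm
  haveI := FrameWX0.isNoetherianRing_W hA
  haveI := finite_OLX (N := N) hm hA
  exact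
    { ρ_add := rhoX0_add
      ρ_mul := rhoX0_mul
      fixW := fun τ hτ w => fixW hτ w
      I_normal := fun τ hτ => conj_mem_inertia hσ.mem_decompositionSubgroup hτ
      σ_OL := fun x hx => map_mem_OL rhoX0_mul rhoX0_one hσ.mem_decompositionSubgroup hx }

end Fermat.Agent.S19.FrobFrameX0
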