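/-
PROJECT F (S19), slice (W11) CLOSING FILE (helper26): from helper16's chart interface
`ChartGlue.ChartAPI` at `X₀(N)` (ANY `J`, `act`, `J1`, `ι`, `coord`, `Ψ`; the ring-theoretic slots
are fixed: `W := SmallDVR.W A`, `K := ℚ̄`, `Γ := G_ℚ`, `T := J₀(N)[ℓ^k]`, `ρ := rhoX0`,
`I := I_A`, `OL := FrobFrameX0.OLX A N (ℓ^k)`) to

* `exists_wOrder_of_chartAPI` : a `BackEnd.WOrder` (the hypothesis of `Final.s19_of_forall_wOrder`);
* `exists_isHopfOrderFn_of_chartAPI` : the function-level Hopf order over `ℤ_(ℓ)` (input of S32);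
* `s19_of_chartAPI` : the conclusion of the frozen S19.
-/
import Fermat.Agent.S19.ChartGlue
import Fermat.Agent.S19.FrobFrameX0
import Fermat.Agent.S19.Final

set_option autoImplicit false
set_option linter.style.haveILetI false
set_option linter.unusedSectionVars false

noncomputable section

namespace Fermat.Agent.S19.CloseX0

open ModularCurve Fermat.Agent.S19.TorsionX0 Fermat.Agent.S19.BackEnd
open Fermat.Agent.S18.C.SmallDVR Fermat.Agent.S19.IntegralW Fermat.Agent.S19.OLX0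
open Fermat.Agent.S19.FrobClosure Fermat.Agent.S19.FrobFrameX0 Fermat.Agent.S19.ChartGlue
open Fermat.Agent.S19.HopfOrder

local notation "Qbar" => AlgebraicClosure ℚ
local notation "GQ" => (AlgebraicClosure ℚ ≃ₐ[ℚ] AlgebraicClosure ℚ)

variable {N : ℕ} [NeZero N] {ℓ : ℕ} [Fact ℓ.Prime] {k : ℕ}

/-- the chart interface at `X₀(N)` with the ring-theoretic slots filled in; `J`, `act`, `J1`, `ι`,
`coord`, `Ψ`, `Aalg`, `small` are free -/
def ChartAPIAt (A : ValuationSubring Qbar) (hA : A.LiesOverPrime ℓ) (N : ℕ) [NeZero N] (k : ℕ)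
    {J : Type*} [AddCommGroup J] (Aalg : Subalgebra ↥(W A) Qbar) (small : Qbar → Prop)
    (act : GQ → J → J) (J1 : AddSubgroup J) (ι : ↥(T N ((ℓ : ℤ) ^ k)) →+ J) {g : ℕ}
    (coord : J → Fin g → Qbar) (Ψ : ℕ → Fin g → MvPolynomial (Fin g ⊕ Fin g) ↥(W A)) : Prop :=
  haveI := finite_T (N := N) (Final.pow_ne_zero_int ℓ k)
  haveI := FrameWX0.isNoetherianRing_W hA
  haveI := finite_OLX (N := N) (Final.pow_ne_zero_int ℓ k) hA
  ChartAPI (W := ↥(W A)) (K := Qbar) (Γ := GQ) (OLX A N ((ℓ : ℤ) ^ k)) Aalg small act J1 ι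
    (rhoX0 N ((ℓ : ℤ) ^ k)) (A.inertiaSubgroupIn ℚ) coord Ψ

variable {A : ValuationSubring Qbar} {J : Type*} [AddCommGroup J]
  {Aalg : Subalgebra ↥(W A) Qbar} {small : Qbar → Prop} {act : GQ → J → J} {J1 : AddSubgroup J}
  {ι : ↥(T N ((ℓ : ℤ) ^ k)) →+ J} {g : ℕ} {coord : J → Fin g → Qbar}
  {Ψ : ℕ → Fin g → MvPolynomial (Fin g ⊕ Fin g) ↥(W A)}

/-- a `W A`-order at `X₀(N)` from the chart interface -/
theorem exists_wOrder_of_chartAPI (hA : A.LiesOverPrime ℓ) {σ : GQ} (hσ : A.IsFrobeniusAt σ ℓ)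
    (C : ChartAPIAt A hA N k Aalg small act J1 ι coord Ψ) :
    ∃ HW : Subalgebra ↥(W A) (↥(T N ((ℓ : ℤ) ^ k)) → Qbar),
      WOrder (fun τ => ⇑(galAct (N := N) (m := (ℓ : ℤ) ^ k) τ)) σ (A.inertiaSubgroupIn ℚ) HW := by
  haveI := finite_T (N := N) (Final.pow_ne_zero_int ℓ k)
  haveI := FrameWX0.isNoetherianRing_W hA
  haveI := finite_OLX (N := N) (Final.pow_ne_zero_int ℓ k) hA
  exact ⟨_, ChartAPI.wOrder (OLX A N ((ℓ : ℤ) ^ k)) C
    (frobFrameX0 (N := N) (Final.pow_ne_zero_int ℓ k) hA hσ)⟩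

/-- the function-level Hopf order over `ℤ_(ℓ)` on `J₀(N)[ℓ^k]` from chart interfaces at all `A` -/
theorem exists_isHopfOrderFn_of_chartAPI
    (h : ∀ (A : ValuationSubring Qbar) (hA : A.LiesOverPrime ℓ),
      ∃ (J : Type) (_ : AddCommGroup J) (Aalg : Subalgebra ↥(W A) Qbar) (small : Qbar → Prop)
        (act : GQ → J → J) (J1 : AddSubgroup J) (ι : ↥(T N ((ℓ : ℤ) ^ k)) →+ J) (g : ℕ)
        (coord : J → Fin g → Qbar) (Ψ : ℕ → Fin g → MvPolynomial (Fin g ⊕ Fin g) ↥(W A)),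
        ChartAPIAt A hA N k Aalg small act J1 ι coord Ψ) :
    ∃ H : Subalgebra (Zl ℓ) (↥(T N ((ℓ : ℤ) ^ k)) → Qbar),
      IsHopfOrderFn (fun τ => ⇑(galAct (N := N) (m := (ℓ : ℤ) ^ k) τ)) H :=
  Final.exists_isHopfOrderFn_of_forall_wOrder fun A hA σ hσ => by
    obtain ⟨J, _, Aalg, small, act, J1, ι, g, coord, Ψ, C⟩ := h A hA
    exact exists_wOrder_of_chartAPI hA hσ C

/-- **the conclusion of the frozen S19 from chart interfaces at all `A` over `ℓ`** -/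
theorem s19_of_chartAPI
    (h : ∀ (A : ValuationSubring Qbar) (hA : A.LiesOverPrime ℓ),
      ∃ (J : Type) (_ : AddCommGroup J) (Aalg : Subalgebra ↥(W A) Qbar) (small : Qbar → Prop)
        (act : GQ → J → J) (J1 : AddSubgroup J) (ι : ↥(T N ((ℓ : ℤ) ^ k)) →+ J) (g : ℕ)
        (coord : J → Fin g → Qbar) (Ψ : ℕ → Fin g → MvPolynomial (Fin g ⊕ Fin g) ↥(W A)),
        ChartAPIAt A hA N k Aalg small act J1 ι coord Ψ) :
    ∃ (H : Type) (_ : CommRing H) (_ : HopfAlgebra (GaloisRep.ratLocalizedAt ℓ) H),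
      Module.Finite (GaloisRep.ratLocalizedAt ℓ) H ∧ Module.Flat (GaloisRep.ratLocalizedAt ℓ) H ∧
      Coalgebra.IsCocomm (GaloisRep.ratLocalizedAt ℓ) H ∧
      ∃ e : WithConv (H →ₐ[GaloisRep.ratLocalizedAt ℓ] AlgebraicClosure ℚ) ≃
          ↥(Submodule.torsionBy ℤ (JZero N) ((ℓ : ℤ) ^ k)),
        (∀ f g, e (f * g) = e f + e g) ∧
        ∀ (σ : AlgebraicClosure ℚ ≃ₐ[ℚ] AlgebraicClosure ℚ)
          (f g : WithConv (H →ₐ[GaloisRep.ratLocalizedAt ℓ] AlgebraicClosure ℚ)),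
          (∀ h : H, g h = σ (f h)) → ((e g : JZero N)) = σ • (e f : JZero N) :=
  Final.s19_of_forall_wOrder fun A hA σ hσ => by
    obtain ⟨J, _, Aalg, small, act, J1, ι, g, coord, Ψ, C⟩ := h A hA
    exact exists_wOrder_of_chartAPI hA hσ C

end Fermat.Agent.S19.CloseX0
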