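import Mathlib
import Fermat.Agent.S19.Chart

/-!
S19 (helper16): ADAPTER from the chart of `Chart.lean` (coordinates `J1 r → Fin g → A`) to the
fields `coord_inj`, `coord_mem`, `coord_add` of `ChartGlue.ChartAPI` (total coordinates
`Pic0 L FL → Fin g → L`, congruences written as `= c ^ n * a` in the field `L`).
-/

set_option autoImplicit false
set_option linter.unusedSectionVars false

universe uS

namespace Fermat.Agent.S19.CoordK

open AlgebraicCurve Fermat.Agent.S18.CoreDefs Fermat.Agent.S18.Disc Fermat.Agent.S19.Chart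

variable {L : Type*} [Field L] {FL : Type*} [Field FL] [Algebra L FL]
variable {k : Type*} [Field k] {Fk : Type*} [Field Fk] [Algebra k Fk]
variable {A : ValuationSubring L} {π : A →+* k} {r : Place L FL → Place k Fk}
variable [HasPrincipalDivisors L FL] {R : RedDatum A π r} {g : ℕ}

open scoped Classical in
/-- the total, `L`-valued coordinates (zero outside the kernel of reduction) -/
noncomputable def coordK (C : OriginChart R g) (hdegL : ∀ P : Place L FL, P.deg = 1)
    (hR : RiemannGe L FL g) (z : Pic0 L FL) (i : Fin g) : L :=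
  if h : z ∈ J1 r then ((C.coord hdegL hR ⟨z, h⟩ i : A) : L) else 0

variable (C : OriginChart R g) (hdegL : ∀ P : Place L FL, P.deg = 1) (hR : RiemannGe L FL g)

theorem coordK_of_mem {z : Pic0 L FL} (h : z ∈ J1 r) (i : Fin g) :
    coordK C hdegL hR z i = ((C.coord hdegL hR ⟨z, h⟩ i : A) : L) := by
  classical
  simp [coordK, h]

theorem coordK_coe (z : J1 r) (i : Fin g) :
    coordK C hdegL hR (z : Pic0 L FL) i = ((C.coord hdegL hR z i : A) : L) :=
  coordK_of_mem C hdegL hR z.2 i

/-- the field `coord_mem` -/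
theorem coordK_mem {z : Pic0 L FL} (h : z ∈ J1 r) (i : Fin g) : coordK C hdegL hR z i ∈ A := by
  rw [coordK_of_mem C hdegL hR h]
  exact (C.coord hdegL hR ⟨z, h⟩ i).2

/-- the coordinates are non-units of `A` -/
theorem coordK_mem_nonunits {z : Pic0 L FL} (h : z ∈ J1 r) (i : Fin g) :
    coordK C hdegL hR z i ∈ A.nonunits := by
  rw [coordK_of_mem C hdegL hR h, ValuationSubring.mem_nonunits_iff_exists_mem_maximalIdeal]
  exact ⟨(C.coord hdegL hR ⟨z, h⟩ i).2, C.coord_mem hdegL hR ⟨z, h⟩ i⟩

/-- the field `coord_inj` -/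
theorem coordK_inj {z z' : Pic0 L FL} (h : z ∈ J1 r) (h' : z' ∈ J1 r)
    (heq : coordK C hdegL hR z = coordK C hdegL hR z') : z = z' := by
  have h1 : C.coord hdegL hR ⟨z, h⟩ = C.coord hdegL hR ⟨z', h'⟩ := by
    funext i
    apply Subtype.ext
    have := congrFun heq i
    rwa [coordK_of_mem C hdegL hR h, coordK_of_mem C hdegL hR h'] at this
  exact congrArg Subtype.val (C.coord_injective hdegL hR h1)

section Add

variable {S : Type uS} [CommRing S] [Algebra S A] [Algebra S L]

/-- the inclusion `A → L` as an `S`-algebra homomorphism -/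
def valA (hSL : ∀ w : S, algebraMap S L w = ((algebraMap S A w : A) : L)) : A →ₐ[S] L :=
  { A.subtype with commutes' := fun w => (hSL w).symm }

theorem valA_apply (hSL : ∀ w : S, algebraMap S L w = ((algebraMap S A w : A) : L)) (a : A) :
    valA hSL a = (a : L) := rfl

/-- the field `coord_add`, from the addition law in chart coordinates (`ChartAdd.coord_add` /
`CoordAddRat.coord_add_fixed`: the hypothesis `hadd` is their literal conclusion) -/
theorem coordK_add (hSL : ∀ w : S, algebraMap S L w = ((algebraMap S A w : A) : L))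
    (Ψ : ℕ → Fin g → MvPolynomial (Fin g ⊕ Fin g) S)
    (hadd : ∀ z z' : J1 r, ∃ c : A, c ∈ IsLocalRing.maximalIdeal A ∧
      (∀ i, C.coord hdegL hR z i ∈ Ideal.span {c} ∧ C.coord hdegL hR z' i ∈ Ideal.span {c} ∧
        C.coord hdegL hR (z + z') i ∈ Ideal.span {c}) ∧
      ∀ (n : ℕ) (i : Fin g), C.coord hdegL hR (z + z') i -
        MvPolynomial.aeval (Sum.elim (C.coord hdegL hR z) (C.coord hdegL hR z')) (Ψ n i) ∈
          Ideal.span {c} ^ n)
    {z z' : Pic0 L FL} (hz : z ∈ J1 r) (hz' : z' ∈ J1 r) :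
    ∃ c : L, c ∈ A.nonunits ∧ ∀ (n : ℕ) (i : Fin g), ∃ a ∈ A,
      coordK C hdegL hR (z + z') i -
        MvPolynomial.aeval (Sum.elim (coordK C hdegL hR z) (coordK C hdegL hR z')) (Ψ n i) =
          c ^ n * a := by
  obtain ⟨c, hc, -, hcongr⟩ := hadd ⟨z, hz⟩ ⟨z', hz'⟩
  refine ⟨(c : L), ?_, fun n i => ?_⟩
  · rw [ValuationSubring.mem_nonunits_iff_exists_mem_maximalIdeal]
    exact ⟨c.2, hc⟩
  · have h1 := hcongr n i
    rw [Ideal.span_singleton_pow, Ideal.mem_span_singleton'] at h1
    obtain ⟨a, ha⟩ := h1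
    refine ⟨(a : L), a.2, ?_⟩
    have h2 := congrArg (valA hSL) ha
    rw [map_mul, map_pow, map_sub, MvPolynomial.comp_aeval_apply] at h2
    simp only [valA_apply] at h2
    have hfun : (fun v => ((Sum.elim (C.coord hdegL hR ⟨z, hz⟩) (C.coord hdegL hR ⟨z', hz'⟩) v : A) : L)) =
        Sum.elim (coordK C hdegL hR z) (coordK C hdegL hR z') := by
      funext v
      rcases v with j | j
      · exact (coordK_of_mem C hdegL hR hz j).symm
      · exact (coordK_of_mem C hdegL hR hz' j).symm
    rw [hfun] at h2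
    have hsum : coordK C hdegL hR (z + z') i =
        ((C.coord hdegL hR (⟨z, hz⟩ + ⟨z', hz'⟩) i : A) : L) :=
      coordK_of_mem C hdegL hR (add_mem hz hz') i
    rw [hsum, ← h2, mul_comm]

end Add

end Fermat.Agent.S19.CoordK
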