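import Mathlib
import Fermat.Agent.S18.Core
import Fermat.Agent.S18.Disc.Eval
import Fermat.Agent.S18.NonSpecial
import Fermat.Agent.S18.NonSpecialAdapter

/-!
# S19, slice (W2): the interpolation datum and the rank lemmas (abstract S18/Core frame)

One function field: `IsExact g D` (`ℓ(D) = deg D + 1 - g`) is stable under adding places
(`IsExact.add_single`, `IsExact.add_sum_single`), and holds for rigid sums of `g` places.

Two function fields linked by a reduction datum `R : RedDatum A π r`: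
* `OrthoHyp R` : every finite-dimensional subspace of `FL` contains `finrank` elements of `R.O`
  with `k`-independent reductions (abstract form of the orthonormal basis lemma);
* `red_mem_riemannRochSpace`, `ell_le_ell_mapDomain` : semicontinuity;
* `Datum R g`, `Datum.E`, `Datum.Eb`, `ell_E`, `ell_Eb`, `exists_reduced_basis`;
* `regOn_mul_T_sq`, `regOn_mul_v` : local regularity of the sections of `O(E)`;
* `rank_a`, `rank_b` : the two rank lemmas on the special fibre.
-/

set_option autoImplicit false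
set_option linter.unusedSectionVars false
set_option linter.unusedVariables false

namespace Fermat.Agent.S19.InterpDatum

open AlgebraicCurve Fermat.Agent.S18.CoreDefs Fermat.Agent.S18.CoreOrd Fermat.Agent.S24.Ord
open Fermat.Agent.S18.NonSpecial Fermat.Agent.S18.Disc

universe u v

/-! ### one function field -/

section OneSide

variable {K : Type u} {F : Type v} [Field K] [Field F] [Algebra K F]

/-- `D` is *Riemann-exact* for the genus `g`: `ℓ(D) = deg D + 1 - g`. -/
def IsExact (g : ℕ) (D : Divisor K F) : Prop :=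
  (ell D : ℤ) = Divisor.degree D + 1 - g

theorem IsExact.add_single {g : ℕ} (h : RiemannHyp K F g) {D : Divisor K F} (hD : IsExact g D)
    (Q : Place K F) : IsExact g (D + Finsupp.single Q 1) := by
  have h1 := riemann_ineq h (D + Finsupp.single Q 1)
  have h2 := ell_add_single_le h.finite D (h.deg_one Q)
  have hdeg : Divisor.degree (D + Finsupp.single Q 1) = Divisor.degree D + 1 := by
    rw [map_add, Divisor.degree_single, h.deg_one Q]; simp
  unfold IsExact at *
  rw [hdeg] at h1 ⊢
  have h2' : (ell (D + Finsupp.single Q 1) : ℤ) ≤ ell D + 1 := by exact_mod_cast h2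
  omega

theorem IsExact.add_sum_single {g : ℕ} (h : RiemannHyp K F g) {D : Divisor K F}
    (hD : IsExact g D) {n : ℕ} (Qs : Fin n → Place K F) :
    IsExact g (D + ∑ i, Finsupp.single (Qs i) (1 : ℤ)) := by
  induction n with
  | zero => simpa using hD
  | succ n ih =>
    rw [Fin.sum_univ_castSucc, ← add_assoc]
    exact (ih (fun i => Qs i.castSucc)).add_single h _

/-- a rigid effective divisor has `ℓ = 1` -/
theorem ell_eq_one_of_rigid {D : Divisor K F} (hD : 0 ≤ D)
    (hrigid : ∀ y : F, y ∈ riemannRochSpace D → ∃ c : K, y = algebraMap K F c) : ell D = 1 := by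
  have h1mem := one_mem_riemannRochSpace hD
  have hne : (⟨1, h1mem⟩ : riemannRochSpace D) ≠ 0 := by
    intro h0
    have := congrArg Subtype.val h0
    simp at this
  refine (finrank_eq_one_iff_of_nonzero' (⟨1, h1mem⟩ : riemannRochSpace D) hne).mpr ?_
  intro w
  obtain ⟨c, hc⟩ := hrigid w w.2
  refine ⟨c, Subtype.ext ?_⟩
  simp only [Submodule.coe_smul]
  rw [hc, Algebra.smul_def, mul_one]

theorem sum_single_nonneg' {n : ℕ} (Qs : Fin n → Place K F) :
    (0 : Divisor K F) ≤ ∑ i, Finsupp.single (Qs i) (1 : ℤ) := by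
  rw [Finsupp.le_def]
  intro v
  simpa using Fermat.Agent.S18.Core.sum_single_nonneg Qs v

theorem degree_sum_single' (hdeg : ∀ v : Place K F, v.deg = 1) {n : ℕ} (Qs : Fin n → Place K F) :
    Divisor.degree (∑ i, Finsupp.single (Qs i) (1 : ℤ)) = n := by
  rw [map_sum]
  simp [Divisor.degree_single, hdeg]

/-- a rigid sum of `g` places is Riemann-exact -/
theorem isExact_of_rigid {g : ℕ} (h : RiemannHyp K F g) (Qs : Fin g → Place K F)
    (hrigid : ∀ y : F, y ∈ riemannRochSpace (∑ i, Finsupp.single (Qs i) (1 : ℤ)) →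
      ∃ c : K, y = algebraMap K F c) :
    IsExact g (∑ i, Finsupp.single (Qs i) (1 : ℤ)) := by
  unfold IsExact
  rw [ell_eq_one_of_rigid (sum_single_nonneg' Qs) hrigid, degree_sum_single' h.deg_one]
  simp

end OneSide


/-! ### two function fields and a reduction datum -/

section TwoSides

variable {L : Type*} [Field L] {FL : Type*} [Field FL] [Algebra L FL]
variable {k : Type*} [Field k] {Fk : Type*} [Field Fk] [Algebra k Fk]
variable {A : ValuationSubring L} {π : A →+* k} {r : Place L FL → Place k Fk}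
variable (R : RedDatum A π r)

/-- the orthonormal basis lemma, as a hypothesis on the reduction datum -/
def OrthoHyp : Prop :=
  ∀ (W : Submodule L FL) [FiniteDimensional L W],
    ∃ f : Fin (Module.finrank L W) → R.O, (∀ j, ((f j : R.O) : FL) ∈ W) ∧
      LinearIndependent k fun j => R.red (f j)

/-- among finitely many elements of `L`, not all zero, one has maximal valuation -/
theorem exists_max_const {ι : Type*} (s : Finset ι) (c : ι → L) (hc : ∃ i ∈ s, c i ≠ 0) :
    ∃ i₀ ∈ s, c i₀ ≠ 0 ∧ ∀ i ∈ s, c i / c i₀ ∈ A := by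
  obtain ⟨i₁, hi₁, hne⟩ := hc
  obtain ⟨i₀, hi₀, hmax⟩ := Finset.exists_max_image s (fun i => A.valuation (c i)) ⟨i₁, hi₁⟩
  have h0 : c i₀ ≠ 0 := by
    intro h
    have := hmax i₁ hi₁
    rw [h, map_zero] at this
    exact hne ((map_eq_zero _).mp (le_antisymm this zero_le))
  refine ⟨i₀, hi₀, h0, fun i hi => ?_⟩
  rw [← A.valuation_le_one_iff, map_div₀]
  exact div_le_one_of_le₀ (hmax i hi) zero_le

/-- `k`-linearly independent reductions lift to `L`-linearly independent elements -/
theorem linearIndependent_of_red {ι : Type*} [Fintype ι] (f : ι → R.O)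
    (h : LinearIndependent k fun i => R.red (f i)) :
    LinearIndependent L fun i => ((f i : R.O) : FL) := by
  classical
  rw [Fintype.linearIndependent_iff]
  intro c hc
  by_contra hne
  push Not at hne
  obtain ⟨i₁, hi₁⟩ := hne
  obtain ⟨i₀, -, h0, hA⟩ :=
    exists_max_const (A := A) Finset.univ c ⟨i₁, Finset.mem_univ _, hi₁⟩
  set a : ι → A := fun i => ⟨c i / c i₀, hA i (Finset.mem_univ _)⟩ with ha
  have hsum : ∑ i, constHom R (a i) * f i = 0 := by
    apply Subtype.ext
    have h1 : ((∑ i, constHom R (a i) * f i : R.O) : FL)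
        = ∑ i, (c i / c i₀) • ((f i : R.O) : FL) := by
      rw [← ValuationSubring.subtype_apply, map_sum]
      refine Finset.sum_congr rfl fun i _ => ?_
      rw [Algebra.smul_def]
      rfl
    rw [h1]
    have h2 : ∑ i, (c i / c i₀) • ((f i : R.O) : FL)
        = (c i₀)⁻¹ • ∑ i, c i • ((f i : R.O) : FL) := by
      rw [Finset.smul_sum]
      refine Finset.sum_congr rfl fun i _ => ?_
      rw [smul_smul, div_eq_inv_mul]
    rw [h2, hc, smul_zero]
    rfl
  have hred : ∑ i, π (a i) • R.red (f i) = 0 := by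
    have := congrArg R.red hsum
    rw [map_sum, map_zero] at this
    rw [← this]
    refine Finset.sum_congr rfl fun i _ => ?_
    rw [map_mul, red_constHom R, Algebra.smul_def]
  have h3 := Fintype.linearIndependent_iff.mp h _ hred i₀
  have h4 : a i₀ = 1 := Subtype.ext (div_self h0)
  rw [h4, map_one] at h3
  exact one_ne_zero h3

/-- **semicontinuity, pointwise**: the reduction of a Gauss-integral section of `O(D)` with
non-zero reduction is a section of `O(r_* D)`. -/
theorem red_mem_riemannRochSpace [HasPrincipalDivisors L FL] (D : Divisor L FL) (u : R.O)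
    (hu : R.red u ≠ 0) (hmem : (u : FL) ∈ riemannRochSpace D) :
    R.red u ∈ riemannRochSpace (Finsupp.mapDomain r D) := by
  have hu0 : (u : FL) ≠ 0 := coe_ne_zero_of_red_ne_zero R hu
  obtain ⟨Dy, hDy, -⟩ := HasPrincipalDivisors.exists_divisor (K := L) (u : FL) hu0
  have hc := r_div R u hu Dy hDy
  rw [mem_riemannRochSpace_iff]
  intro Q
  right
  rw [← hc Q]
  have hnn : 0 ≤ Finsupp.mapDomain r (Dy + D) Q := by
    refine mapDomain_nonneg r (Dy + D) Q fun P _ => ?_
    have := ((mem_riemannRochSpace_iff.mp hmem) P).resolve_left hu0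
    rw [Finsupp.add_apply, hDy P]
    omega
  rw [Finsupp.mapDomain_add, Finsupp.add_apply] at hnn
  omega

/-- **semicontinuity**: `ℓ_L(D) ≤ ℓ_k(r_* D)`. -/
theorem ell_le_ell_mapDomain [HasPrincipalDivisors L FL] (hO : OrthoHyp R)
    (D : Divisor L FL) [Module.Finite L (riemannRochSpace D)]
    [Module.Finite k (riemannRochSpace (Finsupp.mapDomain r D))] :
    ell D ≤ ell (Finsupp.mapDomain r D) := by
  obtain ⟨f, hfW, hli⟩ := hO (riemannRochSpace D)
  let f' : Fin (Module.finrank L (riemannRochSpace D)) →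
      riemannRochSpace (Finsupp.mapDomain r D) := fun j =>
    ⟨R.red (f j), red_mem_riemannRochSpace R D (f j) (hli.ne_zero j) (hfW j)⟩
  have hf' : LinearIndependent k f' := by
    apply LinearIndependent.of_comp (riemannRochSpace (Finsupp.mapDomain r D)).subtype
    exact hli
  have := hf'.fintype_card_le_finrank
  rwa [Fintype.card_fin] at this


/-! ### the interpolation datum -/

/-- Chart at the origin (`Qb`, `Q`, `T`) and the auxiliary rigid family (`Rb`, `Rp`, `v`). -/
structure Datum (g : ℕ) where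
  Qb : Fin g → Place k Fk
  Rb : Fin g → Place k Fk
  Qb_inj : Function.Injective Qb
  Rb_inj : Function.Injective Rb
  disj : ∀ i j, Qb i ≠ Rb j
  rigidQ : ∀ y : Fk, y ∈ riemannRochSpace (∑ i, Finsupp.single (Qb i) (1 : ℤ)) →
    ∃ c : k, y = algebraMap k Fk c
  rigidR : ∀ y : Fk, y ∈ riemannRochSpace (∑ j, Finsupp.single (Rb j) (1 : ℤ)) →
    ∃ c : k, y = algebraMap k Fk c
  Q : Fin g → Place L FL
  Rp : Fin g → Place L FL
  hQ : ∀ i, r (Q i) = Qb i
  hRp : ∀ j, r (Rp j) = Rb j
  T : Fin g → R.O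
  hT : ∀ i, IsGoodParam R (T i) (Qb i)
  hT0 : ∀ i, 0 < (Q i).ord ((T i : R.O) : FL)
  v : Fin g → R.O
  hv : ∀ j, IsGoodParam R (v j) (Rb j)
  hv0 : ∀ j, 0 < (Rp j).ord ((v j : R.O) : FL)

namespace Datum

variable {R} {g : ℕ} (d : Datum R g)

/-- `E = R₀ + 2 D₀` on the generic fibre -/
noncomputable def E : Divisor L FL :=
  (∑ j, Finsupp.single (d.Rp j) (1 : ℤ)) + (∑ i, Finsupp.single (d.Q i) (1 : ℤ)) +
    (∑ i, Finsupp.single (d.Q i) (1 : ℤ))

/-- `Ē = R̄₀ + 2 D̄₀` on the special fibre -/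
noncomputable def Eb : Divisor k Fk :=
  (∑ j, Finsupp.single (d.Rb j) (1 : ℤ)) + (∑ i, Finsupp.single (d.Qb i) (1 : ℤ)) +
    (∑ i, Finsupp.single (d.Qb i) (1 : ℤ))

theorem Q_inj : Function.Injective d.Q := fun i i' h =>
  d.Qb_inj (by rw [← d.hQ i, ← d.hQ i', h])

theorem Rp_inj : Function.Injective d.Rp := fun j j' h =>
  d.Rb_inj (by rw [← d.hRp j, ← d.hRp j', h])

theorem Rp_ne_Q (j i : Fin g) : d.Rp j ≠ d.Q i := fun h =>
  d.disj i j (by rw [← d.hQ i, ← d.hRp j, h])

theorem mapDomain_E : Finsupp.mapDomain r d.E = d.Eb := by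
  unfold E Eb
  rw [Finsupp.mapDomain_add, Finsupp.mapDomain_add,
    Fermat.Agent.S18.Core.mapDomain_sum_single d.Rp d.Rb d.hRp,
    Fermat.Agent.S18.Core.mapDomain_sum_single d.Q d.Qb d.hQ]

open Fermat.Agent.S18.Core in
theorem E_apply_Q (i : Fin g) : d.E (d.Q i) = 2 := by
  unfold E
  rw [Finsupp.add_apply, Finsupp.add_apply, sum_single_apply_of_injective d.Q d.Q_inj,
    sum_single_apply_of_notMem d.Rp (d.Q i) (fun j => d.Rp_ne_Q j i)]
  norm_num

open Fermat.Agent.S18.Core in
theorem E_apply_Rp (j : Fin g) : d.E (d.Rp j) = 1 := by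
  unfold E
  rw [Finsupp.add_apply, Finsupp.add_apply, sum_single_apply_of_injective d.Rp d.Rp_inj,
    sum_single_apply_of_notMem d.Q (d.Rp j) (fun i => (d.Rp_ne_Q j i).symm)]
  norm_num

open Fermat.Agent.S18.Core in
theorem E_apply_of_disc_Q {i : Fin g} {P : Place L FL} (hP : r P = d.Qb i) (hne : P ≠ d.Q i) :
    d.E P = 0 := by
  unfold E
  have h1 : ∀ i', d.Q i' ≠ P := by
    intro i' h
    have : d.Qb i' = d.Qb i := by rw [← d.hQ i', h, hP]
    rw [d.Qb_inj this] at h
    exact hne h.symm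
  have h2 : ∀ j, d.Rp j ≠ P := by
    intro j h
    exact d.disj i j (by rw [← hP, ← h, d.hRp j])
  rw [Finsupp.add_apply, Finsupp.add_apply, sum_single_apply_of_notMem d.Q P h1,
    sum_single_apply_of_notMem d.Rp P h2]
  norm_num

open Fermat.Agent.S18.Core in
theorem E_apply_of_disc_R {j : Fin g} {P : Place L FL} (hP : r P = d.Rb j) (hne : P ≠ d.Rp j) :
    d.E P = 0 := by
  unfold E
  have h1 : ∀ i, d.Q i ≠ P := by
    intro i h
    exact d.disj i j (by rw [← hP, ← h, d.hQ i])
  have h2 : ∀ j', d.Rp j' ≠ P := by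
    intro j' h
    have : d.Rb j' = d.Rb j := by rw [← d.hRp j', h, hP]
    rw [d.Rb_inj this] at h
    exact hne h.symm
  rw [Finsupp.add_apply, Finsupp.add_apply, sum_single_apply_of_notMem d.Q P h1,
    sum_single_apply_of_notMem d.Rp P h2]
  norm_num

open Fermat.Agent.S18.Core in
theorem Eb_apply_Qb (i : Fin g) : d.Eb (d.Qb i) = 2 := by
  unfold Eb
  rw [Finsupp.add_apply, Finsupp.add_apply, sum_single_apply_of_injective d.Qb d.Qb_inj,
    sum_single_apply_of_notMem d.Rb (d.Qb i) (fun j h => d.disj i j h.symm)]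
  norm_num

open Fermat.Agent.S18.Core in
theorem Eb_apply_Rb (j : Fin g) : d.Eb (d.Rb j) = 1 := by
  unfold Eb
  rw [Finsupp.add_apply, Finsupp.add_apply, sum_single_apply_of_injective d.Rb d.Rb_inj,
    sum_single_apply_of_notMem d.Qb (d.Rb j) (fun i h => d.disj i j h)]
  norm_num

open Fermat.Agent.S18.Core in
theorem Eb_apply_of_notMem_Qb {v : Place k Fk} (h : ∀ i, d.Qb i ≠ v) :
    d.Eb v = (∑ j, Finsupp.single (d.Rb j) (1 : ℤ)) v := by
  unfold Eb
  rw [Finsupp.add_apply, Finsupp.add_apply, sum_single_apply_of_notMem d.Qb v h]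
  norm_num

open Fermat.Agent.S18.Core in
theorem Eb_apply_of_notMem_Rb {v : Place k Fk} (h : ∀ j, d.Rb j ≠ v) :
    d.Eb v = 2 * (∑ i, Finsupp.single (d.Qb i) (1 : ℤ)) v := by
  unfold Eb
  rw [Finsupp.add_apply, Finsupp.add_apply, sum_single_apply_of_notMem d.Rb v h]
  ring

/-! #### dimensions -/

theorem isExact_Eb (hk : RiemannHyp k Fk g) : IsExact g d.Eb := by
  unfold Eb
  exact ((isExact_of_rigid hk d.Rb d.rigidR).add_sum_single hk d.Qb).add_sum_single hk d.Qb

theorem degree_Eb (hk : RiemannHyp k Fk g) : Divisor.degree d.Eb = 3 * g := by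
  unfold Eb
  rw [map_add, map_add, degree_sum_single' hk.deg_one, degree_sum_single' hk.deg_one]
  ring

theorem degree_E (hL : RiemannHyp L FL g) : Divisor.degree d.E = 3 * g := by
  unfold E
  rw [map_add, map_add, degree_sum_single' hL.deg_one, degree_sum_single' hL.deg_one]
  ring

/-- `ℓ_k(Ē) = 2g + 1` -/
theorem ell_Eb (hk : RiemannHyp k Fk g) : ell d.Eb = 2 * g + 1 := by
  have h := d.isExact_Eb hk
  unfold IsExact at h
  rw [d.degree_Eb hk] at h
  omega

/-- `ℓ_L(R₀) = 1` by semicontinuity -/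
theorem ell_sum_Rp [HasPrincipalDivisors L FL] (hO : OrthoHyp R) (hL : RiemannHyp L FL g)
    (hk : RiemannHyp k Fk g) : ell (∑ j, Finsupp.single (d.Rp j) (1 : ℤ)) = 1 := by
  have := hL.finite (∑ j, Finsupp.single (d.Rp j) (1 : ℤ))
  have := hk.finite (Finsupp.mapDomain r (∑ j, Finsupp.single (d.Rp j) (1 : ℤ)))
  have h1 := ell_le_ell_mapDomain R hO (∑ j, Finsupp.single (d.Rp j) (1 : ℤ))
  rw [Fermat.Agent.S18.Core.mapDomain_sum_single d.Rp d.Rb d.hRp,
    ell_eq_one_of_rigid (sum_single_nonneg' d.Rb) d.rigidR] at h1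
  have h2 := riemann_ineq hL (∑ j, Finsupp.single (d.Rp j) (1 : ℤ))
  rw [degree_sum_single' hL.deg_one] at h2
  omega

/-- `ℓ_L(D₀) = 1` by semicontinuity -/
theorem ell_sum_Q [HasPrincipalDivisors L FL] (hO : OrthoHyp R) (hL : RiemannHyp L FL g)
    (hk : RiemannHyp k Fk g) : ell (∑ i, Finsupp.single (d.Q i) (1 : ℤ)) = 1 := by
  have := hL.finite (∑ i, Finsupp.single (d.Q i) (1 : ℤ))
  have := hk.finite (Finsupp.mapDomain r (∑ i, Finsupp.single (d.Q i) (1 : ℤ)))
  have h1 := ell_le_ell_mapDomain R hO (∑ i, Finsupp.single (d.Q i) (1 : ℤ))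
  rw [Fermat.Agent.S18.Core.mapDomain_sum_single d.Q d.Qb d.hQ,
    ell_eq_one_of_rigid (sum_single_nonneg' d.Qb) d.rigidQ] at h1
  have h2 := riemann_ineq hL (∑ i, Finsupp.single (d.Q i) (1 : ℤ))
  rw [degree_sum_single' hL.deg_one] at h2
  omega

theorem isExact_E [HasPrincipalDivisors L FL] (hO : OrthoHyp R) (hL : RiemannHyp L FL g)
    (hk : RiemannHyp k Fk g) : IsExact g d.E := by
  have h0 : IsExact g (∑ j, Finsupp.single (d.Rp j) (1 : ℤ)) := by
    unfold IsExact
    rw [d.ell_sum_Rp hO hL hk, degree_sum_single' hL.deg_one]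
    simp
  unfold E
  exact (h0.add_sum_single hL d.Q).add_sum_single hL d.Q

/-- `ℓ_L(E) = 2g + 1` -/
theorem ell_E [HasPrincipalDivisors L FL] (hO : OrthoHyp R) (hL : RiemannHyp L FL g)
    (hk : RiemannHyp k Fk g) : ell d.E = 2 * g + 1 := by
  have h := d.isExact_E hO hL hk
  unfold IsExact at h
  rw [d.degree_E hL] at h
  omega


/-! #### the reduced basis -/

/-- **reduced basis of `L(E)`**: `2g+1` Gauss-integral sections of `O(E)` whose reductions are
`k`-independent sections of `O(Ē)`; they span on both sides. -/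
theorem exists_reduced_basis [HasPrincipalDivisors L FL] (hO : OrthoHyp R)
    (hL : RiemannHyp L FL g) (hk : RiemannHyp k Fk g) :
    ∃ φ : Fin (2 * g + 1) → R.O,
      (∀ a, ((φ a : R.O) : FL) ∈ riemannRochSpace d.E) ∧
      (∀ a, R.red (φ a) ∈ riemannRochSpace d.Eb) ∧
      LinearIndependent k (fun a => R.red (φ a)) ∧
      LinearIndependent L (fun a => ((φ a : R.O) : FL)) ∧
      Submodule.span L (Set.range fun a => ((φ a : R.O) : FL)) = riemannRochSpace d.E ∧
      Submodule.span k (Set.range fun a => R.red (φ a)) = riemannRochSpace d.Eb := by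
  have hfinL := hL.finite d.E
  have hfink := hk.finite d.Eb
  obtain ⟨f, hfW, hli⟩ := hO (riemannRochSpace d.E)
  have hn : Module.finrank L (riemannRochSpace d.E) = 2 * g + 1 := d.ell_E hO hL hk
  -- reindex
  let e : Fin (2 * g + 1) ≃ Fin (Module.finrank L (riemannRochSpace d.E)) := finCongr hn.symm
  refine ⟨fun a => f (e a), fun a => hfW (e a), ?_, ?_, ?_, ?_, ?_⟩
  · intro a
    rw [← d.mapDomain_E]
    exact red_mem_riemannRochSpace R d.E (f (e a)) (hli.ne_zero (e a)) (hfW (e a))
  · exact hli.comp e e.injective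
  · exact linearIndependent_of_red R (fun a => f (e a)) (hli.comp e e.injective)
  · have hliL : LinearIndependent L (fun a => ((f (e a) : R.O) : FL)) :=
      linearIndependent_of_red R (fun a => f (e a)) (hli.comp e e.injective)
    refine Submodule.eq_of_le_of_finrank_eq ?_ ?_
    · rw [Submodule.span_le]
      rintro _ ⟨a, rfl⟩
      exact hfW (e a)
    · rw [finrank_span_eq_card hliL, Fintype.card_fin, hn]
  · have hlik : LinearIndependent k (fun a => R.red (f (e a))) := hli.comp e e.injective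
    refine Submodule.eq_of_le_of_finrank_eq ?_ ?_
    · rw [Submodule.span_le]
      rintro _ ⟨a, rfl⟩
      rw [← d.mapDomain_E]
      exact red_mem_riemannRochSpace R d.E (f (e a)) (hli.ne_zero (e a)) (hfW (e a))
    · rw [finrank_span_eq_card hlik, Fintype.card_fin]
      exact (d.ell_Eb hk).symm

/-! #### local regularity of sections of `O(E)` -/

/-- a section of `O(E)` times `T_i ^ 2` is regular on the residue disc of `Qb i` -/
theorem regOn_mul_T_sq [HasPrincipalDivisors L FL] {f : FL} (hf : f ∈ riemannRochSpace d.E) (i : Fin g) :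
    RegOn r (f * ((d.T i : R.O) : FL) ^ 2) (d.Qb i) := by
  classical
  refine regOn_of_ord_nonneg fun P hP => ?_
  rcases eq_or_ne f 0 with rfl | hf0
  · rw [zero_mul, Place.ord_zero]
  have hT0 : ((d.T i : R.O) : FL) ≠ 0 := (d.hT i).coe_ne_zero
  have hordT := (d.hT i).ord_eq_ite (d.hQ i) (adicValuation_lt_one_of_ord_pos _ (d.hT0 i)) P hP
  have hordf := ((mem_riemannRochSpace_iff.mp hf) P).resolve_left hf0
  rw [Place.ord_mul P hf0 (pow_ne_zero 2 hT0), ord_pow, hordT]
  by_cases hPQ : P = d.Q i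
  · rw [if_pos hPQ]
    rw [hPQ, d.E_apply_Q] at hordf
    rw [hPQ]
    push_cast
    omega
  · rw [if_neg hPQ]
    rw [d.E_apply_of_disc_Q hP hPQ] at hordf
    push_cast
    omega

/-- a section of `O(E)` times `v_j` is regular on the residue disc of `Rb j` -/
theorem regOn_mul_v [HasPrincipalDivisors L FL] {f : FL} (hf : f ∈ riemannRochSpace d.E) (j : Fin g) :
    RegOn r (f * ((d.v j : R.O) : FL)) (d.Rb j) := by
  classical
  refine regOn_of_ord_nonneg fun P hP => ?_
  rcases eq_or_ne f 0 with rfl | hf0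
  · rw [zero_mul, Place.ord_zero]
  have hv0 : ((d.v j : R.O) : FL) ≠ 0 := (d.hv j).coe_ne_zero
  have hordv := (d.hv j).ord_eq_ite (d.hRp j) (adicValuation_lt_one_of_ord_pos _ (d.hv0 j)) P hP
  have hordf := ((mem_riemannRochSpace_iff.mp hf) P).resolve_left hf0
  rw [Place.ord_mul P hf0 hv0, hordv]
  by_cases hPR : P = d.Rp j
  · rw [if_pos hPR]
    rw [hPR, d.E_apply_Rp] at hordf
    rw [hPR]
    omega
  · rw [if_neg hPR]
    rw [d.E_apply_of_disc_R hP hPR] at hordf
    omega

/-! #### the rank lemmas on the special fibre -/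

/-- **(RR-a)** a section of `O(Ē)` which is regular at every `Qb i` is constant
(`L_k(Ē - 2 D̄₀) = L_k(R̄₀) = k`). -/
theorem rank_a {y : Fk} (hy : y ∈ riemannRochSpace d.Eb) (h : ∀ i, 0 ≤ (d.Qb i).ord y) :
    ∃ c : k, y = algebraMap k Fk c := by
  refine d.rigidR y ?_
  rw [mem_riemannRochSpace_iff]
  intro v
  rcases eq_or_ne y 0 with rfl | hy0
  · exact Or.inl rfl
  right
  by_cases hv : ∃ i, d.Qb i = v
  · obtain ⟨i, rfl⟩ := hv
    rw [Fermat.Agent.S18.Core.sum_single_apply_of_notMem d.Rb (d.Qb i)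
      (fun j hj => d.disj i j hj.symm)]
    simpa using h i
  · push Not at hv
    have := ((mem_riemannRochSpace_iff.mp hy) v).resolve_left hy0
    rwa [d.Eb_apply_of_notMem_Qb hv] at this

/-- **(RR-b)** a section of `O(Ē)` which is regular at every `Rb j` and has at most a simple pole
at every `Qb i` is constant (`L_k(Ē - R̄₀ - D̄₀) = L_k(D̄₀) = k`). -/
theorem rank_b {y : Fk} (hy : y ∈ riemannRochSpace d.Eb) (hR : ∀ j, 0 ≤ (d.Rb j).ord y)
    (hQ : ∀ i, -1 ≤ (d.Qb i).ord y) : ∃ c : k, y = algebraMap k Fk c := by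
  refine d.rigidQ y ?_
  rw [mem_riemannRochSpace_iff]
  intro v
  rcases eq_or_ne y 0 with rfl | hy0
  · exact Or.inl rfl
  right
  by_cases hv : ∃ i, d.Qb i = v
  · obtain ⟨i, rfl⟩ := hv
    rw [Fermat.Agent.S18.Core.sum_single_apply_of_injective d.Qb d.Qb_inj]
    exact hQ i
  · push Not at hv
    rw [Fermat.Agent.S18.Core.sum_single_apply_of_notMem d.Qb v hv]
    by_cases hv' : ∃ j, d.Rb j = v
    · obtain ⟨j, rfl⟩ := hv'
      simpa using hR j
    · push Not at hv'
      have := ((mem_riemannRochSpace_iff.mp hy) v).resolve_left hy0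
      rw [d.Eb_apply_of_notMem_Rb hv',
        Fermat.Agent.S18.Core.sum_single_apply_of_notMem d.Qb v hv] at this
      simpa using this

/-- (RR-a) in the form seen through the parameters: `ȳ T̄_i²` vanishes to order `≥ 2`. -/
theorem rank_a' [HasPrincipalDivisors L FL] {y : Fk} (hy : y ∈ riemannRochSpace d.Eb)
    (h : ∀ i, 2 ≤ (d.Qb i).ord (y * R.red (d.T i) ^ 2)) : ∃ c : k, y = algebraMap k Fk c := by
  rcases eq_or_ne y 0 with rfl | hy0
  · exact ⟨0, by simp⟩
  refine d.rank_a hy fun i => ?_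
  have hT := (d.hT i).red_ne_zero
  have := h i
  rw [Place.ord_mul _ hy0 (pow_ne_zero 2 hT), ord_pow, (d.hT i).ord_one] at this
  push_cast at this
  omega

/-- (RR-b) in the form seen through the parameters: `ȳ v̄_j` vanishes at `Rb j`,
`ȳ T̄_i²` vanishes at `Qb i`. -/
theorem rank_b' [HasPrincipalDivisors L FL] {y : Fk} (hy : y ∈ riemannRochSpace d.Eb)
    (hR : ∀ j, 1 ≤ (d.Rb j).ord (y * R.red (d.v j)))
    (hQ : ∀ i, 1 ≤ (d.Qb i).ord (y * R.red (d.T i) ^ 2)) : ∃ c : k, y = algebraMap k Fk c := by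
  rcases eq_or_ne y 0 with rfl | hy0
  · exact ⟨0, by simp⟩
  refine d.rank_b hy (fun j => ?_) (fun i => ?_)
  · have hv := (d.hv j).red_ne_zero
    have := hR j
    rw [Place.ord_mul _ hy0 hv, (d.hv j).ord_one] at this
    omega
  · have hT := (d.hT i).red_ne_zero
    have := hQ i
    rw [Place.ord_mul _ hy0 (pow_ne_zero 2 hT), ord_pow, (d.hT i).ord_one] at this
    push_cast at this
    omega

end Datum

end TwoSides

end Fermat.Agent.S19.InterpDatum
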