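import Mathlib
import Fermat.Agent.S19.InterpDatum

/-!
# S19 (helper7): existence of an interpolation datum with prescribed parameter shape

Abstract S18/Core frame.  From `RigidGeneric k Fk g`, a Gauss-integral function `x` which is
unramified outside a finite set, and a subring `W0 ≤ A` mapping onto the residue field, we get an
`InterpDatum.Datum R g` whose chart places avoid any given finite set and whose parameters are
`x - c` with `c ∈ W0`.  (So the parameters are fixed by every symmetry fixing `x` and `W0`.)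
-/

set_option autoImplicit false
set_option linter.unusedSectionVars false
set_option linter.unusedVariables false

namespace Fermat.Agent.S19.DatumExists

open AlgebraicCurve
open Fermat.Agent.S18.CoreDefs Fermat.Agent.S18.CoreOrd Fermat.Agent.S24.Ord Fermat.Agent.S18.Disc
open Fermat.Agent.S18.Core Fermat.Agent.S19.InterpDatum

variable {L : Type*} [Field L] {FL : Type*} [Field FL] [Algebra L FL]
variable {k : Type*} [Field k] {Fk : Type*} [Field Fk] [Algebra k Fk]
variable {A : ValuationSubring L} {π : A →+* k} {r : Place L FL → Place k Fk}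
variable [HasPrincipalDivisors L FL]

/-- a good parameter `x - c`, `c ∈ W0`, at a place where `x̄` is unramified and `x` is regular -/
theorem exists_param_in (R : RedDatum A π r) (W0 : Subring A)
    (hW0 : ∀ γ : k, ∃ c ∈ W0, π c = γ) (x : R.O) (Q : Place k Fk)
    (hQ1 : ∃ γ : k, Q.ord (R.red x - algebraMap k Fk γ) = 1)
    (hQ2 : ∀ P : Place L FL, r P = Q → 0 ≤ P.ord ((x : R.O) : FL)) :
    ∃ (c : A) (P0 : Place L FL), c ∈ W0 ∧ IsGoodParam R (x - constO R c) Q ∧ r P0 = Q ∧
      0 < P0.ord (((x - constO R c : R.O)) : FL) := by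
  obtain ⟨γ, hγ⟩ := hQ1
  obtain ⟨c, hcW, rfl⟩ := hW0 γ
  set T : R.O := x - constO R c with hT
  have hredT : R.red T = R.red x - algebraMap k Fk (π c) := by
    rw [hT, map_sub, red_constO]
  have hTcoe : ((T : R.O) : FL) = ((x : R.O) : FL) - algebraMap L FL (c : L) := rfl
  have hT1 : Q.ord (R.red T) = 1 := by rw [hredT]; exact hγ
  have hTne : R.red T ≠ 0 := by
    intro h0
    rw [h0, Place.ord_zero] at hT1
    exact zero_ne_one hT1
  have hreg : ∀ P : Place L FL, r P = Q → 0 ≤ P.ord ((T : R.O) : FL) := by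
    intro P hP
    rw [hTcoe]
    exact ord_sub_nonneg P (hQ2 P hP) (by rw [ord_algebraMap])
  obtain ⟨P0, hP0, hP01, -⟩ := exists_unique_zero R (unitOfRed R T hTne) Q
    (by rw [coe_unitOfRed]; exact hreg) (by rw [coe_unitOfRed]; exact hT1)
  rw [coe_unitOfRed] at hP01
  exact ⟨c, P0, hcW, ⟨regOn_of_ord_nonneg hreg, hT1⟩, hP0, by rw [hP01]; exact one_pos⟩

/-- **Existence of an interpolation datum** with chart places off `Bad` and parameters `x - c`,
`c ∈ W0`. -/
theorem exists_datum (R : RedDatum A π r) (W0 : Subring A)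
    (hW0 : ∀ γ : k, ∃ c ∈ W0, π c = γ) (x : R.O)
    (hunram : {Q : Place k Fk | ¬ ∃ γ : k, Q.ord (R.red x - algebraMap k Fk γ) = 1}.Finite)
    {g : ℕ} (hG : RigidGeneric k Fk g) (Bad : Set (Place k Fk)) (hBad : Bad.Finite) :
    ∃ d : Datum R g, (∀ i, d.Qb i ∉ Bad) ∧ (∀ j, d.Rb j ∉ Bad) ∧
      (∀ i, ∃ c : A, c ∈ W0 ∧ d.T i = x - constO R c) ∧
      (∀ j, ∃ c : A, c ∈ W0 ∧ d.v j = x - constO R c) := by
  classical
  -- the first family
  set Bad1 : Set (Place k Fk) :=
    {Q : Place k Fk | ¬ ∃ γ : k, Q.ord (R.red x - algebraMap k Fk γ) = 1} ∪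
      r '' {P : Place L FL | P.ord ((x : R.O) : FL) < 0} ∪ Bad with hBad1
  have hBad1fin : Bad1.Finite :=
    (hunram.union ((finite_poles ((x : R.O) : FL)).image r)).union hBad
  obtain ⟨Qb, hQbinj, hQbBad, hrigidQ⟩ := hG Bad1 hBad1fin
  have hparQ : ∀ i, ∃ (c : A) (P0 : Place L FL), c ∈ W0 ∧ IsGoodParam R (x - constO R c) (Qb i) ∧
      r P0 = Qb i ∧ 0 < P0.ord (((x - constO R c : R.O)) : FL) := by
    intro i
    refine exists_param_in R W0 hW0 x (Qb i) ?_ ?_
    · by_contra hcon
      exact hQbBad i (Or.inl (Or.inl hcon))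
    · intro P hP
      by_contra hcon
      rw [not_le] at hcon
      exact hQbBad i (Or.inl (Or.inr ⟨P, hcon, hP⟩))
  choose cQ Q hcQ hTQ hQ hQ0 using hparQ
  -- the second family, avoiding the first
  set Bad2 : Set (Place k Fk) := Bad1 ∪ Set.range Qb with hBad2
  have hBad2fin : Bad2.Finite := hBad1fin.union (Set.finite_range Qb)
  obtain ⟨Rb, hRbinj, hRbBad, hrigidR⟩ := hG Bad2 hBad2fin
  have hparR : ∀ j, ∃ (c : A) (P0 : Place L FL), c ∈ W0 ∧ IsGoodParam R (x - constO R c) (Rb j) ∧
      r P0 = Rb j ∧ 0 < P0.ord (((x - constO R c : R.O)) : FL) := by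
    intro j
    refine exists_param_in R W0 hW0 x (Rb j) ?_ ?_
    · by_contra hcon
      exact hRbBad j (Or.inl (Or.inl (Or.inl hcon)))
    · intro P hP
      by_contra hcon
      rw [not_le] at hcon
      exact hRbBad j (Or.inl (Or.inl (Or.inr ⟨P, hcon, hP⟩)))
  choose cR Rp hcR hTR hRp hRp0 using hparR
  refine ⟨{ Qb := Qb, Rb := Rb, Qb_inj := hQbinj, Rb_inj := hRbinj,
            disj := fun i j h => hRbBad j (Or.inr ⟨i, h⟩),
            rigidQ := hrigidQ, rigidR := hrigidR, Q := Q, Rp := Rp, hQ := hQ, hRp := hRp,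
            T := fun i => x - constO R (cQ i), hT := hTQ, hT0 := hQ0,
            v := fun j => x - constO R (cR j), hv := hTR, hv0 := hRp0 }, ?_, ?_, ?_, ?_⟩
  · exact fun i h => hQbBad i (Or.inr h)
  · exact fun j h => hRbBad j (Or.inl (Or.inr h))
  · exact fun i => ⟨cQ i, hcQ i, rfl⟩
  · exact fun j => ⟨cR j, hcR j, rfl⟩

end Fermat.Agent.S19.DatumExists
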