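import Fermat.Agent.S19.Chart
import Fermat.Prelude.Def_AlgebraicCurve_BaseChangeGalois

/-!
# S19 (helper18): the chart coordinates under semilinear automorphisms of the generic fibre

`Chart.coord_map` / `Chart.coord_fixed` specialised to the Prelude's `SemilinearAut L FL`
(which acts on `FL`, `Place L FL`, `Divisor L FL`, `Pic0 L FL`).

* `smul_place_eq_of_zero` : an inertial automorphism (`r (γ • P) = r P`) fixing a good parameter
  fixes its zero on the disc;
* `smul_mem_J1` : an inertial automorphism preserves the kernel of reduction; more generally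
  `smul_mem_J1_of_comm` for `r (γ • P) = sPk (r P)` with `sPk` preserving principal divisors;
* `coord_smul` : for an inertial `γ` fixing the parameters of the chart,
  `coord (γ • z) i = baseAut γ (coord z i)`;
* `coord_smul_map` : general form (two charts);
* `coord_baseAut_fixed` : coordinates of a `γ`-fixed class are fixed by `baseAut γ`.
-/

set_option autoImplicit false
set_option linter.unusedSectionVars false
set_option linter.unusedVariables false

namespace Fermat.Agent.S19.ChartSymm

open AlgebraicCurve Fermat.Agent.S24.Ord Fermat.Agent.S18.CoreDefs Fermat.Agent.S18.CoreOrd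
  Fermat.Agent.S18.Disc Fermat.Agent.S18.Core Fermat.Agent.S19.Taylor Fermat.Agent.S19.Chart

variable {L : Type*} [Field L] {FL : Type*} [Field FL] [Algebra L FL]
variable {k : Type*} [Field k] {Fk : Type*} [Field Fk] [Algebra k Fk]
variable {A : ValuationSubring L} {π : A →+* k} {r : Place L FL → Place k Fk}

section KernelSymm

/-- push-forward of divisors along `γ` = the Prelude action -/
theorem mapDomain_smul_eq (γ : SemilinearAut L FL) (D : Divisor L FL) :
    Finsupp.mapDomain (fun P : Place L FL => γ • P) D = γ • D := rfl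

/-- an automorphism commuting with the reduction of places, up to a map `sPk` of the places of the
special fibre which preserves principal divisors, preserves the kernel of reduction -/
theorem smul_mem_J1_of_comm (γ : SemilinearAut L FL) (sPk : Place k Fk → Place k Fk)
    (hr : ∀ P : Place L FL, r (γ • P) = sPk (r P))
    (hsPk : ∀ D : Divisor k Fk, D ∈ Divisor.principal (K := k) (F := Fk) →
      Finsupp.mapDomain sPk D ∈ Divisor.principal (K := k) (F := Fk))
    {z : Pic0 L FL} (hz : z ∈ J1 r) : γ • z ∈ J1 r := by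
  obtain ⟨D, rfl, hD⟩ := hz
  refine ⟨SemilinearAut.degZeroSMulHom γ D, (SemilinearAut.pic0_smul_mk γ D).symm, ?_⟩
  rw [SemilinearAut.coe_degZeroSMulHom, ← mapDomain_smul_eq, ← Finsupp.mapDomain_comp]
  have : (r ∘ fun P : Place L FL => γ • P) = sPk ∘ r := funext hr
  rw [this, Finsupp.mapDomain_comp]
  exact hsPk _ hD

/-- an inertial automorphism preserves the kernel of reduction -/
theorem smul_mem_J1 (γ : SemilinearAut L FL) (hin : ∀ P : Place L FL, r (γ • P) = r P)
    {z : Pic0 L FL} (hz : z ∈ J1 r) : γ • z ∈ J1 r :=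
  smul_mem_J1_of_comm γ id hin (fun D hD => by rwa [Finsupp.mapDomain_id]) hz

/-- an inertial automorphism acts trivially modulo the kernel of reduction -/
theorem smul_sub_mem_J1 (γ : SemilinearAut L FL) (hin : ∀ P : Place L FL, r (γ • P) = r P)
    (x : Pic0 L FL) : γ • x - x ∈ J1 r := by
  obtain ⟨D, rfl⟩ := Pic0.mk_surjective x
  refine ⟨SemilinearAut.degZeroSMulHom γ D - D, rfl, ?_⟩
  rw [AddSubgroup.coe_sub, SemilinearAut.coe_degZeroSMulHom, Finsupp.mapDomain_sub,
    ← mapDomain_smul_eq, ← Finsupp.mapDomain_comp]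
  have : (r ∘ fun P : Place L FL => γ • P) = r := funext hin
  rw [this, sub_self]
  exact zero_mem _

end KernelSymm

section Basic

variable [HasPrincipalDivisors L FL] {R : RedDatum A π r}

/-- **Fixed-point lemma**: an inertial automorphism fixing a good parameter fixes its zero. -/
theorem smul_place_eq_of_zero (γ : SemilinearAut L FL) (hin : ∀ P : Place L FL, r (γ • P) = r P)
    {T : R.O} {Q : Place k Fk} (hT : IsGoodParam R T Q)
    (hfix : γ • ((T : R.O) : FL) = ((T : R.O) : FL)) {P0 : Place L FL} (hP0 : r P0 = Q)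
    (h0 : 0 < P0.ord ((T : R.O) : FL)) : γ • P0 = P0 := by
  classical
  have h1 : 0 < (γ • P0).ord ((T : R.O) : FL) := by
    have := SemilinearAut.ord_smul γ P0 ((T : R.O) : FL)
    rw [hfix] at this
    rw [this]; exact h0
  have hz : P0.adicValuation ((T : R.O) : FL) < 1 := adicValuation_lt_one_of_ord_pos P0 h0
  have h2 := hT.ord_eq_ite hP0 hz (γ • P0) (by rw [hin, hP0])
  by_contra hne
  rw [if_neg hne] at h2
  omega

end Basic

section Coord

variable [HasPrincipalDivisors L FL] [HasPrincipalDivisors k Fk] {R : RedDatum A π r} {g : ℕ}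

/-- **Equivariance of the coordinates under a semilinear automorphism**, general form. -/
theorem coord_smul_map (C C' : OriginChart R g) (hdegL : ∀ P : Place L FL, P.deg = 1)
    (hπ : Function.Surjective π) (hR : RiemannGe L FL g)
    (hoff' : ∃ Pstar : Place L FL, ∀ i, C'.Qb i ≠ r Pstar)
    (γ : SemilinearAut L FL) (sPk : Place k Fk → Place k Fk)
    (hr : ∀ P : Place L FL, r (γ • P) = sPk (r P))
    (hQb : ∀ i, C'.Qb i = sPk (C.Qb i)) (hQ : ∀ i, C'.Q i = γ • C.Q i)
    (hT : ∀ i, ((C'.T i : R.O) : FL) = γ • ((C.T i : R.O) : FL))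
    (z z' : J1 r) (hzz' : (z' : Pic0 L FL) = γ • (z : Pic0 L FL)) (i : Fin g) :
    ((C'.coord hdegL hR z' i : A) : L) =
      SemilinearAut.baseAut γ ((C.coord hdegL hR z i : A) : L) := by
  obtain ⟨D, hD⟩ := Pic0.mk_surjective (z : Pic0 L FL)
  exact OriginChart.coord_map C C' hdegL hπ hR hoff'
    ((SemilinearAut.baseAut γ : L ≃+* L) : L →+* L)
    ((SemilinearAut.toRingAut γ : FL ≃+* FL) : FL →+* FL) (fun P => γ • P) sPk
    (fun c => SemilinearAut.commutes γ c) (fun P y => SemilinearAut.ord_smul γ P y) hr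
    (fun D hD => SemilinearAut.smul_mem_principal γ hD) hQb hQ hT z z' D
    (SemilinearAut.degZeroSMulHom γ D) hD
    (by rw [hzz', ← hD, SemilinearAut.pic0_smul_mk]) rfl i

/-- **`I`-equivariance of the coordinates**: for an inertial `γ` fixing the parameters of the
chart, `coord (γ • z) i = γ (coord z i)`. -/
theorem coord_smul (C : OriginChart R g) (hdegL : ∀ P : Place L FL, P.deg = 1)
    (hπ : Function.Surjective π) (hR : RiemannGe L FL g)
    (hoff : ∃ Pstar : Place L FL, ∀ i, C.Qb i ≠ r Pstar)
    (γ : SemilinearAut L FL) (hin : ∀ P : Place L FL, r (γ • P) = r P)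
    (hT : ∀ i, γ • ((C.T i : R.O) : FL) = ((C.T i : R.O) : FL)) (z : J1 r) (i : Fin g) :
    ((C.coord hdegL hR ⟨γ • (z : Pic0 L FL), smul_mem_J1 γ hin z.2⟩ i : A) : L) =
      SemilinearAut.baseAut γ ((C.coord hdegL hR z i : A) : L) :=
  coord_smul_map C C hdegL hπ hR hoff γ id hin (fun _ => rfl)
    (fun j => (smul_place_eq_of_zero γ hin (C.hT j) (hT j) (C.hQ j) (C.hT0 j)).symm)
    (fun j => (hT j).symm) z _ rfl i

/-- the coordinates of a class fixed by an inertial `γ` fixing the parameters are fixed -/
theorem coord_baseAut_fixed (C : OriginChart R g) (hdegL : ∀ P : Place L FL, P.deg = 1)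
    (hπ : Function.Surjective π) (hR : RiemannGe L FL g)
    (hoff : ∃ Pstar : Place L FL, ∀ i, C.Qb i ≠ r Pstar)
    (γ : SemilinearAut L FL) (hin : ∀ P : Place L FL, r (γ • P) = r P)
    (hT : ∀ i, γ • ((C.T i : R.O) : FL) = ((C.T i : R.O) : FL)) (z : J1 r)
    (hz : γ • (z : Pic0 L FL) = (z : Pic0 L FL)) (i : Fin g) :
    SemilinearAut.baseAut γ ((C.coord hdegL hR z i : A) : L) =
      ((C.coord hdegL hR z i : A) : L) := by
  have h := coord_smul C hdegL hπ hR hoff γ hin hT z i
  have hz' : (⟨γ • (z : Pic0 L FL), smul_mem_J1 γ hin z.2⟩ : J1 r) = z := Subtype.ext hz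
  rw [hz'] at h
  exact h.symm

end Coord

end Fermat.Agent.S19.ChartSymm
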