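import Fermat.Agent.S19.InterpDatum
import Fermat.Agent.S19.Chart

/-!
# S19 (helper18), adapter: the origin chart of an interpolation datum

`InterpDatum.Datum R g` (helper22) forgets to `Chart.OriginChart R g`; for `0 < g` the place
`Rp 0` lies off the discs of the chart, which is the hypothesis `hoff` of `Chart.lean`.
-/

set_option autoImplicit false
set_option linter.unusedSectionVars false

namespace Fermat.Agent.S19.ChartDatum

open AlgebraicCurve Fermat.Agent.S18.CoreDefs Fermat.Agent.S18.Disc Fermat.Agent.S19.Chart

variable {L : Type*} [Field L] {FL : Type*} [Field FL] [Algebra L FL]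
variable {k : Type*} [Field k] {Fk : Type*} [Field Fk] [Algebra k Fk]
variable {A : ValuationSubring L} {π : A →+* k} {r : Place L FL → Place k Fk}
variable [HasPrincipalDivisors L FL] {R : RedDatum A π r} {g : ℕ}

/-- the origin chart of an interpolation datum -/
def toOriginChart (d : InterpDatum.Datum R g) : OriginChart R g where
  Qb := d.Qb
  Qb_inj := d.Qb_inj
  rigid := d.rigidQ
  Q := d.Q
  hQ := d.hQ
  T := d.T
  hT := d.hT
  hT0 := d.hT0

@[simp] theorem toOriginChart_Qb (d : InterpDatum.Datum R g) : (toOriginChart d).Qb = d.Qb := rfl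
@[simp] theorem toOriginChart_Q (d : InterpDatum.Datum R g) : (toOriginChart d).Q = d.Q := rfl
@[simp] theorem toOriginChart_T (d : InterpDatum.Datum R g) : (toOriginChart d).T = d.T := rfl

/-- for `0 < g`, the place `Rp 0` is off the discs of the chart -/
theorem exists_off (d : InterpDatum.Datum R g) (hg : 0 < g) :
    ∃ Pstar : Place L FL, ∀ i, (toOriginChart d).Qb i ≠ r Pstar :=
  ⟨d.Rp ⟨0, hg⟩, fun i => by rw [d.hRp]; exact d.disj i _⟩

end Fermat.Agent.S19.ChartDatum
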