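import Fermat.Agent.S19.AddLaw
import Fermat.Agent.S19.ChartDatum

/-!
# S19 (helper18), seam (i'): the addition law of the kernel of reduction in chart coordinates

`coord_add` : class form of `AddLaw.exists_add_congr` (helper7): for `z z' : J1 r`,
`coord (z + z') ≡ Psi_n (coord z, coord z')` modulo `c ^ n`, `c ∈ 𝔪_A` independent of `n`.
-/

set_option autoImplicit false
set_option linter.unusedSectionVars false
set_option linter.unusedVariables false

universe uS

namespace Fermat.Agent.S19.ChartAdd

open AlgebraicCurve Fermat.Agent.S18.CoreDefs Fermat.Agent.S18.Disc Fermat.Agent.S18.NonSpecial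
  Fermat.Agent.S19.Chart Fermat.Agent.S19.ChartDatum Fermat.Agent.S19.InterpDatum
  Fermat.Agent.S19.TruncAdd Fermat.Agent.S19.AddLaw

variable {L : Type*} [Field L] {FL : Type*} [Field FL] [Algebra L FL]
variable {k : Type*} [Field k] {Fk : Type*} [Field Fk] [Algebra k Fk]
variable {A : ValuationSubring L} {π : A →+* k} {r : Place L FL → Place k Fk}
variable [HasPrincipalDivisors L FL] [HasPrincipalDivisors k Fk] {R : RedDatum A π r} {g : ℕ}

/-- **The addition law in chart coordinates** (class form of `exists_add_congr`). -/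
theorem coord_add (hπ : Function.Surjective π) (hL : RiemannHyp L FL g) (d : Datum R g)
    (φ : Idx g → R.O)
    (hspan : ∀ f : R.O, (f : FL) ∈ riemannRochSpace d.E → ∃ (c0 : A) (c : Idx g → A),
      (f : FL) = algebraMap L FL (c0 : L) + ∑ a, algebraMap L FL (c a : L) * ((φ a : R.O) : FL))
    (hind : LinearIndependent k (Sum.elim (fun _ : Unit => (1 : Fk)) (fun a => R.red (φ a))))
    (hdegL : ∀ P : Place L FL, P.deg = 1) (hR : RiemannGe L FL g) (z z' : J1 r) :
    ∃ c : A, c ∈ IsLocalRing.maximalIdeal A ∧
      (∀ i, (toOriginChart d).coord hdegL hR z i ∈ Ideal.span {c} ∧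
        (toOriginChart d).coord hdegL hR z' i ∈ Ideal.span {c} ∧
        (toOriginChart d).coord hdegL hR (z + z') i ∈ Ideal.span {c}) ∧
      ∀ {S : Type uS} [CommRing S] [Algebra S A] (D : ℕ → TaylorData S g)
        (_ : ∀ N, TaylorAt d φ (D N) N) (n : ℕ) (i : Fin g),
        (toOriginChart d).coord hdegL hR (z + z') i -
          MvPolynomial.aeval (Sum.elim ((toOriginChart d).coord hdegL hR z)
            ((toOriginChart d).coord hdegL hR z')) (Psi (D (n + 1)) n i) ∈ Ideal.span {c} ^ n := by
  rcases Nat.eq_zero_or_pos g with rfl | hg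
  · exact ⟨0, zero_mem _, fun i => i.elim0, fun _ _ _ i => i.elim0⟩
  · have hoff := exists_off d hg
    have h := exists_add_congr hπ hL d φ hspan hind
      ((toOriginChart d).pts hdegL hR z) ((toOriginChart d).pts hdegL hR z')
      ((toOriginChart d).r_pts hdegL hR z) ((toOriginChart d).r_pts hdegL hR z')
      ((toOriginChart d).coord hdegL hR z) ((toOriginChart d).coord hdegL hR z')
      ((toOriginChart d).valAt_coord hdegL hR z) ((toOriginChart d).valAt_coord hdegL hR z')
    exact (toOriginChart d).coord_add_of_exists hdegL hπ hR hoff z z'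
      (Φ := fun x'' c => ∀ {S : Type uS} [CommRing S] [Algebra S A] (D : ℕ → TaylorData S g)
        (_ : ∀ N, TaylorAt d φ (D N) N) (n : ℕ) (i : Fin g),
        x'' i - MvPolynomial.aeval (Sum.elim ((toOriginChart d).coord hdegL hR z)
          ((toOriginChart d).coord hdegL hR z')) (Psi (D (n + 1)) n i) ∈ Ideal.span {c} ^ n) h

end Fermat.Agent.S19.ChartAdd
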