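/-
PROJECT F (S19), slice F-FlipExist (helper25; helper7 #2991 "flip existence"):

In the abstract frame of `S18/Core` (`R : RedDatum A π r`, Riemann's inequality on the generic fibre):
if `E - M` has degree `≥ g` and every section of `O(r_* E - r_* M)` on the special fibre is constant, then
there is a Gauss unit `u` with `red u = 1`, `u ∈ L(E - M)`, and the residual divisor
`Z = div u + E - M` is effective with `r_* Z = r_* E - r_* M`.
-/
import Fermat.Agent.S18.Core
import Fermat.Agent.S18.NonSpecial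

set_option autoImplicit false

namespace Fermat.Agent.S19.FlipExist

open AlgebraicCurve Fermat.Agent.S18.CoreDefs Fermat.Agent.S18.CoreOrd Fermat.Agent.S24.Ord
open Fermat.Agent.S18.Core

variable {L : Type*} [Field L] {FL : Type*} [Field FL] [Algebra L FL]
variable {k : Type*} [Field k] {Fk : Type*} [Field Fk] [Algebra k Fk]
variable {A : ValuationSubring L} {π : A →+* k} {r : Place L FL → Place k Fk}

/-- the reduction of a Gauss unit lying in `L(D)` lies in `L(r_* D)` -/
theorem red_unit_mem_riemannRochSpace [HasPrincipalDivisors L FL] (R : RedDatum A π r)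
    (D : Divisor L FL) (u : R.Oˣ) (hmem : ((u : R.O) : FL) ∈ riemannRochSpace D) :
    R.red (u : R.O) ∈ riemannRochSpace (Finsupp.mapDomain r D) := by
  have hu0 : ((u : R.O) : FL) ≠ 0 := coe_unit_ne_zero R u
  obtain ⟨Dy, hDy, -⟩ := HasPrincipalDivisors.exists_divisor (K := L) ((u : R.O) : FL) hu0
  have hc := R.compat u Dy hDy
  rw [mem_riemannRochSpace_iff]
  intro Q
  right
  rw [← hc Q]
  have hnn : 0 ≤ Finsupp.mapDomain r (Dy + D) Q := by
    refine mapDomain_nonneg r (Dy + D) Q fun P _ => ?_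
    have := ((mem_riemannRochSpace_iff.mp hmem) P).resolve_left hu0
    rw [Finsupp.add_apply, hDy P]
    omega
  rw [Finsupp.mapDomain_add, Finsupp.add_apply] at hnn
  omega

/-- **flip existence** (degree `≥ g`). -/
theorem exists_flip [HasPrincipalDivisors L FL] (R : RedDatum A π r)
    (hπ : Function.Surjective π) {g : ℕ} (hRg : RiemannGe L FL g)
    (E M : Divisor L FL) (hdeg : (g : ℤ) ≤ Divisor.degree (E - M))
    (hrigid : ∀ y : Fk,
      y ∈ riemannRochSpace (Finsupp.mapDomain r E - Finsupp.mapDomain r M) →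
        ∃ c : k, y = algebraMap k Fk c) :
    ∃ (u : R.Oˣ) (Z : Divisor L FL), R.red (u : R.O) = 1 ∧
      ((u : R.O) : FL) ∈ riemannRochSpace (E - M) ∧ 0 ≤ Z ∧
      (∀ P : Place L FL, Z P = P.ord ((u : R.O) : FL) + E P - M P) ∧
      Finsupp.mapDomain r Z = Finsupp.mapDomain r E - Finsupp.mapDomain r M := by
  obtain ⟨f, hf, hfL⟩ := hRg (E - M) hdeg
  obtain ⟨c, hc, u0, hfu⟩ := R.exists_const_mul_unit f hf
  -- `u0` lies in `L(E - M)`
  have hu0L : ((u0 : R.O) : FL) ∈ riemannRochSpace (E - M) := by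
    rw [mem_riemannRochSpace_iff]
    intro P
    right
    have h := ((mem_riemannRochSpace_iff.mp hfL) P).resolve_left hf
    rwa [hfu, ord_const_mul P hc] at h
  -- its reduction is a non-zero constant
  have hred0 := red_unit_mem_riemannRochSpace R (E - M) u0 hu0L
  rw [Finsupp.mapDomain_sub] at hred0
  obtain ⟨γ, hγ⟩ := hrigid _ hred0
  have hγ0 : γ ≠ 0 := by
    rintro rfl
    rw [map_zero] at hγ
    exact red_unit_ne_zero R u0 hγ
  obtain ⟨a, rfl⟩ := hπ γ
  obtain ⟨u, hucoe, hured⟩ := exists_div_const R u0 a hγ0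
  have ha0 : (a : L) ≠ 0 := coe_ne_zero_of_pi_ne_zero hγ0
  have hured1 : R.red (u : R.O) = 1 := by
    rw [hured, hγ]
    exact mul_inv_cancel₀ ((map_ne_zero_iff _ (algebraMap k Fk).injective).mpr hγ0)
  have hordu : ∀ P : Place L FL, P.ord ((u : R.O) : FL) = P.ord ((u0 : R.O) : FL) := by
    intro P
    rw [hucoe, ← map_inv₀, ord_mul_const P (inv_ne_zero ha0)]
  have hune : ((u : R.O) : FL) ≠ 0 := coe_unit_ne_zero R u
  have huL : ((u : R.O) : FL) ∈ riemannRochSpace (E - M) := by
    rw [mem_riemannRochSpace_iff]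
    intro P
    right
    have h := ((mem_riemannRochSpace_iff.mp hu0L) P).resolve_left (coe_unit_ne_zero R u0)
    rwa [hordu P]
  obtain ⟨Du, hDu, -⟩ := HasPrincipalDivisors.exists_divisor (K := L) ((u : R.O) : FL) hune
  refine ⟨u, Du + E - M, hured1, huL, ?_, ?_, ?_⟩
  · intro P
    have h := ((mem_riemannRochSpace_iff.mp huL) P).resolve_left hune
    rw [Finsupp.sub_apply] at h
    rw [Finsupp.coe_zero, Pi.zero_apply, Finsupp.sub_apply, Finsupp.add_apply, hDu P]
    omega
  · intro P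
    rw [Finsupp.sub_apply, Finsupp.add_apply, hDu P]
  · have h0 : Finsupp.mapDomain r Du = 0 := by
      ext Q
      rw [R.compat u Du hDu Q, hured1, Place.ord_one, Finsupp.zero_apply]
    rw [Finsupp.mapDomain_sub, Finsupp.mapDomain_add, h0, zero_add]

/-- **flip existence**, in the shape of helper7 #2991 (degree `= g`). -/
theorem exists_flip_of_degree_eq [HasPrincipalDivisors L FL] (R : RedDatum A π r)
    (hπ : Function.Surjective π) {g : ℕ} (hRg : RiemannGe L FL g)
    (E M : Divisor L FL) (hdeg : Divisor.degree (E - M) = g)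
    (hrigid : ∀ y : Fk,
      y ∈ riemannRochSpace (Finsupp.mapDomain r E - Finsupp.mapDomain r M) →
        ∃ c : k, y = algebraMap k Fk c) :
    ∃ (u : R.Oˣ) (Z : Divisor L FL), R.red (u : R.O) = 1 ∧
      ((u : R.O) : FL) ∈ riemannRochSpace (E - M) ∧ 0 ≤ Z ∧
      (∀ P : Place L FL, Z P = P.ord ((u : R.O) : FL) + E P - M P) ∧
      Finsupp.mapDomain r Z = Finsupp.mapDomain r E - Finsupp.mapDomain r M :=
  exists_flip R hπ hRg E M (le_of_eq hdeg.symm) hrigid


/-! ### coefficients of the flip function in a reduced basis -/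

section Coeffs

variable {ι : Type*} [Fintype ι]

/-- a Gauss unit with reduction `1`, written in a family `1, φ a` whose reductions are
`k`-independent, has constant coefficient `≡ 1` and all other coefficients in `𝔪_A` -/
theorem pi_coeffs_of_red_eq_one (R : RedDatum A π r) (φ : ι → R.O)
    (hind : LinearIndependent k (Sum.elim (fun _ : Unit => (1 : Fk)) (fun a => R.red (φ a))))
    (u : R.O) (hu : R.red u = 1) (c0 : A) (c : ι → A)
    (h : (u : FL) = algebraMap L FL (c0 : L) + ∑ a, algebraMap L FL (c a : L) * ((φ a : R.O) : FL)) :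
    π c0 = 1 ∧ ∀ a, π (c a) = 0 := by
  classical
  have hO : u = constO R c0 + ∑ a, constO R (c a) * φ a := by
    apply Subtype.ext
    rw [h]
    push_cast
    rfl
  have hred : (1 : Fk) = algebraMap k Fk (π c0) + ∑ a, algebraMap k Fk (π (c a)) * R.red (φ a) := by
    rw [← hu, hO, map_add, map_sum, red_constO]
    congr 1
    refine Finset.sum_congr rfl fun a _ => ?_
    rw [map_mul, red_constO]
  -- the linear relation
  set w : Unit ⊕ ι → k := Sum.elim (fun _ => π c0 - 1) (fun a => π (c a)) with hw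
  have hrel : ∑ x, w x • (Sum.elim (fun _ : Unit => (1 : Fk)) (fun a => R.red (φ a))) x = 0 := by
    rw [Fintype.sum_sum_type]
    simp only [hw, Sum.elim_inl, Sum.elim_inr, Finset.univ_unique, Finset.sum_singleton]
    rw [Algebra.smul_def, mul_one, map_sub, map_one]
    have : ∑ a, π (c a) • R.red (φ a) = ∑ a, algebraMap k Fk (π (c a)) * R.red (φ a) :=
      Finset.sum_congr rfl fun a _ => Algebra.smul_def _ _
    rw [this]
    linear_combination -hred
  have hz := Fintype.linearIndependent_iff.mp hind w hrel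
  refine ⟨?_, fun a => ?_⟩
  · have := hz (Sum.inl ())
    simp only [hw, Sum.elim_inl] at this
    exact sub_eq_zero.mp this
  · have := hz (Sum.inr a)
    simpa only [hw, Sum.elim_inr] using this

/-- **flip existence with normalised coefficients**: the flip function can be taken of the form
`1 + ∑ ξ a • φ a` with `ξ a ∈ 𝔪_A`. -/
theorem exists_flip_coeffs [HasPrincipalDivisors L FL] (R : RedDatum A π r)
    (hπ : Function.Surjective π) {g : ℕ} (hRg : RiemannGe L FL g)
    (E M : Divisor L FL) (hM : 0 ≤ M) (hdeg : (g : ℤ) ≤ Divisor.degree (E - M))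
    (hrigid : ∀ y : Fk,
      y ∈ riemannRochSpace (Finsupp.mapDomain r E - Finsupp.mapDomain r M) →
        ∃ c : k, y = algebraMap k Fk c)
    (φ : ι → R.O)
    (hspan : ∀ f : R.O, (f : FL) ∈ riemannRochSpace E → ∃ (c0 : A) (c : ι → A),
      (f : FL) = algebraMap L FL (c0 : L) + ∑ a, algebraMap L FL (c a : L) * ((φ a : R.O) : FL))
    (hind : LinearIndependent k (Sum.elim (fun _ : Unit => (1 : Fk)) (fun a => R.red (φ a)))) :
    ∃ (w : R.Oˣ) (ξ : ι → A) (Z : Divisor L FL), R.red (w : R.O) = 1 ∧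
      (∀ a, ξ a ∈ IsLocalRing.maximalIdeal A) ∧
      ((w : R.O) : FL) = 1 + ∑ a, algebraMap L FL (ξ a : L) * ((φ a : R.O) : FL) ∧
      ((w : R.O) : FL) ∈ riemannRochSpace (E - M) ∧ 0 ≤ Z ∧
      (∀ P : Place L FL, Z P = P.ord ((w : R.O) : FL) + E P - M P) ∧
      Finsupp.mapDomain r Z = Finsupp.mapDomain r E - Finsupp.mapDomain r M := by
  obtain ⟨u, Z, hu1, huL, hZ0, hZ, hrZ⟩ := exists_flip R hπ hRg E M hdeg hrigid
  have hle : E - M ≤ E := sub_le_self E hM
  have huE : ((u : R.O) : FL) ∈ riemannRochSpace E :=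
    Fermat.Agent.S18.NonSpecial.riemannRochSpace_mono hle huL
  obtain ⟨c0, c, hc⟩ := hspan (u : R.O) huE
  obtain ⟨hπ0, hπc⟩ := pi_coeffs_of_red_eq_one R φ hind (u : R.O) hu1 c0 c hc
  have hπ0' : π c0 ≠ 0 := by rw [hπ0]; exact one_ne_zero
  have hc00 : (c0 : L) ≠ 0 := coe_ne_zero_of_pi_ne_zero hπ0'
  obtain ⟨w, hwcoe, hwred⟩ := exists_div_const R u c0 hπ0'
  have hc0unit : IsUnit c0 := by
    by_contra hnu
    exact hπ0' ((Fermat.Agent.S18.Disc.pi_eq_zero_iff R c0).mpr
      ((IsLocalRing.mem_maximalIdeal c0).mpr hnu))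
  obtain ⟨c0u, rfl⟩ := hc0unit
  -- the coefficients `c a / c0`
  set ξ : ι → A := fun a => c a * ((c0u⁻¹ : Aˣ) : A) with hξ
  have hinvcoe : (((c0u⁻¹ : Aˣ) : A) : L) = ((c0u : A) : L)⁻¹ := by
    have h1 : ((c0u : A) : L) * (((c0u⁻¹ : Aˣ) : A) : L) = 1 := by
      have h2 : ((c0u : A) * ((c0u⁻¹ : Aˣ) : A) : A) = 1 := Units.mul_inv c0u
      have h3 := congrArg (fun z : A => (z : L)) h2
      exact h3
    exact eq_inv_of_mul_eq_one_right h1
  have hordw : ∀ P : Place L FL, P.ord ((w : R.O) : FL) = P.ord ((u : R.O) : FL) := by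
    intro P
    rw [hwcoe, ← map_inv₀, ord_mul_const P (inv_ne_zero hc00)]
  refine ⟨w, ξ, Z, ?_, fun a => ?_, ?_, ?_, hZ0, fun P => ?_, hrZ⟩
  · rw [hwred, hu1, hπ0, map_one, inv_one, mul_one]
  · rw [← Fermat.Agent.S18.Disc.pi_eq_zero_iff R, hξ, map_mul, hπc a, zero_mul]
  · rw [hwcoe, hc, add_mul, Finset.sum_mul]
    have hA0 : algebraMap L FL ((c0u : A) : L) ≠ 0 :=
      (map_ne_zero_iff _ (algebraMap L FL).injective).mpr hc00
    congr 1
    · exact mul_inv_cancel₀ hA0
    · refine Finset.sum_congr rfl fun a _ => ?_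
      have hξcoe : ((ξ a : A) : L) = ((c a : A) : L) * ((c0u : A) : L)⁻¹ := by
        rw [← hinvcoe]
        rfl
      rw [hξcoe, map_mul, map_inv₀]
      ring
  · rw [mem_riemannRochSpace_iff]
    intro P
    right
    have h := ((mem_riemannRochSpace_iff.mp huL) P).resolve_left (coe_unit_ne_zero R u)
    rwa [hordw P]
  · rw [hordw P, hZ P]

end Coeffs

end Fermat.Agent.S19.FlipExist
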