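import Mathlib

/-!
# S19 scratch, slice W3 (helper7): divided differences of polynomials

`dd P x y = (P /ₘ (X - C x))(y)`, the divided difference `(P(y) - P(x)) / (y - x)` made sense of
over any commutative ring.  Used to express "P vanishes on the divisor `x + y`" as the two linear
conditions `P(x) = 0`, `dd P x y = 0`, also when `x = y` or `x - y` is a zero divisor.
-/

set_option autoImplicit false

namespace Fermat.Agent.S19.DivDiff

open Polynomial

variable {B : Type*} [CommRing B]

/-- divided difference -/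
noncomputable def dd (P : B[X]) (x y : B) : B := (P /ₘ (X - C x)).eval y

theorem divByMonic_X_sub_C_unique {P W : B[X]} {x c : B} (h : P = C c + (X - C x) * W) :
    P /ₘ (X - C x) = W := by
  nontriviality B
  refine (div_modByMonic_unique W (C c) (monic_X_sub_C x) ⟨h.symm, ?_⟩).1
  rw [degree_X_sub_C]
  exact lt_of_le_of_lt degree_C_le (by norm_num)

theorem dd_spec (P : B[X]) (x y : B) : P.eval y - P.eval x = (y - x) * dd P x y := by
  have h := modByMonic_add_div P (X - C x)
  rw [modByMonic_X_sub_C_eq_C_eval] at h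
  have h2 := congrArg (eval y) h
  simp only [eval_add, eval_C, eval_mul, eval_sub, eval_X] at h2
  rw [dd, ← h2]
  ring

theorem dd_of_eq {P W : B[X]} {x c : B} (h : P = C c + (X - C x) * W) (y : B) :
    dd P x y = W.eval y := by
  rw [dd, divByMonic_X_sub_C_unique h]

theorem dd_mul_left (W : B[X]) (x y : B) : dd ((X - C x) * W) x y = W.eval y :=
  dd_of_eq (c := 0) (by simp) y

theorem eq_C_add_mul (P : B[X]) (x : B) :
    P = C (P.eval x) + (X - C x) * (P /ₘ (X - C x)) := by
  have h := modByMonic_add_div P (X - C x)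
  rw [modByMonic_X_sub_C_eq_C_eval] at h
  exact h.symm

theorem dd_add (P Q : B[X]) (x y : B) : dd (P + Q) x y = dd P x y + dd Q x y := by
  have h : P + Q = C (P.eval x + Q.eval x) +
      (X - C x) * (P /ₘ (X - C x) + Q /ₘ (X - C x)) := by
    conv_lhs => rw [eq_C_add_mul P x, eq_C_add_mul Q x]
    rw [C_add]; ring
  rw [dd_of_eq h, eval_add]; rfl

theorem dd_C_mul (b : B) (P : B[X]) (x y : B) : dd (C b * P) x y = b * dd P x y := by
  have h : C b * P = C (b * P.eval x) + (X - C x) * (C b * (P /ₘ (X - C x))) := by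
    conv_lhs => rw [eq_C_add_mul P x]
    rw [C_mul]; ring
  rw [dd_of_eq h, eval_mul, eval_C]; rfl

theorem dd_zero (x y : B) : dd (0 : B[X]) x y = 0 := by
  have := dd_C_mul (0 : B) (0 : B[X]) x y
  simpa using this

theorem dd_sum {ι : Type*} (s : Finset ι) (P : ι → B[X]) (x y : B) :
    dd (∑ i ∈ s, P i) x y = ∑ i ∈ s, dd (P i) x y := by
  classical
  induction s using Finset.induction_on with
  | empty => simp [dd_zero]
  | insert i s hi ih => rw [Finset.sum_insert hi, Finset.sum_insert hi, dd_add, ih]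

theorem dd_C (b x y : B) : dd (C b) x y = 0 := by
  have h : (C b : B[X]) = C b + (X - C x) * 0 := by simp
  rw [dd_of_eq h]; simp

theorem dd_X (x y : B) : dd (X : B[X]) x y = 1 := by
  have h : (X : B[X]) = C x + (X - C x) * 1 := by ring
  rw [dd_of_eq h]; simp

theorem dd_X_sq (x y : B) : dd (X ^ 2 : B[X]) x y = x + y := by
  have h : (X ^ 2 : B[X]) = C (x ^ 2) + (X - C x) * (X + C x) := by
    rw [C_pow]; ring
  rw [dd_of_eq h]; simp [add_comm]

theorem map_dd {B' : Type*} [CommRing B'] (φ : B →+* B') (P : B[X]) (x y : B) :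
    φ (dd P x y) = dd (P.map φ) (φ x) (φ y) := by
  have h : P.map φ = C (φ (P.eval x)) + (X - C (φ x)) * (P /ₘ (X - C x)).map φ := by
    conv_lhs => rw [eq_C_add_mul P x]
    simp
  rw [dd_of_eq h, eval_map, dd, ← eval₂_hom]

theorem dd_zero_zero (P : B[X]) : dd P 0 0 = P.coeff 1 := by
  have h : P = C (P.coeff 0) + (X - C (0 : B)) * P.divX := by
    conv_lhs => rw [← divX_mul_X_add P]
    simp [mul_comm, add_comm]
  rw [dd_of_eq h, ← coeff_zero_eq_eval_zero, coeff_divX]

/-- `dd (X^N * R) x y` lies in `I^(N-1)` when `x, y ∈ I`. -/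
theorem dd_X_pow_mul_mem (I : Ideal B) {x y : B} (hx : x ∈ I) (hy : y ∈ I) (R : B[X]) (N : ℕ) :
    dd (X ^ N * R) x y ∈ I ^ (N - 1) := by
  induction N with
  | zero => simp
  | succ N ih =>
    have h : (X ^ (N + 1) * R : B[X]) = (X - C x) * (X ^ N * R) + C x * (X ^ N * R) := by ring
    rw [h, dd_add, dd_mul_left, dd_C_mul, Nat.add_sub_cancel]
    refine Ideal.add_mem _ ?_ ?_
    · rw [eval_mul, eval_pow, eval_X]
      exact Ideal.mul_mem_right _ _ (Ideal.pow_mem_pow hy N)
    · rcases N with _ | N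
      · simp
      · rw [Nat.add_sub_cancel] at ih
        rw [pow_succ', ]
        exact Ideal.mul_mem_mul hx ih

/-- `(X^N * R)(x)` lies in `I^N` when `x ∈ I`. -/
theorem eval_X_pow_mul_mem (I : Ideal B) {x : B} (hx : x ∈ I) (R : B[X]) (N : ℕ) :
    (X ^ N * R).eval x ∈ I ^ N := by
  rw [eval_mul, eval_pow, eval_X]
  exact Ideal.mul_mem_right _ _ (Ideal.pow_mem_pow hx N)

end Fermat.Agent.S19.DivDiff
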