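import Mathlib
import Fermat.Agent.S19.DivDiff

/-!
# S19 scratch, slice W3 (helper7): the universal truncated addition law, pure algebra

Input (`TaylorData S g`): polynomials `p a i`, `q a j : S[X]` (`a : Fin g ⊕ Fin g`, `i j : Fin g`),
to be thought of as the Taylor polynomials of `tᵢ² φ_a` at `Qᵢ` and of `uⱼ φ_a` at `Rⱼ`, where
`1, φ_a` is an integral basis of `L(∑ Rⱼ + 2 ∑ Qᵢ)`; two unit determinants (non-speciality on the
special fibre).

For an `S`-algebra `B` and nilpotent `x x' : Fin g → B` there is a UNIQUE solution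
`(ξ, ρ, η, σ)` (`Sol D x x'`) of the four interpolation steps

1. `f = 1 + ∑ ξ_a φ_a` vanishes on `∑ Pᵢ + ∑ P'ᵢ`  (coordinates `x i`, `x' i`);
2. `ρ j` = coordinate of the residual zero `Sⱼ` of `f` near `Rⱼ`  (Newton);
3. `h = 1 + ∑ η_a φ_a` vanishes on `∑ Sⱼ + ∑ Qᵢ`;
4. `σ i` = coordinate of the residual zero `P''ᵢ` of `h` near `Qᵢ`  (Newton).

It is functorial in `B`; `Psi D n i` is a polynomial representative of `σ i` over
`S[s,s'] / (s,s')^n`, and `approx` says that any approximate solution modulo an ideal `J` of an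
`S`-algebra `A` has `x'' ≡ Psi (x, x') mod J`.
-/

set_option autoImplicit false

noncomputable section

namespace Fermat.Agent.S19.TruncAdd

open Polynomial Matrix Fermat.Agent.S19.DivDiff

/-- index type of the interpolation basis (without the constant function) -/
abbrev Idx (g : ℕ) := Fin g ⊕ Fin g

/-- the Taylor data -/
structure TaylorData (S : Type*) [CommRing S] (g : ℕ) where
  p : Idx g → Fin g → S[X]
  q : Idx g → Fin g → S[X]
  det1 : IsUnit (Matrix.of fun (row a : Idx g) =>
    Sum.elim (fun i => (p a i).coeff 0) (fun i => (p a i).coeff 1) row).det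
  det2 : IsUnit (Matrix.of fun (row a : Idx g) =>
    Sum.elim (fun j => (q a j).coeff 0) (fun i => (p a i).coeff 0) row).det

variable {S : Type*} [CommRing S] {g : ℕ} (D : TaylorData S g)
variable {B : Type*} [CommRing B] [Algebra S B]

/-- the matrix of step 1 -/
def N1 (x x' : Fin g → B) : Matrix (Idx g) (Idx g) B :=
  Matrix.of fun row a => Sum.elim (fun i => aeval (x i) (D.p a i))
    (fun i => dd ((D.p a i).map (algebraMap S B)) (x i) (x' i)) row

/-- the right hand side of step 1 -/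
def b1 (x x' : Fin g → B) : Idx g → B := Sum.elim (fun i => x i ^ 2) (fun i => x i + x' i)

/-- the matrix of step 3 -/
def N2 (ρ : Fin g → B) : Matrix (Idx g) (Idx g) B :=
  Matrix.of fun row a => Sum.elim (fun j => aeval (ρ j) (D.q a j))
    (fun i => algebraMap S B ((D.p a i).coeff 0)) row

/-- the right hand side of step 3 -/
def b2 (ρ : Fin g → B) : Idx g → B := Sum.elim ρ (fun _ => 0)

/-! ### functoriality of the matrices -/

section Functorial

variable {B' : Type*} [CommRing B'] [Algebra S B'] (φ : B →ₐ[S] B')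

theorem map_N1 (x x' : Fin g → B) :
    (N1 D x x').map φ = N1 D (φ ∘ x) (φ ∘ x') := by
  ext row a
  rcases row with i | i
  · simp only [N1, Matrix.map_apply, Matrix.of_apply, Sum.elim_inl, Function.comp_apply]
    exact (aeval_algHom_apply φ (x i) (D.p a i)).symm
  · simp only [N1, Matrix.map_apply, Matrix.of_apply, Sum.elim_inr, Function.comp_apply]
    have := map_dd (φ : B →+* B') ((D.p a i).map (algebraMap S B)) (x i) (x' i)
    rw [Polynomial.map_map, φ.comp_algebraMap] at this
    exact this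

theorem map_b1 (x x' : Fin g → B) : φ ∘ b1 x x' = b1 (φ ∘ x) (φ ∘ x') := by
  funext row
  rcases row with i | i <;> simp [b1]

theorem map_N2 (ρ : Fin g → B) : (N2 D ρ).map φ = N2 D (φ ∘ ρ) := by
  ext row a
  rcases row with j | i
  · simp only [N2, Matrix.map_apply, Matrix.of_apply, Sum.elim_inl, Function.comp_apply]
    exact (aeval_algHom_apply φ (ρ j) (D.q a j)).symm
  · simp [N2]

theorem map_b2 (ρ : Fin g → B) : φ ∘ b2 ρ = b2 (φ ∘ ρ) := by
  funext row
  rcases row with i | i <;> simp [b2]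

end Functorial

/-! ### unit determinants -/

theorem map_det' {B' : Type*} [CommRing B'] (f : B →+* B') (M : Matrix (Idx g) (Idx g) B) :
    f M.det = (M.map f).det := by
  rw [RingHom.map_det, RingHom.mapMatrix_apply]

theorem isUnit_of_isUnit_mk_nilradical {b : B}
    (h : IsUnit (Ideal.Quotient.mk (nilradical B) b)) : IsUnit b := by
  have : IsLocalHom (Ideal.Quotient.mk (nilradical B)) :=
    isLocalHom_of_le_jacobson_bot _ (Ideal.radical_le_jacobson)
  exact isUnit_of_map_unit (Ideal.Quotient.mk (nilradical B)) b h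

theorem mk_eq_zero_of_isNilpotent {b : B} (h : IsNilpotent b) :
    Ideal.Quotient.mkₐ S (nilradical B) b = 0 := by
  rw [Ideal.Quotient.mkₐ_eq_mk, Ideal.Quotient.eq_zero_iff_mem]
  exact (mem_nilradical).mpr h

theorem isUnit_det_N1 (x x' : Fin g → B) (hx : ∀ i, IsNilpotent (x i))
    (hx' : ∀ i, IsNilpotent (x' i)) : IsUnit (N1 D x x').det := by
  apply isUnit_of_isUnit_mk_nilradical
  set φ : B →ₐ[S] B ⧸ nilradical B := Ideal.Quotient.mkₐ S (nilradical B) with hφ
  have h1 : Ideal.Quotient.mk (nilradical B) (N1 D x x').det = ((N1 D x x').map φ).det :=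
    map_det' (Ideal.Quotient.mk (nilradical B)) _
  have h2 : (N1 D x x').map φ = (Matrix.of fun (row a : Idx g) =>
      Sum.elim (fun i => (D.p a i).coeff 0) (fun i => (D.p a i).coeff 1) row).map
      (algebraMap S (B ⧸ nilradical B)) := by
    rw [map_N1]
    ext row a
    rcases row with i | i
    · simp only [N1, Matrix.of_apply, Sum.elim_inl, Function.comp_apply, Matrix.map_apply,
        mk_eq_zero_of_isNilpotent (hx i), hφ]
      rw [← coeff_zero_eq_aeval_zero']
    · simp only [N1, Matrix.of_apply, Sum.elim_inr, Function.comp_apply, Matrix.map_apply,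
        mk_eq_zero_of_isNilpotent (hx i), mk_eq_zero_of_isNilpotent (hx' i), hφ]
      rw [dd_zero_zero, coeff_map]
  rw [h1, h2, ← map_det']
  exact D.det1.map _

theorem isUnit_det_N2 (ρ : Fin g → B) (hρ : ∀ j, IsNilpotent (ρ j)) : IsUnit (N2 D ρ).det := by
  apply isUnit_of_isUnit_mk_nilradical
  set φ : B →ₐ[S] B ⧸ nilradical B := Ideal.Quotient.mkₐ S (nilradical B) with hφ
  have h1 : Ideal.Quotient.mk (nilradical B) (N2 D ρ).det = ((N2 D ρ).map φ).det :=
    map_det' (Ideal.Quotient.mk (nilradical B)) _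
  have h2 : (N2 D ρ).map φ = (Matrix.of fun (row a : Idx g) =>
      Sum.elim (fun j => (D.q a j).coeff 0) (fun i => (D.p a i).coeff 0) row).map
      (algebraMap S (B ⧸ nilradical B)) := by
    rw [map_N2]
    ext row a
    rcases row with j | i
    · simp only [N2, Matrix.of_apply, Sum.elim_inl, Function.comp_apply, Matrix.map_apply,
        mk_eq_zero_of_isNilpotent (hρ j), hφ]
      rw [← coeff_zero_eq_aeval_zero']
    · simp only [N2, Matrix.of_apply, Sum.elim_inr, Matrix.map_apply]
  rw [h1, h2, ← map_det']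
  exact D.det2.map _

/-! ### the Newton polynomials -/

/-- `X + ∑ ξ_a f_a` -/
def comb (ξ : Idx g → B) (f : Idx g → S[X]) : B[X] :=
  X + ∑ a, C (ξ a) * (f a).map (algebraMap S B)

theorem eval_comb (ξ : Idx g → B) (f : Idx g → S[X]) (r : B) :
    (comb ξ f).eval r = r + ∑ a, ξ a * aeval r (f a) := by
  simp only [comb, eval_add, eval_X, eval_finsetSum, eval_mul, eval_C, eval_map_algebraMap]

theorem aeval_comb (ξ : Idx g → B) (f : Idx g → S[X]) (r : B) :
    aeval r (comb ξ f) = r + ∑ a, ξ a * aeval r (f a) := by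
  rw [← eval_comb]; simp [aeval_def]

theorem map_comb {B' : Type*} [CommRing B'] [Algebra S B'] (φ : B →ₐ[S] B') (ξ : Idx g → B)
    (f : Idx g → S[X]) : (comb ξ f).map (φ : B →+* B') = comb (φ ∘ ξ) f := by
  simp only [comb, Polynomial.map_add, map_X, Polynomial.map_sum, Polynomial.map_mul, map_C,
    Polynomial.map_map, RingHom.coe_coe, Function.comp_apply, φ.comp_algebraMap]

theorem sum_mul_isNilpotent {ι : Type*} (s : Finset ι) (ξ c : ι → B)
    (hξ : ∀ a ∈ s, IsNilpotent (ξ a)) : IsNilpotent (∑ a ∈ s, ξ a * c a) := by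
  rw [← mem_nilradical]
  refine Ideal.sum_mem _ fun a ha => Ideal.mul_mem_right _ _ ?_
  exact mem_nilradical.mpr (hξ a ha)

/-- Newton: `comb ξ f` has a unique nilpotent root when the `ξ a` are nilpotent. -/
theorem existsUnique_root_comb (ξ : Idx g → B) (hξ : ∀ a, IsNilpotent (ξ a))
    (f : Idx g → S[X]) :
    ∃! r : B, IsNilpotent r ∧ r + ∑ a, ξ a * aeval r (f a) = 0 := by
  have h0 : IsNilpotent (aeval (0 : B) (comb ξ f)) := by
    rw [aeval_comb, zero_add]
    exact sum_mul_isNilpotent _ _ _ fun a _ => hξ a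
  have h1 : IsUnit (aeval (0 : B) (derivative (comb ξ f))) := by
    have : derivative (comb ξ f) = 1 + ∑ a, C (ξ a) * derivative ((f a).map (algebraMap S B)) := by
      simp [comb]
    rw [this, map_add, map_one, map_sum]
    refine IsNilpotent.isUnit_one_add ?_
    simp only [map_mul, aeval_C, Algebra.algebraMap_self, RingHom.id_apply]
    exact sum_mul_isNilpotent _ _ _ fun a _ => hξ a
  obtain ⟨r, ⟨hr1, hr2⟩, huniq⟩ := existsUnique_nilpotent_sub_and_aeval_eq_zero h0 h1
  rw [zero_sub, isNilpotent_neg_iff] at hr1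
  rw [aeval_comb] at hr2
  refine ⟨r, ⟨hr1, hr2⟩, fun r' ⟨hr1', hr2'⟩ => huniq r' ⟨?_, ?_⟩⟩
  · rw [zero_sub, isNilpotent_neg_iff]; exact hr1'
  · rw [aeval_comb]; exact hr2'

/-! ### solutions -/

/-- A solution of the four interpolation steps over `B` at `(x, x')`. -/
structure Sol (x x' : Fin g → B) where
  ξ : Idx g → B
  ρ : Fin g → B
  η : Idx g → B
  σ : Fin g → B
  ρ_nil : ∀ j, IsNilpotent (ρ j)
  σ_nil : ∀ i, IsNilpotent (σ i)
  eq1 : (N1 D x x').mulVec ξ + b1 x x' = 0
  eq2 : ∀ j, ρ j + ∑ a, ξ a * aeval (ρ j) (D.q a j) = 0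
  eq3 : (N2 D ρ).mulVec η + b2 ρ = 0
  eq4 : ∀ i, σ i + ∑ a, η a * aeval (σ i) (D.p a i).divX = 0

theorem mulVec_isNilpotent (M : Matrix (Idx g) (Idx g) B) (b : Idx g → B)
    (hb : ∀ a, IsNilpotent (b a)) (a : Idx g) : IsNilpotent (M.mulVec b a) := by
  rw [Matrix.mulVec, dotProduct]
  simp only [mul_comm (M a _)]
  exact sum_mul_isNilpotent _ _ _ fun a _ => hb a

theorem eq_of_mulVec_add_eq_zero {M : Matrix (Idx g) (Idx g) B} (hM : IsUnit M.det)
    {v w b : Idx g → B} (hv : M.mulVec v + b = 0) (hw : M.mulVec w + b = 0) : v = w := by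
  apply Matrix.mulVec_injective_of_isUnit ((Matrix.isUnit_iff_isUnit_det M).mpr hM)
  exact add_right_cancel (hv.trans hw.symm)

theorem isNilpotent_of_mulVec_add_eq_zero {M : Matrix (Idx g) (Idx g) B} (hM : IsUnit M.det)
    {v b : Idx g → B} (hv : M.mulVec v + b = 0) (hb : ∀ a, IsNilpotent (b a)) (a : Idx g) :
    IsNilpotent (v a) := by
  have h1 : M.mulVec v = -b := eq_neg_of_add_eq_zero_left hv
  have h2 : v = M⁻¹.mulVec (-b) := by
    rw [← h1, Matrix.mulVec_mulVec, Matrix.nonsing_inv_mul M hM, Matrix.one_mulVec]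
  rw [h2]
  exact mulVec_isNilpotent _ _ (fun a => by simpa using (hb a).neg) a

theorem exists_mulVec_add_eq_zero {M : Matrix (Idx g) (Idx g) B} (hM : IsUnit M.det)
    (b : Idx g → B) : ∃ v : Idx g → B, M.mulVec v + b = 0 := by
  refine ⟨M⁻¹.mulVec (-b), ?_⟩
  rw [Matrix.mulVec_mulVec, Matrix.mul_nonsing_inv M hM, Matrix.one_mulVec, neg_add_cancel]

theorem b1_isNilpotent (x x' : Fin g → B) (hx : ∀ i, IsNilpotent (x i))
    (hx' : ∀ i, IsNilpotent (x' i)) (a : Idx g) : IsNilpotent (b1 x x' a) := by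
  rcases a with i | i
  · exact (hx i).pow_succ 1
  · exact (Commute.all _ _).isNilpotent_add (hx i) (hx' i)

theorem b2_isNilpotent (ρ : Fin g → B) (hρ : ∀ i, IsNilpotent (ρ i)) (a : Idx g) :
    IsNilpotent (b2 ρ a) := by
  rcases a with i | i
  · exact hρ i
  · exact IsNilpotent.zero

variable {D}

theorem Sol.ξ_nil {x x' : Fin g → B} (hx : ∀ i, IsNilpotent (x i))
    (hx' : ∀ i, IsNilpotent (x' i)) (s : Sol D x x') (a : Idx g) : IsNilpotent (s.ξ a) :=
  isNilpotent_of_mulVec_add_eq_zero (isUnit_det_N1 D x x' hx hx') s.eq1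
    (b1_isNilpotent x x' hx hx') a

theorem Sol.η_nil {x x' : Fin g → B} (s : Sol D x x') (a : Idx g) : IsNilpotent (s.η a) :=
  isNilpotent_of_mulVec_add_eq_zero (isUnit_det_N2 D s.ρ s.ρ_nil) s.eq3
    (b2_isNilpotent s.ρ s.ρ_nil) a

/-- **Uniqueness** of the solution at nilpotent `(x, x')`. -/
theorem Sol.ext_of_nil {x x' : Fin g → B} (hx : ∀ i, IsNilpotent (x i))
    (hx' : ∀ i, IsNilpotent (x' i)) (s t : Sol D x x') : s = t := by
  have hξ : s.ξ = t.ξ := eq_of_mulVec_add_eq_zero (isUnit_det_N1 D x x' hx hx') s.eq1 t.eq1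
  have hρ : s.ρ = t.ρ := by
    funext j
    obtain ⟨r, -, huniq⟩ := existsUnique_root_comb s.ξ (s.ξ_nil hx hx') (fun a => D.q a j)
    rw [huniq (s.ρ j) ⟨s.ρ_nil j, s.eq2 j⟩, huniq (t.ρ j) ⟨t.ρ_nil j, by rw [hξ]; exact t.eq2 j⟩]
  have hη : s.η = t.η := by
    have := t.eq3
    rw [← hρ] at this
    exact eq_of_mulVec_add_eq_zero (isUnit_det_N2 D s.ρ s.ρ_nil) s.eq3 this
  have hσ : s.σ = t.σ := by
    funext i
    obtain ⟨r, -, huniq⟩ := existsUnique_root_comb s.η s.η_nil (fun a => (D.p a i).divX)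
    rw [huniq (s.σ i) ⟨s.σ_nil i, s.eq4 i⟩, huniq (t.σ i) ⟨t.σ_nil i, by rw [hη]; exact t.eq4 i⟩]
  cases s; cases t
  simp only at hξ hρ hη hσ
  subst hξ hρ hη hσ
  rfl

variable (D)

/-- **Existence** of the solution at nilpotent `(x, x')`. -/
theorem Sol.exists_of_nil (x x' : Fin g → B) (hx : ∀ i, IsNilpotent (x i))
    (hx' : ∀ i, IsNilpotent (x' i)) : Nonempty (Sol D x x') := by
  obtain ⟨ξ, hξ⟩ := exists_mulVec_add_eq_zero (isUnit_det_N1 D x x' hx hx') (b1 x x')
  have hξn : ∀ a, IsNilpotent (ξ a) :=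
    isNilpotent_of_mulVec_add_eq_zero (isUnit_det_N1 D x x' hx hx') hξ (b1_isNilpotent x x' hx hx')
  have hρ : ∀ j, ∃ r : B, IsNilpotent r ∧ r + ∑ a, ξ a * aeval r (D.q a j) = 0 := fun j =>
    (existsUnique_root_comb ξ hξn (fun a => D.q a j)).exists
  choose ρ hρn hρe using hρ
  obtain ⟨η, hη⟩ := exists_mulVec_add_eq_zero (isUnit_det_N2 D ρ hρn) (b2 ρ)
  have hηn : ∀ a, IsNilpotent (η a) :=
    isNilpotent_of_mulVec_add_eq_zero (isUnit_det_N2 D ρ hρn) hη (b2_isNilpotent ρ hρn)
  have hσ : ∀ i, ∃ r : B, IsNilpotent r ∧ r + ∑ a, η a * aeval r (D.p a i).divX = 0 := fun i =>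
    (existsUnique_root_comb η hηn (fun a => (D.p a i).divX)).exists
  choose σ hσn hσe using hσ
  exact ⟨⟨ξ, ρ, η, σ, hρn, hσn, hξ, hρe, hη, hσe⟩⟩

variable {D}

/-- **Functoriality** of solutions. -/
def Sol.map {B' : Type*} [CommRing B'] [Algebra S B'] (φ : B →ₐ[S] B') {x x' : Fin g → B}
    (s : Sol D x x') : Sol D (φ ∘ x) (φ ∘ x') where
  ξ := φ ∘ s.ξ
  ρ := φ ∘ s.ρ
  η := φ ∘ s.η
  σ := φ ∘ s.σ
  ρ_nil j := (s.ρ_nil j).map φ
  σ_nil i := (s.σ_nil i).map φ
  eq1 := by
    have := congrArg (fun v => φ ∘ v) s.eq1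
    rw [← map_N1, ← map_b1]
    funext a
    have h := congrFun this a
    simp only [Function.comp_apply, Pi.add_apply, Pi.zero_apply, map_add, map_zero] at h ⊢
    rw [← h]
    congr 1
    simp only [Matrix.mulVec, dotProduct, map_sum, map_mul, Matrix.map_apply, Function.comp_apply]
  eq2 j := by
    have := congrArg φ (s.eq2 j)
    simp only [map_add, map_sum, map_mul, map_zero] at this
    simp only [Function.comp_apply]
    rw [← this]
    congr 1
    refine Finset.sum_congr rfl fun a _ => ?_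
    rw [aeval_algHom_apply]
  eq3 := by
    have := congrArg (fun v => φ ∘ v) s.eq3
    rw [← map_N2, ← map_b2]
    funext a
    have h := congrFun this a
    simp only [Function.comp_apply, Pi.add_apply, Pi.zero_apply, map_add, map_zero] at h ⊢
    rw [← h]
    congr 1
    simp only [Matrix.mulVec, dotProduct, map_sum, map_mul, Matrix.map_apply, Function.comp_apply]
  eq4 i := by
    have := congrArg φ (s.eq4 i)
    simp only [map_add, map_sum, map_mul, map_zero] at this
    simp only [Function.comp_apply]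
    rw [← this]
    congr 1
    refine Finset.sum_congr rfl fun a _ => ?_
    rw [aeval_algHom_apply]

/-! ### the universal truncated addition law -/

variable (S g)

/-- the ideal `(s, s')` of `S[s, s']` -/
def augIdeal : Ideal (MvPolynomial (Idx g) S) := Ideal.span (Set.range MvPolynomial.X)

/-- `Λ_n = S[s, s'] / (s, s')^n` -/
abbrev Lam (n : ℕ) := MvPolynomial (Idx g) S ⧸ (augIdeal S g) ^ n

/-- the universal first point -/
def xu (n : ℕ) (i : Fin g) : Lam S g n := Ideal.Quotient.mk _ (MvPolynomial.X (Sum.inl i))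

/-- the universal second point -/
def xu' (n : ℕ) (i : Fin g) : Lam S g n := Ideal.Quotient.mk _ (MvPolynomial.X (Sum.inr i))

theorem isNilpotent_mk_X (n : ℕ) (v : Idx g) :
    IsNilpotent (Ideal.Quotient.mk ((augIdeal S g) ^ n) (MvPolynomial.X v)) := by
  refine ⟨n, ?_⟩
  rw [← map_pow, Ideal.Quotient.eq_zero_iff_mem]
  exact Ideal.pow_mem_pow (Ideal.subset_span (Set.mem_range_self v)) n

variable {S g} (D)

/-- the universal solution over `Λ_n` -/
def univSol (n : ℕ) : Sol D (xu S g n) (xu' S g n) :=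
  Classical.choice (Sol.exists_of_nil D _ _ (fun _ => isNilpotent_mk_X S g n _)
    (fun _ => isNilpotent_mk_X S g n _))

/-- **The truncated addition law**: polynomial representatives of the universal `σ`. -/
def Psi (n : ℕ) (i : Fin g) : MvPolynomial (Idx g) S :=
  (Ideal.Quotient.mk_surjective ((univSol D n).σ i)).choose

theorem mk_Psi (n : ℕ) (i : Fin g) :
    Ideal.Quotient.mk ((augIdeal S g) ^ n) (Psi D n i) = (univSol D n).σ i :=
  (Ideal.Quotient.mk_surjective ((univSol D n).σ i)).choose_spec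

/-- **Specialisation.** An approximate solution modulo an ideal `J` of an `S`-algebra `A`, with
all coordinates in the radical of `J` and `(x, x')^n ⊆ J`, has `x'' ≡ Psi(x, x') mod J`. -/
theorem approx (n : ℕ) {A : Type*} [CommRing A] [Algebra S A] (J : Ideal A)
    (x x' : Fin g → A) (hx : ∀ i, x i ∈ J.radical) (hx' : ∀ i, x' i ∈ J.radical)
    (hJ : (Ideal.span (Set.range (Sum.elim x x'))) ^ n ≤ J)
    (ξ η : Idx g → A) (ρ x'' : Fin g → A)
    (hρ : ∀ j, ρ j ∈ J.radical) (hx'' : ∀ i, x'' i ∈ J.radical)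
    (h1 : ∀ row, ((N1 D x x').mulVec ξ + b1 x x') row ∈ J)
    (h2 : ∀ j, ρ j + ∑ a, ξ a * aeval (ρ j) (D.q a j) ∈ J)
    (h3 : ∀ row, ((N2 D ρ).mulVec η + b2 ρ) row ∈ J)
    (h4 : ∀ i, x'' i + ∑ a, η a * aeval (x'' i) (D.p a i).divX ∈ J) (i : Fin g) :
    x'' i - MvPolynomial.aeval (Sum.elim x x') (Psi D n i) ∈ J := by
  set mkJ : A →ₐ[S] A ⧸ J := Ideal.Quotient.mkₐ S J with hmkJ
  have hmk0 : ∀ a : A, a ∈ J → mkJ a = 0 := fun a ha => by
    rw [hmkJ, Ideal.Quotient.mkₐ_eq_mk, Ideal.Quotient.eq_zero_iff_mem]; exact ha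
  have hnil : ∀ a : A, a ∈ J.radical → IsNilpotent (mkJ a) := by
    rintro a ⟨m, hm⟩
    exact ⟨m, by rw [← map_pow]; exact hmk0 _ hm⟩
  -- the actual solution modulo `J`
  let t : Sol D (mkJ ∘ x) (mkJ ∘ x') :=
    { ξ := mkJ ∘ ξ
      ρ := mkJ ∘ ρ
      η := mkJ ∘ η
      σ := mkJ ∘ x''
      ρ_nil := fun j => hnil _ (hρ j)
      σ_nil := fun i => hnil _ (hx'' i)
      eq1 := by
        rw [← map_N1, ← map_b1]
        funext a
        have h := hmk0 _ (h1 a)
        simp only [Function.comp_apply, Pi.add_apply, Pi.zero_apply, map_add] at h ⊢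
        rw [← h]
        congr 1
        simp only [Matrix.mulVec, dotProduct, map_sum, map_mul, Matrix.map_apply,
          Function.comp_apply]
      eq2 := fun j => by
        have := hmk0 _ (h2 j)
        simp only [map_add, map_sum, map_mul] at this
        simp only [Function.comp_apply]
        rw [← this]
        congr 1
        refine Finset.sum_congr rfl fun a _ => ?_
        rw [aeval_algHom_apply]
      eq3 := by
        rw [← map_N2, ← map_b2]
        funext a
        have h := hmk0 _ (h3 a)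
        simp only [Function.comp_apply, Pi.add_apply, Pi.zero_apply, map_add] at h ⊢
        rw [← h]
        congr 1
        simp only [Matrix.mulVec, dotProduct, map_sum, map_mul, Matrix.map_apply,
          Function.comp_apply]
      eq4 := fun i => by
        have := hmk0 _ (h4 i)
        simp only [map_add, map_sum, map_mul] at this
        simp only [Function.comp_apply]
        rw [← this]
        congr 1
        refine Finset.sum_congr rfl fun a _ => ?_
        rw [aeval_algHom_apply] }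
  -- the evaluation homomorphism `Λ_n → A / J`
  set ev0 : MvPolynomial (Idx g) S →ₐ[S] A ⧸ J :=
    mkJ.comp (MvPolynomial.aeval (Sum.elim x x')) with hev0
  have hker : ∀ a : MvPolynomial (Idx g) S, a ∈ (augIdeal S g) ^ n → ev0 a = 0 := by
    intro a ha
    apply hmk0
    apply hJ
    have h1 : (MvPolynomial.aeval (Sum.elim x x') : MvPolynomial (Idx g) S →ₐ[S] A) a ∈
        Ideal.map (MvPolynomial.aeval (Sum.elim x x') : MvPolynomial (Idx g) S →ₐ[S] A)
          ((augIdeal S g) ^ n) := Ideal.mem_map_of_mem _ ha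
    rw [Ideal.map_pow, augIdeal, Ideal.map_span] at h1
    have h2 : (⇑(MvPolynomial.aeval (Sum.elim x x') : MvPolynomial (Idx g) S →ₐ[S] A) ''
        Set.range MvPolynomial.X) = Set.range (Sum.elim x x') := by
      ext b
      simp only [Set.mem_image, Set.mem_range, exists_exists_eq_and, MvPolynomial.aeval_X]
    rw [h2] at h1
    exact h1
  set ev : Lam S g n →ₐ[S] A ⧸ J := Ideal.Quotient.liftₐ _ ev0 hker with hev
  have hevmk : ∀ P : MvPolynomial (Idx g) S,
      ev (Ideal.Quotient.mk _ P) = mkJ (MvPolynomial.aeval (Sum.elim x x') P) := fun P => by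
    have := congrArg (fun f => f P) (Ideal.Quotient.liftₐ_comp _ ev0 hker)
    simp only [AlgHom.comp_apply, Ideal.Quotient.mkₐ_eq_mk] at this
    rw [hev, this, hev0, AlgHom.comp_apply]
  have hx1 : ev ∘ xu S g n = mkJ ∘ x := by
    funext i
    simp only [Function.comp_apply, xu, hevmk, MvPolynomial.aeval_X, Sum.elim_inl]
  have hx2 : ev ∘ xu' S g n = mkJ ∘ x' := by
    funext i
    simp only [Function.comp_apply, xu', hevmk, MvPolynomial.aeval_X, Sum.elim_inr]
  have key : ∀ (y y' : Fin g → A ⧸ J) (hy : ev ∘ xu S g n = y) (hy' : ev ∘ xu' S g n = y')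
      (t : Sol D y y') (hyn : ∀ i, IsNilpotent (y i)) (hyn' : ∀ i, IsNilpotent (y' i)),
      t.σ i = ev ((univSol D n).σ i) := by
    intro y y' hy hy' t hyn hyn'
    subst hy hy'
    rw [Sol.ext_of_nil hyn hyn' t ((univSol D n).map ev)]
    rfl
  have := key _ _ hx1 hx2 t (fun i => hnil _ (hx i)) (fun i => hnil _ (hx' i))
  rw [← mk_Psi, hevmk] at this
  have h0 : mkJ (x'' i - MvPolynomial.aeval (Sum.elim x x') (Psi D n i)) = 0 := by
    rw [map_sub, sub_eq_zero]
    exact this
  rw [hmkJ, Ideal.Quotient.mkₐ_eq_mk, Ideal.Quotient.eq_zero_iff_mem] at h0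
  exact h0

end Fermat.Agent.S19.TruncAdd
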