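import Mathlib
import Fermat.Agent.S19.TruncAdd
import Fermat.Agent.S19.InterpDatum
import Fermat.Agent.S19.FlipExist

/-!
# S19, slice (W4b) (helper7): the truncated addition law at actual points

Abstract S18/Core frame.  `exists_add_congr`: for an interpolation datum `d` (chart `Q`, `T` at the
origin, auxiliary rigid family `Rp`, `v`), a reduced basis `1, φ_a` of `L(E)` and points `P`, `P'` in
the residue discs of the chart, the sum `[P - Q] + [P' - Q]` is `[P'' - Q]` with `P''` in the same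
discs, and the coordinates of `P''` are congruent to `Psi (x, x')` modulo `c^n`.
-/

set_option autoImplicit false
set_option linter.unusedSectionVars false
set_option linter.unusedVariables false

noncomputable section

namespace Fermat.Agent.S19.AddLaw

open AlgebraicCurve Polynomial
open Fermat.Agent.S18.CoreDefs Fermat.Agent.S18.CoreOrd Fermat.Agent.S24.Ord Fermat.Agent.S18.Disc
open Fermat.Agent.S18.NonSpecial Fermat.Agent.S19.InterpDatum

/-! ### values at one place -/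

section OnePlace

variable {K : Type*} {F : Type*} [Field K] [Field F] [Algebra K F] (P : Place K F)

/-- `c` is the value of `y` at `P` -/
def ValAt (y : F) (c : K) : Prop := P.adicValuation (y - algebraMap K F c) < 1

variable {P}

theorem adicValuation_const_le (c : K) : P.adicValuation (algebraMap K F c) ≤ 1 :=
  (mem_iff P _).mp (P.algebraMap_mem' c)

theorem ValAt.reg {y : F} {c : K} (h : ValAt P y c) : P.adicValuation y ≤ 1 := by
  have : y = (y - algebraMap K F c) + algebraMap K F c := by ring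
  rw [this]
  exact Valuation.map_add_le _ h.le (adicValuation_const_le c)

theorem ValAt.unique {y : F} {c c' : K} (h : ValAt P y c) (h' : ValAt P y c') : c = c' := by
  by_contra hne
  have h1 : P.adicValuation ((y - algebraMap K F c') - (y - algebraMap K F c)) < 1 :=
    Valuation.map_sub_lt _ h' h
  have h2 : (y - algebraMap K F c') - (y - algebraMap K F c) = algebraMap K F (c - c') := by
    rw [map_sub]; ring
  rw [h2, adicValuation_algebraMap P (sub_ne_zero.mpr hne)] at h1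
  exact lt_irrefl _ h1

theorem valAt_const (c : K) : ValAt P (algebraMap K F c) c := by
  unfold ValAt
  rw [sub_self, map_zero]
  exact zero_lt_one

theorem valAt_zero_of_lt {y : F} (h : P.adicValuation y < 1) : ValAt P y 0 := by
  unfold ValAt
  rwa [map_zero, sub_zero]

theorem ValAt.lt_of_zero {y : F} (h : ValAt P y 0) : P.adicValuation y < 1 := by
  unfold ValAt at h
  rwa [map_zero, sub_zero] at h

theorem ValAt.add {y z : F} {c d : K} (hy : ValAt P y c) (hz : ValAt P z d) :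
    ValAt P (y + z) (c + d) := by
  unfold ValAt
  have : y + z - algebraMap K F (c + d) = (y - algebraMap K F c) + (z - algebraMap K F d) := by
    rw [map_add]; ring
  rw [this]
  exact Valuation.map_add_lt _ hy hz

theorem ValAt.neg {y : F} {c : K} (hy : ValAt P y c) : ValAt P (-y) (-c) := by
  unfold ValAt
  have : -y - algebraMap K F (-c) = -(y - algebraMap K F c) := by
    rw [map_neg]; ring
  rw [this, Valuation.map_neg]
  exact hy

theorem ValAt.sub {y z : F} {c d : K} (hy : ValAt P y c) (hz : ValAt P z d) :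
    ValAt P (y - z) (c - d) := by
  rw [sub_eq_add_neg, sub_eq_add_neg]
  exact hy.add hz.neg

theorem ValAt.mul {y z : F} {c d : K} (hy : ValAt P y c) (hz : ValAt P z d) :
    ValAt P (y * z) (c * d) := by
  unfold ValAt
  have : y * z - algebraMap K F (c * d) =
      (y - algebraMap K F c) * z + algebraMap K F c * (z - algebraMap K F d) := by
    rw [map_mul]; ring
  rw [this]
  refine Valuation.map_add_lt _ ?_ ?_
  · rw [map_mul]
    exact mul_lt_one_of_lt_of_le hy hz.reg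
  · rw [map_mul]
    exact Right.mul_lt_one_of_le_of_lt (adicValuation_const_le c) hz

theorem ValAt.pow {y : F} {c : K} (hy : ValAt P y c) (n : ℕ) : ValAt P (y ^ n) (c ^ n) := by
  induction n with
  | zero => simpa using valAt_const (P := P) (1 : K)
  | succ n ih => rw [pow_succ, pow_succ]; exact ih.mul hy

theorem valAt_sum {ι : Type*} (s : Finset ι) (y : ι → F) (c : ι → K)
    (h : ∀ i ∈ s, ValAt P (y i) (c i)) : ValAt P (∑ i ∈ s, y i) (∑ i ∈ s, c i) := by
  classical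
  induction s using Finset.induction_on with
  | empty => simpa using valAt_const (P := P) (0 : K)
  | insert i s hi ih =>
    rw [Finset.sum_insert hi, Finset.sum_insert hi]
    exact (h i (Finset.mem_insert_self i s)).add
      (ih fun j hj => h j (Finset.mem_insert_of_mem hj))

theorem ValAt.aeval {y : F} {c : K} (hy : ValAt P y c) (p : K[X]) :
    ValAt P (Polynomial.aeval y p) (p.eval c) := by
  rw [Polynomial.aeval_eq_sum_range, Polynomial.eval_eq_sum_range]
  refine valAt_sum _ _ _ fun i _ => ?_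
  rw [Algebra.smul_def]
  exact (valAt_const _).mul (hy.pow i)

theorem exists_valAt (hdeg : P.deg = 1) {y : F} (hreg : P.adicValuation y ≤ 1) :
    ∃ c : K, ValAt P y c := by
  have hord : 0 ≤ P.ord y := by
    rcases eq_or_ne y 0 with rfl | hy
    · rw [Place.ord_zero]
    · exact (ord_nonneg_iff P hy).mpr hreg
  obtain ⟨c, hc | hc⟩ := exists_value P hdeg hord
  · exact ⟨c, by rw [hc]; exact valAt_const c⟩
  · exact ⟨c, adicValuation_lt_one_of_ord_pos P hc⟩

theorem valAt_zero_of_ord_pos {y : F} (h : 0 < P.ord y) : ValAt P y 0 :=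
  valAt_zero_of_lt (adicValuation_lt_one_of_ord_pos P h)

end OnePlace

/-! ### values on residue discs -/

section Frame

variable {L : Type*} [Field L] {FL : Type*} [Field FL] [Algebra L FL]
variable {k : Type*} [Field k] {Fk : Type*} [Field Fk] [Algebra k Fk]
variable {A : ValuationSubring L} {π : A →+* k} {r : Place L FL → Place k Fk}
variable [HasPrincipalDivisors L FL]
variable (R : RedDatum A π r)

/-- a function of `O`, regular on the disc, has a value in `A` at every point of the disc -/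
theorem exists_valAt_mem (hdeg : ∀ P : Place L FL, P.deg = 1) (y : R.O) (Q : Place k Fk)
    (hreg : RegOn r (y : FL) Q) (P : Place L FL) (hP : r P = Q) :
    ∃ c : A, ValAt P (y : FL) (c : L) := by
  obtain ⟨c, hc⟩ := exists_valAt (hdeg P) (hreg P hP)
  exact ⟨⟨c, value_mem' R y Q hreg P hP c hc⟩, hc⟩

theorem valAt_mem {y : R.O} {Q : Place k Fk} (hreg : RegOn r (y : FL) Q) {P : Place L FL}
    (hP : r P = Q) {c : L} (hc : ValAt P (y : FL) c) : c ∈ A :=
  value_mem' R y Q hreg P hP c hc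

/-- **Taylor congruence.** If `y = p(T) + T^N h` with `p ∈ A[X]`, `h ∈ O` regular on the disc,
then `y(P) = p(a) + a^N e` with `e ∈ A`, where `a = T(P)`. -/
theorem taylor_value (hdeg : ∀ P : Place L FL, P.deg = 1) (Q : Place k Fk) (T : FL)
    (p : A[X]) (N : ℕ) (h : R.O) (hh : RegOn r (h : FL) Q) {y : FL}
    (hy : y = Polynomial.aeval T (p.map A.subtype) + T ^ N * (h : FL))
    (P : Place L FL) (hP : r P = Q) {a : A} (ha : ValAt P T (a : L)) {b : L}
    (hb : ValAt P y b) :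
    ∃ e : A, ValAt P (h : FL) (e : L) ∧ b = ((p.eval a + a ^ N * e : A) : L) := by
  obtain ⟨e, he⟩ := exists_valAt_mem R hdeg h Q hh P hP
  refine ⟨e, he, ?_⟩
  have h1 : ValAt P y ((p.map A.subtype).eval (a : L) + (a : L) ^ N * (e : L)) := by
    rw [hy]
    exact (ha.aeval _).add ((ha.pow N).mul he)
  rw [hb.unique h1, eval_map]
  have h2 : p.eval₂ A.subtype (a : L) = ((p.eval a : A) : L) :=
    Polynomial.eval₂_at_apply A.subtype a
  rw [h2]
  push_cast
  rfl

/-- **Factor lemma.** A function of `O`, regular on the disc of `Q` and vanishing at `P` (in the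
disc), is divisible by `T - T(P)` in the ring of such functions. -/
theorem exists_factor (Q : Place k Fk) (T : R.O) (hT : IsGoodParam R T Q) (y : R.O)
    (hreg : RegOn r (y : FL) Q) (P : Place L FL) (hP : r P = Q) (a : A)
    (ha : ValAt P (T : FL) (a : L)) (hy0 : ValAt P (y : FL) 0) :
    ∃ y₁ : R.O, RegOn r (y₁ : FL) Q ∧
      (y : FL) = ((T : FL) - algebraMap L FL (a : L)) * (y₁ : FL) ∧
      ((y : FL) ≠ 0 → ∀ P' : Place L FL, r P' = Q → ∀ [Decidable (P' = P)],
        P'.ord (y₁ : FL) = P'.ord (y : FL) - if P' = P then 1 else 0) := by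
  classical
  obtain ⟨haA, hδ⟩ := hT.value_mem P hP (a : L) ha
  have hδ' : a ∈ IsLocalRing.maximalIdeal A := hδ
  have hT' : IsGoodParam R (T - constHom R a) Q := hT.sub_const hδ'
  have hcoe : ((T - constHom R a : R.O) : FL) = (T : FL) - algebraMap L FL (a : L) := by
    push_cast; simp
  have hz : P.adicValuation ((T - constHom R a : R.O) : FL) < 1 := by rw [hcoe]; exact ha
  have hT'0 : ((T - constHom R a : R.O) : FL) ≠ 0 := hT'.coe_ne_zero
  obtain ⟨Tu, hTu⟩ := (red_ne_zero_iff_isUnit R _).mp hT'.red_ne_zero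
  have hinv : (((Tu⁻¹ : R.Oˣ) : R.O) : FL) = (((T - constHom R a : R.O)) : FL)⁻¹ := by
    rw [← hTu]
    exact Fermat.Agent.S18.Core.coe_inv_unit R Tu
  have hord : (y : FL) ≠ 0 → ∀ P' : Place L FL, r P' = Q →
      P'.ord (((y * ((Tu⁻¹ : R.Oˣ) : R.O) : R.O)) : FL) =
        P'.ord (y : FL) - if P' = P then 1 else 0 := by
    intro hyne P' hP'
    have h1 : (((y * ((Tu⁻¹ : R.Oˣ) : R.O) : R.O)) : FL) =
        (y : FL) * (((T - constHom R a : R.O)) : FL)⁻¹ := by
      push_cast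
      rw [hinv]
      push_cast
      rfl
    rw [h1, Place.ord_mul P' hyne (inv_ne_zero hT'0), Place.ord_inv,
      hT'.ord_eq_ite hP hz P' hP']
    ring
  refine ⟨y * ((Tu⁻¹ : R.Oˣ) : R.O), ?_, ?_, ?_⟩
  · rcases eq_or_ne (y : FL) 0 with h0 | hyne
    · have : (((y * ((Tu⁻¹ : R.Oˣ) : R.O) : R.O)) : FL) = 0 := by
        push_cast; rw [h0, zero_mul]
      rw [this]
      intro P' _
      rw [map_zero]; exact zero_le_one
    · refine regOn_of_ord_nonneg fun P' hP' => ?_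
      rw [hord hyne P' hP']
      have hnn := RegOn.ord_nonneg hreg P' hP'
      split_ifs with hPP
      · subst hPP
        have : 0 < P'.ord (y : FL) := (ord_pos_iff P' hyne).mpr hy0.lt_of_zero
        omega
      · omega
  · have h1 : (((y * ((Tu⁻¹ : R.Oˣ) : R.O) : R.O)) : FL) =
        (y : FL) * (((T - constHom R a : R.O)) : FL)⁻¹ := by
      push_cast
      rw [hinv]
      push_cast
      rfl
    rw [h1, ← hcoe, mul_comm (y : FL), ← mul_assoc, mul_inv_cancel₀ hT'0, one_mul]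
  · intro hyne P' hP' inst
    rw [hord hyne P' hP']
    congr

theorem valAt_aeval_map {P : Place L FL} {T : FL} {a : A} (ha : ValAt P T (a : L)) (p : A[X]) :
    ValAt P (Polynomial.aeval T (p.map A.subtype)) ((p.eval a : A) : L) := by
  have h := ha.aeval (p.map A.subtype)
  rwa [eval_map, show p.eval₂ A.subtype (a : L) = ((p.eval a : A) : L) from
    Polynomial.eval₂_at_apply A.subtype a] at h

open Fermat.Agent.S19.DivDiff in
/-- **Double zero.** `F = Ptot(T) + T^N H` vanishes on the divisor `P + P'` of the disc: then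
`Ptot(x) ∈ I^N` and `dd Ptot x x' ∈ I^(N-1)`, where `x = T(P)`, `x' = T(P')` lie in `I`. -/
theorem double_zero (hdeg : ∀ P : Place L FL, P.deg = 1) (Q : Place k Fk) (T : R.O)
    (hT : IsGoodParam R T Q) (F : R.O) (hF : RegOn r (F : FL) Q) (hF0 : (F : FL) ≠ 0)
    (Ptot : A[X]) (N : ℕ) (H : R.O) (hH : RegOn r (H : FL) Q)
    (hFT : (F : FL) = Polynomial.aeval (T : FL) (Ptot.map A.subtype) + (T : FL) ^ N * (H : FL))
    (P P' : Place L FL) (hP : r P = Q) (hP' : r P' = Q) (x x' : A)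
    (hx : ValAt P (T : FL) (x : L)) (hx' : ValAt P' (T : FL) (x' : L))
    (hordP : 1 ≤ P.ord (F : FL))
    (hordP' : (1 : ℤ) + (by classical exact if P' = P then 1 else 0) ≤ P'.ord (F : FL))
    (I : Ideal A) (hxI : x ∈ I) (hx'I : x' ∈ I) :
    Ptot.eval x ∈ I ^ N ∧ dd Ptot x x' ∈ I ^ (N - 1) := by
  classical
  have hF0P : ValAt P (F : FL) 0 := valAt_zero_of_ord_pos (by omega)
  obtain ⟨e, he, heq⟩ := taylor_value R hdeg Q (T : FL) Ptot N H hH hFT P hP hx hF0P
  have heq' : Ptot.eval x + x ^ N * e = 0 := by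
    apply Subtype.ext
    rw [← heq]; rfl
  have hPx : Ptot.eval x = -(x ^ N * e) := eq_neg_of_add_eq_zero_left heq'
  refine ⟨?_, ?_⟩
  · rw [hPx]
    exact Ideal.neg_mem_iff _ |>.mpr (Ideal.mul_mem_right _ _ (Ideal.pow_mem_pow hxI N))
  -- factor `F = (T - x) F₁`
  obtain ⟨F₁, hF₁reg, hF₁, hF₁ord⟩ := exists_factor R Q T hT F hF P hP x hx hF0P
  have hF₁0 : ValAt P' (F₁ : FL) 0 := by
    apply valAt_zero_of_ord_pos
    rw [hF₁ord hF0 P' hP']
    omega
  -- factor `H - e = (T - x) H₁`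
  have hHe : ValAt P ((H - constHom R e : R.O) : FL) 0 := by
    have : ((H - constHom R e : R.O) : FL) = (H : FL) - algebraMap L FL (e : L) := by
      push_cast; simp
    rw [this]
    simpa using he.sub (valAt_const (e : L))
  have hHereg : RegOn r ((H - constHom R e : R.O) : FL) Q := by
    have : ((H - constHom R e : R.O) : FL) = (H : FL) - algebraMap L FL (e : L) := by
      push_cast; simp
    rw [this]
    exact hH.sub (regOn_const r _ Q)
  obtain ⟨H₁, hH₁reg, hH₁, -⟩ := exists_factor R Q T hT (H - constHom R e) hHereg P hP x hx hHe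
  have hH₁' : (H : FL) - algebraMap L FL (e : L) =
      ((T : FL) - algebraMap L FL (x : L)) * (H₁ : FL) := by
    rw [← hH₁]; push_cast; simp
  -- polynomial division
  set Wp : A[X] := Ptot /ₘ (X - C x) with hWp
  have hdiv : Ptot = C (Ptot.eval x) + (X - C x) * Wp := eq_C_add_mul Ptot x
  have hdivT : Polynomial.aeval (T : FL) (Ptot.map A.subtype) =
      algebraMap L FL ((Ptot.eval x : A) : L) +
        ((T : FL) - algebraMap L FL (x : L)) * Polynomial.aeval (T : FL) (Wp.map A.subtype) := by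
    conv_lhs => rw [hdiv]
    simp only [Polynomial.map_add, Polynomial.map_mul, Polynomial.map_sub, Polynomial.map_C,
      Polynomial.map_X, map_add, map_mul, map_sub, Polynomial.aeval_C, Polynomial.aeval_X]
    rfl
  -- the geometric sum
  set G : FL := ∑ t ∈ Finset.range N, (T : FL) ^ t * (algebraMap L FL (x : L)) ^ (N - 1 - t)
    with hG
  have hGeq : G * ((T : FL) - algebraMap L FL (x : L)) =
      (T : FL) ^ N - (algebraMap L FL (x : L)) ^ N := geom_sum₂_mul _ _ N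
  have hTx : (T : FL) - algebraMap L FL (x : L) ≠ 0 := by
    intro h0
    apply hF0
    rw [hF₁, h0, zero_mul]
  have hkey : (F₁ : FL) = Polynomial.aeval (T : FL) (Wp.map A.subtype) + G * (H : FL) +
      (algebraMap L FL (x : L)) ^ N * (H₁ : FL) := by
    apply mul_left_cancel₀ hTx
    rw [← hF₁, hFT, hdivT]
    have hPx' : algebraMap L FL ((Ptot.eval x : A) : L) =
        -((algebraMap L FL (x : L)) ^ N * algebraMap L FL (e : L)) := by
      rw [hPx]; push_cast; simp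
    rw [hPx']
    have hHsplit : (H : FL) = algebraMap L FL (e : L) +
        ((T : FL) - algebraMap L FL (x : L)) * (H₁ : FL) := by
      rw [← hH₁']; ring
    have hTN : (T : FL) ^ N = (algebraMap L FL (x : L)) ^ N +
        G * ((T : FL) - algebraMap L FL (x : L)) := by rw [hGeq]; ring
    conv_lhs => rw [hTN]
    conv_lhs => rw [hHsplit]
    conv_rhs => rw [hHsplit]
    ring
  -- evaluate at `P'`
  obtain ⟨e', he'⟩ := exists_valAt_mem R hdeg H Q hH P' hP'
  obtain ⟨e'', he''⟩ := exists_valAt_mem R hdeg H₁ Q hH₁reg P' hP'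
  have hGval : ValAt P' G ((∑ t ∈ Finset.range N, x' ^ t * x ^ (N - 1 - t) : A) : L) := by
    rw [hG]
    push_cast
    refine valAt_sum _ _ _ fun t _ => ?_
    exact (hx'.pow t).mul ((valAt_const (x : L)).pow _)
  have hval : ValAt P' (F₁ : FL) ((Wp.eval x' + (∑ t ∈ Finset.range N, x' ^ t * x ^ (N - 1 - t)) * e'
      + x ^ N * e'' : A) : L) := by
    rw [hkey]
    push_cast
    exact ((valAt_aeval_map hx' Wp).add (by simpa using hGval.mul he')).add
      (((valAt_const (x : L)).pow N).mul he'')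
  have hzero := hF₁0.unique hval
  have hzero' : Wp.eval x' + (∑ t ∈ Finset.range N, x' ^ t * x ^ (N - 1 - t)) * e' + x ^ N * e'' = 0 := by
    apply Subtype.ext
    rw [← hzero]; rfl
  have hdd : dd Ptot x x' = -((∑ t ∈ Finset.range N, x' ^ t * x ^ (N - 1 - t)) * e' + x ^ N * e'') := by
    have : dd Ptot x x' = Wp.eval x' := rfl
    rw [this]
    linear_combination hzero'
  rw [hdd]
  refine (Ideal.neg_mem_iff _).mpr (Ideal.add_mem _ (Ideal.mul_mem_right _ _ ?_)
    (Ideal.mul_mem_right _ _ ?_))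
  · refine Ideal.sum_mem _ fun t ht => ?_
    have ht' : t < N := Finset.mem_range.mp ht
    have : I ^ (N - 1) = I ^ t * I ^ (N - 1 - t) := by
      rw [← pow_add]; congr 1; omega
    rw [this]
    exact Ideal.mul_mem_mul (Ideal.pow_mem_pow hx'I t) (Ideal.pow_mem_pow hxI _)
  · exact Ideal.pow_le_pow_right (Nat.sub_le N 1) (Ideal.pow_mem_pow hxI N)

/-- **Simple zero.** `F = Ptot(T) + T^N H` vanishes at `P`: then `Ptot(x) ∈ I^N`, `x = T(P) ∈ I`. -/
theorem simple_zero (hdeg : ∀ P : Place L FL, P.deg = 1) (Q : Place k Fk) (T : R.O)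
    (F : FL) (Ptot : A[X]) (N : ℕ) (H : R.O) (hH : RegOn r (H : FL) Q)
    (hFT : F = Polynomial.aeval (T : FL) (Ptot.map A.subtype) + (T : FL) ^ N * (H : FL))
    (P : Place L FL) (hP : r P = Q) (x : A) (hx : ValAt P (T : FL) (x : L))
    (hF0P : ValAt P F 0) (I : Ideal A) (hxI : x ∈ I) : Ptot.eval x ∈ I ^ N := by
  obtain ⟨e, he, heq⟩ := taylor_value R hdeg Q (T : FL) Ptot N H hH hFT P hP hx hF0P
  have heq' : Ptot.eval x + x ^ N * e = 0 := by
    apply Subtype.ext
    rw [← heq]; rfl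
  rw [eq_neg_of_add_eq_zero_left heq']
  exact Ideal.neg_mem_iff _ |>.mpr (Ideal.mul_mem_right _ _ (Ideal.pow_mem_pow hxI N))

/-- **Residual zero.** `F = Ptot(T) + T^N H` (`N ≥ 1`) vanishes at the zero `P0` of `T` and on the
divisor `P0 + P''` of the disc: then `Ptot(0) = 0` and `(Ptot / X)(x'') ∈ I^(N-1)`,
`x'' = T(P'') ∈ I`. -/
theorem residual_zero (hdeg : ∀ P : Place L FL, P.deg = 1) (Q : Place k Fk) (T : R.O)
    (hT : IsGoodParam R T Q) (F : R.O) (hF : RegOn r (F : FL) Q) (hF0 : (F : FL) ≠ 0)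
    (Ptot : A[X]) (N : ℕ) (hN : 1 ≤ N) (H : R.O) (hH : RegOn r (H : FL) Q)
    (hFT : (F : FL) = Polynomial.aeval (T : FL) (Ptot.map A.subtype) + (T : FL) ^ N * (H : FL))
    (P0 P'' : Place L FL) (hP0 : r P0 = Q) (hP'' : r P'' = Q)
    (hT0 : ValAt P0 (T : FL) 0) (x'' : A) (hx'' : ValAt P'' (T : FL) (x'' : L))
    (hordP0 : 1 ≤ P0.ord (F : FL))
    (hordP'' : (1 : ℤ) + (by classical exact if P'' = P0 then 1 else 0) ≤ P''.ord (F : FL))
    (I : Ideal A) (hxI : x'' ∈ I) :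
    Ptot.coeff 0 = 0 ∧ Ptot.divX.eval x'' ∈ I ^ (N - 1) := by
  classical
  have hT0' : ValAt P0 (T : FL) ((0 : A) : L) := by simpa using hT0
  have hF0P : ValAt P0 (F : FL) 0 := valAt_zero_of_ord_pos (by omega)
  have hc0 : Ptot.coeff 0 = 0 := by
    obtain ⟨e, he, heq⟩ := taylor_value R hdeg Q (T : FL) Ptot N H hH hFT P0 hP0 hT0' hF0P
    have heq' : Ptot.eval 0 + 0 ^ N * e = 0 := by
      apply Subtype.ext
      rw [← heq]; rfl
    rw [zero_pow (by omega), zero_mul, add_zero] at heq'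
    rw [Polynomial.coeff_zero_eq_eval_zero]; exact heq'
  refine ⟨hc0, ?_⟩
  obtain ⟨F₁, hF₁reg, hF₁, hF₁ord⟩ := exists_factor R Q T hT F hF P0 hP0 0 hT0' hF0P
  have hF₁' : (F : FL) = (T : FL) * (F₁ : FL) := by
    rw [hF₁]; simp
  have hF₁0 : ValAt P'' (F₁ : FL) 0 := by
    apply valAt_zero_of_ord_pos
    rw [hF₁ord hF0 P'' hP'']
    omega
  have hTne : (T : FL) ≠ 0 := hT.coe_ne_zero
  have hPX : Ptot = X * Ptot.divX := by
    conv_lhs => rw [← Polynomial.divX_mul_X_add Ptot, hc0]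
    simp [mul_comm]
  have hkey : (F₁ : FL) = Polynomial.aeval (T : FL) (Ptot.divX.map A.subtype) +
      (T : FL) ^ (N - 1) * (H : FL) := by
    apply mul_left_cancel₀ hTne
    rw [← hF₁', hFT]
    conv_lhs => rw [hPX]
    have hN' : N = (N - 1) + 1 := by omega
    conv_lhs => rw [hN']
    simp only [Polynomial.map_mul, Polynomial.map_X, map_mul, Polynomial.aeval_X]
    ring
  exact simple_zero R hdeg Q T (F₁ : FL) Ptot.divX (N - 1) H hH hkey P'' hP'' x'' hx'' hF₁0 I hxI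

/-! ### Taylor expansion of a combination `(1 + ∑ ξ_a φ_a) * m` -/

theorem divX_map' {S : Type*} [CommRing S] {B : Type*} [CommRing B] (f : S →+* B) (p : S[X]) :
    (p.map f).divX = p.divX.map f := by
  ext n
  simp [coeff_divX]

/-- If `m = Z0(T)` and `φ_a m = p_a(T) + T^N h_a`, then
`(1 + ∑ ξ_a φ_a) m = (Z0 + ∑ ξ_a p_a)(T) + T^N (∑ ξ_a h_a)`. -/
theorem comb_taylor {ι : Type*} [Fintype ι] (Q : Place k Fk) (T : FL) (m : FL) (Z0 : A[X])
    (hZ0 : m = Polynomial.aeval T (Z0.map A.subtype)) (φ : ι → FL) (pA : ι → A[X]) (N : ℕ)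
    (h : ι → R.O) (hh : ∀ a, RegOn r ((h a : R.O) : FL) Q)
    (hφ : ∀ a, φ a * m = Polynomial.aeval T ((pA a).map A.subtype) + T ^ N * ((h a : R.O) : FL))
    (ξ : ι → A) :
    RegOn r (((∑ a, constHom R (ξ a) * h a : R.O)) : FL) Q ∧
    (1 + ∑ a, algebraMap L FL (ξ a : L) * φ a) * m =
      Polynomial.aeval T ((Z0 + ∑ a, C (ξ a) * pA a).map A.subtype) +
        T ^ N * (((∑ a, constHom R (ξ a) * h a : R.O)) : FL) := by
  have hcoe : (((∑ a, constHom R (ξ a) * h a : R.O)) : FL) =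
      ∑ a, algebraMap L FL (ξ a : L) * ((h a : R.O) : FL) := by
    rw [show (((∑ a, constHom R (ξ a) * h a : R.O)) : FL) =
      R.O.subtype (∑ a, constHom R (ξ a) * h a) from rfl, map_sum]
    rfl
  refine ⟨?_, ?_⟩
  · rw [hcoe]
    intro P hP
    refine Valuation.map_sum_le _ fun a _ => ?_
    exact ((regOn_const r (ξ a : L) Q).mul (hh a)) P hP
  · rw [hcoe, add_mul, one_mul, Finset.sum_mul]
    simp only [Polynomial.map_add, Polynomial.map_sum, Polynomial.map_mul, Polynomial.map_C,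
      map_add, map_sum, map_mul, Polynomial.aeval_C]
    rw [← hZ0, Finset.mul_sum, add_assoc, ← Finset.sum_add_distrib]
    congr 1
    refine Finset.sum_congr rfl fun a _ => ?_
    rw [mul_assoc, hφ a]
    simp only [ValuationSubring.subtype_apply]
    have : algebraMap L FL ((ξ a : A) : L) = algebraMap L FL (ξ a : L) := rfl
    ring

/-! ### a common bound for finitely many elements of `𝔪_A` -/

theorem exists_common_bound {ι : Type*} [Fintype ι] (y : ι → A)
    (hy : ∀ i, y i ∈ IsLocalRing.maximalIdeal A) :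
    ∃ c : A, c ∈ IsLocalRing.maximalIdeal A ∧ ∀ i, y i ∈ Ideal.span {c} := by
  classical
  by_cases hall : ∀ i, y i = 0
  · exact ⟨0, Ideal.zero_mem _, fun i => by rw [hall i]; exact Ideal.zero_mem _⟩
  push Not at hall
  obtain ⟨i₁, hi₁⟩ := hall
  obtain ⟨i₀, -, hmax⟩ := Finset.exists_max_image Finset.univ
    (fun i => A.valuation ((y i : A) : L)) ⟨i₁, Finset.mem_univ _⟩
  have h0 : ((y i₀ : A) : L) ≠ 0 := by
    intro h
    have := hmax i₁ (Finset.mem_univ _)
    rw [h, map_zero] at this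
    have h1 : ((y i₁ : A) : L) = 0 := (map_eq_zero _).mp (le_antisymm this zero_le)
    exact hi₁ (Subtype.ext h1)
  refine ⟨y i₀, hy i₀, fun i => ?_⟩
  have hq : ((y i : A) : L) / ((y i₀ : A) : L) ∈ A := by
    rw [← A.valuation_le_one_iff, map_div₀]
    exact div_le_one_of_le₀ (hmax i (Finset.mem_univ _)) zero_le
  rw [Ideal.mem_span_singleton']
  refine ⟨⟨_, hq⟩, Subtype.ext ?_⟩
  push_cast
  field_simp

end Frame

/-! ### the geometric part: the two flips -/

section Main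

open Fermat.Agent.S19.TruncAdd Fermat.Agent.S19.DivDiff Fermat.Agent.S19.FlipExist
open Fermat.Agent.S18.Core

variable {L : Type*} [Field L] {FL : Type*} [Field FL] [Algebra L FL]
variable {k : Type*} [Field k] {Fk : Type*} [Field Fk] [Algebra k Fk]
variable {A : ValuationSubring L} {π : A →+* k} {r : Place L FL → Place k Fk}
variable [HasPrincipalDivisors L FL] [HasPrincipalDivisors k Fk]
variable {R : RedDatum A π r} {g : ℕ}

/-- the two flips: `w1 ∈ L(E - P - P')` with residual divisor `S`, `w2 ∈ L(E - S - Q)` with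
residual divisor `P''`, both normalised to constant coefficient `1`. -/
theorem exists_geom (hπ : Function.Surjective π) (hL : RiemannHyp L FL g) (d : Datum R g)
    (φ : Idx g → R.O)
    (hspan : ∀ f : R.O, (f : FL) ∈ riemannRochSpace d.E → ∃ (c0 : A) (c : Idx g → A),
      (f : FL) = algebraMap L FL (c0 : L) + ∑ a, algebraMap L FL (c a : L) * ((φ a : R.O) : FL))
    (hind : LinearIndependent k (Sum.elim (fun _ : Unit => (1 : Fk)) (fun a => R.red (φ a))))
    (P P' : Fin g → Place L FL) (hP : ∀ i, r (P i) = d.Qb i) (hP' : ∀ i, r (P' i) = d.Qb i) :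
    ∃ (w1 w2 : R.Oˣ) (ξ η : Idx g → A) (S P'' : Fin g → Place L FL),
      (((w1 : R.O) : FL) = 1 + ∑ a, algebraMap L FL (ξ a : L) * ((φ a : R.O) : FL)) ∧
      (((w2 : R.O) : FL) = 1 + ∑ a, algebraMap L FL (η a : L) * ((φ a : R.O) : FL)) ∧
      (∀ j, r (S j) = d.Rb j) ∧ (∀ i, r (P'' i) = d.Qb i) ∧
      (∀ P₀ : Place L FL, (∑ j, Finsupp.single (S j) (1 : ℤ)) P₀ =
        P₀.ord ((w1 : R.O) : FL) + d.E P₀ -
          ((∑ i, Finsupp.single (P i) (1 : ℤ)) + ∑ i, Finsupp.single (P' i) (1 : ℤ)) P₀) ∧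
      (∀ P₀ : Place L FL, (∑ i, Finsupp.single (P'' i) (1 : ℤ)) P₀ =
        P₀.ord ((w2 : R.O) : FL) + d.E P₀ -
          ((∑ j, Finsupp.single (S j) (1 : ℤ)) + ∑ i, Finsupp.single (d.Q i) (1 : ℤ)) P₀) := by
  have hRg := Fermat.Agent.S18.NonSpecialAdapter.riemannGe_of_riemannHyp hL le_rfl
  have hdegL := hL.deg_one
  -- first flip
  set M1 : Divisor L FL :=
    (∑ i, Finsupp.single (P i) (1 : ℤ)) + ∑ i, Finsupp.single (P' i) (1 : ℤ) with hM1
  have hM1nn : 0 ≤ M1 := add_nonneg (sum_single_nonneg' P) (sum_single_nonneg' P')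
  have hdeg1 : (g : ℤ) ≤ Divisor.degree (d.E - M1) := by
    rw [map_sub, d.degree_E hL, hM1, map_add, degree_sum_single' hdegL, degree_sum_single' hdegL]
    omega
  have hmap1 : Finsupp.mapDomain r d.E - Finsupp.mapDomain r M1 =
      ∑ j, Finsupp.single (d.Rb j) (1 : ℤ) := by
    rw [d.mapDomain_E, hM1, Finsupp.mapDomain_add, mapDomain_sum_single P d.Qb hP,
      mapDomain_sum_single P' d.Qb hP']
    unfold Datum.Eb
    abel
  obtain ⟨w1, ξ, Z1, -, -, hw1, -, hZ1nn, hZ1, hZ1map⟩ :=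
    exists_flip_coeffs R hπ hRg d.E M1 hM1nn hdeg1
      (fun y hy => d.rigidR y (by rwa [hmap1] at hy)) φ hspan hind
  rw [hmap1] at hZ1map
  obtain ⟨S, hS, hZ1S⟩ := exists_lift_of_mapDomain_eq r Z1 (fun P₀ => by
    have := Finsupp.le_def.mp hZ1nn P₀; simpa using this) d.Rb d.Rb_inj hZ1map
  -- second flip
  set M2 : Divisor L FL :=
    (∑ j, Finsupp.single (S j) (1 : ℤ)) + ∑ i, Finsupp.single (d.Q i) (1 : ℤ) with hM2
  have hM2nn : 0 ≤ M2 := add_nonneg (sum_single_nonneg' S) (sum_single_nonneg' d.Q)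
  have hdeg2 : (g : ℤ) ≤ Divisor.degree (d.E - M2) := by
    rw [map_sub, d.degree_E hL, hM2, map_add, degree_sum_single' hdegL, degree_sum_single' hdegL]
    omega
  have hmap2 : Finsupp.mapDomain r d.E - Finsupp.mapDomain r M2 =
      ∑ i, Finsupp.single (d.Qb i) (1 : ℤ) := by
    rw [d.mapDomain_E, hM2, Finsupp.mapDomain_add, mapDomain_sum_single S d.Rb hS,
      mapDomain_sum_single d.Q d.Qb d.hQ]
    unfold Datum.Eb
    abel
  obtain ⟨w2, η, Z2, -, -, hw2, -, hZ2nn, hZ2, hZ2map⟩ :=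
    exists_flip_coeffs R hπ hRg d.E M2 hM2nn hdeg2
      (fun y hy => d.rigidQ y (by rwa [hmap2] at hy)) φ hspan hind
  rw [hmap2] at hZ2map
  obtain ⟨P'', hP'', hZ2P⟩ := exists_lift_of_mapDomain_eq r Z2 (fun P₀ => by
    have := Finsupp.le_def.mp hZ2nn P₀; simpa using this) d.Qb d.Qb_inj hZ2map
  refine ⟨w1, w2, ξ, η, S, P'', hw1, hw2, hS, hP'', fun P₀ => ?_, fun P₀ => ?_⟩
  · rw [← hZ1S, hZ1 P₀]
  · rw [← hZ2P, hZ2 P₀]

/-! ### local orders -/

theorem sum_single_disc (Qs : Fin g → Place k Fk) (hQs : Function.Injective Qs)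
    (Ps : Fin g → Place L FL) (hPs : ∀ i, r (Ps i) = Qs i) (i : Fin g) (P₀ : Place L FL)
    (hP₀ : r P₀ = Qs i) [Decidable (P₀ = Ps i)] :
    (∑ j, Finsupp.single (Ps j) (1 : ℤ)) P₀ = if P₀ = Ps i then 1 else 0 := by
  classical
  rw [sum_single_apply_disc Qs hQs Ps hPs i P₀ hP₀, Finsupp.single_apply]
  by_cases h : P₀ = Ps i
  · rw [if_pos h, if_pos h.symm]
  · rw [if_neg h, if_neg (fun h' => h h'.symm)]

theorem sum_single_other (Qs : Fin g → Place k Fk) (Ps : Fin g → Place L FL)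
    (hPs : ∀ i, r (Ps i) = Qs i) (P₀ : Place L FL) (h : ∀ i, Qs i ≠ r P₀) :
    (∑ j, Finsupp.single (Ps j) (1 : ℤ)) P₀ = 0 :=
  sum_single_apply_off Qs Ps hPs P₀ h

theorem Datum_E_disc_Q (d : Datum R g) (i : Fin g) (P₀ : Place L FL) (hP₀ : r P₀ = d.Qb i)
    [Decidable (P₀ = d.Q i)] : d.E P₀ = if P₀ = d.Q i then 2 else 0 := by
  by_cases h : P₀ = d.Q i
  · rw [if_pos h, h, d.E_apply_Q]
  · rw [if_neg h, d.E_apply_of_disc_Q hP₀ h]

theorem Datum_E_disc_R (d : Datum R g) (j : Fin g) (P₀ : Place L FL) (hP₀ : r P₀ = d.Rb j)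
    [Decidable (P₀ = d.Rp j)] : d.E P₀ = if P₀ = d.Rp j then 1 else 0 := by
  by_cases h : P₀ = d.Rp j
  · rw [if_pos h, h, d.E_apply_Rp]
  · rw [if_neg h, d.E_apply_of_disc_R hP₀ h]

theorem ord_T_disc (d : Datum R g) (i : Fin g) (P₀ : Place L FL) (hP₀ : r P₀ = d.Qb i)
    [Decidable (P₀ = d.Q i)] :
    P₀.ord ((d.T i : R.O) : FL) = if P₀ = d.Q i then 1 else 0 :=
  (d.hT i).ord_eq_ite (d.hQ i) (adicValuation_lt_one_of_ord_pos _ (d.hT0 i)) P₀ hP₀

theorem ord_v_disc (d : Datum R g) (j : Fin g) (P₀ : Place L FL) (hP₀ : r P₀ = d.Rb j)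
    [Decidable (P₀ = d.Rp j)] :
    P₀.ord ((d.v j : R.O) : FL) = if P₀ = d.Rp j then 1 else 0 :=
  (d.hv j).ord_eq_ite (d.hRp j) (adicValuation_lt_one_of_ord_pos _ (d.hv0 j)) P₀ hP₀

/-- orders of `w * T_i^2` on the disc of `Qb i`, from the residual divisor equation -/
theorem ord_mul_T_sq (d : Datum R g) (w : R.Oˣ) (Z M : Divisor L FL)
    (hZ : ∀ P₀ : Place L FL, Z P₀ = P₀.ord ((w : R.O) : FL) + d.E P₀ - M P₀)
    (i : Fin g) (P₀ : Place L FL) (hP₀ : r P₀ = d.Qb i) [Decidable (P₀ = d.Q i)] :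
    P₀.ord (((w : R.O) * d.T i ^ 2 : R.O) : FL) =
      Z P₀ + M P₀ - (if P₀ = d.Q i then 2 else 0) + 2 * (if P₀ = d.Q i then 1 else 0) := by
  have hw0 : ((w : R.O) : FL) ≠ 0 := coe_unit_ne_zero R w
  have hT0 : ((d.T i : R.O) : FL) ≠ 0 := (d.hT i).coe_ne_zero
  have : (((w : R.O) * d.T i ^ 2 : R.O) : FL) = ((w : R.O) : FL) * ((d.T i : R.O) : FL) ^ 2 := by
    push_cast; rfl
  rw [this, Place.ord_mul P₀ hw0 (pow_ne_zero 2 hT0), ord_pow, ord_T_disc d i P₀ hP₀]
  have h1 := hZ P₀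
  rw [Datum_E_disc_Q d i P₀ hP₀] at h1
  push_cast
  omega

/-- orders of `w * v_j` on the disc of `Rb j`, from the residual divisor equation -/
theorem ord_mul_v (d : Datum R g) (w : R.Oˣ) (Z M : Divisor L FL)
    (hZ : ∀ P₀ : Place L FL, Z P₀ = P₀.ord ((w : R.O) : FL) + d.E P₀ - M P₀)
    (j : Fin g) (P₀ : Place L FL) (hP₀ : r P₀ = d.Rb j) [Decidable (P₀ = d.Rp j)] :
    P₀.ord (((w : R.O) * d.v j : R.O) : FL) =
      Z P₀ + M P₀ - (if P₀ = d.Rp j then 1 else 0) + (if P₀ = d.Rp j then 1 else 0) := by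
  have hw0 : ((w : R.O) : FL) ≠ 0 := coe_unit_ne_zero R w
  have hv0 : ((d.v j : R.O) : FL) ≠ 0 := (d.hv j).coe_ne_zero
  have : (((w : R.O) * d.v j : R.O) : FL) = ((w : R.O) : FL) * ((d.v j : R.O) : FL) := by
    push_cast; rfl
  rw [this, Place.ord_mul P₀ hw0 hv0, ord_v_disc d j P₀ hP₀]
  have h1 := hZ P₀
  rw [Datum_E_disc_R d j P₀ hP₀] at h1
  omega

/-! ### dictionary between the polynomials `Z0 + ∑ ξ_a p_a` and the rows of `TruncAdd` -/

section Dict

variable {S : Type*} [CommRing S] {B : Type*} [CommRing B] [Algebra S B]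

theorem eval_comb_poly {ι : Type*} [Fintype ι] (Z0 : B[X]) (ξ : ι → B) (pA : ι → B[X]) (x : B) :
    (Z0 + ∑ a, C (ξ a) * pA a).eval x = Z0.eval x + ∑ a, ξ a * (pA a).eval x := by
  simp [eval_finsetSum]

theorem dd_comb_poly {ι : Type*} [Fintype ι] (ξ : ι → B) (pA : ι → B[X]) (x x' : B) :
    dd (X ^ 2 + ∑ a, C (ξ a) * pA a) x x' = (x + x') + ∑ a, ξ a * dd (pA a) x x' := by
  rw [dd_add, dd_X_sq, dd_sum]
  congr 1
  exact Finset.sum_congr rfl fun a _ => dd_C_mul _ _ _ _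

theorem coeff_zero_comb_poly {ι : Type*} [Fintype ι] (ξ : ι → B) (pA : ι → B[X]) :
    (X ^ 2 + ∑ a, C (ξ a) * pA a).coeff 0 = ∑ a, ξ a * (pA a).coeff 0 := by
  simp

theorem divX_comb_poly {ι : Type*} [Fintype ι] (ξ : ι → B) (pA : ι → B[X]) :
    (X ^ 2 + ∑ a, C (ξ a) * pA a).divX = X + ∑ a, C (ξ a) * (pA a).divX := by
  rw [divX_add, divX_X_pow, if_neg (by norm_num), ← divX_hom_toFun, map_sum]
  simp [divX_C_mul]

theorem N1_row_inl (D : TaylorData S g) (x x' : Fin g → B) (ξ : Idx g → B) (i : Fin g) :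
    ((N1 D x x').mulVec ξ + b1 x x') (Sum.inl i) =
      ((X ^ 2 + ∑ a, C (ξ a) * ((D.p a i).map (algebraMap S B)) : B[X])).eval (x i) := by
  rw [eval_comb_poly]
  simp only [Pi.add_apply, Matrix.mulVec, dotProduct, N1, b1, Matrix.of_apply, Sum.elim_inl,
    eval_pow, eval_X, eval_map_algebraMap]
  rw [add_comm]
  congr 1
  exact Finset.sum_congr rfl fun a _ => mul_comm _ _

theorem N1_row_inr (D : TaylorData S g) (x x' : Fin g → B) (ξ : Idx g → B) (i : Fin g) :
    ((N1 D x x').mulVec ξ + b1 x x') (Sum.inr i) =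
      dd ((X ^ 2 + ∑ a, C (ξ a) * ((D.p a i).map (algebraMap S B)) : B[X])) (x i) (x' i) := by
  rw [dd_comb_poly]
  simp only [Pi.add_apply, Matrix.mulVec, dotProduct, N1, b1, Matrix.of_apply, Sum.elim_inr]
  rw [add_comm]
  congr 1
  exact Finset.sum_congr rfl fun a _ => mul_comm _ _

theorem N2_row_inl (D : TaylorData S g) (ρ : Fin g → B) (η : Idx g → B) (j : Fin g) :
    ((N2 D ρ).mulVec η + b2 ρ) (Sum.inl j) =
      ((X + ∑ a, C (η a) * ((D.q a j).map (algebraMap S B)) : B[X])).eval (ρ j) := by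
  rw [eval_comb_poly]
  simp only [Pi.add_apply, Matrix.mulVec, dotProduct, N2, b2, Matrix.of_apply, Sum.elim_inl,
    eval_X, eval_map_algebraMap]
  rw [add_comm]
  congr 1
  exact Finset.sum_congr rfl fun a _ => mul_comm _ _

theorem N2_row_inr (D : TaylorData S g) (ρ : Fin g → B) (η : Idx g → B) (i : Fin g) :
    ((N2 D ρ).mulVec η + b2 ρ) (Sum.inr i) =
      ((X ^ 2 + ∑ a, C (η a) * ((D.p a i).map (algebraMap S B)) : B[X])).coeff 0 := by
  rw [coeff_zero_comb_poly]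
  simp only [Pi.add_apply, Matrix.mulVec, dotProduct, N2, b2, Matrix.of_apply, Sum.elim_inr,
    add_zero, coeff_map]
  exact Finset.sum_congr rfl fun a _ => mul_comm _ _

theorem eq2_eq (D : TaylorData S g) (ρ : B) (ξ : Idx g → B) (j : Fin g) :
    ρ + ∑ a, ξ a * Polynomial.aeval ρ (D.q a j) =
      ((X + ∑ a, C (ξ a) * ((D.q a j).map (algebraMap S B)) : B[X])).eval ρ := by
  rw [eval_comb_poly]
  simp only [eval_X, eval_map_algebraMap]

theorem eq4_eq (D : TaylorData S g) (σ : B) (η : Idx g → B) (i : Fin g) :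
    σ + ∑ a, η a * Polynomial.aeval σ (D.p a i).divX =
      ((X ^ 2 + ∑ a, C (η a) * ((D.p a i).map (algebraMap S B)) : B[X])).divX.eval σ := by
  rw [divX_comb_poly, eval_comb_poly]
  simp only [eval_X, divX_map', eval_map_algebraMap]

end Dict

/-! ### the four order computations -/

section Orders

variable (d : Datum R g) (w : R.Oˣ)

/-- `ord (w T_i^2) = [P₀ = U i] + [P₀ = U' i]` on the disc of `Qb i`, when the residual divisor
lives in the discs of `Rb` and `M = ∑ U + ∑ U'` with `U`, `U'` in the discs of `Qb`. -/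
theorem ord_F_disc (Sp U U' : Fin g → Place L FL) (hSp : ∀ j, r (Sp j) = d.Rb j)
    (hU : ∀ i, r (U i) = d.Qb i) (hU' : ∀ i, r (U' i) = d.Qb i)
    (hZ : ∀ P₀ : Place L FL, (∑ j, Finsupp.single (Sp j) (1 : ℤ)) P₀ =
      P₀.ord ((w : R.O) : FL) + d.E P₀ -
        ((∑ i, Finsupp.single (U i) (1 : ℤ)) + ∑ i, Finsupp.single (U' i) (1 : ℤ)) P₀)
    (i : Fin g) (P₀ : Place L FL) (hP₀ : r P₀ = d.Qb i) :
    P₀.ord (((w : R.O) * d.T i ^ 2 : R.O) : FL) =
      (by classical exact if P₀ = U i then 1 else 0) +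
        (by classical exact if P₀ = U' i then 1 else 0) := by
  classical
  rw [ord_mul_T_sq d w _ _ hZ i P₀ hP₀, Finsupp.add_apply,
    sum_single_disc d.Qb d.Qb_inj U hU i P₀ hP₀, sum_single_disc d.Qb d.Qb_inj U' hU' i P₀ hP₀,
    sum_single_other d.Rb Sp hSp P₀ (fun j => by rw [hP₀]; exact (d.disj i j).symm)]
  split_ifs <;> omega

/-- the same when the residual divisor `∑ V` lives in the discs of `Qb` and
`M = ∑ Sp + ∑ U`, `Sp` in the discs of `Rb`: `ord (w T_i^2) = [P₀ = V i] + 2 [P₀ = Q i] - ...` -/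
theorem ord_F_disc' (Sp U V : Fin g → Place L FL) (hSp : ∀ j, r (Sp j) = d.Rb j)
    (hU : ∀ i, r (U i) = d.Qb i) (hV : ∀ i, r (V i) = d.Qb i)
    (hZ : ∀ P₀ : Place L FL, (∑ i, Finsupp.single (V i) (1 : ℤ)) P₀ =
      P₀.ord ((w : R.O) : FL) + d.E P₀ -
        ((∑ j, Finsupp.single (Sp j) (1 : ℤ)) + ∑ i, Finsupp.single (U i) (1 : ℤ)) P₀)
    (i : Fin g) (P₀ : Place L FL) (hP₀ : r P₀ = d.Qb i) :
    P₀.ord (((w : R.O) * d.T i ^ 2 : R.O) : FL) =
      (by classical exact if P₀ = V i then 1 else 0) +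
        (by classical exact if P₀ = U i then 1 else 0) := by
  classical
  rw [ord_mul_T_sq d w _ _ hZ i P₀ hP₀, Finsupp.add_apply,
    sum_single_disc d.Qb d.Qb_inj V hV i P₀ hP₀, sum_single_disc d.Qb d.Qb_inj U hU i P₀ hP₀,
    sum_single_other d.Rb Sp hSp P₀ (fun j => by rw [hP₀]; exact (d.disj i j).symm)]
  split_ifs <;> omega

/-- `ord (w v_j) = [P₀ = Sp j]` on the disc of `Rb j` (first flip). -/
theorem ord_G_disc (Sp U U' : Fin g → Place L FL) (hSp : ∀ j, r (Sp j) = d.Rb j)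
    (hU : ∀ i, r (U i) = d.Qb i) (hU' : ∀ i, r (U' i) = d.Qb i)
    (hZ : ∀ P₀ : Place L FL, (∑ j, Finsupp.single (Sp j) (1 : ℤ)) P₀ =
      P₀.ord ((w : R.O) : FL) + d.E P₀ -
        ((∑ i, Finsupp.single (U i) (1 : ℤ)) + ∑ i, Finsupp.single (U' i) (1 : ℤ)) P₀)
    (j : Fin g) (P₀ : Place L FL) (hP₀ : r P₀ = d.Rb j) :
    P₀.ord (((w : R.O) * d.v j : R.O) : FL) =
      (by classical exact if P₀ = Sp j then 1 else 0) := by
  classical
  rw [ord_mul_v d w _ _ hZ j P₀ hP₀, Finsupp.add_apply,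
    sum_single_disc d.Rb d.Rb_inj Sp hSp j P₀ hP₀,
    sum_single_other d.Qb U hU P₀ (fun i => by rw [hP₀]; exact d.disj i j),
    sum_single_other d.Qb U' hU' P₀ (fun i => by rw [hP₀]; exact d.disj i j)]
  split_ifs <;> omega

/-- `ord (w v_j) = [P₀ = Sp j]` on the disc of `Rb j` (second flip). -/
theorem ord_G_disc' (Sp U V : Fin g → Place L FL) (hSp : ∀ j, r (Sp j) = d.Rb j)
    (hU : ∀ i, r (U i) = d.Qb i) (hV : ∀ i, r (V i) = d.Qb i)
    (hZ : ∀ P₀ : Place L FL, (∑ i, Finsupp.single (V i) (1 : ℤ)) P₀ =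
      P₀.ord ((w : R.O) : FL) + d.E P₀ -
        ((∑ j, Finsupp.single (Sp j) (1 : ℤ)) + ∑ i, Finsupp.single (U i) (1 : ℤ)) P₀)
    (j : Fin g) (P₀ : Place L FL) (hP₀ : r P₀ = d.Rb j) :
    P₀.ord (((w : R.O) * d.v j : R.O) : FL) =
      (by classical exact if P₀ = Sp j then 1 else 0) := by
  classical
  rw [ord_mul_v d w _ _ hZ j P₀ hP₀, Finsupp.add_apply,
    sum_single_disc d.Rb d.Rb_inj Sp hSp j P₀ hP₀,
    sum_single_other d.Qb U hU P₀ (fun i => by rw [hP₀]; exact d.disj i j),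
    sum_single_other d.Qb V hV P₀ (fun i => by rw [hP₀]; exact d.disj i j)]
  split_ifs <;> omega

end Orders

/-! ### the main theorem -/

universe uS

/-- `D` consists of Taylor polynomials of order `N` of `φ_a T_i^2` at `Q_i` and of `φ_a v_j` at
`Rp_j`. -/
def TaylorAt (d : Datum R g) (φ : Idx g → R.O) {S : Type uS} [CommRing S] [Algebra S A]
    (D : TaylorData S g) (N : ℕ) : Prop :=
  (∀ a i, ∃ h : R.O, RegOn r ((h : R.O) : FL) (d.Qb i) ∧
    ((φ a : R.O) : FL) * ((d.T i : R.O) : FL) ^ 2 =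
      Polynomial.aeval ((d.T i : R.O) : FL) (((D.p a i).map (algebraMap S A)).map A.subtype) +
        ((d.T i : R.O) : FL) ^ N * ((h : R.O) : FL)) ∧
  (∀ a j, ∃ h : R.O, RegOn r ((h : R.O) : FL) (d.Rb j) ∧
    ((φ a : R.O) : FL) * ((d.v j : R.O) : FL) =
      Polynomial.aeval ((d.v j : R.O) : FL) (((D.q a j).map (algebraMap S A)).map A.subtype) +
        ((d.v j : R.O) : FL) ^ N * ((h : R.O) : FL))

theorem mem_radical_pow_of_mem_span {c y : A} (hy : y ∈ Ideal.span {c}) (n : ℕ) :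
    y ∈ (Ideal.span {c} ^ n).radical := ⟨n, Ideal.pow_mem_pow hy n⟩

/-- the congruence, from the geometric data of `exists_geom` -/
theorem congr_of_geom (hL : RiemannHyp L FL g) (d : Datum R g) (φ : Idx g → R.O)
    (P P' : Fin g → Place L FL) (hP : ∀ i, r (P i) = d.Qb i) (hP' : ∀ i, r (P' i) = d.Qb i)
    (x x' : Fin g → A) (hx : ∀ i, ValAt (P i) ((d.T i : R.O) : FL) (x i : L))
    (hx' : ∀ i, ValAt (P' i) ((d.T i : R.O) : FL) (x' i : L))
    (w1 w2 : R.Oˣ) (ξ η : Idx g → A) (Sp P'' : Fin g → Place L FL)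
    (hw1 : ((w1 : R.O) : FL) = 1 + ∑ a, algebraMap L FL (ξ a : L) * ((φ a : R.O) : FL))
    (hw2 : ((w2 : R.O) : FL) = 1 + ∑ a, algebraMap L FL (η a : L) * ((φ a : R.O) : FL))
    (hS : ∀ j, r (Sp j) = d.Rb j) (hP'' : ∀ i, r (P'' i) = d.Qb i)
    (hZ1 : ∀ P₀ : Place L FL, (∑ j, Finsupp.single (Sp j) (1 : ℤ)) P₀ =
        P₀.ord ((w1 : R.O) : FL) + d.E P₀ -
          ((∑ i, Finsupp.single (P i) (1 : ℤ)) + ∑ i, Finsupp.single (P' i) (1 : ℤ)) P₀)
    (hZ2 : ∀ P₀ : Place L FL, (∑ i, Finsupp.single (P'' i) (1 : ℤ)) P₀ =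
        P₀.ord ((w2 : R.O) : FL) + d.E P₀ -
          ((∑ j, Finsupp.single (Sp j) (1 : ℤ)) + ∑ i, Finsupp.single (d.Q i) (1 : ℤ)) P₀)
    (ρ x'' : Fin g → A) (hρ : ∀ j, ValAt (Sp j) ((d.v j : R.O) : FL) (ρ j : L))
    (hx'' : ∀ i, ValAt (P'' i) ((d.T i : R.O) : FL) (x'' i : L))
    (c : A) (hxc : ∀ i, x i ∈ Ideal.span {c}) (hx'c : ∀ i, x' i ∈ Ideal.span {c})
    (hρc : ∀ j, ρ j ∈ Ideal.span {c}) (hx''c : ∀ i, x'' i ∈ Ideal.span {c})
    {S : Type uS} [CommRing S] [Algebra S A] (D : TaylorData S g) (n : ℕ)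
    (hD : TaylorAt d φ D (n + 1)) (i : Fin g) :
    x'' i - MvPolynomial.aeval (Sum.elim x x') (Psi D n i) ∈ Ideal.span {c} ^ n := by
  classical
  have hdegL := hL.deg_one
  obtain ⟨hTay, hTayv⟩ := hD
  choose hT_ hTreg hTeq using hTay
  choose hV_ hVreg hVeq using hTayv
  set I : Ideal A := Ideal.span {c} with hI
  have hle : I ^ (n + 1) ≤ I ^ n := Ideal.pow_le_pow_right (Nat.le_succ n)
  -- Taylor expansions of the four functions
  have hT2 : ∀ i, ((d.T i : R.O) : FL) ^ 2 =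
      Polynomial.aeval ((d.T i : R.O) : FL) ((X ^ 2 : A[X]).map A.subtype) := fun i => by simp
  have hV1 : ∀ j, ((d.v j : R.O) : FL) =
      Polynomial.aeval ((d.v j : R.O) : FL) ((X : A[X]).map A.subtype) := fun j => by simp
  have hcoeF : ∀ (w : R.Oˣ) (i : Fin g), (((w : R.O) * d.T i ^ 2 : R.O) : FL) =
      ((w : R.O) : FL) * ((d.T i : R.O) : FL) ^ 2 := fun w i => by push_cast; rfl
  have hcoeG : ∀ (w : R.Oˣ) (j : Fin g), (((w : R.O) * d.v j : R.O) : FL) =
      ((w : R.O) : FL) * ((d.v j : R.O) : FL) := fun w j => by push_cast; rfl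
  have hFne : ∀ (w : R.Oˣ) (i : Fin g), (((w : R.O) * d.T i ^ 2 : R.O) : FL) ≠ 0 := fun w i => by
    rw [hcoeF]
    exact mul_ne_zero (coe_unit_ne_zero R w) (pow_ne_zero 2 (d.hT i).coe_ne_zero)
  refine approx D n (I ^ n) x x' (fun i => mem_radical_pow_of_mem_span (hxc i) n)
    (fun i => mem_radical_pow_of_mem_span (hx'c i) n) ?_ ξ η ρ x''
    (fun j => mem_radical_pow_of_mem_span (hρc j) n)
    (fun i => mem_radical_pow_of_mem_span (hx''c i) n) ?_ ?_ ?_ ?_ i
  · -- `(x, x')^n ≤ I^n`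
    refine Ideal.pow_right_mono (Ideal.span_le.mpr ?_) n
    rintro _ ⟨(i | i), rfl⟩
    · exact hxc i
    · exact hx'c i
  · -- step 1
    intro row
    -- the function `F = w1 T_i^2` on the disc of `Qb i`
    have key : ∀ i : Fin g,
        ((X ^ 2 + ∑ a, C (ξ a) * ((D.p a i).map (algebraMap S A)) : A[X])).eval (x i) ∈ I ^ (n + 1) ∧
        dd ((X ^ 2 + ∑ a, C (ξ a) * ((D.p a i).map (algebraMap S A)) : A[X])) (x i) (x' i) ∈
          I ^ (n + 1 - 1) := by
      intro i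
      obtain ⟨hHreg, hFT⟩ := comb_taylor R (d.Qb i) ((d.T i : R.O) : FL)
        (((d.T i : R.O) : FL) ^ 2) (X ^ 2) (hT2 i) (fun a => ((φ a : R.O) : FL))
        (fun a => (D.p a i).map (algebraMap S A)) (n + 1) (fun a => hT_ a i)
        (fun a => hTreg a i) (fun a => hTeq a i) ξ
      rw [← hw1, ← hcoeF] at hFT
      have hord := ord_F_disc d w1 Sp P P' hS hP hP' hZ1 i
      have hFreg : RegOn r ((((w1 : R.O) * d.T i ^ 2 : R.O)) : FL) (d.Qb i) :=
        regOn_of_ord_nonneg fun P₀ hP₀ => by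
          rw [hord P₀ hP₀]; split_ifs <;> omega
      refine double_zero R hdegL (d.Qb i) (d.T i) (d.hT i) _ hFreg (hFne w1 i) _ (n + 1) _ hHreg
        hFT (P i) (P' i) (hP i) (hP' i) (x i) (x' i) (hx i) (hx' i) ?_ ?_ I (hxc i) (hx'c i)
      · rw [hord (P i) (hP i), if_pos rfl]; split_ifs <;> omega
      · rw [hord (P' i) (hP' i), if_pos rfl]; split_ifs <;> omega
    rcases row with i | i
    · rw [N1_row_inl]; exact hle (key i).1
    · rw [N1_row_inr]; exact (key i).2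
  · -- step 2
    intro j
    rw [eq2_eq]
    obtain ⟨hHreg, hFT⟩ := comb_taylor R (d.Rb j) ((d.v j : R.O) : FL)
      (((d.v j : R.O) : FL)) X (hV1 j) (fun a => ((φ a : R.O) : FL))
      (fun a => (D.q a j).map (algebraMap S A)) (n + 1) (fun a => hV_ a j)
      (fun a => hVreg a j) (fun a => hVeq a j) ξ
    rw [← hw1, ← hcoeG] at hFT
    have hord := ord_G_disc d w1 Sp P P' hS hP hP' hZ1 j
    refine hle (simple_zero R hdegL (d.Rb j) (d.v j) _ _ (n + 1) _ hHreg hFT (Sp j) (hS j) (ρ j)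
      (hρ j) (valAt_zero_of_ord_pos ?_) I (hρc j))
    rw [hord (Sp j) (hS j), if_pos rfl]; exact one_pos
  · -- step 3
    intro row
    rcases row with j | i
    · rw [N2_row_inl]
      obtain ⟨hHreg, hFT⟩ := comb_taylor R (d.Rb j) ((d.v j : R.O) : FL)
        (((d.v j : R.O) : FL)) X (hV1 j) (fun a => ((φ a : R.O) : FL))
        (fun a => (D.q a j).map (algebraMap S A)) (n + 1) (fun a => hV_ a j)
        (fun a => hVreg a j) (fun a => hVeq a j) η
      rw [← hw2, ← hcoeG] at hFT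
      have hord := ord_G_disc' d w2 Sp d.Q P'' hS d.hQ hP'' hZ2 j
      refine hle (simple_zero R hdegL (d.Rb j) (d.v j) _ _ (n + 1) _ hHreg hFT (Sp j) (hS j) (ρ j)
        (hρ j) (valAt_zero_of_ord_pos ?_) I (hρc j))
      rw [hord (Sp j) (hS j), if_pos rfl]; exact one_pos
    · rw [N2_row_inr]
      obtain ⟨hHreg, hFT⟩ := comb_taylor R (d.Qb i) ((d.T i : R.O) : FL)
        (((d.T i : R.O) : FL) ^ 2) (X ^ 2) (hT2 i) (fun a => ((φ a : R.O) : FL))
        (fun a => (D.p a i).map (algebraMap S A)) (n + 1) (fun a => hT_ a i)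
        (fun a => hTreg a i) (fun a => hTeq a i) η
      rw [← hw2, ← hcoeF] at hFT
      have hord := ord_F_disc' d w2 Sp d.Q P'' hS d.hQ hP'' hZ2 i
      have hFreg : RegOn r ((((w2 : R.O) * d.T i ^ 2 : R.O)) : FL) (d.Qb i) :=
        regOn_of_ord_nonneg fun P₀ hP₀ => by
          rw [hord P₀ hP₀]; split_ifs <;> omega
      have := (residual_zero R hdegL (d.Qb i) (d.T i) (d.hT i) _ hFreg (hFne w2 i) _ (n + 1)
        (Nat.succ_le_succ (Nat.zero_le n)) _ hHreg hFT (d.Q i) (P'' i) (d.hQ i) (hP'' i)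
        (valAt_zero_of_ord_pos (d.hT0 i)) (x'' i) (hx'' i)
        (by rw [hord (d.Q i) (d.hQ i), if_pos rfl]; split_ifs <;> omega)
        (by rw [hord (P'' i) (hP'' i), if_pos rfl]) I (hx''c i)).1
      rw [this]
      exact Ideal.zero_mem _
  · -- step 4
    intro i
    rw [eq4_eq]
    obtain ⟨hHreg, hFT⟩ := comb_taylor R (d.Qb i) ((d.T i : R.O) : FL)
      (((d.T i : R.O) : FL) ^ 2) (X ^ 2) (hT2 i) (fun a => ((φ a : R.O) : FL))
      (fun a => (D.p a i).map (algebraMap S A)) (n + 1) (fun a => hT_ a i)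
      (fun a => hTreg a i) (fun a => hTeq a i) η
    rw [← hw2, ← hcoeF] at hFT
    have hord := ord_F_disc' d w2 Sp d.Q P'' hS d.hQ hP'' hZ2 i
    have hFreg : RegOn r ((((w2 : R.O) * d.T i ^ 2 : R.O)) : FL) (d.Qb i) :=
      regOn_of_ord_nonneg fun P₀ hP₀ => by
        rw [hord P₀ hP₀]; split_ifs <;> omega
    exact (residual_zero R hdegL (d.Qb i) (d.T i) (d.hT i) _ hFreg (hFne w2 i) _ (n + 1)
      (Nat.succ_le_succ (Nat.zero_le n)) _ hHreg hFT (d.Q i) (P'' i) (d.hQ i) (hP'' i)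
      (valAt_zero_of_ord_pos (d.hT0 i)) (x'' i) (hx'' i)
      (by rw [hord (d.Q i) (d.hQ i), if_pos rfl]; split_ifs <;> omega)
      (by rw [hord (P'' i) (hP'' i), if_pos rfl]) I (hx''c i)).2

/-- **The truncated addition law at actual points.** -/
theorem exists_add_congr (hπ : Function.Surjective π) (hL : RiemannHyp L FL g) (d : Datum R g)
    (φ : Idx g → R.O)
    (hspan : ∀ f : R.O, (f : FL) ∈ riemannRochSpace d.E → ∃ (c0 : A) (c : Idx g → A),
      (f : FL) = algebraMap L FL (c0 : L) + ∑ a, algebraMap L FL (c a : L) * ((φ a : R.O) : FL))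
    (hind : LinearIndependent k (Sum.elim (fun _ : Unit => (1 : Fk)) (fun a => R.red (φ a))))
    (P P' : Fin g → Place L FL) (hP : ∀ i, r (P i) = d.Qb i) (hP' : ∀ i, r (P' i) = d.Qb i)
    (x x' : Fin g → A) (hx : ∀ i, ValAt (P i) ((d.T i : R.O) : FL) (x i : L))
    (hx' : ∀ i, ValAt (P' i) ((d.T i : R.O) : FL) (x' i : L)) :
    ∃ (P'' : Fin g → Place L FL) (x'' : Fin g → A) (c : A),
      c ∈ IsLocalRing.maximalIdeal A ∧ (∀ i, r (P'' i) = d.Qb i) ∧
      (∀ i, ValAt (P'' i) ((d.T i : R.O) : FL) (x'' i : L)) ∧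
      (∀ i, x i ∈ Ideal.span {c} ∧ x' i ∈ Ideal.span {c} ∧ x'' i ∈ Ideal.span {c}) ∧
      ((∑ i, Finsupp.single (P'' i) (1 : ℤ)) + (∑ i, Finsupp.single (d.Q i) (1 : ℤ)) -
          (∑ i, Finsupp.single (P i) (1 : ℤ)) - (∑ i, Finsupp.single (P' i) (1 : ℤ)) ∈
        Divisor.principal (K := L) (F := FL)) ∧
      ∀ {S : Type uS} [CommRing S] [Algebra S A] (D : ℕ → TaylorData S g)
        (_ : ∀ N, TaylorAt d φ (D N) N) (n : ℕ) (i : Fin g),
        x'' i - MvPolynomial.aeval (Sum.elim x x') (Psi (D (n + 1)) n i) ∈ Ideal.span {c} ^ n := by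
  classical
  have hdegL := hL.deg_one
  obtain ⟨w1, w2, ξ, η, Sp, P'', hw1, hw2, hS, hP'', hZ1, hZ2⟩ :=
    exists_geom hπ hL d φ hspan hind P P' hP hP'
  -- the coordinates of the residual points
  have hρex : ∀ j, ∃ ρ : A, ValAt (Sp j) ((d.v j : R.O) : FL) (ρ : L) := fun j =>
    exists_valAt_mem R hdegL (d.v j) (d.Rb j) (d.hv j).reg (Sp j) (hS j)
  choose ρ hρ using hρex
  have hx''ex : ∀ i, ∃ y : A, ValAt (P'' i) ((d.T i : R.O) : FL) (y : L) := fun i =>
    exists_valAt_mem R hdegL (d.T i) (d.Qb i) (d.hT i).reg (P'' i) (hP'' i)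
  choose x'' hx'' using hx''ex
  have hxm : ∀ i, x i ∈ IsLocalRing.maximalIdeal A := fun i => by
    obtain ⟨h1, h2⟩ := (d.hT i).value_mem (P i) (hP i) (x i : L) (hx i); exact h2
  have hx'm : ∀ i, x' i ∈ IsLocalRing.maximalIdeal A := fun i => by
    obtain ⟨h1, h2⟩ := (d.hT i).value_mem (P' i) (hP' i) (x' i : L) (hx' i); exact h2
  have hρm : ∀ j, ρ j ∈ IsLocalRing.maximalIdeal A := fun j => by
    obtain ⟨h1, h2⟩ := (d.hv j).value_mem (Sp j) (hS j) (ρ j : L) (hρ j); exact h2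
  have hx''m : ∀ i, x'' i ∈ IsLocalRing.maximalIdeal A := fun i => by
    obtain ⟨h1, h2⟩ := (d.hT i).value_mem (P'' i) (hP'' i) (x'' i : L) (hx'' i); exact h2
  obtain ⟨c, hcm, hcall⟩ := exists_common_bound
    (Sum.elim (Sum.elim x x') (Sum.elim ρ x'') : (Fin g ⊕ Fin g) ⊕ (Fin g ⊕ Fin g) → A)
    (by rintro ((i | i) | (i | i)) <;> simp [hxm, hx'm, hρm, hx''m])
  have hxc : ∀ i, x i ∈ Ideal.span {c} := fun i => hcall (Sum.inl (Sum.inl i))
  have hx'c : ∀ i, x' i ∈ Ideal.span {c} := fun i => hcall (Sum.inl (Sum.inr i))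
  have hρc : ∀ j, ρ j ∈ Ideal.span {c} := fun j => hcall (Sum.inr (Sum.inl j))
  have hx''c : ∀ i, x'' i ∈ Ideal.span {c} := fun i => hcall (Sum.inr (Sum.inr i))
  refine ⟨P'', x'', c, hcm, hP'', hx'', fun i => ⟨hxc i, hx'c i, hx''c i⟩, ?_, ?_⟩
  · -- the sum is `div (w2 / w1)`
    refine ⟨((w2 : R.O) : FL) / ((w1 : R.O) : FL),
      div_ne_zero (coe_unit_ne_zero R w2) (coe_unit_ne_zero R w1), fun P₀ => ?_⟩
    rw [ord_div P₀ (coe_unit_ne_zero R w2) (coe_unit_ne_zero R w1)]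
    have h1 := hZ1 P₀
    have h2 := hZ2 P₀
    simp only [Finsupp.add_apply, Finsupp.sub_apply] at h1 h2 ⊢
    omega
  · intro S _ _ D hD n i
    exact congr_of_geom hL d φ P P' hP hP' x x' hx hx' w1 w2 ξ η Sp P'' hw1 hw2 hS hP'' hZ1 hZ2
      ρ x'' hρ hx'' c hxc hx'c hρc hx''c (D (n + 1)) n (hD (n + 1)) i

end Main

end Fermat.Agent.S19.AddLaw
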