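import Mathlib
import Fermat.Agent.S19.InterpDatum

/-!
# S19, slice (W2), design-independent form: multi-family interpolation data

`Pts R ι` : a family of places of the special fibre, indexed by `ι`, with lifts to the generic
fibre and good parameters vanishing at the lifts.
`MultiDatum R g κ` : a rigid base family `base : Pts R (Fin g)` and a family of charts
`ch : Pts R κ` with reductions disjoint from the base.  For multiplicities `m : κ → ℕ`,
`E m = ∑ⱼ Rⱼ + ∑_c m_c P_c`.

* `ell_E`, `ell_Eb` : `ℓ = 1 + ∑ m` on both fibres (rigid certificate + Riemann's inequality);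
* `exists_reduced_basis` : a reduced basis `φ : Fin (∑ m + 1) → R.O` with `φ 0 = 1`;
* `regOn_mul_pow`, `regOn_mul_base` : local regularity;
* `rank_a`, `mem_of_regular_base`, `rank_b` : the rank lemmas on the special fibre.
-/

set_option autoImplicit false
set_option linter.unusedSectionVars false
set_option linter.unusedVariables false

namespace Fermat.Agent.S19.InterpMulti

open AlgebraicCurve Fermat.Agent.S18.CoreDefs Fermat.Agent.S18.CoreOrd Fermat.Agent.S24.Ord
open Fermat.Agent.S18.NonSpecial Fermat.Agent.S18.Disc Fermat.Agent.S19.InterpDatum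

universe u v

/-! ### combinatorics of `∑ i, single (f i) (c i)` -/

section Comb

variable {ι β : Type*} [Fintype ι]

theorem sum_single_apply_inj (f : ι → β) (hf : Function.Injective f) (c : ι → ℤ) (i : ι) :
    (∑ j, Finsupp.single (f j) (c j)) (f i) = c i := by
  classical
  rw [Finsupp.finsetSum_apply, Finset.sum_eq_single i]
  · exact Finsupp.single_eq_same
  · intro j _ hji
    exact Finsupp.single_eq_of_ne (fun h => hji (hf h).symm)
  · intro h; exact absurd (Finset.mem_univ i) h

theorem sum_single_apply_notMem (f : ι → β) (c : ι → ℤ) (x : β) (hx : ∀ j, f j ≠ x) :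
    (∑ j, Finsupp.single (f j) (c j)) x = 0 := by
  classical
  rw [Finsupp.finsetSum_apply]
  exact Finset.sum_eq_zero fun j _ => Finsupp.single_eq_of_ne (fun h => hx j h.symm)

theorem sum_single_nonneg (f : ι → β) (c : ι → ℕ) :
    (0 : β →₀ ℤ) ≤ ∑ j, Finsupp.single (f j) (c j : ℤ) := by
  classical
  rw [Finsupp.le_def]
  intro x
  rw [Finsupp.finsetSum_apply]
  refine Finset.sum_nonneg fun j _ => ?_
  rw [Finsupp.single_apply]
  split_ifs
  · exact Int.natCast_nonneg _
  · exact le_rfl

end Comb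


/-! ### the exchange lemma -/

section Exchange

/-- **exchange lemma**: replacing `v a₀` by a combination `∑ x a • v a` with `x a₀ ≠ 0` keeps a
finite family linearly independent. -/
theorem linearIndependent_update_sum {K V ι : Type*} [Field K] [AddCommGroup V] [Module K V]
    [Fintype ι] [DecidableEq ι] (v : ι → V) (hv : LinearIndependent K v) (x : ι → K) (a₀ : ι)
    (hx : x a₀ ≠ 0) : LinearIndependent K (Function.update v a₀ (∑ a, x a • v a)) := by
  rw [Fintype.linearIndependent_iff] at hv ⊢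
  intro c hc
  have key : ∑ a, (c a₀ * x a + if a = a₀ then 0 else c a) • v a = 0 := by
    rw [← hc, Fintype.sum_eq_add_sum_compl a₀ (fun a => c a • Function.update v a₀ _ a)]
    simp only [add_smul, Finset.sum_add_distrib, Function.update_self]
    congr 1
    · rw [Finset.smul_sum]
      exact Finset.sum_congr rfl fun a _ => by rw [smul_smul]
    · rw [Fintype.sum_eq_add_sum_compl a₀]
      simp only [if_true, zero_smul, zero_add]
      refine Finset.sum_congr rfl fun a ha => ?_
      have hne : a ≠ a₀ := by simpa using ha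
      rw [if_neg hne, Function.update_of_ne hne]
  have h0 := hv _ key a₀
  simp only [if_true, add_zero] at h0
  have hc0 : c a₀ = 0 := (mul_eq_zero.mp h0).resolve_right hx
  intro a
  by_cases ha : a = a₀
  · rw [ha, hc0]
  · have := hv _ key a
    rwa [if_neg ha, hc0, zero_mul, zero_add] at this

end Exchange

/-! ### one function field -/

section OneSide

variable {K : Type u} {F : Type v} [Field K] [Field F] [Algebra K F]

theorem isExact_add_nsmul_single {g : ℕ} (h : RiemannHyp K F g) {D : Divisor K F}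
    (hD : IsExact g D) (Q : Place K F) (n : ℕ) :
    IsExact g (D + Finsupp.single Q (n : ℤ)) := by
  induction n with
  | zero => simpa using hD
  | succ n ih =>
    have : (Finsupp.single Q ((n + 1 : ℕ) : ℤ) : Divisor K F)
        = Finsupp.single Q (n : ℤ) + Finsupp.single Q 1 := by
      rw [← Finsupp.single_add]; push_cast; rfl
    rw [this, ← add_assoc]
    exact IsExact.add_single h ih Q

theorem isExact_add_sum_nsmul_single {g : ℕ} (h : RiemannHyp K F g) {D : Divisor K F}
    (hD : IsExact g D) {ι : Type*} (s : Finset ι) (P : ι → Place K F) (m : ι → ℕ) :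
    IsExact g (D + ∑ i ∈ s, Finsupp.single (P i) (m i : ℤ)) := by
  classical
  induction s using Finset.induction_on with
  | empty => simpa using hD
  | insert i s hi ih =>
    rw [Finset.sum_insert hi, add_comm (Finsupp.single (P i) (m i : ℤ)), ← add_assoc]
    exact isExact_add_nsmul_single h ih (P i) (m i)

theorem degree_sum_nsmul_single (hdeg : ∀ v : Place K F, v.deg = 1) {ι : Type*} [Fintype ι]
    (P : ι → Place K F) (m : ι → ℕ) :
    Divisor.degree (∑ i, Finsupp.single (P i) (m i : ℤ)) = ((∑ i, m i : ℕ) : ℤ) := by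
  rw [map_sum]
  push_cast
  refine Finset.sum_congr rfl fun i _ => ?_
  rw [Divisor.degree_single, hdeg]
  simp

end OneSide

/-! ### families of lifted places with parameters -/

section TwoSides

variable {L : Type*} [Field L] {FL : Type*} [Field FL] [Algebra L FL]
variable {k : Type*} [Field k] {Fk : Type*} [Field Fk] [Algebra k Fk]
variable {A : ValuationSubring L} {π : A →+* k} {r : Place L FL → Place k Fk}
variable (R : RedDatum A π r)

/-- a family of places of the special fibre with lifts and good parameters -/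
structure Pts (ι : Type*) where
  pb : ι → Place k Fk
  p : ι → Place L FL
  t : ι → R.O
  pb_inj : Function.Injective pb
  hp : ∀ i, r (p i) = pb i
  ht : ∀ i, IsGoodParam R (t i) (pb i)
  ht0 : ∀ i, 0 < (p i).ord ((t i : R.O) : FL)

namespace Pts

variable {R} {ι : Type*} (X : Pts R ι)

theorem p_inj : Function.Injective X.p := fun i i' h =>
  X.pb_inj (by rw [← X.hp i, ← X.hp i', h])

variable [Fintype ι]

/-- `∑ m_i P_i` on the generic fibre -/
noncomputable def div (m : ι → ℕ) : Divisor L FL := ∑ i, Finsupp.single (X.p i) (m i : ℤ)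

/-- `∑ m_i P̄_i` on the special fibre -/
noncomputable def divb (m : ι → ℕ) : Divisor k Fk := ∑ i, Finsupp.single (X.pb i) (m i : ℤ)

theorem mapDomain_div (m : ι → ℕ) : Finsupp.mapDomain r (X.div m) = X.divb m := by
  unfold div divb
  rw [Finsupp.mapDomain_finsetSum]
  exact Finset.sum_congr rfl fun i _ => by rw [Finsupp.mapDomain_single, X.hp i]

theorem div_apply_p (m : ι → ℕ) (i : ι) : X.div m (X.p i) = m i :=
  sum_single_apply_inj X.p X.p_inj _ i

theorem divb_apply_pb (m : ι → ℕ) (i : ι) : X.divb m (X.pb i) = m i :=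
  sum_single_apply_inj X.pb X.pb_inj _ i

theorem div_apply_of_disc (m : ι → ℕ) {i : ι} {P : Place L FL} (hP : r P = X.pb i)
    (hne : P ≠ X.p i) : X.div m P = 0 := by
  refine sum_single_apply_notMem X.p _ P fun i' h => ?_
  have : X.pb i' = X.pb i := by rw [← X.hp i', h, hP]
  rw [X.pb_inj this] at h
  exact hne h.symm

theorem div_apply_of_forall_ne (m : ι → ℕ) {P : Place L FL} (hP : ∀ i, X.pb i ≠ r P) :
    X.div m P = 0 :=
  sum_single_apply_notMem X.p _ P fun i h => hP i (by rw [← h, X.hp i])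

theorem divb_apply_of_forall_ne (m : ι → ℕ) {v : Place k Fk} (hv : ∀ i, X.pb i ≠ v) :
    X.divb m v = 0 :=
  sum_single_apply_notMem X.pb _ v hv

theorem div_nonneg (m : ι → ℕ) : 0 ≤ X.div m := sum_single_nonneg X.p m

theorem divb_nonneg (m : ι → ℕ) : 0 ≤ X.divb m := sum_single_nonneg X.pb m

end Pts

/-- the disjoint union of two families with disjoint reductions -/
def Pts.sum {R : RedDatum A π r} {ι₁ ι₂ : Type*} (X : Pts R ι₁) (Y : Pts R ι₂)
    (hdisj : ∀ i j, X.pb i ≠ Y.pb j) : Pts R (ι₁ ⊕ ι₂) where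
  pb := Sum.elim X.pb Y.pb
  p := Sum.elim X.p Y.p
  t := Sum.elim X.t Y.t
  pb_inj := by
    rintro (i | i) (j | j) h
    · exact congrArg Sum.inl (X.pb_inj h)
    · exact absurd h (hdisj i j)
    · exact absurd h.symm (hdisj j i)
    · exact congrArg Sum.inr (Y.pb_inj h)
  hp := by rintro (i | i); exacts [X.hp i, Y.hp i]
  ht := by rintro (i | i); exacts [X.ht i, Y.ht i]
  ht0 := by rintro (i | i); exacts [X.ht0 i, Y.ht0 i]


/-! ### reduced bases normalised by `φ 0 = 1` -/

/-- **reduced basis with `φ 0 = 1`** of `L(D)`, for an effective divisor `D` whose `ℓ` does not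
jump under reduction: Gauss-integral sections of `O(D)` whose reductions are `k`-independent
sections of `O(r_* D)`; they span on both sides. -/
theorem exists_reduced_basis_one [HasPrincipalDivisors L FL] (hO : OrthoHyp R)
    (D : Divisor L FL) (hD : 0 ≤ D) (n : ℕ)
    [Module.Finite L (riemannRochSpace D)]
    [Module.Finite k (riemannRochSpace (Finsupp.mapDomain r D))]
    (hn : ell D = n + 1) (hn' : ell (Finsupp.mapDomain r D) = n + 1) :
    ∃ φ : Fin (n + 1) → R.O,
      φ 0 = 1 ∧
      (∀ a, ((φ a : R.O) : FL) ∈ riemannRochSpace D) ∧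
      (∀ a, R.red (φ a) ∈ riemannRochSpace (Finsupp.mapDomain r D)) ∧
      LinearIndependent k (fun a => R.red (φ a)) ∧
      LinearIndependent L (fun a => ((φ a : R.O) : FL)) ∧
      Submodule.span L (Set.range fun a => ((φ a : R.O) : FL)) = riemannRochSpace D ∧
      Submodule.span k (Set.range fun a => R.red (φ a))
        = riemannRochSpace (Finsupp.mapDomain r D) := by
  classical
  obtain ⟨f₀, hfW₀, hli₀⟩ := hO (riemannRochSpace D)
  have hn0 : Module.finrank L (riemannRochSpace D) = n + 1 := hn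
  let e : Fin (n + 1) ≃ Fin (Module.finrank L (riemannRochSpace D)) := finCongr hn0.symm
  set f : Fin (n + 1) → R.O := fun a => f₀ (e a) with hf
  have hfW : ∀ a, ((f a : R.O) : FL) ∈ riemannRochSpace D := fun a => hfW₀ (e a)
  have hli : LinearIndependent k (fun a => R.red (f a)) := hli₀.comp e e.injective
  have hfred : ∀ a, R.red (f a) ∈ riemannRochSpace (Finsupp.mapDomain r D) := fun a =>
    red_mem_riemannRochSpace R D (f a) (hli.ne_zero a) (hfW a)
  have hspan : Submodule.span k (Set.range fun a => R.red (f a))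
      = riemannRochSpace (Finsupp.mapDomain r D) := by
    refine Submodule.eq_of_le_of_finrank_eq ?_ ?_
    · rw [Submodule.span_le]
      rintro _ ⟨a, rfl⟩
      exact hfred a
    · rw [finrank_span_eq_card hli, Fintype.card_fin]
      exact hn'.symm
  -- write `1` in the reduced basis
  have hDb : 0 ≤ Finsupp.mapDomain r D := by
    rw [Finsupp.le_def]
    intro Q
    exact mapDomain_nonneg r D Q fun P _ => Finsupp.le_def.mp hD P
  have h1 : (1 : Fk) ∈ Submodule.span k (Set.range fun a => R.red (f a)) := by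
    rw [hspan]
    exact one_mem_riemannRochSpace hDb
  obtain ⟨x, hx⟩ := (Submodule.mem_span_range_iff_exists_fun k).mp h1
  obtain ⟨a₀, ha₀⟩ : ∃ a₀, x a₀ ≠ 0 := by
    by_contra hne
    push Not at hne
    simp [hne] at hx
  -- exchange `f a₀` against `1`
  set f' : Fin (n + 1) → R.O := Function.update f a₀ 1 with hf'
  have hf'a₀ : f' a₀ = 1 := Function.update_self _ _ _
  have hf'ne : ∀ a, a ≠ a₀ → f' a = f a := fun a ha => Function.update_of_ne ha _ _
  have hred' : (fun a => R.red (f' a))
      = Function.update (fun a => R.red (f a)) a₀ (∑ a, x a • R.red (f a)) := by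
    funext a
    rw [hx]
    by_cases ha : a = a₀
    · rw [ha, hf'a₀, map_one, Function.update_self]
    · rw [hf'ne a ha, Function.update_of_ne ha]
  have hli' : LinearIndependent k (fun a => R.red (f' a)) := by
    rw [hred']
    exact linearIndependent_update_sum _ hli x a₀ ha₀
  have hfW' : ∀ a, ((f' a : R.O) : FL) ∈ riemannRochSpace D := by
    intro a
    by_cases ha : a = a₀
    · rw [ha, hf'a₀]
      exact one_mem_riemannRochSpace hD
    · rw [hf'ne a ha]
      exact hfW a
  have hfred' : ∀ a, R.red (f' a) ∈ riemannRochSpace (Finsupp.mapDomain r D) := by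
    intro a
    by_cases ha : a = a₀
    · rw [ha, hf'a₀, map_one]
      exact one_mem_riemannRochSpace hDb
    · rw [hf'ne a ha]
      exact hfred a
  -- move `a₀` to the index `0`
  let σ : Fin (n + 1) ≃ Fin (n + 1) := Equiv.swap 0 a₀
  have hlik : LinearIndependent k (fun a => R.red (f' (σ a))) := hli'.comp σ σ.injective
  have hliL : LinearIndependent L (fun a => ((f' (σ a) : R.O) : FL)) :=
    linearIndependent_of_red R (fun a => f' (σ a)) hlik
  refine ⟨fun a => f' (σ a), ?_, fun a => hfW' (σ a), fun a => hfred' (σ a), hlik, hliL, ?_, ?_⟩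
  · show f' (σ 0) = 1
    rw [Equiv.swap_apply_left, hf'a₀]
  · refine Submodule.eq_of_le_of_finrank_eq ?_ ?_
    · rw [Submodule.span_le]
      rintro _ ⟨a, rfl⟩
      exact hfW' (σ a)
    · rw [finrank_span_eq_card hliL, Fintype.card_fin]
      exact hn0.symm
  · refine Submodule.eq_of_le_of_finrank_eq ?_ ?_
    · rw [Submodule.span_le]
      rintro _ ⟨a, rfl⟩
      exact hfred' (σ a)
    · rw [finrank_span_eq_card hlik, Fintype.card_fin]
      exact hn'.symm

/-- a rigid base family and a family of charts with reductions disjoint from the base -/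
structure MultiDatum (g : ℕ) (κ : Type*) where
  base : Pts R (Fin g)
  ch : Pts R κ
  disj : ∀ j c, base.pb j ≠ ch.pb c
  rigid : ∀ y : Fk, y ∈ riemannRochSpace (∑ j, Finsupp.single (base.pb j) (1 : ℤ)) →
    ∃ c : k, y = algebraMap k Fk c

namespace MultiDatum

variable {R} {g : ℕ} {κ : Type*} [Fintype κ] (d : MultiDatum R g κ)

/-- `E = ∑ⱼ Rⱼ + ∑_c m_c P_c` -/
noncomputable def E (m : κ → ℕ) : Divisor L FL :=
  (∑ j, Finsupp.single (d.base.p j) (1 : ℤ)) + d.ch.div m

/-- `Ē = ∑ⱼ R̄ⱼ + ∑_c m_c P̄_c` -/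
noncomputable def Eb (m : κ → ℕ) : Divisor k Fk :=
  (∑ j, Finsupp.single (d.base.pb j) (1 : ℤ)) + d.ch.divb m

theorem mapDomain_E (m : κ → ℕ) : Finsupp.mapDomain r (d.E m) = d.Eb m := by
  unfold E Eb
  rw [Finsupp.mapDomain_add, d.ch.mapDomain_div,
    Fermat.Agent.S18.Core.mapDomain_sum_single d.base.p d.base.pb d.base.hp]

theorem E_nonneg (m : κ → ℕ) : 0 ≤ d.E m :=
  add_nonneg (sum_single_nonneg' d.base.p) (d.ch.div_nonneg m)

theorem Eb_nonneg (m : κ → ℕ) : 0 ≤ d.Eb m :=
  add_nonneg (sum_single_nonneg' d.base.pb) (d.ch.divb_nonneg m)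

theorem base_p_ne_ch_p (j : Fin g) (c : κ) : d.base.p j ≠ d.ch.p c := fun h =>
  d.disj j c (by rw [← d.base.hp j, ← d.ch.hp c, h])

open Fermat.Agent.S18.Core in
theorem E_apply_ch (m : κ → ℕ) (c : κ) : d.E m (d.ch.p c) = m c := by
  unfold E
  rw [Finsupp.add_apply, d.ch.div_apply_p,
    sum_single_apply_of_notMem d.base.p (d.ch.p c) (fun j => d.base_p_ne_ch_p j c)]
  simp

open Fermat.Agent.S18.Core in
theorem E_apply_base (m : κ → ℕ) (j : Fin g) : d.E m (d.base.p j) = 1 := by
  unfold E
  rw [Finsupp.add_apply, sum_single_apply_of_injective d.base.p d.base.p_inj,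
    d.ch.div_apply_of_forall_ne m (fun c h => d.disj j c (by rw [d.base.hp j] at h; exact h.symm))]
  simp

open Fermat.Agent.S18.Core in
theorem E_apply_of_disc_ch (m : κ → ℕ) {c : κ} {P : Place L FL} (hP : r P = d.ch.pb c)
    (hne : P ≠ d.ch.p c) : d.E m P = 0 := by
  unfold E
  rw [Finsupp.add_apply, d.ch.div_apply_of_disc m hP hne,
    sum_single_apply_of_notMem d.base.p P (fun j h => d.disj j c (by rw [← d.base.hp j, h, hP]))]
  simp

open Fermat.Agent.S18.Core in
theorem E_apply_of_disc_base (m : κ → ℕ) {j : Fin g} {P : Place L FL} (hP : r P = d.base.pb j)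
    (hne : P ≠ d.base.p j) : d.E m P = 0 := by
  unfold E
  have h1 : ∀ j', d.base.p j' ≠ P := by
    intro j' h
    have : d.base.pb j' = d.base.pb j := by rw [← d.base.hp j', h, hP]
    rw [d.base.pb_inj this] at h
    exact hne h.symm
  rw [Finsupp.add_apply, sum_single_apply_of_notMem d.base.p P h1,
    d.ch.div_apply_of_forall_ne m (fun c h => d.disj j c (by rw [hP] at h; exact h.symm))]
  simp

open Fermat.Agent.S18.Core in
theorem Eb_apply_ch (m : κ → ℕ) (c : κ) : d.Eb m (d.ch.pb c) = m c := by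
  unfold Eb
  rw [Finsupp.add_apply, d.ch.divb_apply_pb,
    sum_single_apply_of_notMem d.base.pb (d.ch.pb c) (fun j => d.disj j c)]
  simp

open Fermat.Agent.S18.Core in
theorem Eb_apply_base (m : κ → ℕ) (j : Fin g) : d.Eb m (d.base.pb j) = 1 := by
  unfold Eb
  rw [Finsupp.add_apply, sum_single_apply_of_injective d.base.pb d.base.pb_inj,
    d.ch.divb_apply_of_forall_ne m (fun c h => d.disj j c h.symm)]
  simp

open Fermat.Agent.S18.Core in
theorem Eb_apply_of_forall_ne_ch (m : κ → ℕ) {v : Place k Fk} (hv : ∀ c, d.ch.pb c ≠ v) :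
    d.Eb m v = (∑ j, Finsupp.single (d.base.pb j) (1 : ℤ)) v := by
  unfold Eb
  rw [Finsupp.add_apply, d.ch.divb_apply_of_forall_ne m hv, add_zero]

open Fermat.Agent.S18.Core in
theorem Eb_apply_of_forall_ne_base (m : κ → ℕ) {v : Place k Fk} (hv : ∀ j, d.base.pb j ≠ v) :
    d.Eb m v = d.ch.divb m v := by
  unfold Eb
  rw [Finsupp.add_apply, sum_single_apply_of_notMem d.base.pb v hv, zero_add]

/-! #### dimensions -/

theorem isExact_Eb (hk : RiemannHyp k Fk g) (m : κ → ℕ) : IsExact g (d.Eb m) := by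
  unfold Eb Pts.divb
  exact isExact_add_sum_nsmul_single hk (isExact_of_rigid hk d.base.pb d.rigid) Finset.univ d.ch.pb m

theorem degree_Eb (hk : RiemannHyp k Fk g) (m : κ → ℕ) :
    Divisor.degree (d.Eb m) = g + ((∑ c, m c : ℕ) : ℤ) := by
  unfold Eb Pts.divb
  rw [map_add, degree_sum_single' hk.deg_one, degree_sum_nsmul_single hk.deg_one]

theorem degree_E (hL : RiemannHyp L FL g) (m : κ → ℕ) :
    Divisor.degree (d.E m) = g + ((∑ c, m c : ℕ) : ℤ) := by
  unfold E Pts.div
  rw [map_add, degree_sum_single' hL.deg_one, degree_sum_nsmul_single hL.deg_one]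

/-- `ℓ_k(Ē) = 1 + ∑ m` -/
theorem ell_Eb (hk : RiemannHyp k Fk g) (m : κ → ℕ) : ell (d.Eb m) = (∑ c, m c) + 1 := by
  have h := d.isExact_Eb hk m
  unfold IsExact at h
  rw [d.degree_Eb hk] at h
  omega

/-- `ℓ_L(∑ Rⱼ) = 1` by semicontinuity -/
theorem ell_base [HasPrincipalDivisors L FL] (hO : OrthoHyp R) (hL : RiemannHyp L FL g)
    (hk : RiemannHyp k Fk g) : ell (∑ j, Finsupp.single (d.base.p j) (1 : ℤ)) = 1 := by
  have := hL.finite (∑ j, Finsupp.single (d.base.p j) (1 : ℤ))
  have := hk.finite (Finsupp.mapDomain r (∑ j, Finsupp.single (d.base.p j) (1 : ℤ)))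
  have h1 := ell_le_ell_mapDomain R hO (∑ j, Finsupp.single (d.base.p j) (1 : ℤ))
  rw [Fermat.Agent.S18.Core.mapDomain_sum_single d.base.p d.base.pb d.base.hp,
    ell_eq_one_of_rigid (sum_single_nonneg' d.base.pb) d.rigid] at h1
  have h2 := riemann_ineq hL (∑ j, Finsupp.single (d.base.p j) (1 : ℤ))
  rw [degree_sum_single' hL.deg_one] at h2
  omega

theorem isExact_E [HasPrincipalDivisors L FL] (hO : OrthoHyp R) (hL : RiemannHyp L FL g)
    (hk : RiemannHyp k Fk g) (m : κ → ℕ) : IsExact g (d.E m) := by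
  have h0 : IsExact g (∑ j, Finsupp.single (d.base.p j) (1 : ℤ)) := by
    unfold IsExact
    rw [d.ell_base hO hL hk, degree_sum_single' hL.deg_one]
    simp
  unfold E Pts.div
  exact isExact_add_sum_nsmul_single hL h0 Finset.univ d.ch.p m

/-- `ℓ_L(E) = 1 + ∑ m` -/
theorem ell_E [HasPrincipalDivisors L FL] (hO : OrthoHyp R) (hL : RiemannHyp L FL g)
    (hk : RiemannHyp k Fk g) (m : κ → ℕ) : ell (d.E m) = (∑ c, m c) + 1 := by
  have h := d.isExact_E hO hL hk m
  unfold IsExact at h
  rw [d.degree_E hL] at h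
  omega


/-! #### the reduced basis -/

/-- **reduced basis of `L(E m)`** with `φ 0 = 1`: `∑ m + 1` Gauss-integral sections of `O(E m)`
whose reductions are `k`-independent sections of `O(Ē m)`; they span on both sides. -/
theorem exists_reduced_basis [HasPrincipalDivisors L FL] (hO : OrthoHyp R)
    (hL : RiemannHyp L FL g) (hk : RiemannHyp k Fk g) (m : κ → ℕ) :
    ∃ φ : Fin ((∑ c, m c) + 1) → R.O,
      φ 0 = 1 ∧
      (∀ a, ((φ a : R.O) : FL) ∈ riemannRochSpace (d.E m)) ∧
      (∀ a, R.red (φ a) ∈ riemannRochSpace (d.Eb m)) ∧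
      LinearIndependent k (fun a => R.red (φ a)) ∧
      LinearIndependent L (fun a => ((φ a : R.O) : FL)) ∧
      Submodule.span L (Set.range fun a => ((φ a : R.O) : FL)) = riemannRochSpace (d.E m) ∧
      Submodule.span k (Set.range fun a => R.red (φ a)) = riemannRochSpace (d.Eb m) := by
  have hfinL := hL.finite (d.E m)
  have hfink := hk.finite (Finsupp.mapDomain r (d.E m))
  have h := exists_reduced_basis_one R hO (d.E m) (d.E_nonneg m) (∑ c, m c)
    (d.ell_E hO hL hk m) (by rw [d.mapDomain_E]; exact d.ell_Eb hk m)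
  rw [d.mapDomain_E] at h
  exact h

/-! #### local regularity of sections of `O(E m)` -/

/-- a section of `O(E m)` times `t_c ^ (m c)` is regular on the residue disc of `ch.pb c` -/
theorem regOn_mul_pow [HasPrincipalDivisors L FL] (m : κ → ℕ) {f : FL}
    (hf : f ∈ riemannRochSpace (d.E m)) (c : κ) :
    RegOn r (f * ((d.ch.t c : R.O) : FL) ^ (m c)) (d.ch.pb c) := by
  classical
  refine regOn_of_ord_nonneg fun P hP => ?_
  rcases eq_or_ne f 0 with rfl | hf0
  · rw [zero_mul, Place.ord_zero]
  have hT0 : ((d.ch.t c : R.O) : FL) ≠ 0 := (d.ch.ht c).coe_ne_zero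
  have hordT := (d.ch.ht c).ord_eq_ite (d.ch.hp c)
    (adicValuation_lt_one_of_ord_pos _ (d.ch.ht0 c)) P hP
  have hordf := ((mem_riemannRochSpace_iff.mp hf) P).resolve_left hf0
  rw [Place.ord_mul P hf0 (pow_ne_zero _ hT0), ord_pow, hordT]
  by_cases hPQ : P = d.ch.p c
  · rw [if_pos hPQ]
    rw [hPQ, d.E_apply_ch] at hordf
    rw [hPQ]
    simp only [mul_one]
    omega
  · rw [if_neg hPQ]
    rw [d.E_apply_of_disc_ch m hP hPQ] at hordf
    simp only [mul_zero]
    omega

/-- a section of `O(E m)` times `t_j` is regular on the residue disc of `base.pb j` -/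
theorem regOn_mul_base [HasPrincipalDivisors L FL] (m : κ → ℕ) {f : FL}
    (hf : f ∈ riemannRochSpace (d.E m)) (j : Fin g) :
    RegOn r (f * ((d.base.t j : R.O) : FL)) (d.base.pb j) := by
  classical
  refine regOn_of_ord_nonneg fun P hP => ?_
  rcases eq_or_ne f 0 with rfl | hf0
  · rw [zero_mul, Place.ord_zero]
  have hv0 : ((d.base.t j : R.O) : FL) ≠ 0 := (d.base.ht j).coe_ne_zero
  have hordv := (d.base.ht j).ord_eq_ite (d.base.hp j)
    (adicValuation_lt_one_of_ord_pos _ (d.base.ht0 j)) P hP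
  have hordf := ((mem_riemannRochSpace_iff.mp hf) P).resolve_left hf0
  rw [Place.ord_mul P hf0 hv0, hordv]
  by_cases hPR : P = d.base.p j
  · rw [if_pos hPR]
    rw [hPR, d.E_apply_base] at hordf
    rw [hPR]
    omega
  · rw [if_neg hPR]
    rw [d.E_apply_of_disc_base m hP hPR] at hordf
    omega

/-! #### the rank lemmas on the special fibre -/

/-- **(RR-a)** a section of `O(Ē m)` which is regular at every chart point `ch.pb c` is constant
(`L_k(Ē - ∑ m_c P̄_c) = L_k(∑ R̄ⱼ) = k`). -/
theorem rank_a (m : κ → ℕ) {y : Fk} (hy : y ∈ riemannRochSpace (d.Eb m))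
    (h : ∀ c, 0 ≤ (d.ch.pb c).ord y) : ∃ c : k, y = algebraMap k Fk c := by
  refine d.rigid y ?_
  rw [mem_riemannRochSpace_iff]
  intro v
  rcases eq_or_ne y 0 with rfl | hy0
  · exact Or.inl rfl
  right
  by_cases hv : ∃ c, d.ch.pb c = v
  · obtain ⟨c, rfl⟩ := hv
    rw [Fermat.Agent.S18.Core.sum_single_apply_of_notMem d.base.pb (d.ch.pb c)
      (fun j => d.disj j c)]
    simpa using h c
  · push Not at hv
    have := ((mem_riemannRochSpace_iff.mp hy) v).resolve_left hy0
    rwa [d.Eb_apply_of_forall_ne_ch m hv] at this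

/-- **(RR-b), first half** a section of `O(Ē m)` which is regular at every base point
`base.pb j` and has pole order `≤ m' c` at every chart point is a section of `O(∑ m'_c P̄_c)`. -/
theorem mem_divb_of_regular_base (m m' : κ → ℕ) (hm : ∀ c, m' c ≤ m c) {y : Fk}
    (hy : y ∈ riemannRochSpace (d.Eb m)) (hR : ∀ j, 0 ≤ (d.base.pb j).ord y)
    (hQ : ∀ c, -(m' c : ℤ) ≤ (d.ch.pb c).ord y) : y ∈ riemannRochSpace (d.ch.divb m') := by
  rw [mem_riemannRochSpace_iff]
  intro v
  rcases eq_or_ne y 0 with rfl | hy0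
  · exact Or.inl rfl
  right
  by_cases hv : ∃ c, d.ch.pb c = v
  · obtain ⟨c, rfl⟩ := hv
    rw [d.ch.divb_apply_pb]
    exact hQ c
  · push Not at hv
    rw [d.ch.divb_apply_of_forall_ne m' hv]
    by_cases hv' : ∃ j, d.base.pb j = v
    · obtain ⟨j, rfl⟩ := hv'
      simpa using hR j
    · push Not at hv'
      have := ((mem_riemannRochSpace_iff.mp hy) v).resolve_left hy0
      rw [d.Eb_apply_of_forall_ne_base m hv', d.ch.divb_apply_of_forall_ne m hv] at this
      simpa using this

/-- **(RR-b)** if moreover `∑ m'_c P̄_c` is rigid, such a section is constant. -/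
theorem rank_b (m m' : κ → ℕ) (hm : ∀ c, m' c ≤ m c)
    (hrig : ∀ y : Fk, y ∈ riemannRochSpace (d.ch.divb m') → ∃ c : k, y = algebraMap k Fk c)
    {y : Fk} (hy : y ∈ riemannRochSpace (d.Eb m)) (hR : ∀ j, 0 ≤ (d.base.pb j).ord y)
    (hQ : ∀ c, -(m' c : ℤ) ≤ (d.ch.pb c).ord y) : ∃ c : k, y = algebraMap k Fk c :=
  hrig y (d.mem_divb_of_regular_base m m' hm hy hR hQ)

/-- (RR-a) seen through the parameters: `ȳ t̄_c ^ (m c)` vanishes to order `≥ m c`. -/
theorem rank_a' [HasPrincipalDivisors L FL] (m : κ → ℕ) {y : Fk}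
    (hy : y ∈ riemannRochSpace (d.Eb m))
    (h : ∀ c, (m c : ℤ) ≤ (d.ch.pb c).ord (y * R.red (d.ch.t c) ^ (m c))) :
    ∃ c : k, y = algebraMap k Fk c := by
  rcases eq_or_ne y 0 with rfl | hy0
  · exact ⟨0, by simp⟩
  refine d.rank_a m hy fun c => ?_
  have hT := (d.ch.ht c).red_ne_zero
  have := h c
  rw [Place.ord_mul _ hy0 (pow_ne_zero _ hT), ord_pow, (d.ch.ht c).ord_one] at this
  simp only [mul_one] at this
  omega

/-- (RR-b) seen through the parameters: `ȳ t̄_j` vanishes at `base.pb j`,
`ȳ t̄_c ^ (m c)` vanishes to order `≥ m c - m' c` at `ch.pb c`. -/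
theorem rank_b' [HasPrincipalDivisors L FL] (m m' : κ → ℕ) (hm : ∀ c, m' c ≤ m c)
    (hrig : ∀ y : Fk, y ∈ riemannRochSpace (d.ch.divb m') → ∃ c : k, y = algebraMap k Fk c)
    {y : Fk} (hy : y ∈ riemannRochSpace (d.Eb m))
    (hR : ∀ j, 1 ≤ (d.base.pb j).ord (y * R.red (d.base.t j)))
    (hQ : ∀ c, (m c : ℤ) - m' c ≤ (d.ch.pb c).ord (y * R.red (d.ch.t c) ^ (m c))) :
    ∃ c : k, y = algebraMap k Fk c := by
  rcases eq_or_ne y 0 with rfl | hy0
  · exact ⟨0, by simp⟩
  refine d.rank_b m m' hm hrig hy (fun j => ?_) (fun c => ?_)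
  · have hv := (d.base.ht j).red_ne_zero
    have := hR j
    rw [Place.ord_mul _ hy0 hv, (d.base.ht j).ord_one] at this
    omega
  · have hT := (d.ch.ht c).red_ne_zero
    have := hQ c
    rw [Place.ord_mul _ hy0 (pow_ne_zero _ hT), ord_pow, (d.ch.ht c).ord_one] at this
    simp only [mul_one] at this
    omega

end MultiDatum

end TwoSides

end Fermat.Agent.S19.InterpMulti
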