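import Mathlib
import Fermat.Agent.S19.InterpMulti

/-!
# S19, slice (W5b): the normalised basis of `L(R₀ + 2 D₀)` and its rationality

Frame = `S18/Core` + `d : InterpDatum.Datum R g`.

* `jet_unique` : uniqueness of the coefficients of a truncated expansion in one function field;
* `HasJet R T Q y n c` : `y = ∑_{m<n} c_m T^m + T^n · rem` with `rem` regular on the residue disc
  of `Q` (`Prop`-valued form of the output of the Taylor slice), with its calculus
  (`add`, `sub`, `const_mul`, `sum`, `castSucc`, `red`, `unique`);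
* `exists_normalised_basis` : a basis `φ_a` (`a : Fin g ⊕ Fin g`) of `L(E)` modulo constants whose
  `2`-jets at the `Q_i` are the unit vectors, normalised by the vanishing of the `T²`-coefficient at
  the own index; it is Gauss-integral, spans the integral sections over `A`, has `k`-independent
  reductions, and is FIXED by every semilinear automorphism fixing the datum.
-/

set_option autoImplicit false
set_option linter.unusedSectionVars false
set_option linter.unusedVariables false

namespace Fermat.Agent.S19.NormBasis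

open AlgebraicCurve Fermat.Agent.S18.CoreDefs Fermat.Agent.S18.CoreOrd Fermat.Agent.S24.Ord
open Fermat.Agent.S18.NonSpecial Fermat.Agent.S18.Disc Fermat.Agent.S19.InterpDatum

/-! ### uniqueness of truncated expansions in one function field -/

section OneField

variable {K : Type*} {F : Type*} [Field K] [Field F] [Algebra K F]

/-- if `∑_{m<n} c_m T^m + T^n z = 0` with `T ≠ 0` vanishing at `P` and `z` regular at `P`, then all
`c_m` vanish -/
theorem jet_unique (P : Place K F) (T : F) (hT0 : T ≠ 0) (hT : P.adicValuation T < 1) :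
    ∀ (n : ℕ) (c : Fin n → K) (z : F), P.adicValuation z ≤ 1 →
      ∑ m : Fin n, algebraMap K F (c m) * T ^ (m : ℕ) + T ^ n * z = 0 → ∀ m, c m = 0 := by
  intro n
  induction n with
  | zero => intro c z _ _ m; exact m.elim0
  | succ n ih =>
    intro c z hz h
    -- factor out `T`
    set W : F := ∑ m : Fin n, algebraMap K F (c m.succ) * T ^ (m : ℕ) + T ^ n * z with hW
    have hWle : P.adicValuation W ≤ 1 := by
      refine Valuation.map_add_le _ (Valuation.map_sum_le _ fun m _ => ?_) ?_
      · rw [map_mul, map_pow]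
        exact mul_le_one' (P.adicValuation_algebraMap_le_one _) (pow_le_one' hT.le _)
      · rw [map_mul, map_pow]
        exact mul_le_one' (pow_le_one' hT.le _) hz
    have hfac : algebraMap K F (c 0) + T * W = 0 := by
      rw [← h, Fin.sum_univ_succ, hW]
      simp only [Fin.val_zero, pow_zero, mul_one, Fin.val_succ, Finset.mul_sum]
      rw [mul_add, Finset.mul_sum, add_assoc]
      congr 2
      · refine Finset.sum_congr rfl fun m _ => ?_
        ring
      · ring
    have hc0 : c 0 = 0 := by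
      by_contra hne
      have h1 : P.adicValuation (algebraMap K F (c 0)) = 1 := adicValuation_algebraMap P hne
      have h2 : algebraMap K F (c 0) = -(T * W) := eq_neg_of_add_eq_zero_left hfac
      rw [h2, Valuation.map_neg, map_mul] at h1
      have h3 : P.adicValuation T * P.adicValuation W < 1 :=
        mul_lt_one_of_lt_of_le hT hWle
      rw [h1] at h3
      exact lt_irrefl _ h3
    have hW0 : W = 0 := by
      rw [hc0, map_zero, zero_add] at hfac
      exact (mul_eq_zero.mp hfac).resolve_left hT0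
    have := ih (fun m => c m.succ) z hz hW0
    intro m
    refine Fin.cases hc0 (fun m' => this m') m

end OneField


/-! ### jets of Gauss-integral functions -/

section Jets

variable {L : Type*} [Field L] {FL : Type*} [Field FL] [Algebra L FL]
variable {k : Type*} [Field k] {Fk : Type*} [Field Fk] [Algebra k Fk]
variable {A : ValuationSubring L} {π : A →+* k} {r : Place L FL → Place k Fk}
variable (R : RedDatum A π r)

/-- `y = ∑_{m<n} c_m T^m + T^n · rem` with `rem` regular on the residue disc of `Q` -/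
def HasJet (T : R.O) (Q : Place k Fk) (y : R.O) (n : ℕ) (c : Fin n → A) : Prop :=
  ∃ rem : R.O, RegOn r ((rem : R.O) : FL) Q ∧
    y = ∑ m : Fin n, constHom R (c m) * T ^ (m : ℕ) + T ^ n * rem

variable {R} {T : R.O} {Q : Place k Fk} {n : ℕ}

/-- constructor from an expansion read in `FL` -/
theorem hasJet_of_coe {y : R.O} (c : Fin n → A) (rem : R.O)
    (hreg : RegOn r ((rem : R.O) : FL) Q)
    (h : ((y : R.O) : FL) =
      ∑ m : Fin n, algebraMap L FL ((c m : A) : L) * ((T : R.O) : FL) ^ (m : ℕ) +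
        ((T : R.O) : FL) ^ n * ((rem : R.O) : FL)) : HasJet R T Q y n c := by
  refine ⟨rem, hreg, Subtype.ext ?_⟩
  rw [h]
  push_cast
  rfl

theorem hasJet_zero : HasJet R T Q 0 n 0 := by
  refine ⟨0, ?_, ?_⟩
  · show RegOn r (0 : FL) Q
    exact fun P _ => by rw [map_zero]; exact zero_le_one
  · simp

theorem HasJet.add {y y' : R.O} {c c' : Fin n → A} (h : HasJet R T Q y n c)
    (h' : HasJet R T Q y' n c') : HasJet R T Q (y + y') n (c + c') := by
  obtain ⟨z, hz, hy⟩ := h
  obtain ⟨z', hz', hy'⟩ := h'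
  refine ⟨z + z', ?_, ?_⟩
  · show RegOn r (((z : R.O) : FL) + ((z' : R.O) : FL)) Q
    exact hz.add hz'
  · rw [hy, hy']
    simp only [Pi.add_apply, map_add, add_mul, Finset.sum_add_distrib]
    ring

theorem HasJet.const_mul {y : R.O} {c : Fin n → A} (a : A) (h : HasJet R T Q y n c) :
    HasJet R T Q (constHom R a * y) n (fun m => a * c m) := by
  obtain ⟨z, hz, hy⟩ := h
  refine ⟨constHom R a * z, ?_, ?_⟩
  · show RegOn r (algebraMap L FL (a : L) * ((z : R.O) : FL)) Q
    exact (regOn_const r _ Q).mul hz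
  · rw [hy, mul_add, Finset.mul_sum]
    congr 1
    · refine Finset.sum_congr rfl fun m _ => ?_
      rw [map_mul]
      ring
    · ring

theorem HasJet.neg {y : R.O} {c : Fin n → A} (h : HasJet R T Q y n c) :
    HasJet R T Q (-y) n (-c) := by
  obtain ⟨z, hz, hy⟩ := h
  refine ⟨-z, ?_, ?_⟩
  · show RegOn r (-((z : R.O) : FL)) Q
    exact hz.neg
  · rw [hy]
    simp only [Pi.neg_apply, map_neg, neg_mul, Finset.sum_neg_distrib]
    ring

theorem HasJet.sub {y y' : R.O} {c c' : Fin n → A} (h : HasJet R T Q y n c)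
    (h' : HasJet R T Q y' n c') : HasJet R T Q (y - y') n (c - c') := by
  rw [sub_eq_add_neg, sub_eq_add_neg]
  exact h.add h'.neg

theorem HasJet.congr {y : R.O} {c c' : Fin n → A} (h : HasJet R T Q y n c) (hc : c = c') :
    HasJet R T Q y n c' := hc ▸ h

theorem HasJet.sum {ι : Type*} (s : Finset ι) (a : ι → A) (y : ι → R.O) (c : ι → Fin n → A)
    (h : ∀ b ∈ s, HasJet R T Q (y b) n (c b)) :
    HasJet R T Q (∑ b ∈ s, constHom R (a b) * y b) n (fun m => ∑ b ∈ s, a b * c b m) := by
  classical
  induction s using Finset.induction_on with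
  | empty =>
    simp only [Finset.sum_empty]
    exact hasJet_zero
  | insert b s hb ih =>
    rw [Finset.sum_insert hb]
    refine (((h b (Finset.mem_insert_self b s)).const_mul (a b)).add
      (ih fun b' hb' => h b' (Finset.mem_insert_of_mem hb'))).congr ?_
    funext m
    rw [Pi.add_apply, Finset.sum_insert hb]

/-- a monomial `a T^j`, `j < n` -/
theorem hasJet_monomial (a : A) (j : Fin n) :
    HasJet R T Q (constHom R a * T ^ (j : ℕ)) n (Pi.single j a) := by
  classical
  refine ⟨0, ?_, ?_⟩
  · show RegOn r (0 : FL) Q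
    exact fun P _ => by rw [map_zero]; exact zero_le_one
  · rw [mul_zero, add_zero, Finset.sum_eq_single j]
    · rw [Pi.single_eq_same]
    · intro m _ hm
      rw [Pi.single_eq_of_ne hm, map_zero, zero_mul]
    · intro h
      exact absurd (Finset.mem_univ j) h

/-- forgetting the last coefficient -/
theorem HasJet.castSucc {y : R.O} {c : Fin (n + 1) → A} (hT : RegOn r ((T : R.O) : FL) Q)
    (h : HasJet R T Q y (n + 1) c) : HasJet R T Q y n (fun m => c m.castSucc) := by
  obtain ⟨z, hz, hy⟩ := h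
  refine ⟨constHom R (c (Fin.last n)) + T * z, ?_, ?_⟩
  · show RegOn r (algebraMap L FL ((c (Fin.last n) : A) : L) + ((T : R.O) : FL) * ((z : R.O) : FL)) Q
    exact (regOn_const r _ Q).add (hT.mul hz)
  · rw [hy, Fin.sum_univ_castSucc]
    simp only [Fin.val_castSucc, Fin.val_last]
    ring

/-- the expansion, read in `FL` -/
theorem HasJet.coe {y : R.O} {c : Fin n → A} (h : HasJet R T Q y n c) :
    ∃ z : FL, RegOn r z Q ∧ ((y : R.O) : FL) =
      ∑ m : Fin n, algebraMap L FL ((c m : A) : L) * ((T : R.O) : FL) ^ (m : ℕ) +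
        ((T : R.O) : FL) ^ n * z := by
  obtain ⟨z, hz, hy⟩ := h
  refine ⟨z, hz, ?_⟩
  rw [hy]
  push_cast
  rfl

/-- the expansion of the reduction -/
theorem HasJet.red {y : R.O} {c : Fin n → A} (h : HasJet R T Q y n c)
    [HasPrincipalDivisors L FL] :
    ∃ z : Fk, Q.adicValuation z ≤ 1 ∧ R.red y =
      ∑ m : Fin n, algebraMap k Fk (π (c m)) * R.red T ^ (m : ℕ) + R.red T ^ n * z := by
  obtain ⟨z, hz, hy⟩ := h
  refine ⟨R.red z, red_regular R z Q hz, ?_⟩
  rw [hy, map_add, map_sum, map_mul, map_pow]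
  congr 1
  refine Finset.sum_congr rfl fun m _ => ?_
  rw [map_mul, map_pow, red_constHom]

/-- **uniqueness of the jet**, given a zero `P0` of `T` in the disc -/
theorem HasJet.unique {y : R.O} {c c' : Fin n → A} (P0 : Place L FL) (hP0 : r P0 = Q)
    (hT0 : ((T : R.O) : FL) ≠ 0) (hT : P0.adicValuation ((T : R.O) : FL) < 1)
    (h : HasJet R T Q y n c) (h' : HasJet R T Q y n c') : c = c' := by
  obtain ⟨z, hz, hy⟩ := h.coe
  obtain ⟨z', hz', hy'⟩ := h'.coe
  have key : ∑ m : Fin n, algebraMap L FL (((c m : A) : L) - ((c' m : A) : L)) *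
      ((T : R.O) : FL) ^ (m : ℕ) + ((T : R.O) : FL) ^ n * (z - z') = 0 := by
    have : ∑ m : Fin n, algebraMap L FL (((c m : A) : L) - ((c' m : A) : L)) *
        ((T : R.O) : FL) ^ (m : ℕ) + ((T : R.O) : FL) ^ n * (z - z')
        = (∑ m : Fin n, algebraMap L FL ((c m : A) : L) * ((T : R.O) : FL) ^ (m : ℕ) +
            ((T : R.O) : FL) ^ n * z)
          - (∑ m : Fin n, algebraMap L FL ((c' m : A) : L) * ((T : R.O) : FL) ^ (m : ℕ) +
            ((T : R.O) : FL) ^ n * z') := by
      simp only [map_sub, sub_mul, Finset.sum_sub_distrib]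
      ring
    rw [this, ← hy, ← hy', sub_self]
  have := jet_unique P0 _ hT0 hT n (fun m => ((c m : A) : L) - ((c' m : A) : L)) (z - z')
    ((hz.sub hz') P0 hP0) key
  funext m
  exact Subtype.ext (sub_eq_zero.mp (this m))

end Jets


/-! ### the generic fibre: sections of `O(E)` regular at the `Q_i` are constant -/

section Global

variable {L : Type*} [Field L] {FL : Type*} [Field FL] [Algebra L FL]
variable {k : Type*} [Field k] {Fk : Type*} [Field Fk] [Algebra k Fk]
variable {A : ValuationSubring L} {π : A →+* k} {r : Place L FL → Place k Fk}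
variable {R : RedDatum A π r} {g : ℕ} (d : Datum R g)

open Fermat.Agent.S18.Core in
theorem mem_sum_Rp_of_regular {f : FL} (hf : f ∈ riemannRochSpace d.E)
    (h : ∀ i, (d.Q i).adicValuation f ≤ 1) :
    f ∈ riemannRochSpace (∑ j, Finsupp.single (d.Rp j) (1 : ℤ)) := by
  rw [mem_riemannRochSpace_iff]
  intro v
  rcases eq_or_ne f 0 with rfl | hf0
  · exact Or.inl rfl
  right
  by_cases hv : ∃ i, d.Q i = v
  · obtain ⟨i, rfl⟩ := hv
    rw [sum_single_apply_of_notMem d.Rp (d.Q i) (fun j => d.Rp_ne_Q j i), neg_zero]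
    exact (ord_nonneg_iff _ hf0).mpr (h i)
  · push Not at hv
    have := ((mem_riemannRochSpace_iff.mp hf) v).resolve_left hf0
    unfold Datum.E at this
    rw [Finsupp.add_apply, Finsupp.add_apply, sum_single_apply_of_notMem d.Q v hv] at this
    simpa using this

/-- **generic-fibre kernel**: a section of `O(E)` which is regular at every `Q_i` is constant -/
theorem const_of_regular_Q [HasPrincipalDivisors L FL] (hO : OrthoHyp R)
    (hL : RiemannHyp L FL g) (hk : RiemannHyp k Fk g) {f : FL} (hf : f ∈ riemannRochSpace d.E)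
    (h : ∀ i, (d.Q i).adicValuation f ≤ 1) : ∃ c : L, f = algebraMap L FL c := by
  have hmem := mem_sum_Rp_of_regular d hf h
  have hell : Module.finrank L (riemannRochSpace (∑ j, Finsupp.single (d.Rp j) (1 : ℤ))) = 1 :=
    d.ell_sum_Rp hO hL hk
  have h1 : (1 : FL) ∈ riemannRochSpace (∑ j, Finsupp.single (d.Rp j) (1 : ℤ)) :=
    one_mem_riemannRochSpace (sum_single_nonneg' d.Rp)
  have hne : (⟨1, h1⟩ : riemannRochSpace (∑ j, Finsupp.single (d.Rp j) (1 : ℤ))) ≠ 0 := by
    intro h0
    exact one_ne_zero (congrArg Subtype.val h0)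
  obtain ⟨c, hc⟩ := (finrank_eq_one_iff_of_nonzero' _ hne).mp hell ⟨f, hmem⟩
  refine ⟨c, ?_⟩
  have := congrArg Subtype.val hc
  simp only [Submodule.coe_smul] at this
  rw [← this, Algebra.smul_def, mul_one]

/-- a Gauss-integral constant lies in `A` -/
theorem exists_const_of_coe_eq (f : R.O) {c : L} (h : ((f : R.O) : FL) = algebraMap L FL c) :
    ∃ c₀ : A, ((f : R.O) : FL) = algebraMap L FL ((c₀ : A) : L) :=
  ⟨⟨c, R.mem_of_algebraMap_mem c (h ▸ f.2)⟩, h⟩

end Global


/-! ### the special fibre: combinations killing the `2`-jets are constant -/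

section Kernel

variable {L : Type*} [Field L] {FL : Type*} [Field FL] [Algebra L FL]
variable {k : Type*} [Field k] {Fk : Type*} [Field Fk] [Algebra k Fk]
variable {A : ValuationSubring L} {π : A →+* k} {r : Place L FL → Place k Fk}
variable {R : RedDatum A π r} {g : ℕ} (d : Datum R g)

theorem ord_nonneg_of_le_one' (Q : Place k Fk) {z : Fk} (hz : Q.adicValuation z ≤ 1) :
    0 ≤ Q.ord z := by
  rcases eq_or_ne z 0 with rfl | h0
  · rw [Place.ord_zero]
  · exact (ord_nonneg_iff Q h0).mpr hz

/-- if the `k`-combination `x` kills the `2`-jets of all `y_a T_i²` at `Q̄_i`, then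
`∑ x_a red y_a` is regular at `Q̄_i` -/
theorem comb_regular [HasPrincipalDivisors L FL] {ι : Type*} [Fintype ι] (y : ι → R.O)
    (i : Fin g) (c : ι → Fin 2 → A)
    (hc : ∀ a, HasJet R (d.T i) (d.Qb i) (y a * d.T i ^ 2) 2 (c a)) (x : ι → k)
    (hx : ∀ m, ∑ a, x a * π (c a m) = 0) :
    (d.Qb i).adicValuation (∑ a, algebraMap k Fk (x a) * R.red (y a)) ≤ 1 := by
  choose z hz hred using fun a => (hc a).red
  have hT : R.red (d.T i) ≠ 0 := (d.hT i).red_ne_zero
  have h1 : ∀ a, algebraMap k Fk (x a) * R.red (y a * d.T i ^ 2) =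
      ∑ m : Fin 2, algebraMap k Fk (x a * π (c a m)) * R.red (d.T i) ^ (m : ℕ) +
        R.red (d.T i) ^ 2 * (algebraMap k Fk (x a) * z a) := by
    intro a
    rw [hred a, mul_add, Finset.mul_sum]
    congr 1
    · refine Finset.sum_congr rfl fun m _ => ?_
      rw [map_mul]
      ring
    · ring
  have h2 : (∑ a, algebraMap k Fk (x a) * R.red (y a)) * R.red (d.T i) ^ 2 =
      R.red (d.T i) ^ 2 * ∑ a, algebraMap k Fk (x a) * z a := by
    have h3 : (∑ a, algebraMap k Fk (x a) * R.red (y a)) * R.red (d.T i) ^ 2 =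
        ∑ a, algebraMap k Fk (x a) * R.red (y a * d.T i ^ 2) := by
      rw [Finset.sum_mul]
      refine Finset.sum_congr rfl fun a _ => ?_
      rw [map_mul, map_pow, mul_assoc]
    rw [h3, Finset.sum_congr rfl fun a _ => h1 a, Finset.sum_add_distrib, Finset.sum_comm,
      ← Finset.mul_sum]
    have h4 : ∑ m : Fin 2, ∑ a, algebraMap k Fk (x a * π (c a m)) * R.red (d.T i) ^ (m : ℕ) = 0 := by
      refine Finset.sum_eq_zero fun m _ => ?_
      rw [← Finset.sum_mul, ← map_sum, hx m, map_zero, zero_mul]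
    rw [h4, zero_add]
  have h5 : ∑ a, algebraMap k Fk (x a) * R.red (y a) = ∑ a, algebraMap k Fk (x a) * z a := by
    apply mul_right_cancel₀ (pow_ne_zero 2 hT)
    rw [h2, mul_comm]
  rw [h5]
  refine Valuation.map_sum_le _ fun a _ => ?_
  rw [map_mul]
  exact mul_le_one' ((d.Qb i).adicValuation_algebraMap_le_one _) (hz a)

/-- **special-fibre kernel**: if `x` kills the `2`-jets at all `Q̄_i`, the combination
`∑ x_a red y_a` of sections of `O(Ē)` is constant ((RR-a)) -/
theorem const_of_jets [HasPrincipalDivisors L FL] {ι : Type*} [Fintype ι] (y : ι → R.O)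
    (hyb : ∀ a, R.red (y a) ∈ riemannRochSpace d.Eb) (c : ι → Fin g → Fin 2 → A)
    (hc : ∀ a i, HasJet R (d.T i) (d.Qb i) (y a * d.T i ^ 2) 2 (c a i)) (x : ι → k)
    (hx : ∀ i m, ∑ a, x a * π (c a i m) = 0) :
    ∃ γ : k, ∑ a, algebraMap k Fk (x a) * R.red (y a) = algebraMap k Fk γ := by
  refine d.rank_a ?_ fun i => ?_
  · refine Submodule.sum_mem _ fun a _ => ?_
    rw [← Algebra.smul_def]
    exact Submodule.smul_mem _ _ (hyb a)
  · exact ord_nonneg_of_le_one' _ (comb_regular d y i (fun a => c a i) (fun a => hc a i) x (hx i))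

end Kernel


/-! ### the `2`-jet matrix of a reduced basis is invertible over `A` -/

section Det

variable {L : Type*} [Field L] {FL : Type*} [Field FL] [Algebra L FL]
variable {k : Type*} [Field k] {Fk : Type*} [Field Fk] [Algebra k Fk]
variable {A : ValuationSubring L} {π : A →+* k} {r : Place L FL → Place k Fk}
variable {R : RedDatum A π r} {g : ℕ} (d : Datum R g)

/-- the matrix of the `2`-jets (rows `inl i` : constant terms at `Q_i`, rows `inr i` : linear
terms at `Q_i`) of a family of `3`-jets indexed by `Fin g ⊕ Fin g` -/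
def jetMatrix (C : Fin g ⊕ Fin g → Fin g → Fin 3 → A) :
    Matrix (Fin g ⊕ Fin g) (Fin g ⊕ Fin g) A :=
  Matrix.of fun row b => Sum.elim (fun i => C b i 0) (fun i => C b i 1) row

theorem Eb_nonneg' : 0 ≤ d.Eb := by
  unfold Datum.Eb
  exact add_nonneg (add_nonneg (sum_single_nonneg' d.Rb) (sum_single_nonneg' d.Qb))
    (sum_single_nonneg' d.Qb)

theorem E_nonneg' : 0 ≤ d.E := by
  unfold Datum.E
  exact add_nonneg (add_nonneg (sum_single_nonneg' d.Rp) (sum_single_nonneg' d.Q))
    (sum_single_nonneg' d.Q)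

/-- `T_i²` has the zero `2`-jet -/
theorem hasJet_one_mul_sq (i : Fin g) :
    HasJet R (d.T i) (d.Qb i) (1 * d.T i ^ 2) 2 0 := by
  refine ⟨1, ?_, ?_⟩
  · show RegOn r (1 : FL) (d.Qb i)
    exact regOn_one r _
  · simp

theorem isUnit_det_jetMatrix [HasPrincipalDivisors L FL] (F : Fin g ⊕ Fin g → R.O)
    (hFb : ∀ b, R.red (F b) ∈ riemannRochSpace d.Eb)
    (hli : LinearIndependent k (Sum.elim (fun _ : Unit => (1 : Fk)) (fun b => R.red (F b))))
    (C : Fin g ⊕ Fin g → Fin g → Fin 3 → A)
    (hC : ∀ b i, HasJet R (d.T i) (d.Qb i) (F b * d.T i ^ 2) 3 (C b i)) :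
    IsUnit (jetMatrix C).det := by
  classical
  by_contra hnu
  have hm : (jetMatrix C).det ∈ IsLocalRing.maximalIdeal A :=
    (IsLocalRing.mem_maximalIdeal _).mpr hnu
  have hpi : π (jetMatrix C).det = 0 := (pi_eq_zero_iff R _).mpr hm
  rw [RingHom.map_det] at hpi
  obtain ⟨v, hv0, hv⟩ := Matrix.exists_mulVec_eq_zero_iff.mpr hpi
  apply hv0
  -- the extended family
  set y : Unit ⊕ (Fin g ⊕ Fin g) → R.O := Sum.elim (fun _ => 1) F with hy
  set x : Unit ⊕ (Fin g ⊕ Fin g) → k := Sum.elim (fun _ => 0) v with hx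
  set c : Unit ⊕ (Fin g ⊕ Fin g) → Fin g → Fin 2 → A :=
    Sum.elim (fun _ _ _ => 0) (fun b i m => C b i m.castSucc) with hc
  have hyb : ∀ a, R.red (y a) ∈ riemannRochSpace d.Eb := by
    rintro (u | b)
    · simp only [hy, Sum.elim_inl, map_one]
      exact one_mem_riemannRochSpace (Eb_nonneg' d)
    · exact hFb b
  have hjets : ∀ a i, HasJet R (d.T i) (d.Qb i) (y a * d.T i ^ 2) 2 (c a i) := by
    rintro (u | b) i
    · exact hasJet_one_mul_sq d i
    · exact (hC b i).castSucc (d.hT i).reg
  have hkill : ∀ i m, ∑ a, x a * π (c a i m) = 0 := by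
    intro i m
    rw [Fintype.sum_sum_type]
    simp only [hx, hc, Sum.elim_inl, Sum.elim_inr, zero_mul, Finset.sum_const_zero, zero_add]
    fin_cases m
    · have := congrFun hv (Sum.inl i)
      simp only [Matrix.mulVec, dotProduct, RingHom.mapMatrix_apply, Matrix.map_apply, jetMatrix,
        Matrix.of_apply, Sum.elim_inl, Pi.zero_apply] at this
      rw [← this]
      exact Finset.sum_congr rfl fun b _ => mul_comm _ _
    · have := congrFun hv (Sum.inr i)
      simp only [Matrix.mulVec, dotProduct, RingHom.mapMatrix_apply, Matrix.map_apply, jetMatrix,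
        Matrix.of_apply, Sum.elim_inr, Pi.zero_apply] at this
      rw [← this]
      exact Finset.sum_congr rfl fun b _ => mul_comm _ _
  obtain ⟨γ, hγ⟩ := const_of_jets d y hyb c hjets x hkill
  rw [Fintype.sum_sum_type] at hγ
  simp only [hx, hy, Sum.elim_inl, Sum.elim_inr, map_zero, zero_mul, Finset.sum_const_zero,
    zero_add] at hγ
  -- linear independence
  have hrel : ∑ a, (Sum.elim (fun _ : Unit => -γ) v) a •
      (Sum.elim (fun _ : Unit => (1 : Fk)) (fun b => R.red (F b))) a = 0 := by
    rw [Fintype.sum_sum_type]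
    simp only [Sum.elim_inl, Sum.elim_inr, Finset.univ_unique, Finset.sum_singleton]
    rw [Algebra.smul_def, mul_one, map_neg, neg_add_eq_zero, ← hγ]
    exact Finset.sum_congr rfl fun b _ => (Algebra.smul_def _ _).symm
  have h0 := Fintype.linearIndependent_iff.mp hli _ hrel
  funext b
  exact h0 (Sum.inr b)

end Det


/-! ### normalised families and their existence -/

section Normalise

variable {L : Type*} [Field L] {FL : Type*} [Field FL] [Algebra L FL]
variable {k : Type*} [Field k] {Fk : Type*} [Field Fk] [Algebra k Fk]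
variable {A : ValuationSubring L} {π : A →+* k} {r : Place L FL → Place k Fk}
variable {R : RedDatum A π r} {g : ℕ} (d : Datum R g)

/-- the own index of `a : Fin g ⊕ Fin g` -/
def own : Fin g ⊕ Fin g → Fin g := Sum.elim id id

/-- the `3`-jet `(δ_{a, inl i}, δ_{a, inr i}, κ)` -/
def unitJet (a : Fin g ⊕ Fin g) (i : Fin g) (κ : A) : Fin 3 → A :=
  ![if a = Sum.inl i then 1 else 0, if a = Sum.inr i then 1 else 0, κ]

/-- `φ` is **normalised**: the `2`-jets of `φ_a T_i²` at the `Q_i` are the unit vectors, and the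
coefficient of `T_i²` vanishes at the own index -/
def IsNormalised (φ : Fin g ⊕ Fin g → R.O) : Prop :=
  ∃ κ : Fin g ⊕ Fin g → Fin g → A, (∀ a, κ a (own a) = 0) ∧
    ∀ a i, HasJet R (d.T i) (d.Qb i) (φ a * d.T i ^ 2) 3 (unitJet a i (κ a i))

/-- the `2`-jets of a normalised family -/
theorem IsNormalised.hasJet_two {φ : Fin g ⊕ Fin g → R.O} (h : IsNormalised d φ)
    (a : Fin g ⊕ Fin g) (i : Fin g) :
    HasJet R (d.T i) (d.Qb i) (φ a * d.T i ^ 2) 2
      ![if a = Sum.inl i then 1 else 0, if a = Sum.inr i then 1 else 0] := by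
  obtain ⟨κ, -, hj⟩ := h
  refine ((hj a i).castSucc (d.hT i).reg).congr ?_
  funext m
  fin_cases m <;> rfl

/-- the `3`-jet of a normalised family at the own index -/
theorem IsNormalised.hasJet_own {φ : Fin g ⊕ Fin g → R.O} (h : IsNormalised d φ)
    (a : Fin g ⊕ Fin g) :
    HasJet R (d.T (own a)) (d.Qb (own a)) (φ a * d.T (own a) ^ 2) 3
      ![if a = Sum.inl (own a) then 1 else 0, if a = Sum.inr (own a) then 1 else 0, 0] := by
  obtain ⟨κ, hκ, hj⟩ := h
  have := hj a (own a)
  rw [hκ a] at this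
  exact this

theorem exists_isNormalised [HasPrincipalDivisors L FL] (hO : OrthoHyp R)
    (hL : RiemannHyp L FL g) (hk : RiemannHyp k Fk g)
    (hjet : ∀ i (y : R.O), RegOn r ((y : R.O) : FL) (d.Qb i) →
      ∃ c : Fin 3 → A, HasJet R (d.T i) (d.Qb i) y 3 c) :
    ∃ φ : Fin g ⊕ Fin g → R.O,
      (∀ a, ((φ a : R.O) : FL) ∈ riemannRochSpace d.E) ∧ IsNormalised d φ := by
  classical
  have hfinL := hL.finite d.E
  have hfink := hk.finite (Finsupp.mapDomain r d.E)
  obtain ⟨φ₀, h0, hmem, hredmem, hlik, -, -, -⟩ :=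
    Fermat.Agent.S19.InterpMulti.exists_reduced_basis_one R hO d.E (E_nonneg' d) (2 * g)
      (d.ell_E hO hL hk) (by rw [d.mapDomain_E]; exact d.ell_Eb hk)
  rw [d.mapDomain_E] at hredmem
  -- reindex by `Unit ⊕ (Fin g ⊕ Fin g)`
  let e : Fin g ⊕ Fin g ≃ Fin (2 * g) := finSumFinEquiv.trans (finCongr (two_mul g).symm)
  set F : Fin g ⊕ Fin g → R.O := fun b => φ₀ (e b).succ with hF
  have hFmem : ∀ b, ((F b : R.O) : FL) ∈ riemannRochSpace d.E := fun b => hmem _
  have hFb : ∀ b, R.red (F b) ∈ riemannRochSpace d.Eb := fun b => hredmem _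
  have hli : LinearIndependent k
      (Sum.elim (fun _ : Unit => (1 : Fk)) (fun b => R.red (F b))) := by
    let ε : Unit ⊕ (Fin g ⊕ Fin g) → Fin (2 * g + 1) :=
      Sum.elim (fun _ => 0) (fun b => (e b).succ)
    have hε : Function.Injective ε := by
      rintro (u | b) (u' | b') h
      · rfl
      · exact absurd h.symm (Fin.succ_ne_zero _)
      · exact absurd h (Fin.succ_ne_zero _)
      · exact congrArg Sum.inr (e.injective (Fin.succ_injective _ h))
    have h1 := hlik.comp ε hε
    have h2 : (fun a => R.red (φ₀ a)) ∘ ε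
        = Sum.elim (fun _ : Unit => (1 : Fk)) (fun b => R.red (F b)) := by
      funext a
      rcases a with u | b
      · simp only [Function.comp_apply, ε, Sum.elim_inl, h0, map_one]
      · rfl
    rwa [h2] at h1
  -- the jets of the `F b`
  have hreg : ∀ b i, RegOn r (((F b * d.T i ^ 2 : R.O) : R.O) : FL) (d.Qb i) := fun b i =>
    d.regOn_mul_T_sq (hFmem b) i
  choose C hC using fun b i => hjet i (F b * d.T i ^ 2) (hreg b i)
  have hdet := isUnit_det_jetMatrix d F hFb hli C hC
  -- solve the linear systems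
  set M := jetMatrix C with hM
  set n : Fin g ⊕ Fin g → Fin g ⊕ Fin g → A := fun a => M⁻¹.mulVec (Pi.single a 1) with hn
  have hMn : ∀ a, M.mulVec (n a) = Pi.single a 1 := by
    intro a
    rw [hn, Matrix.mulVec_mulVec, Matrix.mul_nonsing_inv _ hdet, Matrix.one_mulVec]
  set γ : Fin g ⊕ Fin g → Fin g → A := fun a i => ∑ b, n a b * C b i 2 with hγ
  refine ⟨fun a => ∑ b, constHom R (n a b) * F b - constHom R (γ a (own a)), fun a => ?_,
    fun a i => γ a i - γ a (own a), fun a => sub_self _, fun a i => ?_⟩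
  · -- membership
    have hcoe : (((∑ b, constHom R (n a b) * F b - constHom R (γ a (own a)) : R.O) : R.O) : FL)
        = ∑ b, ((n a b : A) : L) • ((F b : R.O) : FL)
          - ((γ a (own a) : A) : L) • (1 : FL) := by
      rw [← ValuationSubring.subtype_apply, map_sub, map_sum]
      congr 1
      · refine Finset.sum_congr rfl fun b _ => ?_
        rw [Algebra.smul_def]
        rfl
      · rw [Algebra.smul_def, mul_one]
        rfl
    rw [hcoe]
    refine Submodule.sub_mem _ (Submodule.sum_mem _ fun b _ => Submodule.smul_mem _ _ (hFmem b))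
      (Submodule.smul_mem _ _ (one_mem_riemannRochSpace (E_nonneg' d)))
  · -- the jets
    have hel : (∑ b, constHom R (n a b) * F b - constHom R (γ a (own a))) * d.T i ^ 2
        = ∑ b, constHom R (n a b) * (F b * d.T i ^ 2)
          - constHom R (γ a (own a)) * d.T i ^ ((2 : Fin 3) : ℕ) := by
      rw [sub_mul, Finset.sum_mul]
      congr 1
      exact Finset.sum_congr rfl fun b _ => mul_assoc _ _ _
    rw [hel]
    refine ((HasJet.sum Finset.univ (n a) (fun b => F b * d.T i ^ 2) (fun b => C b i)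
      (fun b _ => hC b i)).sub (hasJet_monomial (γ a (own a)) (2 : Fin 3))).congr ?_
    have hrow0 : ∑ b, n a b * C b i 0 = if a = Sum.inl i then 1 else 0 := by
      have := congrFun (hMn a) (Sum.inl i)
      simp only [Matrix.mulVec, dotProduct, hM, jetMatrix, Matrix.of_apply, Sum.elim_inl,
        Pi.single_apply] at this
      rw [if_congr (eq_comm (a := a) (b := Sum.inl i)) rfl rfl, ← this]
      exact Finset.sum_congr rfl fun b _ => mul_comm _ _
    have hrow1 : ∑ b, n a b * C b i 1 = if a = Sum.inr i then 1 else 0 := by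
      have := congrFun (hMn a) (Sum.inr i)
      simp only [Matrix.mulVec, dotProduct, hM, jetMatrix, Matrix.of_apply, Sum.elim_inr,
        Pi.single_apply] at this
      rw [if_congr (eq_comm (a := a) (b := Sum.inr i)) rfl rfl, ← this]
      exact Finset.sum_congr rfl fun b _ => mul_comm _ _
    funext m
    fin_cases m
    · simp only [Pi.sub_apply, unitJet]
      simp [hrow0]
    · simp only [Pi.sub_apply, unitJet]
      simp [hrow1]
    · simp only [Pi.sub_apply, unitJet, hγ]
      simp

end Normalise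


/-! ### properties of normalised families -/

section Properties

variable {L : Type*} [Field L] {FL : Type*} [Field FL] [Algebra L FL]
variable {k : Type*} [Field k] {Fk : Type*} [Field Fk] [Algebra k Fk]
variable {A : ValuationSubring L} {π : A →+* k} {r : Place L FL → Place k Fk}
variable {R : RedDatum A π r} {g : ℕ} (d : Datum R g)

/-- a function whose product with `T^n` has the zero `n`-jet is regular on the disc -/
theorem regOn_of_hasJet_zero {T : R.O} {Q : Place k Fk} {n : ℕ} {y : R.O}
    (hT0 : ((T : R.O) : FL) ≠ 0) (h : HasJet R T Q (y * T ^ n) n 0) :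
    RegOn r ((y : R.O) : FL) Q := by
  obtain ⟨z, hz, hy⟩ := h
  have hT0' : T ^ n ≠ 0 := by
    apply pow_ne_zero
    intro h0
    exact hT0 (by rw [h0]; rfl)
  have : y = z := by
    apply mul_right_cancel₀ hT0'
    rw [hy]
    simp only [Pi.zero_apply, map_zero, zero_mul, Finset.sum_const_zero, zero_add]
    ring
  rw [this]
  exact hz

/-- from a constant combination of the reductions to the vanishing of the combined jets -/
theorem jets_of_comb_const [HasPrincipalDivisors L FL] {ι : Type*} [Fintype ι] (y : ι → R.O)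
    (i : Fin g) (c : ι → Fin 2 → A)
    (hc : ∀ a, HasJet R (d.T i) (d.Qb i) (y a * d.T i ^ 2) 2 (c a)) (x : ι → k) (γ : k)
    (hγ : ∑ a, algebraMap k Fk (x a) * R.red (y a) = algebraMap k Fk γ) :
    ∀ m, ∑ a, x a * π (c a m) = 0 := by
  choose z hz hred using fun a => (hc a).red
  have hT : R.red (d.T i) ≠ 0 := (d.hT i).red_ne_zero
  have hTlt : (d.Qb i).adicValuation (R.red (d.T i)) < 1 :=
    (ord_pos_iff _ hT).mp (by rw [(d.hT i).ord_one]; exact one_pos)
  have h1 : ∀ a, algebraMap k Fk (x a) * R.red (y a * d.T i ^ 2) =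
      ∑ m : Fin 2, algebraMap k Fk (x a * π (c a m)) * R.red (d.T i) ^ (m : ℕ) +
        R.red (d.T i) ^ 2 * (algebraMap k Fk (x a) * z a) := by
    intro a
    rw [hred a, mul_add, Finset.mul_sum]
    congr 1
    · refine Finset.sum_congr rfl fun m _ => ?_
      rw [map_mul]
      ring
    · ring
  have h3 : algebraMap k Fk γ * R.red (d.T i) ^ 2 =
      ∑ a, algebraMap k Fk (x a) * R.red (y a * d.T i ^ 2) := by
    rw [← hγ, Finset.sum_mul]
    refine Finset.sum_congr rfl fun a _ => ?_
    rw [map_mul, map_pow, mul_assoc]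
  rw [Finset.sum_congr rfl fun a _ => h1 a, Finset.sum_add_distrib, Finset.sum_comm,
    ← Finset.mul_sum] at h3
  have h4 : ∑ m : Fin 2, algebraMap k Fk (∑ a, x a * π (c a m)) * R.red (d.T i) ^ (m : ℕ) +
      R.red (d.T i) ^ 2 * (∑ a, algebraMap k Fk (x a) * z a - algebraMap k Fk γ) = 0 := by
    have h5 : ∑ m : Fin 2, algebraMap k Fk (∑ a, x a * π (c a m)) * R.red (d.T i) ^ (m : ℕ)
        = ∑ m : Fin 2, ∑ a, algebraMap k Fk (x a * π (c a m)) * R.red (d.T i) ^ (m : ℕ) := by
      refine Finset.sum_congr rfl fun m _ => ?_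
      rw [map_sum, Finset.sum_mul]
    rw [h5, mul_sub, ← add_sub_assoc, ← h3]
    ring
  refine jet_unique (d.Qb i) (R.red (d.T i)) hT hTlt 2 (fun m => ∑ a, x a * π (c a m)) _ ?_ h4
  have h6 : (d.Qb i).adicValuation (∑ a, algebraMap k Fk (x a) * z a) ≤ 1 := by
    refine Valuation.map_sum_le _ fun a _ => ?_
    rw [map_mul]
    exact mul_le_one' ((d.Qb i).adicValuation_algebraMap_le_one _) (hz a)
  have h7 : (d.Qb i).adicValuation (algebraMap k Fk γ) ≤ 1 :=
    (d.Qb i).adicValuation_algebraMap_le_one _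
  exact Valuation.map_sub_le _ h6 h7

variable {φ : Fin g ⊕ Fin g → R.O}

/-- **(N4)** the reductions of a normalised family are `k`-independent together with `1` -/
theorem IsNormalised.linearIndependent [HasPrincipalDivisors L FL] (h : IsNormalised d φ) :
    LinearIndependent k (Sum.elim (fun _ : Unit => (1 : Fk)) (fun a => R.red (φ a))) := by
  classical
  rw [Fintype.linearIndependent_iff]
  intro x hx
  rw [Fintype.sum_sum_type] at hx
  simp only [Sum.elim_inl, Sum.elim_inr, Finset.univ_unique, Finset.sum_singleton] at hx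
  have hγ : ∑ a, algebraMap k Fk (x (Sum.inr a)) * R.red (φ a)
      = algebraMap k Fk (-x (Sum.inl default)) := by
    rw [map_neg, eq_neg_iff_add_eq_zero, add_comm, ← hx, Algebra.smul_def, mul_one]
    congr 1
    exact Finset.sum_congr rfl fun a _ => (Algebra.smul_def _ _).symm
  have hkill := fun i => jets_of_comb_const d φ i _ (fun a => h.hasJet_two d a i)
    (fun a => x (Sum.inr a)) _ hγ
  have hinl : ∀ i, x (Sum.inr (Sum.inl i)) = 0 := by
    intro i
    have := hkill i 0
    simpa [apply_ite π] using this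
  have hinr : ∀ i, x (Sum.inr (Sum.inr i)) = 0 := by
    intro i
    have := hkill i 1
    simpa [apply_ite π] using this
  have hall : ∀ a, x (Sum.inr a) = 0 := by
    rintro (i | i)
    · exact hinl i
    · exact hinr i
  have h0 : x (Sum.inl default) = 0 := by
    simp only [hall, zero_smul, Finset.sum_const_zero, add_zero] at hx
    rw [Algebra.smul_def, mul_one] at hx
    exact (map_eq_zero_iff _ (algebraMap k Fk).injective).mp hx
  rintro (u | a)
  · rw [Subsingleton.elim u default]
    exact h0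
  · exact hall a

/-- **(N0)** the reductions of a normalised family are sections of `O(Ē)` -/
theorem IsNormalised.red_mem [HasPrincipalDivisors L FL] (h : IsNormalised d φ)
    (hφ : ∀ a, ((φ a : R.O) : FL) ∈ riemannRochSpace d.E) (a : Fin g ⊕ Fin g) :
    R.red (φ a) ∈ riemannRochSpace d.Eb := by
  rw [← d.mapDomain_E]
  exact red_mem_riemannRochSpace R d.E (φ a) ((h.linearIndependent d).ne_zero (Sum.inr a)) (hφ a)

/-- **(N3)** a normalised family spans, together with `1`, the Gauss-integral sections of `O(E)`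
over `A`; the coefficients are the `2`-jets -/
theorem IsNormalised.span [HasPrincipalDivisors L FL] (h : IsNormalised d φ)
    (hφ : ∀ a, ((φ a : R.O) : FL) ∈ riemannRochSpace d.E) (hO : OrthoHyp R)
    (hL : RiemannHyp L FL g) (hk : RiemannHyp k Fk g)
    (hjet : ∀ i (y : R.O), RegOn r ((y : R.O) : FL) (d.Qb i) →
      ∃ c : Fin 3 → A, HasJet R (d.T i) (d.Qb i) y 3 c)
    (f : R.O) (hf : ((f : R.O) : FL) ∈ riemannRochSpace d.E) :
    ∃ (c₀ : A) (c : Fin g ⊕ Fin g → A), ((f : R.O) : FL) =
      algebraMap L FL ((c₀ : A) : L) +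
        ∑ a, algebraMap L FL ((c a : A) : L) * ((φ a : R.O) : FL) := by
  classical
  have hreg : ∀ i, RegOn r (((f * d.T i ^ 2 : R.O) : R.O) : FL) (d.Qb i) := fun i =>
    d.regOn_mul_T_sq hf i
  choose Cf hCf using fun i => hjet i (f * d.T i ^ 2) (hreg i)
  set c : Fin g ⊕ Fin g → A := Sum.elim (fun i => Cf i 0) (fun i => Cf i 1) with hc
  set f' : R.O := f - ∑ a, constHom R (c a) * φ a with hf'
  have hcoe : ((f' : R.O) : FL) = ((f : R.O) : FL) - ∑ a, ((c a : A) : L) • ((φ a : R.O) : FL) := by
    rw [hf', ← ValuationSubring.subtype_apply, map_sub, map_sum]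
    congr 1
    refine Finset.sum_congr rfl fun a _ => ?_
    rw [Algebra.smul_def]
    rfl
  have hf'mem : ((f' : R.O) : FL) ∈ riemannRochSpace d.E := by
    rw [hcoe]
    exact Submodule.sub_mem _ hf (Submodule.sum_mem _ fun a _ => Submodule.smul_mem _ _ (hφ a))
  have hf'reg : ∀ i, (d.Q i).adicValuation ((f' : R.O) : FL) ≤ 1 := by
    intro i
    refine regOn_of_hasJet_zero (d.hT i).coe_ne_zero (n := 2) ?_ (d.Q i) (d.hQ i)
    have hel : f' * d.T i ^ 2 = f * d.T i ^ 2 - ∑ a, constHom R (c a) * (φ a * d.T i ^ 2) := by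
      rw [hf', sub_mul, Finset.sum_mul]
      congr 1
      exact Finset.sum_congr rfl fun a _ => mul_assoc _ _ _
    rw [hel]
    refine (((hCf i).castSucc (d.hT i).reg).sub (HasJet.sum Finset.univ c
      (fun a => φ a * d.T i ^ 2) _ (fun a _ => h.hasJet_two d a i))).congr ?_
    funext m
    fin_cases m
    · simp [hc]
    · simp [hc]
  obtain ⟨c', hc'⟩ := const_of_regular_Q d hO hL hk hf'mem hf'reg
  obtain ⟨c₀, hc₀⟩ := exists_const_of_coe_eq f' hc'
  refine ⟨c₀, c, ?_⟩
  rw [← hc₀, hcoe]
  simp only [Algebra.smul_def]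
  ring

end Properties


/-! ### rationality: a normalised family is fixed by semilinear automorphisms fixing the datum -/

section Rationality

/-- semilinear maps and truncated expansions with fixed coefficients -/
theorem semilinear_jet_sub {L : Type*} {FL : Type*} [Field L] [Field FL] [Algebra L FL]
    (sL : L →+* L) (sF : FL →+* FL)
    (hcomp : ∀ c, sF (algebraMap L FL c) = algebraMap L FL (sL c)) (T : FL) (hT : sF T = T)
    (n : ℕ) (c : Fin n → L) (hc : ∀ m, sL (c m) = c m) (y z : FL)
    (hy : y = ∑ m : Fin n, algebraMap L FL (c m) * T ^ (m : ℕ) + T ^ n * z) :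
    sF y - y = T ^ n * (sF z - z) := by
  have h1 : sF y = ∑ m : Fin n, algebraMap L FL (c m) * T ^ (m : ℕ) + T ^ n * sF z := by
    rw [hy, map_add, map_sum, map_mul, map_pow, hT]
    congr 1
    refine Finset.sum_congr rfl fun m _ => ?_
    rw [map_mul, map_pow, hT, hcomp, hc]
  rw [h1]
  conv_lhs => rw [hy]
  ring

variable {L : Type*} [Field L] {FL : Type*} [Field FL] [Algebra L FL]
variable {k : Type*} [Field k] {Fk : Type*} [Field Fk] [Algebra k Fk]
variable {A : ValuationSubring L} {π : A →+* k} {r : Place L FL → Place k Fk}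
variable {R : RedDatum A π r} {g : ℕ} (d : Datum R g) {φ : Fin g ⊕ Fin g → R.O}

/-- **(N5)** a normalised family is fixed by every semilinear endomorphism `(sL, sF)` of `FL/L`
which preserves `L(E)`, the regularity at the `Q_i`, and the parameters `T_i` -/
theorem IsNormalised.fixed [HasPrincipalDivisors L FL] (h : IsNormalised d φ)
    (hφ : ∀ a, ((φ a : R.O) : FL) ∈ riemannRochSpace d.E) (hO : OrthoHyp R)
    (hL : RiemannHyp L FL g) (hk : RiemannHyp k Fk g)
    (sL : L →+* L) (sF : FL →+* FL)
    (hcomp : ∀ c, sF (algebraMap L FL c) = algebraMap L FL (sL c))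
    (hE : ∀ f ∈ riemannRochSpace d.E, sF f ∈ riemannRochSpace d.E)
    (hQ : ∀ i (z : FL), (d.Q i).adicValuation (sF z) = (d.Q i).adicValuation z)
    (hT : ∀ i, sF ((d.T i : R.O) : FL) = ((d.T i : R.O) : FL)) (a : Fin g ⊕ Fin g) :
    sF ((φ a : R.O) : FL) = ((φ a : R.O) : FL) := by
  set ψ : FL := sF ((φ a : R.O) : FL) - ((φ a : R.O) : FL) with hψ
  have hψmem : ψ ∈ riemannRochSpace d.E := Submodule.sub_mem _ (hE _ (hφ a)) (hφ a)
  have hmul : ∀ i, sF (((φ a * d.T i ^ 2 : R.O) : R.O) : FL) - (((φ a * d.T i ^ 2 : R.O) : R.O) : FL)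
      = ψ * ((d.T i : R.O) : FL) ^ 2 := by
    intro i
    have : (((φ a * d.T i ^ 2 : R.O) : R.O) : FL) = ((φ a : R.O) : FL) * ((d.T i : R.O) : FL) ^ 2 :=
      rfl
    rw [this, map_mul, map_pow, hT i, hψ]
    ring
  -- regular at every `Q_i`
  have hreg : ∀ i, (d.Q i).adicValuation ψ ≤ 1 := by
    intro i
    obtain ⟨z, hz, hy⟩ := (h.hasJet_two d a i).coe
    have h1 := semilinear_jet_sub sL sF hcomp _ (hT i) 2 _ (fun m => ?_) _ z hy
    · rw [hmul i, mul_comm] at h1
      have h2 : ψ = sF z - z := mul_left_cancel₀ (pow_ne_zero 2 (d.hT i).coe_ne_zero) h1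
      rw [h2]
      refine Valuation.map_sub_le _ ?_ (hz (d.Q i) (d.hQ i))
      rw [hQ i]
      exact hz (d.Q i) (d.hQ i)
    · fin_cases m
      · show sL (((if a = Sum.inl i then (1 : A) else 0 : A) : A) : L) = _
        split_ifs <;> simp
      · show sL (((if a = Sum.inr i then (1 : A) else 0 : A) : A) : L) = _
        split_ifs <;> simp
  obtain ⟨c, hc⟩ := const_of_regular_Q d hO hL hk hψmem hreg
  -- the constant vanishes at the own index
  have hlt : (d.Q (own a)).adicValuation ψ < 1 := by
    obtain ⟨z, hz, hy⟩ := (h.hasJet_own d a).coe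
    have h1 := semilinear_jet_sub sL sF hcomp _ (hT (own a)) 3 _ (fun m => ?_) _ z hy
    · rw [hmul (own a)] at h1
      have h2 : ψ = ((d.T (own a) : R.O) : FL) * (sF z - z) := by
        apply mul_right_cancel₀ (pow_ne_zero 2 (d.hT (own a)).coe_ne_zero)
        rw [h1]
        ring
      rw [h2, map_mul]
      refine mul_lt_one_of_lt_of_le (adicValuation_lt_one_of_ord_pos _ (d.hT0 (own a))) ?_
      refine Valuation.map_sub_le _ ?_ (hz (d.Q (own a)) (d.hQ (own a)))
      rw [hQ (own a)]
      exact hz (d.Q (own a)) (d.hQ (own a))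
    · fin_cases m
      · show sL (((if a = Sum.inl (own a) then (1 : A) else 0 : A) : A) : L) = _
        split_ifs <;> simp
      · show sL (((if a = Sum.inr (own a) then (1 : A) else 0 : A) : A) : L) = _
        split_ifs <;> simp
      · show sL (((0 : A) : A) : L) = _
        simp
  have hc0 : c = 0 := by
    by_contra hne
    rw [hc, adicValuation_algebraMap _ hne] at hlt
    exact lt_irrefl _ hlt
  rw [hc0, map_zero] at hc
  exact sub_eq_zero.mp hc

/-- **the normalised basis** of `L(R₀ + 2 D₀)` modulo constants -/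
theorem exists_normalised_basis [HasPrincipalDivisors L FL] (hO : OrthoHyp R)
    (hL : RiemannHyp L FL g) (hk : RiemannHyp k Fk g)
    (hjet : ∀ i (y : R.O), RegOn r ((y : R.O) : FL) (d.Qb i) →
      ∃ c : Fin 3 → A, HasJet R (d.T i) (d.Qb i) y 3 c) :
    ∃ φ : Fin g ⊕ Fin g → R.O,
      (∀ a, ((φ a : R.O) : FL) ∈ riemannRochSpace d.E) ∧
      (∀ a, R.red (φ a) ∈ riemannRochSpace d.Eb) ∧
      IsNormalised d φ ∧
      (∀ f : R.O, ((f : R.O) : FL) ∈ riemannRochSpace d.E →
        ∃ (c₀ : A) (c : Fin g ⊕ Fin g → A), ((f : R.O) : FL) =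
          algebraMap L FL ((c₀ : A) : L) +
            ∑ a, algebraMap L FL ((c a : A) : L) * ((φ a : R.O) : FL)) ∧
      LinearIndependent k (Sum.elim (fun _ : Unit => (1 : Fk)) (fun a => R.red (φ a))) ∧
      (∀ (sL : L →+* L) (sF : FL →+* FL),
        (∀ c, sF (algebraMap L FL c) = algebraMap L FL (sL c)) →
        (∀ f ∈ riemannRochSpace d.E, sF f ∈ riemannRochSpace d.E) →
        (∀ i (z : FL), (d.Q i).adicValuation (sF z) = (d.Q i).adicValuation z) →
        (∀ i, sF ((d.T i : R.O) : FL) = ((d.T i : R.O) : FL)) →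
        ∀ a, sF ((φ a : R.O) : FL) = ((φ a : R.O) : FL)) := by
  obtain ⟨φ, hφ, hn⟩ := exists_isNormalised d hO hL hk hjet
  exact ⟨φ, hφ, hn.red_mem d hφ, hn, hn.span d hφ hO hL hk hjet, hn.linearIndependent d,
    fun sL sF hcomp hE hQ hT a => hn.fixed d hφ hO hL hk sL sF hcomp hE hQ hT a⟩

end Rationality

end Fermat.Agent.S19.NormBasis
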