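import Fermat.Agent.S18.Core

/-!
# S19 (scratch, helper18), slice W0: values and Taylor expansion on a residue disc

Abstract frame of `Fermat/Agent/S18/Core.lean`: `R : RedDatum A π r`, all places of `FL/L` of degree
one.  For a good parameter `T` on the residue disc of `Q` (`IsGoodParam R T Q`) with zero `P0`:

* `ValAt P y c` : `c` is the value of `y` at the place `P` (`|y - c|_P < 1`);
* `taylor_step` : `y = c + T * y'` with `c ∈ A` the value at `P0` and `y'` again Gauss-integral and
  regular on the disc;
* `taylor_n` : the Taylor polynomial of order `n` with coefficients in `A` and a regular remainder;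
* `ev_congr` : for every point `P` of the disc, `y(P) = ∑_{m<n} c_m T(P)^m + T(P)^n d`, `d ∈ A`;
* `disc_bij` : `P ↦ T(P)` is a bijection from the disc onto `𝔪_A`.
-/

set_option autoImplicit false
set_option linter.unusedSectionVars false
set_option linter.unusedVariables false

namespace Fermat.Agent.S19.Taylor

open AlgebraicCurve Fermat.Agent.S24.Ord Fermat.Agent.S18.CoreDefs Fermat.Agent.S18.CoreOrd
  Fermat.Agent.S18.Disc

variable {L : Type*} [Field L] {FL : Type*} [Field FL] [Algebra L FL]
variable {k : Type*} [Field k] {Fk : Type*} [Field Fk] [Algebra k Fk]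
variable {A : ValuationSubring L} {π : A →+* k} {r : Place L FL → Place k Fk}

/-! ### Values at a place -/

/-- `c` is the value of `y` at `P`. -/
def ValAt (P : Place L FL) (y : FL) (c : L) : Prop :=
  P.adicValuation (y - algebraMap L FL c) < 1

theorem ValAt.reg {P : Place L FL} {y : FL} {c : L} (h : ValAt P y c) :
    P.adicValuation y ≤ 1 := by
  have h1 : P.adicValuation (algebraMap L FL c) ≤ 1 := (mem_iff P _).mp (P.algebraMap_mem' c)
  have : y = (y - algebraMap L FL c) + algebraMap L FL c := by ring
  rw [this]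
  exact Valuation.map_add_le _ h.le h1

theorem ValAt.unique {P : Place L FL} {y : FL} {c c' : L} (h : ValAt P y c) (h' : ValAt P y c') :
    c = c' := by
  by_contra hne
  have hne' : c' - c ≠ 0 := sub_ne_zero.mpr (Ne.symm hne)
  have h1 : P.adicValuation ((y - algebraMap L FL c) - (y - algebraMap L FL c')) < 1 :=
    Valuation.map_sub_lt _ h h'
  have h2 : (y - algebraMap L FL c) - (y - algebraMap L FL c') = algebraMap L FL (c' - c) := by
    rw [map_sub]; ring
  rw [h2, adicValuation_algebraMap P hne'] at h1
  exact lt_irrefl _ h1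

theorem valAt_const (P : Place L FL) (c : L) : ValAt P (algebraMap L FL c) c := by
  unfold ValAt
  rw [sub_self, map_zero]
  exact zero_lt_one

theorem ValAt.add {P : Place L FL} {y z : FL} {c d : L} (hy : ValAt P y c) (hz : ValAt P z d) :
    ValAt P (y + z) (c + d) := by
  unfold ValAt at *
  have : y + z - algebraMap L FL (c + d) = (y - algebraMap L FL c) + (z - algebraMap L FL d) := by
    rw [map_add]; ring
  rw [this]
  exact Valuation.map_add_lt _ hy hz

theorem ValAt.mul {P : Place L FL} {y z : FL} {c d : L} (hy : ValAt P y c) (hz : ValAt P z d) :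
    ValAt P (y * z) (c * d) := by
  have hzreg := hz.reg
  have hc1 : P.adicValuation (algebraMap L FL c) ≤ 1 := (mem_iff P _).mp (P.algebraMap_mem' c)
  unfold ValAt at *
  have : y * z - algebraMap L FL (c * d) =
      (y - algebraMap L FL c) * z + algebraMap L FL c * (z - algebraMap L FL d) := by
    rw [map_mul]; ring
  rw [this]
  refine Valuation.map_add_lt _ ?_ ?_
  · rw [map_mul]
    calc P.adicValuation (y - algebraMap L FL c) * P.adicValuation z
        ≤ P.adicValuation (y - algebraMap L FL c) * 1 := by gcongr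
      _ = P.adicValuation (y - algebraMap L FL c) := mul_one _
      _ < 1 := hy
  · rw [map_mul]
    calc P.adicValuation (algebraMap L FL c) * P.adicValuation (z - algebraMap L FL d)
        ≤ 1 * P.adicValuation (z - algebraMap L FL d) := by gcongr
      _ = P.adicValuation (z - algebraMap L FL d) := one_mul _
      _ < 1 := hz

theorem ValAt.pow {P : Place L FL} {y : FL} {c : L} (hy : ValAt P y c) (n : ℕ) :
    ValAt P (y ^ n) (c ^ n) := by
  induction n with
  | zero =>
    rw [pow_zero, pow_zero]
    have := valAt_const P (1 : L)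
    rwa [map_one] at this
  | succ n ih => rw [pow_succ, pow_succ]; exact ih.mul hy

theorem valAt_sum {ι : Type*} (s : Finset ι) {P : Place L FL} (y : ι → FL) (c : ι → L)
    (h : ∀ i ∈ s, ValAt P (y i) (c i)) : ValAt P (∑ i ∈ s, y i) (∑ i ∈ s, c i) := by
  classical
  induction s using Finset.induction_on with
  | empty =>
    rw [Finset.sum_empty, Finset.sum_empty]
    have := valAt_const P (0 : L)
    rwa [map_zero] at this
  | insert i s hi ih =>
    rw [Finset.sum_insert hi, Finset.sum_insert hi]
    exact (h i (Finset.mem_insert_self i s)).add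
      (ih fun j hj => h j (Finset.mem_insert_of_mem hj))

/-- at a place of degree one every regular function has a value -/
theorem exists_valAt (P : Place L FL) (hP : P.deg = 1) {y : FL} (hy : P.adicValuation y ≤ 1) :
    ∃ c : L, ValAt P y c := by
  have hord : 0 ≤ P.ord y := by
    rcases eq_or_ne y 0 with rfl | h0
    · rw [Place.ord_zero]
    · exact (ord_nonneg_iff P h0).mpr hy
  obtain ⟨c, hc | hc⟩ := exists_value P hP hord
  · refine ⟨c, ?_⟩
    unfold ValAt
    rw [hc, sub_self, map_zero]
    exact zero_lt_one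
  · exact ⟨c, adicValuation_lt_one_of_ord_pos P hc⟩

theorem valAt_zero_iff {P : Place L FL} {y : FL} : ValAt P y 0 ↔ P.adicValuation y < 1 := by
  unfold ValAt
  rw [map_zero, sub_zero]


/-! ### The Taylor step -/

section Step

variable [HasPrincipalDivisors L FL] (R : RedDatum A π r)

/-- a value in `A` of a Gauss-integral function which is regular on the disc -/
theorem valAt_mem (y : R.O) (Q : Place k Fk) (hreg : RegOn r (y : FL) Q)
    (P : Place L FL) (hP : r P = Q) {c : L} (hc : ValAt P (y : FL) c) : c ∈ A :=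
  value_mem' R y Q hreg P hP c hc

/-- a value of a good parameter on its disc lies in `𝔪_A` -/
theorem valAt_param_mem {T : R.O} {Q : Place k Fk} (hT : IsGoodParam R T Q)
    (P : Place L FL) (hP : r P = Q) {c : L} (hc : ValAt P (T : FL) c) :
    ∃ hcA : c ∈ A, (⟨c, hcA⟩ : A) ∈ IsLocalRing.maximalIdeal A :=
  hT.value_mem P hP c hc

/-- **Taylor step.** `y = c + T * y'`, `c` the value of `y` at the zero `P0` of `T`. -/
theorem taylor_step {T : R.O} {Q : Place k Fk} (hT : IsGoodParam R T Q)
    (P0 : Place L FL) (hP0 : r P0 = Q) (hP0deg : P0.deg = 1)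
    (hz : P0.adicValuation (T : FL) < 1)
    (y : R.O) (hy : RegOn r (y : FL) Q) :
    ∃ (c : A) (y' : R.O), RegOn r (y' : FL) Q ∧ ValAt P0 (y : FL) (c : L) ∧
      (y : FL) = algebraMap L FL (c : L) + (T : FL) * (y' : FL) := by
  classical
  obtain ⟨c, hc⟩ := exists_valAt P0 hP0deg (hy P0 hP0)
  have hcA : c ∈ A := valAt_mem R y Q hy P0 hP0 hc
  set uT : R.Oˣ := unitOfRed R T hT.red_ne_zero with huT
  set y' : R.O := (y - constO R ⟨c, hcA⟩) * ((uT⁻¹ : R.Oˣ) : R.O) with hy'
  have hT0 : (T : FL) ≠ 0 := hT.coe_ne_zero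
  have hy'coe : (y' : FL) = ((y : FL) - algebraMap L FL c) * ((T : FL))⁻¹ := by
    rw [hy']
    push_cast
    rw [Fermat.Agent.S18.Core.coe_inv_unit, huT, coe_unitOfRed]
    simp
  refine ⟨⟨c, hcA⟩, y', ?_, hc, ?_⟩
  · -- regularity of the quotient
    intro P hP
    rw [hy'coe]
    rcases eq_or_ne ((y : FL) - algebraMap L FL c) 0 with h0 | h0
    · rw [h0, zero_mul, map_zero]; exact zero_le_one
    · have hne : ((y : FL) - algebraMap L FL c) * ((T : FL))⁻¹ ≠ 0 :=
        mul_ne_zero h0 (inv_ne_zero hT0)
      rw [← ord_nonneg_iff P hne, P.ord_mul h0 (inv_ne_zero hT0), P.ord_inv,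
        hT.ord_eq_ite hP0 hz P hP]
      have hreg : 0 ≤ P.ord ((y : FL) - algebraMap L FL c) :=
        (ord_nonneg_iff P h0).mpr ((hy.sub (regOn_const r c Q)) P hP)
      split_ifs with hPP
      · subst hPP
        have : 0 < P.ord ((y : FL) - algebraMap L FL c) := (ord_pos_iff P h0).mpr hc
        omega
      · omega
  · rw [hy'coe]
    field_simp
    ring

end Step

/-! ### Taylor coefficients -/

section Coeff

variable [HasPrincipalDivisors L FL] (R : RedDatum A π r)

/-- The data of a residue disc with a good parameter and its zero. -/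
structure DiscParam (R : RedDatum A π r) where
  /-- the centre of the disc on the special fibre -/
  Q : Place k Fk
  /-- the parameter -/
  T : R.O
  /-- it is a good parameter -/
  good : IsGoodParam R T Q
  /-- its zero -/
  P0 : Place L FL
  hP0 : r P0 = Q
  deg_one : P0.deg = 1
  zero : P0.adicValuation (T : FL) < 1

variable {R}

/-- Gauss-integral functions regular on the disc of `D` -/
def DiscParam.Reg (D : DiscParam R) : Type _ := {y : R.O // RegOn r (y : FL) D.Q}

/-- one Taylor step, by choice -/
noncomputable def DiscParam.step (D : DiscParam R) (y : D.Reg) : A × D.Reg :=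
  let h := taylor_step R D.good D.P0 D.hP0 D.deg_one D.zero y.1 y.2
  (h.choose, ⟨h.choose_spec.choose, h.choose_spec.choose_spec.1⟩)

theorem DiscParam.step_valAt (D : DiscParam R) (y : D.Reg) :
    ValAt D.P0 ((y.1 : R.O) : FL) ((D.step y).1 : L) :=
  (taylor_step R D.good D.P0 D.hP0 D.deg_one D.zero y.1 y.2).choose_spec.choose_spec.2.1

theorem DiscParam.step_eq (D : DiscParam R) (y : D.Reg) :
    ((y.1 : R.O) : FL) = algebraMap L FL ((D.step y).1 : L) +
      (D.T : FL) * (((D.step y).2.1 : R.O) : FL) :=
  (taylor_step R D.good D.P0 D.hP0 D.deg_one D.zero y.1 y.2).choose_spec.choose_spec.2.2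

/-- the `n`-th remainder -/
noncomputable def DiscParam.rem (D : DiscParam R) (y : D.Reg) : ℕ → D.Reg
  | 0 => y
  | n + 1 => (D.step (D.rem y n)).2

/-- the `n`-th Taylor coefficient of `y` at `P0` with respect to `T` -/
noncomputable def DiscParam.coeff (D : DiscParam R) (y : D.Reg) (n : ℕ) : A :=
  (D.step (D.rem y n)).1

/-- **Taylor expansion of order `n`** with coefficients in `A` and a regular remainder. -/
theorem DiscParam.taylor_n (D : DiscParam R) (y : D.Reg) (n : ℕ) :
    ((y.1 : R.O) : FL) = ∑ m ∈ Finset.range n, algebraMap L FL ((D.coeff y m : A) : L) * (D.T : FL) ^ m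
      + (D.T : FL) ^ n * (((D.rem y n).1 : R.O) : FL) := by
  induction n with
  | zero => simp [DiscParam.rem]
  | succ n ih =>
    rw [Finset.sum_range_succ, ih]
    have h := D.step_eq (D.rem y n)
    rw [h]
    show _ = _ + algebraMap L FL ((D.coeff y n : A) : L) * (D.T : FL) ^ n +
      (D.T : FL) ^ (n + 1) * (((D.step (D.rem y n)).2.1 : R.O) : FL)
    unfold DiscParam.coeff
    ring


/-- the Taylor polynomial part has the expected value at every place where `T` has value `a` -/
theorem valAt_taylorPoly (P : Place L FL) (T : FL) (a : L) (ha : ValAt P T a) (c : ℕ → L) (n : ℕ) :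
    ValAt P (∑ m ∈ Finset.range n, algebraMap L FL (c m) * T ^ m)
      (∑ m ∈ Finset.range n, c m * a ^ m) :=
  valAt_sum _ _ _ fun m _ => (valAt_const P (c m)).mul (ha.pow m)

/-- **Evaluation congruence**: at every point `P` of the disc, with `a = T(P)` and `b = y(P)`,
`b = ∑_{m<n} c_m a^m + a^n d` with `d ∈ A`. -/
theorem DiscParam.ev_congr (D : DiscParam R) (y : D.Reg) (n : ℕ) (P : Place L FL)
    (hP : r P = D.Q) (hPdeg : P.deg = 1) (a b : L) (ha : ValAt P (D.T : FL) a)
    (hb : ValAt P ((y.1 : R.O) : FL) b) :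
    ∃ d : A, b = ∑ m ∈ Finset.range n, ((D.coeff y m : A) : L) * a ^ m + a ^ n * (d : L) := by
  obtain ⟨d, hd⟩ := exists_valAt P hPdeg ((D.rem y n).2 P hP)
  have hdA : d ∈ A := valAt_mem R (D.rem y n).1 D.Q (D.rem y n).2 P hP hd
  refine ⟨⟨d, hdA⟩, ?_⟩
  have h1 := (valAt_taylorPoly P (D.T : FL) a ha (fun m => ((D.coeff y m : A) : L)) n).add
    ((ha.pow n).mul hd)
  rw [← D.taylor_n y n] at h1
  exact hb.unique h1

/-- the reduction of the Taylor expansion -/
theorem DiscParam.red_taylor (D : DiscParam R) (y : D.Reg) (n : ℕ) :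
    R.red y.1 = ∑ m ∈ Finset.range n, algebraMap k Fk (π (D.coeff y m)) * (R.red D.T) ^ m
      + (R.red D.T) ^ n * R.red (D.rem y n).1 := by
  have h : y.1 = ∑ m ∈ Finset.range n, constO R (D.coeff y m) * D.T ^ m + D.T ^ n * (D.rem y n).1 := by
    apply Subtype.ext
    rw [D.taylor_n y n]
    push_cast
    simp
  conv_lhs => rw [h]
  rw [map_add, map_sum, map_mul, map_pow]
  congr 1
  refine Finset.sum_congr rfl fun m _ => ?_
  rw [map_mul, map_pow, red_constO]

theorem DiscParam.red_rem_regular (D : DiscParam R) (y : D.Reg) (n : ℕ) :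
    D.Q.adicValuation (R.red (D.rem y n).1) ≤ 1 :=
  red_regular R _ D.Q (D.rem y n).2

/-- **Uniqueness of Taylor coefficients** (only regularity of the remainder at `P0` is used). -/
theorem taylor_unique (P0 : Place L FL) (T : FL) (hT0 : T ≠ 0) (hz : P0.adicValuation T < 1) :
    ∀ (n : ℕ) (y : FL) (c c' : ℕ → L) (z z' : FL), P0.adicValuation z ≤ 1 → P0.adicValuation z' ≤ 1 →
      y = ∑ m ∈ Finset.range n, algebraMap L FL (c m) * T ^ m + T ^ n * z →
      y = ∑ m ∈ Finset.range n, algebraMap L FL (c' m) * T ^ m + T ^ n * z' →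
      ∀ m < n, c m = c' m := by
  intro n
  induction n with
  | zero => intro y c c' z z' _ _ _ _ m hm; exact absurd hm (Nat.not_lt_zero m)
  | succ n ih =>
    intro y c c' z z' hzr hzr' h h' m hm
    -- the value of `y` at `P0` is `c 0`
    have key : ∀ (c : ℕ → L) (z : FL), P0.adicValuation z ≤ 1 →
        y = ∑ m ∈ Finset.range (n + 1), algebraMap L FL (c m) * T ^ m + T ^ (n + 1) * z →
        y - algebraMap L FL (c 0) = T * (∑ m ∈ Finset.range n, algebraMap L FL (c (m + 1)) * T ^ m
          + T ^ n * z) := by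
      intro c z _ h
      rw [h, Finset.sum_range_succ', mul_add, Finset.mul_sum]
      have : ∀ m ∈ Finset.range n, T * (algebraMap L FL (c (m + 1)) * T ^ m) =
          algebraMap L FL (c (m + 1)) * T ^ (m + 1) := fun m _ => by ring
      rw [Finset.sum_congr rfl this]
      ring
    have hreg : ∀ (c : ℕ → L) (z : FL), P0.adicValuation z ≤ 1 →
        P0.adicValuation (∑ m ∈ Finset.range n, algebraMap L FL (c (m + 1)) * T ^ m + T ^ n * z) ≤ 1 := by
      intro c z hzr
      refine Valuation.map_add_le _ (Valuation.map_sum_le _ fun m _ => ?_) ?_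
      · rw [map_mul, map_pow]
        exact mul_le_one' ((mem_iff P0 _).mp (P0.algebraMap_mem' _)) (pow_le_one' hz.le m)
      · rw [map_mul, map_pow]
        exact mul_le_one' (pow_le_one' hz.le n) hzr
    have hval : ∀ (c : ℕ → L) (z : FL), P0.adicValuation z ≤ 1 →
        y = ∑ m ∈ Finset.range (n + 1), algebraMap L FL (c m) * T ^ m + T ^ (n + 1) * z →
        ValAt P0 y (c 0) := by
      intro c z hzr h
      unfold ValAt
      rw [key c z hzr h, map_mul]
      calc P0.adicValuation T * _ ≤ P0.adicValuation T * 1 := by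
            gcongr; exact hreg c z hzr
        _ = P0.adicValuation T := mul_one _
        _ < 1 := hz
    have h0 : c 0 = c' 0 := (hval c z hzr h).unique (hval c' z' hzr' h')
    rcases Nat.eq_zero_or_pos m with rfl | hmpos
    · exact h0
    · have e1 := key c z hzr h
      have e2 := key c' z' hzr' h'
      rw [h0] at e1
      have e3 := mul_left_cancel₀ hT0 (e1.symm.trans e2)
      have := ih _ (fun m => c (m + 1)) (fun m => c' (m + 1)) z z' hzr hzr' rfl e3 (m - 1) (by omega)
      simpa [Nat.sub_add_cancel hmpos] using this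

theorem DiscParam.coeff_unique (D : DiscParam R) (y : D.Reg) (n : ℕ) (c : ℕ → L) (z : FL)
    (hz : D.P0.adicValuation z ≤ 1)
    (h : ((y.1 : R.O) : FL) = ∑ m ∈ Finset.range n, algebraMap L FL (c m) * (D.T : FL) ^ m
      + (D.T : FL) ^ n * z) :
    ∀ m < n, c m = ((D.coeff y m : A) : L) :=
  taylor_unique D.P0 (D.T : FL) D.good.coe_ne_zero D.zero n _ c _ z _ hz
    ((D.rem y n).2 D.P0 D.hP0) h (D.taylor_n y n)

/-- **Rationality of Taylor coefficients**: a pair of compatible ring endomorphisms of `L` and `FL`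
fixing the place `P0`, the parameter and the function fixes every Taylor coefficient. -/
theorem DiscParam.coeff_fixed (D : DiscParam R) (y : D.Reg) (sL : L →+* L) (sF : FL →+* FL)
    (hcomp : ∀ c : L, sF (algebraMap L FL c) = algebraMap L FL (sL c))
    (hP0 : ∀ z : FL, D.P0.adicValuation (sF z) = D.P0.adicValuation z)
    (hT : sF (D.T : FL) = (D.T : FL)) (hy : sF ((y.1 : R.O) : FL) = ((y.1 : R.O) : FL)) (m : ℕ) :
    sL ((D.coeff y m : A) : L) = ((D.coeff y m : A) : L) := by
  have h := congrArg sF (D.taylor_n y (m + 1))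
  rw [hy, map_add, map_sum, map_mul, map_pow, hT] at h
  have h' : ((y.1 : R.O) : FL) = ∑ i ∈ Finset.range (m + 1),
      algebraMap L FL (sL ((D.coeff y i : A) : L)) * (D.T : FL) ^ i +
        (D.T : FL) ^ (m + 1) * sF (((D.rem y (m + 1)).1 : R.O) : FL) := by
    rw [h]
    congr 1
    refine Finset.sum_congr rfl fun i _ => ?_
    rw [map_mul, map_pow, hT, hcomp]
  exact D.coeff_unique y (m + 1) (fun i => sL ((D.coeff y i : A) : L)) _
    (by rw [hP0]; exact (D.rem y (m + 1)).2 D.P0 D.hP0) h' m (Nat.lt_succ_self m)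

end Coeff

/-! ### The disc is parametrised by `𝔪_A` -/

section DiscBij

variable [HasPrincipalDivisors L FL] {R : RedDatum A π r}

theorem coe_sub_constHom (T : R.O) (a : A) :
    ((T - constHom R a : R.O) : FL) = (T : FL) - algebraMap L FL (a : L) := by
  push_cast; simp

/-- the value of the parameter at a point of the disc exists and lies in `𝔪_A` -/
theorem DiscParam.exists_valAt_param (D : DiscParam R) (P : Place L FL) (hP : r P = D.Q)
    (hPdeg : P.deg = 1) :
    ∃ a : A, a ∈ IsLocalRing.maximalIdeal A ∧ ValAt P (D.T : FL) (a : L) := by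
  obtain ⟨c, hc⟩ := exists_valAt P hPdeg (D.good.reg P hP)
  obtain ⟨hcA, hcm⟩ := valAt_param_mem R D.good P hP hc
  exact ⟨⟨c, hcA⟩, hcm, hc⟩

/-- injectivity of `P ↦ T(P)` on the disc -/
theorem DiscParam.eq_of_valAt (D : DiscParam R) {P P' : Place L FL} (hP : r P = D.Q)
    (hP' : r P' = D.Q) {a : A} (ha : a ∈ IsLocalRing.maximalIdeal A)
    (h : ValAt P (D.T : FL) (a : L)) (h' : ValAt P' (D.T : FL) (a : L)) : P' = P := by
  classical
  have hg : IsGoodParam R (D.T - constHom R a) D.Q := D.good.sub_const ha
  have hz : P.adicValuation ((D.T - constHom R a : R.O) : FL) < 1 := by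
    rw [coe_sub_constHom]; exact h
  have hz' : P'.adicValuation ((D.T - constHom R a : R.O) : FL) < 1 := by
    rw [coe_sub_constHom]; exact h'
  have hord := hg.ord_eq_ite hP hz P' hP'
  have hpos : 0 < P'.ord ((D.T - constHom R a : R.O) : FL) := (ord_pos_iff P' hg.coe_ne_zero).mpr hz'
  by_contra hne
  rw [if_neg hne] at hord
  omega

/-- surjectivity of `P ↦ T(P)` onto `𝔪_A` -/
theorem DiscParam.exists_place_of_mem (D : DiscParam R) (a : A)
    (ha : a ∈ IsLocalRing.maximalIdeal A) :
    ∃ P : Place L FL, r P = D.Q ∧ ValAt P (D.T : FL) (a : L) := by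
  have hg : IsGoodParam R (D.T - constHom R a) D.Q := D.good.sub_const ha
  obtain ⟨P, hP, h1, -⟩ := hg.exists_unique_zero
  refine ⟨P, hP, ?_⟩
  have : 0 < P.ord ((D.T - constHom R a : R.O) : FL) := by rw [h1]; exact one_pos
  have hv := adicValuation_lt_one_of_ord_pos P this
  rw [coe_sub_constHom] at hv
  exact hv

/-- the zero of the parameter is the point with coordinate `0` -/
theorem DiscParam.valAt_P0 (D : DiscParam R) : ValAt D.P0 (D.T : FL) 0 :=
  valAt_zero_iff.mpr D.zero

/-- re-centring: the same disc with the parameter `T - a` and its zero -/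
noncomputable def DiscParam.recentre (D : DiscParam R) (hdegL : ∀ P : Place L FL, P.deg = 1)
    (a : A) (ha : a ∈ IsLocalRing.maximalIdeal A) : DiscParam R :=
  let h := D.exists_place_of_mem a ha
  { Q := D.Q
    T := D.T - constHom R a
    good := D.good.sub_const ha
    P0 := h.choose
    hP0 := h.choose_spec.1
    deg_one := hdegL _
    zero := by rw [coe_sub_constHom]; exact h.choose_spec.2 }


/-- **Factor lemma**: a function regular on the disc which vanishes at the point `P` of the
disc where `T` takes the value `a` is divisible by `T - a`, with a quotient regular on the disc. -/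
theorem factor {T : R.O} {Q : Place k Fk} (hT : IsGoodParam R T Q) (y : R.O)
    (hy : RegOn r (y : FL) Q) (P : Place L FL) (hP : r P = Q) (hPdeg : P.deg = 1) (a : A)
    (ha : ValAt P (T : FL) (a : L)) (h0 : ValAt P (y : FL) 0) :
    ∃ y1 : R.O, RegOn r (y1 : FL) Q ∧
      (y : FL) = ((T : FL) - algebraMap L FL (a : L)) * (y1 : FL) := by
  obtain ⟨haA, ham⟩ := valAt_param_mem R hT P hP ha
  have ham' : a ∈ IsLocalRing.maximalIdeal A := ham
  have hg : IsGoodParam R (T - constHom R a) Q := hT.sub_const ham'
  have hz : P.adicValuation ((T - constHom R a : R.O) : FL) < 1 := by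
    rw [coe_sub_constHom]; exact ha
  obtain ⟨c, y1, hy1, hc, heq⟩ := taylor_step R hg P hP hPdeg hz y hy
  have hc0 : (c : L) = 0 := hc.unique h0
  refine ⟨y1, hy1, ?_⟩
  rw [heq, hc0, map_zero, zero_add, coe_sub_constHom]

/-- re-centring at a given point of the disc (American spelling alias included below) -/
noncomputable def DiscParam.recentreAt (D : DiscParam R) (P : Place L FL) (hP : r P = D.Q)
    (hPdeg : P.deg = 1) : DiscParam R :=
  let h := D.exists_valAt_param P hP hPdeg
  { Q := D.Q
    T := D.T - constHom R h.choose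
    good := D.good.sub_const h.choose_spec.1
    P0 := P
    hP0 := hP
    deg_one := hPdeg
    zero := by rw [coe_sub_constHom]; exact h.choose_spec.2 }

/-- the value of `D.T` at `P`, as chosen by `recentreAt` -/
noncomputable def DiscParam.valueAt (D : DiscParam R) (P : Place L FL) (hP : r P = D.Q)
    (hPdeg : P.deg = 1) : A := (D.exists_valAt_param P hP hPdeg).choose

theorem DiscParam.valueAt_mem (D : DiscParam R) (P : Place L FL) (hP : r P = D.Q)
    (hPdeg : P.deg = 1) : D.valueAt P hP hPdeg ∈ IsLocalRing.maximalIdeal A :=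
  (D.exists_valAt_param P hP hPdeg).choose_spec.1

theorem DiscParam.valAt_valueAt (D : DiscParam R) (P : Place L FL) (hP : r P = D.Q)
    (hPdeg : P.deg = 1) : ValAt P (D.T : FL) (D.valueAt P hP hPdeg : L) :=
  (D.exists_valAt_param P hP hPdeg).choose_spec.2

theorem DiscParam.recentreAt_T (D : DiscParam R) (P : Place L FL) (hP : r P = D.Q)
    (hPdeg : P.deg = 1) :
    (D.recentreAt P hP hPdeg).T = D.T - constHom R (D.valueAt P hP hPdeg) := rfl

theorem DiscParam.recentreAt_Q (D : DiscParam R) (P : Place L FL) (hP : r P = D.Q)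
    (hPdeg : P.deg = 1) : (D.recentreAt P hP hPdeg).Q = D.Q := rfl

theorem DiscParam.recentreAt_P0 (D : DiscParam R) (P : Place L FL) (hP : r P = D.Q)
    (hPdeg : P.deg = 1) : (D.recentreAt P hP hPdeg).P0 = P := rfl

/-- alias -/
noncomputable abbrev DiscParam.recenter := @DiscParam.recentreAt

end DiscBij

end Fermat.Agent.S19.Taylor
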