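import Mathlib
import Fermat.Agent.S19.NormBasis
import Fermat.Agent.S19.Taylor
import Fermat.Agent.S19.AddLaw

/-!
# S19, slice (W5b), end of the rationality seam: Taylor data over the fixed ring

Frame = `S18/Core` + `d : InterpDatum.Datum R g`.  For a family of semilinear endomorphisms
`(sL σ, sF σ)` of `FL/L` fixing the datum, and a ring `S → A` which is the fixed ring of the `sL σ`
on `A`, the normalised basis `φ` of `NormBasis` has all its Taylor coefficients (at the `Q_i` in the
parameters `T_i`, at the `Rp_j` in the parameters `v_j`) in `S`: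

`exists_taylorData_fixed` : `∃ φ, hspan ∧ hind ∧ ∃ D : ℕ → TaylorData S g, ∀ N, TaylorAt d φ (D N) N`,
which is exactly what `AddLaw.exists_add_congr` consumes.
-/

set_option autoImplicit false
set_option linter.unusedSectionVars false
set_option linter.unusedVariables false

noncomputable section

namespace Fermat.Agent.S19.TaylorRat

open AlgebraicCurve Polynomial
open Fermat.Agent.S18.CoreDefs Fermat.Agent.S18.CoreOrd Fermat.Agent.S24.Ord
open Fermat.Agent.S18.NonSpecial Fermat.Agent.S18.Disc Fermat.Agent.S19.InterpDatum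
open Fermat.Agent.S19.NormBasis Fermat.Agent.S19.Taylor Fermat.Agent.S19.TruncAdd

universe uS

variable {L : Type*} [Field L] {FL : Type*} [Field FL] [Algebra L FL]
variable {k : Type*} [Field k] {Fk : Type*} [Field Fk] [Algebra k Fk]
variable {A : ValuationSubring L} {π : A →+* k} {r : Place L FL → Place k Fk}
variable [HasPrincipalDivisors L FL] {R : RedDatum A π r} {g : ℕ}

/-! ### from the Taylor slice to `HasJet` -/

/-- the Taylor expansion of the Taylor slice, as a jet -/
theorem hasJet_taylor (D : DiscParam R) (y : D.Reg) (n : ℕ) :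
    HasJet R D.T D.Q y.1 n (fun m => D.coeff y m) := by
  refine hasJet_of_coe _ (D.rem y n).1 (D.rem y n).2 ?_
  rw [D.taylor_n y n, Finset.sum_range]

/-- the disc of `Q̄_i` with the parameter `T_i` -/
def discQ (d : Datum R g) (hdeg : ∀ P : Place L FL, P.deg = 1) (i : Fin g) : DiscParam R where
  Q := d.Qb i
  T := d.T i
  good := d.hT i
  P0 := d.Q i
  hP0 := d.hQ i
  deg_one := hdeg _
  zero := adicValuation_lt_one_of_ord_pos _ (d.hT0 i)

/-- the disc of `R̄_j` with the parameter `v_j` -/
def discR (d : Datum R g) (hdeg : ∀ P : Place L FL, P.deg = 1) (j : Fin g) : DiscParam R where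
  Q := d.Rb j
  T := d.v j
  good := d.hv j
  P0 := d.Rp j
  hP0 := d.hRp j
  deg_one := hdeg _
  zero := adicValuation_lt_one_of_ord_pos _ (d.hv0 j)

/-- the hypothesis `hjet` of `NormBasis` -/
theorem hjet_of_taylor (d : Datum R g) (hdeg : ∀ P : Place L FL, P.deg = 1) (i : Fin g) (y : R.O)
    (hy : RegOn r ((y : R.O) : FL) (d.Qb i)) :
    ∃ c : Fin 3 → A, HasJet R (d.T i) (d.Qb i) y 3 c :=
  ⟨_, hasJet_taylor (discQ d hdeg i) ⟨y, hy⟩ 3⟩


/-! ### combinations of jets on the special fibre -/

/-- if the `k`-combination `x` kills the `n`-jets of the `y_a`, the same combination of the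
reductions is `T̄ ^ n` times a function regular at `Q` -/
theorem comb_jets {ι : Type*} [Fintype ι] {T : R.O} {Q : Place k Fk} {n : ℕ}
    (y : ι → R.O) (c : ι → Fin n → A) (hc : ∀ a, HasJet R T Q (y a) n (c a)) (x : ι → k)
    (hx : ∀ m, ∑ a, x a * π (c a m) = 0) :
    ∃ z : Fk, Q.adicValuation z ≤ 1 ∧
      ∑ a, algebraMap k Fk (x a) * R.red (y a) = R.red T ^ n * z := by
  choose z hz hred using fun a => (hc a).red
  refine ⟨∑ a, algebraMap k Fk (x a) * z a, ?_, ?_⟩
  · refine Valuation.map_sum_le _ fun a _ => ?_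
    rw [map_mul]
    exact mul_le_one' (Q.adicValuation_algebraMap_le_one _) (hz a)
  · have h1 : ∀ a, algebraMap k Fk (x a) * R.red (y a) =
        ∑ m : Fin n, algebraMap k Fk (x a * π (c a m)) * R.red T ^ (m : ℕ) +
          R.red T ^ n * (algebraMap k Fk (x a) * z a) := by
      intro a
      rw [hred a, mul_add, Finset.mul_sum]
      congr 1
      · refine Finset.sum_congr rfl fun m _ => ?_
        rw [map_mul]
        ring
      · ring
    rw [Finset.sum_congr rfl fun a _ => h1 a, Finset.sum_add_distrib, Finset.sum_comm,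
      ← Finset.mul_sum]
    have h2 : ∑ m : Fin n, ∑ a, algebraMap k Fk (x a * π (c a m)) * R.red T ^ (m : ℕ) = 0 := by
      refine Finset.sum_eq_zero fun m _ => ?_
      rw [← Finset.sum_mul, ← map_sum, hx m, map_zero, zero_mul]
    rw [h2, zero_add]

/-- **(M2)**: if `x` kills the values of all `y_a v_j` at `R̄_j` and of all `y_a T_i²` at `Q̄_i`,
the combination `∑ x_a red y_a` of sections of `O(Ē)` is constant ((RR-b)) -/
theorem const_of_values (d : Datum R g) {ι : Type*} [Fintype ι] (y : ι → R.O)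
    (hyb : ∀ a, R.red (y a) ∈ riemannRochSpace d.Eb)
    (cR : ι → Fin g → Fin 1 → A)
    (hcR : ∀ a j, HasJet R (d.v j) (d.Rb j) (y a * d.v j) 1 (cR a j))
    (cQ : ι → Fin g → Fin 1 → A)
    (hcQ : ∀ a i, HasJet R (d.T i) (d.Qb i) (y a * d.T i ^ 2) 1 (cQ a i)) (x : ι → k)
    (hxR : ∀ j, ∑ a, x a * π (cR a j 0) = 0) (hxQ : ∀ i, ∑ a, x a * π (cQ a i 0) = 0) :
    ∃ γ : k, ∑ a, algebraMap k Fk (x a) * R.red (y a) = algebraMap k Fk γ := by
  have hmem : ∑ a, algebraMap k Fk (x a) * R.red (y a) ∈ riemannRochSpace d.Eb := by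
    refine Submodule.sum_mem _ fun a _ => ?_
    rw [← Algebra.smul_def]
    exact Submodule.smul_mem _ _ (hyb a)
  refine d.rank_b hmem (fun j => ?_) (fun i => ?_)
  · obtain ⟨z, hz, hzeq⟩ := comb_jets (fun a => y a * d.v j) (fun a => cR a j)
      (fun a => hcR a j) x (fun m => by rw [Subsingleton.elim m 0]; exact hxR j)
    have hv : R.red (d.v j) ≠ 0 := (d.hv j).red_ne_zero
    have h1 : (∑ a, algebraMap k Fk (x a) * R.red (y a)) * R.red (d.v j) =
        R.red (d.v j) ^ 1 * z := by
      rw [← hzeq, Finset.sum_mul]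
      refine Finset.sum_congr rfl fun a _ => ?_
      rw [map_mul, mul_assoc]
    have h2 : ∑ a, algebraMap k Fk (x a) * R.red (y a) = z := by
      apply mul_right_cancel₀ hv
      rw [h1, pow_one, mul_comm]
    rw [h2]
    exact ord_nonneg_of_le_one' _ hz
  · obtain ⟨z, hz, hzeq⟩ := comb_jets (fun a => y a * d.T i ^ 2) (fun a => cQ a i)
      (fun a => hcQ a i) x (fun m => by rw [Subsingleton.elim m 0]; exact hxQ i)
    have hT : R.red (d.T i) ≠ 0 := (d.hT i).red_ne_zero
    have h1 : (∑ a, algebraMap k Fk (x a) * R.red (y a)) * R.red (d.T i) ^ 2 =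
        R.red (d.T i) ^ 1 * z := by
      rw [← hzeq, Finset.sum_mul]
      refine Finset.sum_congr rfl fun a _ => ?_
      rw [map_mul, map_pow, mul_assoc]
    have h2 : (∑ a, algebraMap k Fk (x a) * R.red (y a)) * R.red (d.T i) = z := by
      apply mul_right_cancel₀ hT
      rw [mul_assoc, ← pow_two, h1, pow_one, mul_comm]
    rcases eq_or_ne (∑ a, algebraMap k Fk (x a) * R.red (y a)) 0 with h0 | h0
    · rw [h0, Place.ord_zero]
      norm_num
    · have h3 := ord_nonneg_of_le_one' (d.Qb i) hz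
      rw [← h2, Place.ord_mul _ h0 hT, (d.hT i).ord_one] at h3
      omega

/-- the matrix of the values (rows `inl j` : values of `φ_a v_j` at `Rp_j`, rows `inr i` : values
of `φ_a T_i²` at `Q_i`) -/
def valueMatrix (cR cQ : Fin g ⊕ Fin g → Fin g → A) :
    Matrix (Fin g ⊕ Fin g) (Fin g ⊕ Fin g) A :=
  Matrix.of fun row a => Sum.elim (fun j => cR a j) (fun i => cQ a i) row

/-- **the value matrix of a reduced basis is invertible over `A`** -/
theorem isUnit_det_valueMatrix (d : Datum R g) (F : Fin g ⊕ Fin g → R.O)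
    (hFb : ∀ b, R.red (F b) ∈ riemannRochSpace d.Eb)
    (hli : LinearIndependent k (Sum.elim (fun _ : Unit => (1 : Fk)) (fun b => R.red (F b))))
    (cR cQ : Fin g ⊕ Fin g → Fin g → A)
    (hcR : ∀ a j, HasJet R (d.v j) (d.Rb j) (F a * d.v j) 1 (fun _ => cR a j))
    (hcQ : ∀ a i, HasJet R (d.T i) (d.Qb i) (F a * d.T i ^ 2) 1 (fun _ => cQ a i)) :
    IsUnit (valueMatrix cR cQ).det := by
  classical
  by_contra hnu
  have hm : (valueMatrix cR cQ).det ∈ IsLocalRing.maximalIdeal A :=
    (IsLocalRing.mem_maximalIdeal _).mpr hnu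
  have hpi : π (valueMatrix cR cQ).det = 0 := (pi_eq_zero_iff R _).mpr hm
  rw [RingHom.map_det] at hpi
  obtain ⟨v, hv0, hv⟩ := Matrix.exists_mulVec_eq_zero_iff.mpr hpi
  apply hv0
  have hxR : ∀ j, ∑ a, v a * π (cR a j) = 0 := by
    intro j
    have := congrFun hv (Sum.inl j)
    simp only [Matrix.mulVec, dotProduct, RingHom.mapMatrix_apply, Matrix.map_apply, valueMatrix,
      Matrix.of_apply, Sum.elim_inl, Pi.zero_apply] at this
    rw [← this]
    exact Finset.sum_congr rfl fun b _ => mul_comm _ _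
  have hxQ : ∀ i, ∑ a, v a * π (cQ a i) = 0 := by
    intro i
    have := congrFun hv (Sum.inr i)
    simp only [Matrix.mulVec, dotProduct, RingHom.mapMatrix_apply, Matrix.map_apply, valueMatrix,
      Matrix.of_apply, Sum.elim_inr, Pi.zero_apply] at this
    rw [← this]
    exact Finset.sum_congr rfl fun b _ => mul_comm _ _
  obtain ⟨γ, hγ⟩ := const_of_values d F hFb (fun a j _ => cR a j) hcR (fun a i _ => cQ a i) hcQ v
    hxR hxQ
  have hrel : ∑ a, (Sum.elim (fun _ : Unit => -γ) v) a •
      (Sum.elim (fun _ : Unit => (1 : Fk)) (fun b => R.red (F b))) a = 0 := by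
    rw [Fintype.sum_sum_type]
    simp only [Sum.elim_inl, Sum.elim_inr, Finset.univ_unique, Finset.sum_singleton]
    rw [Algebra.smul_def, mul_one, map_neg, neg_add_eq_zero, ← hγ]
    exact Finset.sum_congr rfl fun b _ => (Algebra.smul_def _ _).symm
  have h0 := Fintype.linearIndependent_iff.mp hli _ hrel
  funext b
  exact h0 (Sum.inr b)


/-! ### truncated polynomials -/

section Trunc

variable {S : Type*} [CommRing S]

/-- `∑_{m<M} c_m X^m` -/
def truncPoly (c : ℕ → S) (M : ℕ) : S[X] := ∑ m ∈ Finset.range M, monomial m (c m)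

theorem coeff_truncPoly (c : ℕ → S) (M m : ℕ) :
    (truncPoly c M).coeff m = if m < M then c m else 0 := by
  classical
  unfold truncPoly
  rw [finset_sum_coeff]
  simp only [coeff_monomial]
  rw [Finset.sum_ite_eq' (Finset.range M) m c]
  simp only [Finset.mem_range]

theorem aeval_map_truncPoly {B C : Type*} [CommRing B] [CommRing C] [Algebra B C] (f : S →+* B)
    (c : ℕ → S) (M : ℕ) (t : C) :
    aeval t ((truncPoly c M).map f) = ∑ m ∈ Finset.range M, algebraMap B C (f (c m)) * t ^ m := by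
  unfold truncPoly
  rw [Polynomial.map_sum, map_sum]
  refine Finset.sum_congr rfl fun m _ => ?_
  rw [map_monomial, aeval_monomial]

end Trunc


/-! ### the symmetries of the datum and the fixed ring -/

/-- a semilinear endomorphism `(sL, sF)` of `FL/L` fixing the interpolation datum -/
structure FixesDatum (d : Datum R g) (sL : L →+* L) (sF : FL →+* FL) : Prop where
  comp : ∀ c : L, sF (algebraMap L FL c) = algebraMap L FL (sL c)
  mapsE : ∀ f ∈ riemannRochSpace d.E, sF f ∈ riemannRochSpace d.E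
  valQ : ∀ (i : Fin g) (z : FL), (d.Q i).adicValuation (sF z) = (d.Q i).adicValuation z
  valR : ∀ (j : Fin g) (z : FL), (d.Rp j).adicValuation (sF z) = (d.Rp j).adicValuation z
  fixT : ∀ i, sF ((d.T i : R.O) : FL) = ((d.T i : R.O) : FL)
  fixv : ∀ j, sF ((d.v j : R.O) : FL) = ((d.v j : R.O) : FL)

section Fixed

variable {S : Type uS} [CommRing S] [Algebra S A] {ι : Type*} (sL : ι → L →+* L)

/-- a unit of `A` coming from the fixed ring `S` is a unit of `S` -/
theorem isUnit_of_isUnit_algebraMap (hinj : Function.Injective (algebraMap S A))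
    (hSfix : ∀ σ (w : S), sL σ (((algebraMap S A w : A) : A) : L) = ((algebraMap S A w : A) : L))
    (hSmem : ∀ x : A, (∀ σ, sL σ ((x : A) : L) = ((x : A) : L)) → ∃ w : S, algebraMap S A w = x)
    (w : S) (hu : IsUnit (algebraMap S A w)) : IsUnit w := by
  obtain ⟨x, hx⟩ := hu.exists_left_inv
  have hxL : ((x : A) : L) * ((algebraMap S A w : A) : L) = 1 := by
    have := congrArg (fun y : A => (y : L)) hx
    simpa using this
  have hxinv : ((x : A) : L) = (((algebraMap S A w : A) : A) : L)⁻¹ := eq_inv_of_mul_eq_one_left hxL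
  obtain ⟨w', hw'⟩ := hSmem x (fun σ => by rw [hxinv, map_inv₀, hSfix])
  refine IsUnit.of_mul_eq_one w' (hinj ?_)
  rw [map_mul, map_one, hw', mul_comm]
  exact hx

end Fixed

/-! ### the Taylor data over the fixed ring -/

/-- **Taylor data over the fixed ring.**  `S → A` is the fixed ring of the `sL σ` on `A`, and every
`(sL σ, sF σ)` fixes the datum `d`.  Then the normalised basis `φ` of `L(E)` modulo constants
satisfies the hypotheses `hspan`, `hind` of `AddLaw.exists_add_congr`, and has Taylor data of every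
order with coefficients in `S`. -/
theorem exists_taylorData_fixed (hO : OrthoHyp R) (hL : RiemannHyp L FL g)
    (hk : RiemannHyp k Fk g) (d : Datum R g) {S : Type uS} [CommRing S] [Algebra S A]
    (hinj : Function.Injective (algebraMap S A)) {ι : Type*} (sL : ι → L →+* L)
    (sF : ι → FL →+* FL) (hfix : ∀ σ, FixesDatum d (sL σ) (sF σ))
    (hSfix : ∀ σ (w : S), sL σ (((algebraMap S A w : A) : A) : L) = ((algebraMap S A w : A) : L))
    (hSmem : ∀ x : A, (∀ σ, sL σ ((x : A) : L) = ((x : A) : L)) → ∃ w : S, algebraMap S A w = x) :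
    ∃ φ : Idx g → R.O,
      (∀ a, ((φ a : R.O) : FL) ∈ riemannRochSpace d.E) ∧
      (∀ f : R.O, ((f : R.O) : FL) ∈ riemannRochSpace d.E →
        ∃ (c₀ : A) (c : Idx g → A), ((f : R.O) : FL) =
          algebraMap L FL ((c₀ : A) : L) +
            ∑ a, algebraMap L FL ((c a : A) : L) * ((φ a : R.O) : FL)) ∧
      LinearIndependent k (Sum.elim (fun _ : Unit => (1 : Fk)) (fun a => R.red (φ a))) ∧
      ∃ D : ℕ → TaylorData S g, ∀ N, Fermat.Agent.S19.AddLaw.TaylorAt d φ (D N) N := by
  classical
  have hdeg := hL.deg_one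
  obtain ⟨φ, hφE, hφb, hn, hspan, hind, hfixφ⟩ :=
    exists_normalised_basis d hO hL hk (hjet_of_taylor d hdeg)
  refine ⟨φ, hφE, hspan, hind, ?_⟩
  -- the functions `φ_a T_i²` and `φ_a v_j` on their discs
  let yQ : ∀ (a : Idx g) (i : Fin g), (discQ d hdeg i).Reg := fun a i =>
    ⟨φ a * d.T i ^ 2, d.regOn_mul_T_sq (hφE a) i⟩
  let yR : ∀ (a : Idx g) (j : Fin g), (discR d hdeg j).Reg := fun a j =>
    ⟨φ a * d.v j, d.regOn_mul_v (hφE a) j⟩
  -- their Taylor coefficients are fixed, hence come from `S`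
  have hyQfix : ∀ σ a i, sF σ ((((yQ a i).1 : R.O) : R.O) : FL) = ((((yQ a i).1 : R.O) : R.O) : FL) := by
    intro σ a i
    have : ((((yQ a i).1 : R.O) : R.O) : FL) = ((φ a : R.O) : FL) * ((d.T i : R.O) : FL) ^ 2 := rfl
    rw [this, map_mul, map_pow, (hfix σ).fixT i,
      hfixφ (sL σ) (sF σ) (hfix σ).comp (hfix σ).mapsE (hfix σ).valQ (hfix σ).fixT a]
  have hyRfix : ∀ σ a j, sF σ ((((yR a j).1 : R.O) : R.O) : FL) = ((((yR a j).1 : R.O) : R.O) : FL) := by
    intro σ a j
    have : ((((yR a j).1 : R.O) : R.O) : FL) = ((φ a : R.O) : FL) * ((d.v j : R.O) : FL) := rfl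
    rw [this, map_mul, (hfix σ).fixv j,
      hfixφ (sL σ) (sF σ) (hfix σ).comp (hfix σ).mapsE (hfix σ).valQ (hfix σ).fixT a]
  have hcQfix : ∀ a i m σ, sL σ ((((discQ d hdeg i).coeff (yQ a i) m : A) : A) : L)
      = (((discQ d hdeg i).coeff (yQ a i) m : A) : L) := fun a i m σ =>
    (discQ d hdeg i).coeff_fixed (yQ a i) (sL σ) (sF σ) (hfix σ).comp ((hfix σ).valQ i)
      ((hfix σ).fixT i) (hyQfix σ a i) m
  have hcRfix : ∀ a j m σ, sL σ ((((discR d hdeg j).coeff (yR a j) m : A) : A) : L)
      = (((discR d hdeg j).coeff (yR a j) m : A) : L) := fun a j m σ =>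
    (discR d hdeg j).coeff_fixed (yR a j) (sL σ) (sF σ) (hfix σ).comp ((hfix σ).valR j)
      ((hfix σ).fixv j) (hyRfix σ a j) m
  choose sQ hsQ using fun a i m => hSmem _ (hcQfix a i m)
  choose sR hsR using fun a j m => hSmem _ (hcRfix a j m)
  -- the low coefficients are those of the normalisation
  have hQ0 : ∀ a i, sQ a i 0 = if a = Sum.inl i then 1 else 0 := by
    intro a i
    apply hinj
    rw [hsQ, apply_ite (algebraMap S A), map_one, map_zero]
    have := HasJet.unique (d.Q i) (d.hQ i) (d.hT i).coe_ne_zero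
      (adicValuation_lt_one_of_ord_pos _ (d.hT0 i))
      (hasJet_taylor (discQ d hdeg i) (yQ a i) 2) (hn.hasJet_two d a i)
    exact congrFun this 0
  have hQ1 : ∀ a i, sQ a i 1 = if a = Sum.inr i then 1 else 0 := by
    intro a i
    apply hinj
    rw [hsQ, apply_ite (algebraMap S A), map_one, map_zero]
    have := HasJet.unique (d.Q i) (d.hQ i) (d.hT i).coe_ne_zero
      (adicValuation_lt_one_of_ord_pos _ (d.hT0 i))
      (hasJet_taylor (discQ d hdeg i) (yQ a i) 2) (hn.hasJet_two d a i)
    exact congrFun this 1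
  -- the two determinants
  have hdet1 : ∀ N, IsUnit (Matrix.of fun (row a : Idx g) =>
      Sum.elim (fun i => (truncPoly (sQ a i) (N + 2)).coeff 0)
        (fun i => (truncPoly (sQ a i) (N + 2)).coeff 1) row).det := by
    intro N
    have : (Matrix.of fun (row a : Idx g) =>
        Sum.elim (fun i => (truncPoly (sQ a i) (N + 2)).coeff 0)
          (fun i => (truncPoly (sQ a i) (N + 2)).coeff 1) row) = (1 : Matrix (Idx g) (Idx g) S) := by
      ext row a
      rcases row with i | i
      · simp only [Matrix.of_apply, Sum.elim_inl, coeff_truncPoly, Matrix.one_apply]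
        rw [if_pos (by omega), hQ0]
        exact if_congr eq_comm rfl rfl
      · simp only [Matrix.of_apply, Sum.elim_inr, coeff_truncPoly, Matrix.one_apply]
        rw [if_pos (by omega), hQ1]
        exact if_congr eq_comm rfl rfl
    rw [this, Matrix.det_one]
    exact isUnit_one
  have hdet2 : ∀ N, IsUnit (Matrix.of fun (row a : Idx g) =>
      Sum.elim (fun j => (truncPoly (sR a j) (N + 1)).coeff 0)
        (fun i => (truncPoly (sQ a i) (N + 2)).coeff 0) row).det := by
    intro N
    apply isUnit_of_isUnit_algebraMap sL hinj hSfix hSmem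
    rw [RingHom.map_det]
    have hM : (algebraMap S A).mapMatrix (Matrix.of fun (row a : Idx g) =>
        Sum.elim (fun j => (truncPoly (sR a j) (N + 1)).coeff 0)
          (fun i => (truncPoly (sQ a i) (N + 2)).coeff 0) row)
        = valueMatrix (fun a j => (discR d hdeg j).coeff (yR a j) 0)
            (fun a i => (discQ d hdeg i).coeff (yQ a i) 0) := by
      ext row a
      rcases row with j | i
      · simp only [RingHom.mapMatrix_apply, Matrix.map_apply, Matrix.of_apply, Sum.elim_inl,
          coeff_truncPoly, valueMatrix]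
        rw [if_pos (by omega), hsR]
      · simp only [RingHom.mapMatrix_apply, Matrix.map_apply, Matrix.of_apply, Sum.elim_inr,
          coeff_truncPoly, valueMatrix]
        rw [if_pos (by omega), hsQ]
    rw [hM]
    refine isUnit_det_valueMatrix d φ hφb hind _ _ (fun a j => ?_) (fun a i => ?_)
    · refine (hasJet_taylor (discR d hdeg j) (yR a j) 1).congr ?_
      funext m
      rw [Subsingleton.elim m 0]
      rfl
    · refine (hasJet_taylor (discQ d hdeg i) (yQ a i) 1).congr ?_
      funext m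
      rw [Subsingleton.elim m 0]
      rfl
  refine ⟨fun N => ⟨fun a i => truncPoly (sQ a i) (N + 2), fun a j => truncPoly (sR a j) (N + 1),
    hdet1 N, hdet2 N⟩, fun N => ⟨fun a i => ?_, fun a j => ?_⟩⟩
  · refine ⟨d.T i ^ 2 * ((discQ d hdeg i).rem (yQ a i) (N + 2)).1, ?_, ?_⟩
    · show RegOn r (((d.T i : R.O) : FL) ^ 2 *
        ((((discQ d hdeg i).rem (yQ a i) (N + 2)).1 : R.O) : FL)) (d.Qb i)
      exact ((d.hT i).reg.pow 2).mul ((discQ d hdeg i).rem (yQ a i) (N + 2)).2
    · have h1 : ((φ a : R.O) : FL) * ((d.T i : R.O) : FL) ^ 2 =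
          ∑ m ∈ Finset.range (N + 2),
            algebraMap L FL (((discQ d hdeg i).coeff (yQ a i) m : A) : L) *
              ((d.T i : R.O) : FL) ^ m +
          ((d.T i : R.O) : FL) ^ (N + 2) *
            ((((discQ d hdeg i).rem (yQ a i) (N + 2)).1 : R.O) : FL) :=
        (discQ d hdeg i).taylor_n (yQ a i) (N + 2)
      rw [h1, Polynomial.map_map, aeval_map_truncPoly]
      have h3 : (((d.T i ^ 2 * ((discQ d hdeg i).rem (yQ a i) (N + 2)).1 : R.O) : R.O) : FL)
          = ((d.T i : R.O) : FL) ^ 2 *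
            ((((discQ d hdeg i).rem (yQ a i) (N + 2)).1 : R.O) : FL) := rfl
      rw [h3]
      have h4 : ∀ m, (A.subtype.comp (algebraMap S A)) (sQ a i m)
          = (((discQ d hdeg i).coeff (yQ a i) m : A) : L) := fun m => by
        rw [RingHom.comp_apply, hsQ]
        rfl
      simp only [h4]
      show _ + ((d.T i : R.O) : FL) ^ (N + 2) * _ = _ + _
      ring
  · refine ⟨d.v j * ((discR d hdeg j).rem (yR a j) (N + 1)).1, ?_, ?_⟩
    · show RegOn r (((d.v j : R.O) : FL) *
        ((((discR d hdeg j).rem (yR a j) (N + 1)).1 : R.O) : FL)) (d.Rb j)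
      exact (d.hv j).reg.mul ((discR d hdeg j).rem (yR a j) (N + 1)).2
    · have h1 : ((φ a : R.O) : FL) * ((d.v j : R.O) : FL) =
          ∑ m ∈ Finset.range (N + 1),
            algebraMap L FL (((discR d hdeg j).coeff (yR a j) m : A) : L) *
              ((d.v j : R.O) : FL) ^ m +
          ((d.v j : R.O) : FL) ^ (N + 1) *
            ((((discR d hdeg j).rem (yR a j) (N + 1)).1 : R.O) : FL) :=
        (discR d hdeg j).taylor_n (yR a j) (N + 1)
      rw [h1, Polynomial.map_map, aeval_map_truncPoly]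
      have h3 : (((d.v j * ((discR d hdeg j).rem (yR a j) (N + 1)).1 : R.O) : R.O) : FL)
          = ((d.v j : R.O) : FL) *
            ((((discR d hdeg j).rem (yR a j) (N + 1)).1 : R.O) : FL) := rfl
      rw [h3]
      have h4 : ∀ m, (A.subtype.comp (algebraMap S A)) (sR a j m)
          = (((discR d hdeg j).coeff (yR a j) m : A) : L) := fun m => by
        rw [RingHom.comp_apply, hsR]
        rfl
      simp only [h4]
      show _ + ((d.v j : R.O) : FL) ^ (N + 1) * _ = _ + _
      ring


/-! ### the seam: the truncated addition law with coefficients in the fixed ring -/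

/-- **The addition law in the chart `d`, with a universal polynomial over the fixed ring `S`.**
`exists_taylorData_fixed` fed into `AddLaw.exists_add_congr`: ONE family `D : ℕ → TaylorData S g`
works for all pairs of points of the discs. -/
theorem exists_add_congr_fixed [HasPrincipalDivisors k Fk] (hπ : Function.Surjective π)
    (hO : OrthoHyp R) (hL : RiemannHyp L FL g) (hk : RiemannHyp k Fk g) (d : Datum R g)
    {S : Type uS} [CommRing S] [Algebra S A]
    (hinj : Function.Injective (algebraMap S A)) {ι : Type*} (sL : ι → L →+* L)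
    (sF : ι → FL →+* FL) (hfix : ∀ σ, FixesDatum d (sL σ) (sF σ))
    (hSfix : ∀ σ (w : S), sL σ (((algebraMap S A w : A) : A) : L) = ((algebraMap S A w : A) : L))
    (hSmem : ∀ x : A, (∀ σ, sL σ ((x : A) : L) = ((x : A) : L)) → ∃ w : S, algebraMap S A w = x) :
    ∃ D : ℕ → TaylorData S g,
      ∀ (P P' : Fin g → Place L FL), (∀ i, r (P i) = d.Qb i) → (∀ i, r (P' i) = d.Qb i) →
      ∀ (x x' : Fin g → A),
        (∀ i, Fermat.Agent.S19.AddLaw.ValAt (P i) ((d.T i : R.O) : FL) ((x i : A) : L)) →
        (∀ i, Fermat.Agent.S19.AddLaw.ValAt (P' i) ((d.T i : R.O) : FL) ((x' i : A) : L)) →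
        ∃ (P'' : Fin g → Place L FL) (x'' : Fin g → A) (c : A),
          c ∈ IsLocalRing.maximalIdeal A ∧ (∀ i, r (P'' i) = d.Qb i) ∧
          (∀ i, Fermat.Agent.S19.AddLaw.ValAt (P'' i) ((d.T i : R.O) : FL) ((x'' i : A) : L)) ∧
          (∀ i, x i ∈ Ideal.span {c} ∧ x' i ∈ Ideal.span {c} ∧ x'' i ∈ Ideal.span {c}) ∧
          ((∑ i, Finsupp.single (P'' i) (1 : ℤ)) + (∑ i, Finsupp.single (d.Q i) (1 : ℤ)) -
              (∑ i, Finsupp.single (P i) (1 : ℤ)) - (∑ i, Finsupp.single (P' i) (1 : ℤ)) ∈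
            Divisor.principal (K := L) (F := FL)) ∧
          ∀ (n : ℕ) (i : Fin g),
            x'' i - MvPolynomial.aeval (Sum.elim x x') (Psi (D (n + 1)) n i) ∈
              Ideal.span {c} ^ n := by
  obtain ⟨φ, -, hspan, hind, D, hD⟩ :=
    exists_taylorData_fixed hO hL hk d hinj sL sF hfix hSfix hSmem
  refine ⟨D, fun P P' hP hP' x x' hx hx' => ?_⟩
  obtain ⟨P'', x'', c, hc, hP'', hx'', hspanc, hprin, hcongr⟩ :=
    Fermat.Agent.S19.AddLaw.exists_add_congr hπ hL d φ hspan hind P P' hP hP' x x' hx hx'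
  exact ⟨P'', x'', c, hc, hP'', hx'', hspanc, hprin, fun n i => hcongr D hD n i⟩

end Fermat.Agent.S19.TaylorRat
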