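import Mathlib
import Fermat.Agent.S19.TaylorRat
import Fermat.Agent.S19.ChartAdd

/-!
# S19, seam (i') + (W5b): the addition law in chart coordinates with polynomials over the fixed ring

`coord_add_fixed` = `ChartAdd.coord_add` (helper18) fed with the normalised basis and the Taylor data
over the fixed ring `S` of `TaylorRat.exists_taylorData_fixed`: ONE family
`Ψ n i := Psi (D (n+1)) n i : MvPolynomial (Fin g ⊕ Fin g) S` works for all `z z' : J1 r`.
-/

set_option autoImplicit false
set_option linter.unusedSectionVars false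
set_option linter.unusedVariables false

universe uS

namespace Fermat.Agent.S19.CoordAddRat

open AlgebraicCurve Fermat.Agent.S18.CoreDefs Fermat.Agent.S18.Disc Fermat.Agent.S18.NonSpecial
  Fermat.Agent.S19.Chart Fermat.Agent.S19.ChartDatum Fermat.Agent.S19.InterpDatum
  Fermat.Agent.S19.TruncAdd Fermat.Agent.S19.TaylorRat

variable {L : Type*} [Field L] {FL : Type*} [Field FL] [Algebra L FL]
variable {k : Type*} [Field k] {Fk : Type*} [Field Fk] [Algebra k Fk]
variable {A : ValuationSubring L} {π : A →+* k} {r : Place L FL → Place k Fk}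
variable [HasPrincipalDivisors L FL] [HasPrincipalDivisors k Fk] {R : RedDatum A π r} {g : ℕ}

/-- **The addition law in chart coordinates, with universal polynomials over the fixed ring.** -/
theorem coord_add_fixed (hπ : Function.Surjective π) (hO : OrthoHyp R) (hL : RiemannHyp L FL g)
    (hk : RiemannHyp k Fk g) (d : Datum R g) {S : Type uS} [CommRing S] [Algebra S A]
    (hinj : Function.Injective (algebraMap S A)) {ι : Type*} (sL : ι → L →+* L)
    (sF : ι → FL →+* FL) (hfix : ∀ σ, FixesDatum d (sL σ) (sF σ))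
    (hSfix : ∀ σ (w : S), sL σ (((algebraMap S A w : A) : A) : L) = ((algebraMap S A w : A) : L))
    (hSmem : ∀ x : A, (∀ σ, sL σ ((x : A) : L) = ((x : A) : L)) → ∃ w : S, algebraMap S A w = x)
    (hdegL : ∀ P : Place L FL, P.deg = 1) (hR : RiemannGe L FL g) :
    ∃ Ψ : ℕ → Fin g → MvPolynomial (Fin g ⊕ Fin g) S, ∀ z z' : J1 r,
      ∃ c : A, c ∈ IsLocalRing.maximalIdeal A ∧
        (∀ i, (toOriginChart d).coord hdegL hR z i ∈ Ideal.span {c} ∧
          (toOriginChart d).coord hdegL hR z' i ∈ Ideal.span {c} ∧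
          (toOriginChart d).coord hdegL hR (z + z') i ∈ Ideal.span {c}) ∧
        ∀ (n : ℕ) (i : Fin g),
          (toOriginChart d).coord hdegL hR (z + z') i -
            MvPolynomial.aeval (Sum.elim ((toOriginChart d).coord hdegL hR z)
              ((toOriginChart d).coord hdegL hR z')) (Ψ n i) ∈ Ideal.span {c} ^ n := by
  obtain ⟨φ, -, hspan, hind, D, hD⟩ :=
    exists_taylorData_fixed hO hL hk d hinj sL sF hfix hSfix hSmem
  refine ⟨fun n i => Psi (D (n + 1)) n i, fun z z' => ?_⟩
  obtain ⟨c, hc, hspanc, hcongr⟩ :=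
    Fermat.Agent.S19.ChartAdd.coord_add hπ hL d φ hspan hind hdegL hR z z'
  exact ⟨c, hc, hspanc, fun n i => hcongr D hD n i⟩

end Fermat.Agent.S19.CoordAddRat
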