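import Mathlib
import Fermat.Agent.S19.CoordAddRat
import Fermat.Agent.S19.ChartSymm

/-!
# S19: `TaylorRat.FixesDatum` for inertial semilinear automorphisms

Frame = `S18/Core` + the Prelude's `SemilinearAut L FL`.  An automorphism `γ` which is *inertial*
(`r (γ • P) = r P`) and fixes the parameters `T_i`, `v_j` of an interpolation datum `d` fixes the
places `Q_i`, `Rp_j` (fixed-point lemma `ChartSymm.smul_place_eq_of_zero`), hence the divisor `E`,
hence satisfies `TaylorRat.FixesDatum d (baseAut γ) (toRingAut γ)`: the hypothesis `hfix` of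
`TaylorRat.exists_taylorData_fixed` / `CoordAddRat.coord_add_fixed`.
-/

set_option autoImplicit false
set_option linter.unusedSectionVars false
set_option linter.unusedVariables false

universe uS

namespace Fermat.Agent.S19.FixesDatumAut

open AlgebraicCurve Fermat.Agent.S24.Ord Fermat.Agent.S18.CoreDefs Fermat.Agent.S18.CoreOrd
  Fermat.Agent.S18.Disc Fermat.Agent.S19.InterpDatum Fermat.Agent.S19.TaylorRat

variable {L : Type*} [Field L] {FL : Type*} [Field FL] [Algebra L FL]
variable {k : Type*} [Field k] {Fk : Type*} [Field Fk] [Algebra k Fk]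
variable {A : ValuationSubring L} {π : A →+* k} {r : Place L FL → Place k Fk}
variable [HasPrincipalDivisors L FL] {R : RedDatum A π r} {g : ℕ}

/-- valuations at a fixed place are preserved -/
theorem adicValuation_smul_of_fixed (γ : SemilinearAut L FL) {P : Place L FL} (hP : γ • P = P)
    (z : FL) : P.adicValuation (γ • z) = P.adicValuation z := by
  refine Fermat.Agent.S19.Chart.adicValuation_map_of_ord
    ((SemilinearAut.toRingAut γ : FL ≃+* FL) : FL →+* FL) (fun z => ?_) z
  have := SemilinearAut.ord_smul γ P z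
  rw [hP] at this
  exact this

/-- the places `Q_i` are fixed -/
theorem smul_Q (γ : SemilinearAut L FL) (hin : ∀ P : Place L FL, r (γ • P) = r P)
    (d : Datum R g) (hT : ∀ i, γ • ((d.T i : R.O) : FL) = ((d.T i : R.O) : FL)) (i : Fin g) :
    γ • d.Q i = d.Q i :=
  Fermat.Agent.S19.ChartSymm.smul_place_eq_of_zero γ hin (d.hT i) (hT i) (d.hQ i) (d.hT0 i)

/-- the places `Rp_j` are fixed -/
theorem smul_Rp (γ : SemilinearAut L FL) (hin : ∀ P : Place L FL, r (γ • P) = r P)
    (d : Datum R g) (hv : ∀ j, γ • ((d.v j : R.O) : FL) = ((d.v j : R.O) : FL)) (j : Fin g) :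
    γ • d.Rp j = d.Rp j :=
  Fermat.Agent.S19.ChartSymm.smul_place_eq_of_zero γ hin (d.hv j) (hv j) (d.hRp j) (d.hv0 j)

/-- the divisor `E` is fixed -/
theorem smul_E (γ : SemilinearAut L FL) (d : Datum R g) (hQ : ∀ i, γ • d.Q i = d.Q i)
    (hRp : ∀ j, γ • d.Rp j = d.Rp j) : γ • d.E = d.E := by
  unfold Datum.E
  simp only [smul_add, Finset.smul_sum, SemilinearAut.smul_single, hQ, hRp]

/-- `L(E)` is stable -/
theorem smul_mem_E (γ : SemilinearAut L FL) (d : Datum R g) (hE : γ • d.E = d.E) {f : FL}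
    (hf : f ∈ riemannRochSpace d.E) : γ • f ∈ riemannRochSpace d.E := by
  rw [mem_riemannRochSpace_iff] at hf ⊢
  intro v
  rcases hf (γ⁻¹ • v) with h0 | h
  · left
    rw [h0, smul_zero]
  · right
    have h1 := SemilinearAut.ord_smul γ (γ⁻¹ • v) f
    rw [smul_inv_smul] at h1
    have h2 := SemilinearAut.divisor_smul_apply γ d.E v
    rw [hE] at h2
    rw [h1, h2]
    exact h

/-- **`FixesDatum` for an inertial automorphism fixing the parameters.** -/
theorem fixesDatum_of_inertial (γ : SemilinearAut L FL)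
    (hin : ∀ P : Place L FL, r (γ • P) = r P) (d : Datum R g)
    (hT : ∀ i, γ • ((d.T i : R.O) : FL) = ((d.T i : R.O) : FL))
    (hv : ∀ j, γ • ((d.v j : R.O) : FL) = ((d.v j : R.O) : FL)) :
    FixesDatum d ((SemilinearAut.baseAut γ : L ≃+* L) : L →+* L)
      ((SemilinearAut.toRingAut γ : FL ≃+* FL) : FL →+* FL) where
  comp c := SemilinearAut.commutes γ c
  mapsE f hf := smul_mem_E γ d (smul_E γ d (smul_Q γ hin d hT) (smul_Rp γ hin d hv)) hf
  valQ i z := adicValuation_smul_of_fixed γ (smul_Q γ hin d hT i) z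
  valR j z := adicValuation_smul_of_fixed γ (smul_Rp γ hin d hv j) z
  fixT i := hT i
  fixv j := hv j


/-- **The addition law in chart coordinates for a family of inertial automorphisms** fixing the
parameters, `S → A` being the fixed ring of their base automorphisms on `A`:
`CoordAddRat.coord_add_fixed` with `hfix` discharged. -/
theorem coord_add_of_inertial [HasPrincipalDivisors k Fk] (hπ : Function.Surjective π)
    (hO : OrthoHyp R) (hL : Fermat.Agent.S18.NonSpecial.RiemannHyp L FL g)
    (hk : Fermat.Agent.S18.NonSpecial.RiemannHyp k Fk g) (d : Datum R g)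
    {S : Type uS} [CommRing S] [Algebra S A]
    (hinj : Function.Injective (algebraMap S A)) {ι : Type*} (γ : ι → SemilinearAut L FL)
    (hin : ∀ σ (P : Place L FL), r (γ σ • P) = r P)
    (hT : ∀ σ i, γ σ • ((d.T i : R.O) : FL) = ((d.T i : R.O) : FL))
    (hv : ∀ σ j, γ σ • ((d.v j : R.O) : FL) = ((d.v j : R.O) : FL))
    (hSfix : ∀ σ (w : S), SemilinearAut.baseAut (γ σ) (((algebraMap S A w : A) : A) : L)
      = ((algebraMap S A w : A) : L))
    (hSmem : ∀ x : A, (∀ σ, SemilinearAut.baseAut (γ σ) ((x : A) : L) = ((x : A) : L)) →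
      ∃ w : S, algebraMap S A w = x)
    (hdegL : ∀ P : Place L FL, P.deg = 1) (hR : RiemannGe L FL g) :
    ∃ Ψ : ℕ → Fin g → MvPolynomial (Fin g ⊕ Fin g) S, ∀ z z' : Fermat.Agent.S19.Chart.J1 r,
      ∃ c : A, c ∈ IsLocalRing.maximalIdeal A ∧
        (∀ i, (Fermat.Agent.S19.ChartDatum.toOriginChart d).coord hdegL hR z i ∈ Ideal.span {c} ∧
          (Fermat.Agent.S19.ChartDatum.toOriginChart d).coord hdegL hR z' i ∈ Ideal.span {c} ∧
          (Fermat.Agent.S19.ChartDatum.toOriginChart d).coord hdegL hR (z + z') i ∈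
            Ideal.span {c}) ∧
        ∀ (n : ℕ) (i : Fin g),
          (Fermat.Agent.S19.ChartDatum.toOriginChart d).coord hdegL hR (z + z') i -
            MvPolynomial.aeval
              (Sum.elim ((Fermat.Agent.S19.ChartDatum.toOriginChart d).coord hdegL hR z)
                ((Fermat.Agent.S19.ChartDatum.toOriginChart d).coord hdegL hR z')) (Ψ n i) ∈
              Ideal.span {c} ^ n :=
  Fermat.Agent.S19.CoordAddRat.coord_add_fixed hπ hO hL hk d hinj
    (fun σ => ((SemilinearAut.baseAut (γ σ) : L ≃+* L) : L →+* L))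
    (fun σ => ((SemilinearAut.toRingAut (γ σ) : FL ≃+* FL) : FL →+* FL))
    (fun σ => fixesDatum_of_inertial (γ σ) (hin σ) d (hT σ) (hv σ)) hSfix hSmem hdegL hR

end Fermat.Agent.S19.FixesDatumAut
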