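import Mathlib
import Fermat.Agent.S19.FixesDatumAut
import Fermat.Agent.S19.ChartX0

/-!
# S19 at `X₀(N)`: the inertia group fixes the interpolation datum; the addition law over `W A`

For `A : ValuationSubring ℚ̄` over `ℓ ∤ N`, `R = redDatumX0 N A`, and an interpolation datum `d` whose
parameters are `T_i = j - c_i`, `v_j = j - c'_j` with inertia-fixed constants (the shape produced by
`DatumExists.exists_datum` with `x := jX0`):

* `fixesDatumX0` : every `σ` in the inertia group satisfies `TaylorRat.FixesDatum d`;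
* `coord_add_X0` : the addition law in the chart coordinates of `d`, with ONE family of universal
  polynomials `Ψ n i` over `S := SmallDVR.W A`, no hypothesis left
  (`= CoordAddRat.coord_add_fixed` at `X₀(N)`).
-/

set_option autoImplicit false
set_option synthInstance.maxHeartbeats 400000
set_option linter.unusedSectionVars false
set_option linter.unusedVariables false
set_option linter.style.haveILetI false

noncomputable section

namespace Fermat.Agent.S19.FixesDatumX0

open AlgebraicCurve ModularCurve IntermediateField IsLocalRing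
open Fermat.Agent.S18.CoreDefs Fermat.Agent.S18.CoreOrd Fermat.Agent.S18.Disc
open Fermat.Agent.S18.NonSpecial Fermat.Agent.S18.NonSpecialAdapter
open Fermat.Agent.S18.C.SmallDVR
open Fermat.Agent.S19.FrameX0 Fermat.Agent.S19.SymmX0 Fermat.Agent.S19.ChartX0
open Fermat.Agent.S19.InterpDatum Fermat.Agent.S19.TaylorRat

local notation "Kb" => AlgebraicClosure ℚ

variable {ℓ : ℕ} [Fact ℓ.Prime] (N : ℕ) [NeZero N] (A : ValuationSubring Kb)
variable (hA : A.LiesOverPrime ℓ) (hℓN : ¬ ℓ ∣ N)

/-- a parameter `j - c` with `σ c = c` is fixed by `σ` -/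
theorem smul_param {σ : Kb ≃ₐ[ℚ] Kb} {c : A} (hc : σ (c : Kb) = (c : Kb))
    {T : ↥(redDatumX0 N A hA hℓN).O}
    (hT : T = jX0 N A hA hℓN - constO (redDatumX0 N A hA hℓN) c) :
    arithmeticGalois (modularFunctionFieldFull N) σ •
        ((T : ↥(redDatumX0 N A hA hℓN).O) : ↥(modularFunctionFieldBar N))
      = ((T : ↥(redDatumX0 N A hA hℓN).O) : ↥(modularFunctionFieldBar N)) := by
  have h : T = Tc N A hA hℓN c := by
    rw [hT]
    rfl
  rw [h]
  exact smul_Tc_of_fixed N A hA hℓN hc

variable {N A hA hℓN} in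
/-- **the inertia group fixes the datum** -/
theorem fixesDatumX0 {g : ℕ} (d : Datum (redDatumX0 N A hA hℓN) g)
    (hT : ∀ i, ∃ c : A, (∀ σ ∈ A.inertiaSubgroupIn ℚ, σ (c : Kb) = (c : Kb)) ∧
      d.T i = jX0 N A hA hℓN - constO (redDatumX0 N A hA hℓN) c)
    (hv : ∀ j, ∃ c : A, (∀ σ ∈ A.inertiaSubgroupIn ℚ, σ (c : Kb) = (c : Kb)) ∧
      d.v j = jX0 N A hA hℓN - constO (redDatumX0 N A hA hℓN) c)
    {σ : Kb ≃ₐ[ℚ] Kb} (hσ : σ ∈ A.inertiaSubgroupIn ℚ) :
    FixesDatum d
      ((SemilinearAut.baseAut (arithmeticGalois (modularFunctionFieldFull N) σ) : Kb ≃+* Kb) :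
        Kb →+* Kb)
      ((SemilinearAut.toRingAut (arithmeticGalois (modularFunctionFieldFull N) σ) :
        ↥(modularFunctionFieldBar N) ≃+* ↥(modularFunctionFieldBar N)) :
        ↥(modularFunctionFieldBar N) →+* ↥(modularFunctionFieldBar N)) := by
  haveI := hasPrincipalDivisors_L N
  refine Fermat.Agent.S19.FixesDatumAut.fixesDatum_of_inertial
    (arithmeticGalois (modularFunctionFieldFull N) σ)
    (fun P => rX0_smul_inertia N A hA hℓN hσ P) d (fun i => ?_) (fun j => ?_)
  · obtain ⟨c, hc, hTi⟩ := hT i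
    exact smul_param N A hA hℓN (hc σ hσ) hTi
  · obtain ⟨c, hc, hvj⟩ := hv j
    exact smul_param N A hA hℓN (hc σ hσ) hvj

variable {N A hA hℓN} in
/-- **The addition law at `X₀(N)` in the chart coordinates of `d`, with universal polynomials over
`W A`.**  All hypotheses of `CoordAddRat.coord_add_fixed` are discharged. -/
theorem coord_add_X0 {g : ℕ}
    (hL : RiemannHyp Kb ↥(modularFunctionFieldBar N) g)
    (hk : RiemannHyp (ResidueField ↥A) ↥(modularFunctionFieldFullC (ResidueField ↥A) N) g)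
    (d : Datum (redDatumX0 N A hA hℓN) g)
    (hT : ∀ i, ∃ c : A, (∀ σ ∈ A.inertiaSubgroupIn ℚ, σ (c : Kb) = (c : Kb)) ∧
      d.T i = jX0 N A hA hℓN - constO (redDatumX0 N A hA hℓN) c)
    (hv : ∀ j, ∃ c : A, (∀ σ ∈ A.inertiaSubgroupIn ℚ, σ (c : Kb) = (c : Kb)) ∧
      d.v j = jX0 N A hA hℓN - constO (redDatumX0 N A hA hℓN) c) :
    haveI := hasPrincipalDivisors_L N
    ∃ Ψ : ℕ → Fin g → MvPolynomial (Fin g ⊕ Fin g) (W A),
      ∀ z z' : Fermat.Agent.S19.Chart.J1 (rX0 N A hA hℓN),
        ∃ c : A, c ∈ IsLocalRing.maximalIdeal A ∧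
          (∀ i, (Fermat.Agent.S19.ChartDatum.toOriginChart d).coord (deg_eq_one_L N)
                (riemannGe_of_riemannHyp hL le_rfl) z i ∈ Ideal.span {c} ∧
            (Fermat.Agent.S19.ChartDatum.toOriginChart d).coord (deg_eq_one_L N)
                (riemannGe_of_riemannHyp hL le_rfl) z' i ∈ Ideal.span {c} ∧
            (Fermat.Agent.S19.ChartDatum.toOriginChart d).coord (deg_eq_one_L N)
                (riemannGe_of_riemannHyp hL le_rfl) (z + z') i ∈ Ideal.span {c}) ∧
          ∀ (n : ℕ) (i : Fin g),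
            (Fermat.Agent.S19.ChartDatum.toOriginChart d).coord (deg_eq_one_L N)
                (riemannGe_of_riemannHyp hL le_rfl) (z + z') i -
              MvPolynomial.aeval
                (Sum.elim
                  ((Fermat.Agent.S19.ChartDatum.toOriginChart d).coord (deg_eq_one_L N)
                    (riemannGe_of_riemannHyp hL le_rfl) z)
                  ((Fermat.Agent.S19.ChartDatum.toOriginChart d).coord (deg_eq_one_L N)
                    (riemannGe_of_riemannHyp hL le_rfl) z')) (Ψ n i) ∈ Ideal.span {c} ^ n := by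
  haveI := hasPrincipalDivisors_L N
  haveI := hasPrincipalDivisors_k N A
  refine Fermat.Agent.S19.FixesDatumAut.coord_add_of_inertial (S := W A)
    (IsLocalRing.residue_surjective) (fun W _ => exists_red_independent N A hA hℓN W) hL hk d
    (toA_injective A)
    (fun σ : ↥(A.inertiaSubgroupIn ℚ) =>
      arithmeticGalois (modularFunctionFieldFull N) (σ : Kb ≃ₐ[ℚ] Kb))
    (fun σ P => rX0_smul_inertia N A hA hℓN σ.2 P) (fun σ i => ?_) (fun σ j => ?_)
    (fun σ w => ?_) (fun x hx => ?_) (deg_eq_one_L N) (riemannGe_of_riemannHyp hL le_rfl)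
  · obtain ⟨c, hc, hTi⟩ := hT i
    exact smul_param N A hA hℓN (hc σ σ.2) hTi
  · obtain ⟨c, hc, hvj⟩ := hv j
    exact smul_param N A hA hℓN (hc σ σ.2) hvj
  · rw [baseAut_arithmeticGalois_apply]
    exact coe_fixed A (w : K0 A) σ.2
  · have hK0 : ((x : A) : Kb) ∈ K0 A := by
      rw [mem_K0_iff]
      intro σ hσ
      have := hx ⟨σ, hσ⟩
      rwa [baseAut_arithmeticGalois_apply] at this
    exact ⟨⟨⟨(x : Kb), hK0⟩, x.2⟩, Subtype.ext rfl⟩

end Fermat.Agent.S19.FixesDatumX0
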