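/-
PROJECT F (S19), slice F-IntegralW (helper25), part 2: THE RANK-ONE PROPERTY (V) AT X0.

`A` a valuation subring of `ℚ̄` lying over `ℓ`.  For a non-unit `c` of `A` some power of `c` is divisible
by `ℓ` in `A` (`A` is archimedean: `S34/ArchComap.arch_of_liesOverPrime`), hence the `c`-adic topology on
`OL A K = A ∩ K` is finer than the `𝔪_L`-adic one:

* `exists_pow_eq_ell_mul` : `c ∈ 𝔪_A → ∃ d u, u ∈ A ∧ c ^ d = ℓ * u`;
* `V_of_liesOverPrime` : the field `V` of `ChartGlue.ChartAPI` at `OL := OL A K`, literally;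
* `Aalg A` : the valuation ring `A` as a `W A`-subalgebra of `ℚ̄` (the `A` of `ChartAPI`), with
  `OL_le_Aalg`, `AI` (`A^I = W A`), `small_mem`.
-/
import Fermat.Agent.S19.IntegralW
import Fermat.Agent.S34.ArchComap

set_option autoImplicit false

noncomputable section

namespace Fermat.Agent.S19.IntegralWV

open IsLocalRing Fermat.Agent.S18.C.SmallDVR Fermat.Agent.S19.IntegralW

local notation "Qbar" => AlgebraicClosure ℚ

variable {A : ValuationSubring Qbar} {ℓ : ℕ} [hℓ : Fact ℓ.Prime]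

/-- some power of a non-unit of `A` is divisible by `ℓ` in `A` -/
theorem exists_pow_eq_ell_mul (hA : A.LiesOverPrime ℓ) {c : Qbar} (hc : c ∈ A.nonunits) :
    ∃ (d : ℕ) (u : Qbar), u ∈ A ∧ c ^ d = (ℓ : Qbar) * u := by
  have hℓ0 : ((ℓ : ℕ) : Qbar) ≠ 0 := Nat.cast_ne_zero.mpr hℓ.out.ne_zero
  rcases eq_or_ne c 0 with rfl | hc0
  · exact ⟨1, 0, A.zero_mem, by simp⟩
  · have harch := Fermat.Agent.S34.ArchComap.arch_of_liesOverPrime hℓ.out A hA
    obtain ⟨d, hd⟩ := harch ((ℓ : Qbar))⁻¹ c hc hc0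
    refine ⟨d, ((ℓ : Qbar))⁻¹ * c ^ d, hd, ?_⟩
    rw [← mul_assoc, mul_inv_cancel₀ hℓ0, one_mul]

variable (K : IntermediateField (K0 A) Qbar)

/-- `ℓ` as an element of `OL A K` -/
def ellOL : OL A K := ((ℓ : ℕ) : OL A K)

omit hℓ in
theorem coe_ellOL : ((ellOL (ℓ := ℓ) K : OL A K) : Qbar) = (ℓ : Qbar) := by
  simp [ellOL]

omit hℓ in
theorem ellOL_mem_maximalIdeal (hA : A.LiesOverPrime ℓ) :
    ellOL (ℓ := ℓ) K ∈ maximalIdeal (OL A K) := by
  rw [IntegralW.mem_maximalIdeal_iff, coe_ellOL]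
  exact valuation_ell_lt_one hA

/-- **(V)**: for a non-unit `c` of `A` the `c`-adic topology on `OL A K` is finer than the
`𝔪_L`-adic one (the field `V` of `ChartGlue.ChartAPI`, literally, with `small c := c ∈ A.nonunits`
and `a ∈ A` read in the valuation ring). -/
theorem V_of_liesOverPrime (hA : A.LiesOverPrime ℓ) (c : Qbar) (hc : c ∈ A.nonunits) (b : ℕ) :
    ∃ n : ℕ, ∀ x : OL A K, (∃ a ∈ A, (x : Qbar) = c ^ n * a) → x ∈ maximalIdeal (OL A K) ^ b := by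
  obtain ⟨d, u, hu, hcd⟩ := exists_pow_eq_ell_mul hA hc
  refine ⟨d * b, ?_⟩
  rintro x ⟨a, ha, hx⟩
  refine mem_pow_maximalIdeal_of_eq_mul x (ellOL K) (ellOL_mem_maximalIdeal K hA) b (u ^ b * a)
    (A.mul_mem _ _ (pow_mem hu b) ha) ?_
  rw [hx, coe_ellOL, pow_mul, hcd, mul_pow, mul_assoc]

/-! ### the valuation ring as a `W A`-subalgebra -/

variable (A) in
/-- the valuation ring `A` as a `W A`-subalgebra of `ℚ̄` -/
def Aalg : Subalgebra (W A) Qbar where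
  carrier := {x | x ∈ A}
  mul_mem' := fun ha hb => A.mul_mem _ _ ha hb
  add_mem' := fun ha hb => A.add_mem _ _ ha hb
  algebraMap_mem' := fun w => coe_mem A w

theorem mem_Aalg_iff {x : Qbar} : x ∈ Aalg A ↔ x ∈ A := Iff.rfl

theorem OL_le_Aalg : OL A K ≤ Aalg A := fun _ hx => hx.1

/-- `small c := c ∈ A.nonunits` implies `c ∈ A` -/
theorem small_mem {c : Qbar} (hc : c ∈ A.nonunits) : c ∈ Aalg A :=
  ValuationSubring.nonunits_subset hc

/-- `A^I = W A` -/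
theorem AI {a : Qbar} (ha : a ∈ Aalg A) (hfix : ∀ τ ∈ A.inertiaSubgroupIn ℚ, τ a = a) :
    ∃ w : W A, algebraMap (W A) Qbar w = a :=
  ⟨⟨⟨a, (mem_K0_iff A).mpr hfix⟩, ha⟩, rfl⟩

/-- **(V)** in the `Aalg` spelling -/
theorem V_Aalg (hA : A.LiesOverPrime ℓ) (c : Qbar) (hc : c ∈ A.nonunits) (b : ℕ) :
    ∃ n : ℕ, ∀ x : OL A K, (∃ a ∈ Aalg A, (x : Qbar) = c ^ n * a) →
      x ∈ maximalIdeal (OL A K) ^ b :=
  V_of_liesOverPrime K hA c hc b

end Fermat.Agent.S19.IntegralWV
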