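import Mathlib
import Fermat.Agent.S19.CoordK
import Fermat.Agent.S19.FixesDatumX0
import Fermat.Agent.S19.DatumExists
import Fermat.Agent.S19.BaseX0
import Fermat.Agent.S19.IntegralWV
import Fermat.Agent.S19.CloseX0

/-!
S19 (helper16): `ChartGlue.ChartAPI` AT `X₀(N)` — the assembly of all fields (parallel cross-check
of helper7's `ChartAPIX0`), ending with `exists_chartAPIAt`, the hypothesis of
`CloseX0.s19_of_chartAPI`.
-/

set_option autoImplicit false
set_option synthInstance.maxHeartbeats 400000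
set_option linter.unusedSectionVars false
set_option linter.unusedVariables false
set_option linter.style.haveILetI false

noncomputable section

namespace Fermat.Agent.S19.ApiX0

open AlgebraicCurve ModularCurve IntermediateField IsLocalRing
open Fermat.Agent.S18.CoreDefs Fermat.Agent.S18.CoreOrd Fermat.Agent.S18.Disc
open Fermat.Agent.S18.NonSpecial Fermat.Agent.S18.NonSpecialAdapter
open Fermat.Agent.S18.C.SmallDVR
open Fermat.Agent.S19.FrameX0 Fermat.Agent.S19.SymmX0 Fermat.Agent.S19.ChartX0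
open Fermat.Agent.S19.InterpDatum Fermat.Agent.S19.TaylorRat
open Fermat.Agent.S19.TorsionX0 Fermat.Agent.S19.FrobFrameX0 Fermat.Agent.S19.ChartGlue
open Fermat.Agent.S19.IntegralW

local notation "Qbar" => AlgebraicClosure ℚ
local notation "GQ" => (AlgebraicClosure ℚ ≃ₐ[ℚ] AlgebraicClosure ℚ)

variable {ℓ : ℕ} [Fact ℓ.Prime] {N : ℕ} [NeZero N]

set_option maxHeartbeats 2000000 in
/-- the chart interface at `X₀(N)` -/
theorem exists_chartAPIAt (hℓN : ¬ ℓ ∣ N) (k : ℕ) (A : ValuationSubring Qbar)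
    (hA : A.LiesOverPrime ℓ) :
    ∃ (J : Type) (_ : AddCommGroup J) (Aalg : Subalgebra ↥(W A) Qbar) (small : Qbar → Prop)
      (act : GQ → J → J) (J1 : AddSubgroup J) (ι : ↥(T N ((ℓ : ℤ) ^ k)) →+ J) (g : ℕ)
      (coord : J → Fin g → Qbar) (Ψ : ℕ → Fin g → MvPolynomial (Fin g ⊕ Fin g) ↥(W A)),
      CloseX0.ChartAPIAt A hA N k Aalg small act J1 ι coord Ψ := by
  classical
  haveI := hasPrincipalDivisors_L N
  haveI := hasPrincipalDivisors_k N A
  haveI := finite_T (N := N) (Final.pow_ne_zero_int ℓ k)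
  haveI := FrameWX0.isNoetherianRing_W hA
  haveI := finite_OLX (N := N) (Final.pow_ne_zero_int ℓ k) hA
  obtain ⟨g, hL, hk⟩ := exists_genus N A hA hℓN
  have hG : RigidGeneric (ResidueField ↥A) ↥(modularFunctionFieldFullC (ResidueField ↥A) N) g :=
    rigidGeneric_of_riemannHyp hk le_rfl
  -- the datum
  obtain ⟨d, -, -, hT0, hv0⟩ := DatumExists.exists_datum (redDatumX0 N A hA hℓN) (toA A).range
    (fun γ => by
      obtain ⟨w, hw⟩ := residue_comp_toA_surjective hA γ
      exact ⟨toA A w, ⟨w, rfl⟩, hw⟩)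
    (jX0 N A hA hℓN) (finite_not_simple N A hA hℓN) hG ∅ Set.finite_empty
  have hfixW0 : ∀ c : A, c ∈ (toA A).range →
      ∀ σ ∈ A.inertiaSubgroupIn ℚ, σ (c : Qbar) = (c : Qbar) := by
    rintro c ⟨w, rfl⟩ σ hσ
    exact coe_fixed A (w : K0 A) hσ
  have hT : ∀ i, ∃ c : A, (∀ σ ∈ A.inertiaSubgroupIn ℚ, σ (c : Qbar) = (c : Qbar)) ∧
      d.T i = jX0 N A hA hℓN - constO (redDatumX0 N A hA hℓN) c := fun i => by
    obtain ⟨c, hc, h⟩ := hT0 i
    exact ⟨c, hfixW0 c hc, h⟩
  have hv : ∀ j, ∃ c : A, (∀ σ ∈ A.inertiaSubgroupIn ℚ, σ (c : Qbar) = (c : Qbar)) ∧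
      d.v j = jX0 N A hA hℓN - constO (redDatumX0 N A hA hℓN) c := fun j => by
    obtain ⟨c, hc, h⟩ := hv0 j
    exact ⟨c, hfixW0 c hc, h⟩
  obtain ⟨Ψ, hadd⟩ := FixesDatumX0.coord_add_X0 hL hk d hT hv
  have hdegL := deg_eq_one_L N
  have hR : RiemannGe Qbar ↥(modularFunctionFieldBar N) g := riemannGe_of_riemannHyp hL le_rfl
  have hSL : ∀ w : W A, algebraMap (W A) Qbar w = ((algebraMap (W A) A w : A) : Qbar) :=
    fun w => rfl
  -- the inertial symmetries
  have hin : ∀ {τ : GQ}, τ ∈ A.inertiaSubgroupIn ℚ → ∀ P : Place Qbar ↥(modularFunctionFieldBar N),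
      rX0 N A hA hℓN (arithmeticGalois (modularFunctionFieldFull N) τ • P) = rX0 N A hA hℓN P :=
    fun hτ P => rX0_smul_inertia N A hA hℓN hτ P
  have hTfix : ∀ {τ : GQ}, τ ∈ A.inertiaSubgroupIn ℚ → ∀ i,
      arithmeticGalois (modularFunctionFieldFull N) τ •
        (((ChartDatum.toOriginChart d).T i : ↥(redDatumX0 N A hA hℓN).O) :
          ↥(modularFunctionFieldBar N)) =
        (((ChartDatum.toOriginChart d).T i : ↥(redDatumX0 N A hA hℓN).O) :
          ↥(modularFunctionFieldBar N)) := by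
    intro τ hτ i
    obtain ⟨c, hc, hTi⟩ := hT i
    exact FixesDatumX0.smul_param N A hA hℓN (hc τ hτ) hTi
  have hinj : ∀ z z', z ∈ BaseX0.J1X0 N A hA hℓN → z' ∈ BaseX0.J1X0 N A hA hℓN →
      CoordK.coordK (ChartDatum.toOriginChart d) hdegL hR z =
        CoordK.coordK (ChartDatum.toOriginChart d) hdegL hR z' → z = z' :=
    fun z z' hz hz' h => CoordK.coordK_inj _ hdegL hR hz hz' h
  have hmem : ∀ z i, z ∈ BaseX0.J1X0 N A hA hℓN →
      CoordK.coordK (ChartDatum.toOriginChart d) hdegL hR z i ∈ IntegralWV.Aalg A :=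
    fun z i hz => CoordK.coordK_mem _ hdegL hR hz i
  have hcoordI : ∀ τ ∈ A.inertiaSubgroupIn ℚ, ∀ z ∈ BaseX0.J1X0 N A hA hℓN, ∀ i,
      CoordK.coordK (ChartDatum.toOriginChart d) hdegL hR (τ • z) i =
        τ • CoordK.coordK (ChartDatum.toOriginChart d) hdegL hR z i := by
    intro τ hτ z hz i
    rcases Nat.eq_zero_or_pos g with hg | hg
    · subst hg
      exact i.elim0
    · have hzτ : arithmeticGalois (modularFunctionFieldFull N) τ • z ∈
          Chart.J1 (rX0 N A hA hℓN) := ChartSymm.smul_mem_J1 _ (hin hτ) hz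
      have h1 := ChartSymm.coord_smul (ChartDatum.toOriginChart d) hdegL
        IsLocalRing.residue_surjective hR (ChartDatum.exists_off d hg)
        (arithmeticGalois (modularFunctionFieldFull N) τ) (hin hτ) (hTfix hτ) ⟨z, hz⟩ i
      rw [baseAut_arithmeticGalois_apply] at h1
      show CoordK.coordK (ChartDatum.toOriginChart d) hdegL hR
        (arithmeticGalois (modularFunctionFieldFull N) τ • z) i =
          τ (CoordK.coordK (ChartDatum.toOriginChart d) hdegL hR z i)
      rw [CoordK.coordK_of_mem _ hdegL hR hzτ, CoordK.coordK_of_mem _ hdegL hR hz]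
      exact h1
  have hcadd : ∀ z z', z ∈ BaseX0.J1X0 N A hA hℓN → z' ∈ BaseX0.J1X0 N A hA hℓN →
      ∃ c : Qbar, c ∈ A.nonunits ∧ ∀ (n : ℕ) (i : Fin g), ∃ a ∈ IntegralWV.Aalg A,
        CoordK.coordK (ChartDatum.toOriginChart d) hdegL hR (z + z') i -
          MvPolynomial.aeval (Sum.elim (CoordK.coordK (ChartDatum.toOriginChart d) hdegL hR z)
            (CoordK.coordK (ChartDatum.toOriginChart d) hdegL hR z')) (Ψ n i) = c ^ n * a :=
    fun z z' hz hz' =>
      CoordK.coordK_add (ChartDatum.toOriginChart d) hdegL hR hSL Ψ hadd hz hz'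
  refine ⟨JZero N, inferInstance, IntegralWV.Aalg A, fun c => c ∈ A.nonunits, fun τ x => τ • x,
    BaseX0.J1X0 N A hA hℓN, (T N ((ℓ : ℤ) ^ k)).subtype.toAddMonoidHom, g,
    CoordK.coordK (ChartDatum.toOriginChart d) hdegL hR, Ψ, ?_⟩
  unfold CloseX0.ChartAPIAt
  refine
    { ρ_add := rhoX0_add
      ρ_mul := rhoX0_mul
      ρ_one := rhoX0_one
      act_add := ?_
      ι_inj := ?_
      ι_ρ := ?_
      fixW := ?_
      J1_I := ?_
      coord_inj := ?_
      coord_mem := ?_
      coord_I := ?_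
      AI := ?_
      base := ?_
      hOL := ?_
      small_mem := ?_
      V := ?_
      coord_add := ?_ }
  · exact fun τ x y => smul_add τ x y
  · exact Subtype.val_injective
  · exact fun τ t => rfl
  · exact fun τ hτ w => FrobFrameX0.fixW hτ w
  · exact fun τ hτ x => BaseX0.J1_inertia N A hA hℓN hτ x
  · exact hinj
  · exact hmem
  · exact hcoordI
  · exact fun a ha hfix => IntegralWV.AI ha hfix
  · exact fun x => BaseX0.base N A hA hℓN x
  · exact fun a ha h => OLX0.mem_OL_of_fixed ha h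
  · exact fun c hc => IntegralWV.small_mem hc
  · exact fun c hc b => IntegralWV.V_Aalg _ hA c hc b
  · exact hcadd

end Fermat.Agent.S19.ApiX0
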