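import Fermat.Agent.S19.ChartSymm
import Fermat.Agent.S19.ChartDatum

/-!
# S19 (helper18): inertial automorphisms fixing the parameters of an interpolation datum

Abstract S18/Core frame, `γ : SemilinearAut L FL` inertial (`r (γ • P) = r P`), `d : Datum R g`
with `γ • T i = T i`, `γ • v j = v j`.  Then `γ` fixes the places `Q i`, `Rp j`, the divisor `E`,
the valuations at `Q i`, `Rp j`, and the space `L(E)`: these are the six facts of `FixesDatum`
(`TaylorRat` / `TaylorW`), for `sL := baseAut γ`, `sF := toRingAut γ`.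
-/

set_option autoImplicit false
set_option linter.unusedSectionVars false
set_option linter.unusedVariables false

namespace Fermat.Agent.S19.DatumSymm

open AlgebraicCurve Fermat.Agent.S24.Ord Fermat.Agent.S18.CoreDefs Fermat.Agent.S18.CoreOrd
  Fermat.Agent.S18.Disc Fermat.Agent.S18.Core Fermat.Agent.S19.Taylor Fermat.Agent.S19.Chart
  Fermat.Agent.S19.ChartSymm Fermat.Agent.S19.ChartDatum Fermat.Agent.S19.InterpDatum

section General

variable {K F : Type*} [Field K] [Field F] [Algebra K F]

/-- valuations at a fixed place are invariant -/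
theorem adicValuation_smul_fixed (γ : SemilinearAut K F) {P : Place K F} (hP : γ • P = P)
    (z : F) : P.adicValuation (γ • z) = P.adicValuation z := by
  refine adicValuation_map_of_ord ((SemilinearAut.toRingAut γ : F ≃+* F) : F →+* F)
    (fun y => ?_) z
  have h := SemilinearAut.ord_smul γ P y
  rw [hP] at h
  exact h

/-- `L(D)` is stable under an automorphism fixing `D` -/
theorem smul_mem_riemannRochSpace_fixed (γ : SemilinearAut K F) {D : Divisor K F}
    (hD : γ • D = D) {f : F} (hf : f ∈ riemannRochSpace D) : γ • f ∈ riemannRochSpace D := by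
  rw [mem_riemannRochSpace_iff] at hf ⊢
  intro w
  rcases hf (γ⁻¹ • w) with h0 | h
  · left
    rw [h0, smul_zero]
  · right
    have h1 := SemilinearAut.ord_smul γ (γ⁻¹ • w) f
    rw [smul_inv_smul] at h1
    rw [h1]
    have h2 : D w = D (γ⁻¹ • w) := by
      conv_lhs => rw [← hD]
      exact SemilinearAut.divisor_smul_apply γ D w
    rw [h2]
    exact h

theorem smul_sum_single_fixed (γ : SemilinearAut K F) {n : ℕ} (Qs : Fin n → Place K F)
    (h : ∀ i, γ • Qs i = Qs i) :
    γ • (∑ i, Finsupp.single (Qs i) (1 : ℤ)) = ∑ i, Finsupp.single (Qs i) (1 : ℤ) := by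
  rw [Finset.smul_sum]
  exact Finset.sum_congr rfl fun i _ => by rw [SemilinearAut.smul_single γ (Qs i) 1, h i]

end General

variable {L : Type*} [Field L] {FL : Type*} [Field FL] [Algebra L FL]
variable {k : Type*} [Field k] {Fk : Type*} [Field Fk] [Algebra k Fk]
variable {A : ValuationSubring L} {π : A →+* k} {r : Place L FL → Place k Fk}
variable [HasPrincipalDivisors L FL] {R : RedDatum A π r} {g : ℕ}

/-- the base points of the chart are fixed -/
theorem smul_Q (γ : SemilinearAut L FL) (hin : ∀ P : Place L FL, r (γ • P) = r P)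
    (d : Datum R g) (hT : ∀ i, γ • ((d.T i : R.O) : FL) = ((d.T i : R.O) : FL)) (i : Fin g) :
    γ • d.Q i = d.Q i :=
  smul_place_eq_of_zero γ hin (d.hT i) (hT i) (d.hQ i) (d.hT0 i)

/-- the auxiliary points are fixed -/
theorem smul_Rp (γ : SemilinearAut L FL) (hin : ∀ P : Place L FL, r (γ • P) = r P)
    (d : Datum R g) (hv : ∀ j, γ • ((d.v j : R.O) : FL) = ((d.v j : R.O) : FL)) (j : Fin g) :
    γ • d.Rp j = d.Rp j :=
  smul_place_eq_of_zero γ hin (d.hv j) (hv j) (d.hRp j) (d.hv0 j)

/-- the divisor `E = R₀ + 2 D₀` is fixed -/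
theorem smul_E (γ : SemilinearAut L FL) (hin : ∀ P : Place L FL, r (γ • P) = r P)
    (d : Datum R g) (hT : ∀ i, γ • ((d.T i : R.O) : FL) = ((d.T i : R.O) : FL))
    (hv : ∀ j, γ • ((d.v j : R.O) : FL) = ((d.v j : R.O) : FL)) : γ • d.E = d.E := by
  unfold Datum.E
  rw [smul_add, smul_add, smul_sum_single_fixed γ d.Rp (smul_Rp γ hin d hv),
    smul_sum_single_fixed γ d.Q (smul_Q γ hin d hT)]

/-- **The six facts of `FixesDatum`** for an inertial automorphism fixing the parameters, with
`sL := baseAut γ`, `sF := toRingAut γ` (`γ • f` is `toRingAut γ f` by definition). -/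
theorem fixesDatum_facts (γ : SemilinearAut L FL) (hin : ∀ P : Place L FL, r (γ • P) = r P)
    (d : Datum R g) (hT : ∀ i, γ • ((d.T i : R.O) : FL) = ((d.T i : R.O) : FL))
    (hv : ∀ j, γ • ((d.v j : R.O) : FL) = ((d.v j : R.O) : FL)) :
    (∀ c : L, ((SemilinearAut.toRingAut γ : FL ≃+* FL) : FL →+* FL) (algebraMap L FL c) =
      algebraMap L FL (((SemilinearAut.baseAut γ : L ≃+* L) : L →+* L) c)) ∧
    (∀ f ∈ riemannRochSpace d.E,
      ((SemilinearAut.toRingAut γ : FL ≃+* FL) : FL →+* FL) f ∈ riemannRochSpace d.E) ∧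
    (∀ i (z : FL), (d.Q i).adicValuation (((SemilinearAut.toRingAut γ : FL ≃+* FL) : FL →+* FL) z) =
      (d.Q i).adicValuation z) ∧
    (∀ j (z : FL), (d.Rp j).adicValuation (((SemilinearAut.toRingAut γ : FL ≃+* FL) : FL →+* FL) z) =
      (d.Rp j).adicValuation z) ∧
    (∀ i, ((SemilinearAut.toRingAut γ : FL ≃+* FL) : FL →+* FL) ((d.T i : R.O) : FL) =
      ((d.T i : R.O) : FL)) ∧
    (∀ j, ((SemilinearAut.toRingAut γ : FL ≃+* FL) : FL →+* FL) ((d.v j : R.O) : FL) =
      ((d.v j : R.O) : FL)) :=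
  ⟨fun c => SemilinearAut.commutes γ c,
    fun f hf => smul_mem_riemannRochSpace_fixed γ (smul_E γ hin d hT hv) hf,
    fun i z => adicValuation_smul_fixed γ (smul_Q γ hin d hT i) z,
    fun j z => adicValuation_smul_fixed γ (smul_Rp γ hin d hv j) z,
    hT, hv⟩

/-- a place off the discs of the origin chart of a datum, given any place at all -/
theorem exists_off' (d : Datum R g) (hne : Nonempty (Place L FL)) :
    ∃ Pstar : Place L FL, ∀ i, (toOriginChart d).Qb i ≠ r Pstar := by
  rcases Nat.eq_zero_or_pos g with rfl | hg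
  · exact ⟨hne.some, fun i => i.elim0⟩
  · exact exists_off d hg

/-- **`I`-equivariance of the coordinates of a datum** -/
theorem coord_smul_datum [HasPrincipalDivisors k Fk] (d : Datum R g)
    (hdegL : ∀ P : Place L FL, P.deg = 1) (hπ : Function.Surjective π) (hR : RiemannGe L FL g)
    (hne : Nonempty (Place L FL))
    (γ : SemilinearAut L FL) (hin : ∀ P : Place L FL, r (γ • P) = r P)
    (hT : ∀ i, γ • ((d.T i : R.O) : FL) = ((d.T i : R.O) : FL)) (z : J1 r) (i : Fin g) :
    (((toOriginChart d).coord hdegL hR ⟨γ • (z : Pic0 L FL), smul_mem_J1 γ hin z.2⟩ i : A) : L) =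
      SemilinearAut.baseAut γ (((toOriginChart d).coord hdegL hR z i : A) : L) :=
  coord_smul (toOriginChart d) hdegL hπ hR (exists_off' d hne) γ hin hT z i

end Fermat.Agent.S19.DatumSymm
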