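import Mathlib
import Fermat.Agent.S19.FrameX0
import Fermat.Agent.S19.DatumSymm
import Fermat.Agent.S18.C.SmallDVR

/-!
# S19 (helper18), slice CoordIX0: the inertia group and the chart at `X₀(N)`, `ℓ ∤ N`

Instantiation of `ChartSymm` / `DatumSymm` at the frame `FrameX0` (helper8).  For
`A : ValuationSubring ℚ̄` over `ℓ ∤ N`, `I = A.inertiaSubgroupIn ℚ`, `r = rX0`, `R = redDatumX0`:

* `W0 A : Subring A` : the `I`-fixed elements of `A`; `exists_W0_lift` : `W0 A → κ(A)` is onto;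
* `J1_I` : `σ • x - x ∈ J1 r` for `σ ∈ I`, `x : JZero N`;  `smul_mem_J1`;
* `smul_T_of_W0` : `j - c`, `c ∈ W0 A`, is fixed by `arithmeticGalois σ`, `σ ∈ I`;
* `coord_I` : for a datum `d` with `I`-fixed parameters,
  `coord (σ • z) i = σ (coord z i)` for `σ ∈ I`, `z ∈ J1 r`;
* `coord_fixed_I` : an `I`-fixed class of `J1 r` has coordinates in `W0 A`;
* `fixesDatum_facts_X0` : the six facts of `FixesDatum` (`TaylorRat` / `TaylorW`) for
  `sL := σ`, `sF := arithmeticGalois σ`, `σ ∈ I`.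
-/

set_option autoImplicit false
set_option synthInstance.maxHeartbeats 400000
set_option linter.unusedSectionVars false
set_option linter.unusedVariables false
set_option linter.style.haveILetI false

noncomputable section

namespace Fermat.Agent.S19.CoordIX0

open AlgebraicCurve ModularCurve IntermediateField IsLocalRing
open Fermat.Agent.S18.CoreDefs Fermat.Agent.S18.CoreOrd Fermat.Agent.S18.Disc
open Fermat.Agent.S19.FrameX0 Fermat.Agent.S19.Chart Fermat.Agent.S19.ChartSymm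
open Fermat.Agent.S19.ChartDatum Fermat.Agent.S19.DatumSymm Fermat.Agent.S19.InterpDatum

local notation "Kb" => AlgebraicClosure ℚ

variable {ℓ : ℕ} [Fact ℓ.Prime] (N : ℕ) [NeZero N] (A : ValuationSubring Kb)

/-- shortcut (the default search for this instance takes 1-2 s per query) -/
local instance (priority := 5000) algResFk :
    Algebra (ResidueField ↥A) ↥(modularFunctionFieldFullC (ResidueField ↥A) N) := inferInstance

/-! ### the `I`-fixed subring of `A` -/

/-- the subring of `A` of elements fixed by the inertia group -/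
def W0 : Subring A where
  carrier := {a | ∀ σ ∈ A.inertiaSubgroupIn ℚ, σ (a : Kb) = (a : Kb)}
  zero_mem' := fun σ _ => by simp
  one_mem' := fun σ _ => by simp
  add_mem' := fun {a b} ha hb σ hσ => by
    push_cast; rw [map_add, ha σ hσ, hb σ hσ]
  mul_mem' := fun {a b} ha hb σ hσ => by
    push_cast; rw [map_mul, ha σ hσ, hb σ hσ]
  neg_mem' := fun {a} ha σ hσ => by
    push_cast; rw [map_neg, ha σ hσ]

variable {A}

theorem mem_W0_iff {a : A} :
    a ∈ W0 A ↔ ∀ σ ∈ A.inertiaSubgroupIn ℚ, σ (a : Kb) = (a : Kb) := Iff.rfl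

theorem toA_mem_W0 (w : Fermat.Agent.S18.C.SmallDVR.W A) :
    Fermat.Agent.S18.C.SmallDVR.toA A w ∈ W0 A := fun σ hσ => by
  rw [Fermat.Agent.S18.C.SmallDVR.coe_toA]
  exact Fermat.Agent.S18.C.SmallDVR.coe_fixed A (w : Fermat.Agent.S18.C.SmallDVR.K0 A) hσ

/-- `W0 A` is the image of the small DVR `W A` -/
theorem mem_W0_iff_exists {a : A} :
    a ∈ W0 A ↔ ∃ w : Fermat.Agent.S18.C.SmallDVR.W A, Fermat.Agent.S18.C.SmallDVR.toA A w = a := by
  constructor
  · intro ha
    have h1 : (a : Kb) ∈ Fermat.Agent.S18.C.SmallDVR.K0 A :=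
      (Fermat.Agent.S18.C.SmallDVR.mem_K0_iff A).mpr ha
    exact ⟨⟨⟨(a : Kb), h1⟩, a.2⟩, Subtype.ext rfl⟩
  · rintro ⟨w, rfl⟩
    exact toA_mem_W0 w

/-- the residue map `W0 A → κ(A)` is onto -/
theorem exists_W0_lift (hA : A.LiesOverPrime ℓ) (γ : ResidueField ↥A) :
    ∃ c : A, c ∈ W0 A ∧ residue ↥A c = γ := by
  obtain ⟨w, hw⟩ := Fermat.Agent.S18.C.SmallDVR.exists_residue_toA_eq hA γ
  exact ⟨_, toA_mem_W0 w, hw⟩

variable (A)
variable (hA : A.LiesOverPrime ℓ) (hℓN : ¬ ℓ ∣ N)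

/-! ### the inertia group acts trivially modulo the kernel of reduction -/

/-- `arithmeticGalois σ`, `σ ∈ I`, is inertial -/
theorem inertial {σ : Kb ≃ₐ[ℚ] Kb} (hσ : σ ∈ A.inertiaSubgroupIn ℚ)
    (P : Place Kb ↥(modularFunctionFieldBar N)) :
    rX0 N A hA hℓN (arithmeticGalois (modularFunctionFieldFull N) σ • P) = rX0 N A hA hℓN P :=
  rX0_smul_inertia N A hA hℓN hσ P

/-- **(J1_I)** the inertia group acts trivially modulo the kernel of reduction -/
theorem J1_I {σ : Kb ≃ₐ[ℚ] Kb} (hσ : σ ∈ A.inertiaSubgroupIn ℚ) (x : JZero N) :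
    σ • x - x ∈ J1 (rX0 N A hA hℓN) := by
  rw [galois_smul_pic0_def]
  exact smul_sub_mem_J1 _ (inertial N A hA hℓN hσ) x

/-- the inertia group preserves the kernel of reduction -/
theorem smul_mem_J1_X0 {σ : Kb ≃ₐ[ℚ] Kb} (hσ : σ ∈ A.inertiaSubgroupIn ℚ) {z : JZero N}
    (hz : z ∈ J1 (rX0 N A hA hℓN)) : σ • z ∈ J1 (rX0 N A hA hℓN) := by
  rw [galois_smul_pic0_def]
  exact smul_mem_J1 _ (inertial N A hA hℓN hσ) hz

/-! ### parameters `j - c`, `c ∈ W0 A` -/

/-- `j - c` is fixed by `σ ∈ I` when `c ∈ W0 A` (shape of `DatumExists.exists_datum`) -/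
theorem smul_T_of_W0 {σ : Kb ≃ₐ[ℚ] Kb} (hσ : σ ∈ A.inertiaSubgroupIn ℚ)
    {T : ↥(redDatumX0 N A hA hℓN).O}
    (hT : ∃ c : A, c ∈ W0 A ∧ T = jX0 N A hA hℓN - constO (redDatumX0 N A hA hℓN) c) :
    arithmeticGalois (modularFunctionFieldFull N) σ •
        ((T : ↥(redDatumX0 N A hA hℓN).O) : ↥(modularFunctionFieldBar N))
      = ((T : ↥(redDatumX0 N A hA hℓN).O) : ↥(modularFunctionFieldBar N)) := by
  obtain ⟨c, hc, rfl⟩ := hT
  have h1 : ((jX0 N A hA hℓN - constO (redDatumX0 N A hA hℓN) c :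
      ↥(redDatumX0 N A hA hℓN).O) : ↥(modularFunctionFieldBar N)) =
      Fermat.Agent.S24.DegreeAlg.jgen N - algebraMap Kb ↥(modularFunctionFieldBar N) (c : Kb) :=
    rfl
  rw [h1, smul_sub, Fermat.Agent.S37.Equivariance.PlaceEquiv.smul_jgen,
    SemilinearAut.smul_algebraMap, baseAut_arithmeticGalois]
  congr 2
  exact hc σ hσ

/-- `arithmeticGalois σ` as a ring endomorphism of the function field -/
def sFX0 (σ : Kb ≃ₐ[ℚ] Kb) : ↥(modularFunctionFieldBar N) →+* ↥(modularFunctionFieldBar N) :=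
  ((SemilinearAut.toRingAut (arithmeticGalois (modularFunctionFieldFull N) σ) :
    ↥(modularFunctionFieldBar N) ≃+* ↥(modularFunctionFieldBar N)) :
    ↥(modularFunctionFieldBar N) →+* ↥(modularFunctionFieldBar N))

theorem sFX0_apply (σ : Kb ≃ₐ[ℚ] Kb) (f : ↥(modularFunctionFieldBar N)) :
    sFX0 N σ f = arithmeticGalois (modularFunctionFieldFull N) σ • f := rfl

/-! ### the chart of an `I`-fixed datum -/

variable {N A hA hℓN}
variable {g : ℕ} (d : Datum (redDatumX0 N A hA hℓN) g)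

/-- **(coord_I)** `I`-equivariance of the chart coordinates of a datum with `I`-fixed
parameters. -/
theorem coord_I
    (hdegL : ∀ P : Place Kb ↥(modularFunctionFieldBar N), P.deg = 1)
    (hR : RiemannGe Kb ↥(modularFunctionFieldBar N) g)
    (hne : Nonempty (Place Kb ↥(modularFunctionFieldBar N)))
    {σ : Kb ≃ₐ[ℚ] Kb} (hσ : σ ∈ A.inertiaSubgroupIn ℚ)
    (hT : ∀ i, arithmeticGalois (modularFunctionFieldFull N) σ •
        ((d.T i : ↥(redDatumX0 N A hA hℓN).O) : ↥(modularFunctionFieldBar N))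
      = ((d.T i : ↥(redDatumX0 N A hA hℓN).O) : ↥(modularFunctionFieldBar N)))
    (z : J1 (rX0 N A hA hℓN)) (i : Fin g) :
    haveI := hasPrincipalDivisors_L N
    (((toOriginChart d).coord hdegL hR
        ⟨σ • (z : JZero N), smul_mem_J1_X0 N A hA hℓN hσ z.2⟩ i : A) : Kb) =
      σ (((toOriginChart d).coord hdegL hR z i : A) : Kb) := by
  haveI := hasPrincipalDivisors_L N
  haveI := hasPrincipalDivisors_k N A
  exact coord_smul_datum d hdegL IsLocalRing.residue_surjective hR hne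
    (arithmeticGalois (modularFunctionFieldFull N) σ) (inertial N A hA hℓN hσ) hT z i

/-- an `I`-fixed class of the kernel of reduction has coordinates in `W0 A` -/
theorem coord_fixed_I
    (hdegL : ∀ P : Place Kb ↥(modularFunctionFieldBar N), P.deg = 1)
    (hR : RiemannGe Kb ↥(modularFunctionFieldBar N) g)
    (hne : Nonempty (Place Kb ↥(modularFunctionFieldBar N)))
    (hT : ∀ σ ∈ A.inertiaSubgroupIn ℚ, ∀ i, arithmeticGalois (modularFunctionFieldFull N) σ •
        ((d.T i : ↥(redDatumX0 N A hA hℓN).O) : ↥(modularFunctionFieldBar N))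
      = ((d.T i : ↥(redDatumX0 N A hA hℓN).O) : ↥(modularFunctionFieldBar N)))
    (z : J1 (rX0 N A hA hℓN))
    (hz : ∀ σ ∈ A.inertiaSubgroupIn ℚ, σ • (z : JZero N) = (z : JZero N)) (i : Fin g) :
    haveI := hasPrincipalDivisors_L N
    (toOriginChart d).coord hdegL hR z i ∈ W0 A := by
  haveI := hasPrincipalDivisors_L N
  haveI := hasPrincipalDivisors_k N A
  intro σ hσ
  exact coord_baseAut_fixed (toOriginChart d) hdegL IsLocalRing.residue_surjective hR
    (exists_off' d hne) (arithmeticGalois (modularFunctionFieldFull N) σ)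
    (inertial N A hA hℓN hσ) (hT σ hσ) z (hz σ hσ) i

/-- **the six facts of `FixesDatum`** at `X₀(N)` for `σ ∈ I` and a datum with `I`-fixed
parameters: `sL := σ`, `sF := arithmeticGalois σ` (as ring homomorphisms). -/
theorem fixesDatum_facts_X0 {σ : Kb ≃ₐ[ℚ] Kb} (hσ : σ ∈ A.inertiaSubgroupIn ℚ)
    (hT : ∀ i, arithmeticGalois (modularFunctionFieldFull N) σ •
        ((d.T i : ↥(redDatumX0 N A hA hℓN).O) : ↥(modularFunctionFieldBar N))
      = ((d.T i : ↥(redDatumX0 N A hA hℓN).O) : ↥(modularFunctionFieldBar N)))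
    (hv : ∀ j, arithmeticGalois (modularFunctionFieldFull N) σ •
        ((d.v j : ↥(redDatumX0 N A hA hℓN).O) : ↥(modularFunctionFieldBar N))
      = ((d.v j : ↥(redDatumX0 N A hA hℓN).O) : ↥(modularFunctionFieldBar N))) :
    (∀ c : Kb, sFX0 N σ (algebraMap Kb ↥(modularFunctionFieldBar N) c) =
      algebraMap Kb ↥(modularFunctionFieldBar N) ((σ : Kb →+* Kb) c)) ∧
    (∀ f ∈ riemannRochSpace d.E, sFX0 N σ f ∈ riemannRochSpace d.E) ∧
    (∀ i (z : ↥(modularFunctionFieldBar N)),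
      (d.Q i).adicValuation (sFX0 N σ z) = (d.Q i).adicValuation z) ∧
    (∀ j (z : ↥(modularFunctionFieldBar N)),
      (d.Rp j).adicValuation (sFX0 N σ z) = (d.Rp j).adicValuation z) ∧
    (∀ i, sFX0 N σ ((d.T i : ↥(redDatumX0 N A hA hℓN).O) : ↥(modularFunctionFieldBar N)) =
      ((d.T i : ↥(redDatumX0 N A hA hℓN).O) : ↥(modularFunctionFieldBar N))) ∧
    (∀ j, sFX0 N σ ((d.v j : ↥(redDatumX0 N A hA hℓN).O) : ↥(modularFunctionFieldBar N)) =
      ((d.v j : ↥(redDatumX0 N A hA hℓN).O) : ↥(modularFunctionFieldBar N))) := by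
  haveI := hasPrincipalDivisors_L N
  obtain ⟨h1, h2, h3, h4, h5, h6⟩ := fixesDatum_facts (R := redDatumX0 N A hA hℓN)
    (r := rX0 N A hA hℓN) (arithmeticGalois (modularFunctionFieldFull N) σ)
    (inertial N A hA hℓN hσ) d hT hv
  refine ⟨fun c => ?_, ?_, ?_, ?_, ?_, ?_⟩
  · rw [sFX0_apply, SemilinearAut.smul_algebraMap, baseAut_arithmeticGalois]
    rfl
  · exact h2
  · exact h3
  · exact h4
  · exact h5
  · exact h6

end Fermat.Agent.S19.CoordIX0
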