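import Fermat.Agent.S19.CloseX0
import Fermat.Agent.S19.BaseX0
import Fermat.Agent.S19.IntegralWV
import Fermat.Agent.S19.FixesDatumX0
import Fermat.Agent.S19.CoordIX0
import Fermat.Agent.S19.DatumExists

/-!
# S19 (helper7): the chart interface `ChartGlue.ChartAPI` at `X₀(N)`, `ℓ ∤ N`

Final assembly of the geometric side of PROJECT F.  For a valuation subring `A` of `ℚ̄` over a
prime `ℓ ∤ N`:

* `exists_datumX0` : an interpolation datum on `X₀(N)` with parameters `j - c`, `c ∈ W0 A`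
  (`DatumExists.exists_datum` on helper8's frame `FrameX0`);
* `coordX0` : the total coordinate function `J₀(N)(ℚ̄) → Fin g → ℚ̄` of its origin chart;
* `chartAPIAt` : all fields of `ChartGlue.ChartAPI` (helper16) in the form `CloseX0.ChartAPIAt`
  (helper26): `coord_inj`/`coord_mem` (helper18 `Chart`), `coord_I` (helper18 `CoordIX0`),
  `coord_add` (helper22 `FixesDatumX0.coord_add_X0`, from `AddLaw.exists_add_congr`), `J1_I`/`base`
  (helper8 `BaseX0`), `AI`/`small_mem`/`V` (helper25 `IntegralWV`), `hOL` (helper26 `OLX0`);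
* `s19` : the conclusion of the frozen statement S19.
-/

set_option autoImplicit false
set_option synthInstance.maxHeartbeats 400000
set_option maxHeartbeats 1000000
set_option linter.unusedSectionVars false
set_option linter.unusedVariables false
set_option linter.style.haveILetI false

noncomputable section

namespace Fermat.Agent.S19.ChartAPIX0

open AlgebraicCurve ModularCurve IsLocalRing
open Fermat.Agent.S18.CoreDefs Fermat.Agent.S18.CoreOrd Fermat.Agent.S18.Disc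
open Fermat.Agent.S18.NonSpecial Fermat.Agent.S18.NonSpecialAdapter
open Fermat.Agent.S18.C.SmallDVR
open Fermat.Agent.S19.FrameX0 Fermat.Agent.S19.BaseX0
open Fermat.Agent.S19.Chart Fermat.Agent.S19.ChartDatum Fermat.Agent.S19.InterpDatum
open Fermat.Agent.S19.TorsionX0 Fermat.Agent.S19.IntegralW Fermat.Agent.S19.IntegralWV
open Fermat.Agent.S19.FrobFrameX0 Fermat.Agent.S19.ChartGlue Fermat.Agent.S19.CoordIX0

local notation "Kb" => AlgebraicClosure ℚ
local notation "GQ" => (AlgebraicClosure ℚ ≃ₐ[ℚ] AlgebraicClosure ℚ)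

variable {ℓ : ℕ} [Fact ℓ.Prime] (N : ℕ) [NeZero N] (A : ValuationSubring Kb)
variable (hA : A.LiesOverPrime ℓ) (hℓN : ¬ ℓ ∣ N)

/-! ### The datum -/

/-- **an inertia-fixed interpolation datum on `X₀(N)`**: parameters `j - c` with `c` fixed by the
inertia group -/
theorem exists_datumX0 {g : ℕ}
    (hk : RiemannHyp (ResidueField ↥A) ↥(modularFunctionFieldFullC (ResidueField ↥A) N) g) :
    ∃ d : Datum (redDatumX0 N A hA hℓN) g,
      (∀ i, ∃ c : ↥A, c ∈ W0 A ∧
        d.T i = jX0 N A hA hℓN - constO (redDatumX0 N A hA hℓN) c) ∧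
      (∀ j, ∃ c : ↥A, c ∈ W0 A ∧
        d.v j = jX0 N A hA hℓN - constO (redDatumX0 N A hA hℓN) c) := by
  haveI := hasPrincipalDivisors_L N
  obtain ⟨d, -, -, h1, h2⟩ := DatumExists.exists_datum (redDatumX0 N A hA hℓN) (W0 A)
    (fun γ => exists_W0_lift hA γ) (jX0 N A hA hℓN) (finite_not_simple N A hA hℓN)
    (rigidGeneric_of_riemannHyp hk le_rfl) ∅ Set.finite_empty
  exact ⟨d, h1, h2⟩

/-! ### The coordinates -/

section Coord

variable {N A hA hℓN}
variable {g : ℕ} (d : Datum (redDatumX0 N A hA hℓN) g)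
  (hR : RiemannGe Kb ↥(modularFunctionFieldBar N) g)

open Classical in
/-- the coordinates of the origin chart of `d`, extended by `0` outside the kernel of reduction -/
def coordX0 (z : JZero N) (i : Fin g) : Kb :=
  haveI := hasPrincipalDivisors_L N
  if hz : z ∈ J1X0 N A hA hℓN then
    (((toOriginChart d).coord (deg_eq_one_L N) hR ⟨z, hz⟩ i : ↥A) : Kb)
  else 0

theorem coordX0_of_mem {z : JZero N} (hz : z ∈ J1X0 N A hA hℓN) (i : Fin g) :
    coordX0 d hR z i =
      haveI := hasPrincipalDivisors_L N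
      (((toOriginChart d).coord (deg_eq_one_L N) hR ⟨z, hz⟩ i : ↥A) : Kb) := by
  classical
  unfold coordX0
  rw [dif_pos hz]

theorem coordX0_mem {z : JZero N} (hz : z ∈ J1X0 N A hA hℓN) (i : Fin g) :
    coordX0 d hR z i ∈ Aalg A := by
  rw [coordX0_of_mem d hR hz]
  exact SetLike.coe_mem _

theorem coordX0_inj {z z' : JZero N} (hz : z ∈ J1X0 N A hA hℓN) (hz' : z' ∈ J1X0 N A hA hℓN)
    (h : coordX0 d hR z = coordX0 d hR z') : z = z' := by
  haveI := hasPrincipalDivisors_L N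
  have h1 : (toOriginChart d).coord (deg_eq_one_L N) hR ⟨z, hz⟩ =
      (toOriginChart d).coord (deg_eq_one_L N) hR ⟨z', hz'⟩ := by
    funext i
    apply Subtype.ext
    have := congrFun h i
    rwa [coordX0_of_mem d hR hz, coordX0_of_mem d hR hz'] at this
  have h2 := (toOriginChart d).coord_injective (deg_eq_one_L N) hR h1
  exact congrArg Subtype.val h2

/-- **`coord_I`**: equivariance of the coordinates under inertia -/
theorem coordX0_smul (hd : ∀ i, ∃ c : ↥A, c ∈ W0 A ∧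
      d.T i = jX0 N A hA hℓN - constO (redDatumX0 N A hA hℓN) c)
    {τ : GQ} (hτ : τ ∈ A.inertiaSubgroupIn ℚ) {z : JZero N} (hz : z ∈ J1X0 N A hA hℓN)
    (i : Fin g) : coordX0 d hR (τ • z) i = τ (coordX0 d hR z i) := by
  haveI := hasPrincipalDivisors_L N
  have hmem : τ • z ∈ J1X0 N A hA hℓN := smul_mem_J1_X0 N A hA hℓN hτ hz
  have hne : Nonempty (Place Kb ↥(modularFunctionFieldBar N)) := ⟨d.Q i⟩
  have h := coord_I d (deg_eq_one_L N) hR hne hτ
    (fun j => smul_T_of_W0 N A hA hℓN hτ (hd j)) ⟨z, hz⟩ i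
  rw [coordX0_of_mem d hR hmem, coordX0_of_mem d hR hz]
  exact h

/-- the coercion `A → ℚ̄` commutes with the evaluation of polynomials over `W A` -/
theorem coe_aeval_W {κ : Type*} (x : κ → ↥A) (P : MvPolynomial κ ↥(W A)) :
    ((MvPolynomial.aeval x P : ↥A) : Kb) = MvPolynomial.aeval (fun j => ((x j : ↥A) : Kb)) P :=
  (MvPolynomial.aeval_algebraMap_apply (A := ↥A) (B := Kb) x P).symm

/-- membership in `(c) ^ n` unfolded -/
theorem exists_eq_pow_mul {c x : ↥A} {n : ℕ} (h : x ∈ Ideal.span {c} ^ n) :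
    ∃ a : ↥A, x = c ^ n * a := by
  rw [Ideal.span_singleton_pow, Ideal.mem_span_singleton] at h
  obtain ⟨a, ha⟩ := h
  exact ⟨a, ha⟩

/-- **`coord_add`**: the truncated addition law in the coordinates, with polynomials over `W A` -/
theorem coordX0_add (hL : RiemannHyp Kb ↥(modularFunctionFieldBar N) g)
    (hk : RiemannHyp (ResidueField ↥A) ↥(modularFunctionFieldFullC (ResidueField ↥A) N) g)
    (hdT : ∀ i, ∃ c : ↥A, c ∈ W0 A ∧
      d.T i = jX0 N A hA hℓN - constO (redDatumX0 N A hA hℓN) c)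
    (hdv : ∀ j, ∃ c : ↥A, c ∈ W0 A ∧
      d.v j = jX0 N A hA hℓN - constO (redDatumX0 N A hA hℓN) c) :
    ∃ Ψ : ℕ → Fin g → MvPolynomial (Fin g ⊕ Fin g) ↥(W A),
      ∀ z z' : JZero N, z ∈ J1X0 N A hA hℓN → z' ∈ J1X0 N A hA hℓN →
        ∃ c : Kb, c ∈ A.nonunits ∧ ∀ (n : ℕ) (i : Fin g), ∃ a ∈ Aalg A,
          coordX0 d (riemannGe_of_riemannHyp hL le_rfl) (z + z') i -
            MvPolynomial.aeval (Sum.elim (coordX0 d (riemannGe_of_riemannHyp hL le_rfl) z)
              (coordX0 d (riemannGe_of_riemannHyp hL le_rfl) z')) (Ψ n i) = c ^ n * a := by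
  haveI := hasPrincipalDivisors_L N
  obtain ⟨Ψ, h⟩ := Fermat.Agent.S19.FixesDatumX0.coord_add_X0 hL hk d hdT hdv
  refine ⟨Ψ, fun z z' hz hz' => ?_⟩
  obtain ⟨c, hc, -, hcong⟩ := h ⟨z, hz⟩ ⟨z', hz'⟩
  refine ⟨(c : Kb), ValuationSubring.coe_mem_nonunits_iff.mpr hc, fun n i => ?_⟩
  obtain ⟨a, ha⟩ := exists_eq_pow_mul (hcong n i)
  refine ⟨(a : Kb), a.2, ?_⟩
  have hzz' : z + z' ∈ J1X0 N A hA hℓN := add_mem hz hz'
  have h4 := congrArg (fun y : ↥A => (y : Kb)) ha
  have h5 : (Sum.elim (coordX0 d (riemannGe_of_riemannHyp hL le_rfl) z)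
      (coordX0 d (riemannGe_of_riemannHyp hL le_rfl) z')) =
      fun j => ((Sum.elim ((toOriginChart d).coord (deg_eq_one_L N)
          (riemannGe_of_riemannHyp hL le_rfl) ⟨z, hz⟩)
        ((toOriginChart d).coord (deg_eq_one_L N)
          (riemannGe_of_riemannHyp hL le_rfl) ⟨z', hz'⟩) j : ↥A) : Kb) := by
    funext j
    cases j with
    | inl j => exact coordX0_of_mem d _ hz j
    | inr j => exact coordX0_of_mem d _ hz' j
  rw [h5, ← coe_aeval_W, coordX0_of_mem d _ hzz']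
  exact h4

end Coord

/-! ### The chart interface -/

/-- the inclusion `J₀(N)[m] → J₀(N)(ℚ̄)` -/
def iotaX0 (m : ℤ) : ↥(T N m) →+ JZero N := (T N m).subtype.toAddMonoidHom

@[simp] theorem iotaX0_apply (m : ℤ) (t : ↥(T N m)) : iotaX0 N m t = (t : JZero N) := rfl

/-- **`ChartGlue.ChartAPI` at `X₀(N)`**, `ℓ ∤ N`, in the form `CloseX0.ChartAPIAt`. -/
theorem chartAPIAt (k : ℕ) :
    ∃ (g : ℕ) (coord : JZero N → Fin g → Kb)
      (Ψ : ℕ → Fin g → MvPolynomial (Fin g ⊕ Fin g) ↥(W A)),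
      CloseX0.ChartAPIAt A hA N k (Aalg A) (fun c => c ∈ A.nonunits)
        (fun (τ : GQ) (x : JZero N) => τ • x) (J1X0 N A hA hℓN) (iotaX0 N ((ℓ : ℤ) ^ k))
        coord Ψ := by
  obtain ⟨g, hL, hk⟩ := exists_genus N A hA hℓN
  obtain ⟨d, hdT, hdv⟩ := exists_datumX0 N A hA hℓN hk
  obtain ⟨Ψ, hΨ⟩ := coordX0_add d hL hk hdT hdv
  refine ⟨g, coordX0 d (riemannGe_of_riemannHyp hL le_rfl), Ψ, ?_⟩
  unfold CloseX0.ChartAPIAt
  exact
    { ρ_add := rhoX0_add
      ρ_mul := rhoX0_mul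
      ρ_one := rhoX0_one
      act_add := fun τ x y => smul_add τ x y
      ι_inj := Subtype.val_injective
      ι_ρ := fun τ t => rfl
      fixW := fun τ hτ w => FrobFrameX0.fixW hτ w
      J1_I := fun τ hτ x => J1_inertia N A hA hℓN hτ x
      coord_inj := fun z z' hz hz' h => coordX0_inj d _ hz hz' h
      coord_mem := fun z i hz => coordX0_mem d _ hz i
      coord_I := fun τ hτ z hz i => coordX0_smul d _ hdT hτ hz i
      AI := fun a ha hfix => IntegralWV.AI ha hfix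
      base := fun x => base N A hA hℓN x
      hOL := fun a ha hfix => Fermat.Agent.S19.OLX0.mem_OL_of_fixed ha hfix
      small_mem := fun c hc => small_mem hc
      V := fun c hc b => V_Aalg _ hA c hc b
      coord_add := fun z z' hz hz' => hΨ z z' hz hz' }

/-- **S19**: for a prime `ℓ ∤ p` and every `k`, the `ℓ^k`-torsion of `J₀(p)` is, Galois
equivariantly, the `ℚ̄`-points of a finite flat commutative group scheme over `ℤ_(ℓ)`. -/
theorem s19 (p : ℕ) [NeZero p] (ℓ : ℕ) [Fact ℓ.Prime] (hℓp : ¬ ℓ ∣ p) (k : ℕ) :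
    ∃ (H : Type) (_ : CommRing H) (_ : HopfAlgebra (GaloisRep.ratLocalizedAt ℓ) H),
      Module.Finite (GaloisRep.ratLocalizedAt ℓ) H ∧ Module.Flat (GaloisRep.ratLocalizedAt ℓ) H ∧
      Coalgebra.IsCocomm (GaloisRep.ratLocalizedAt ℓ) H ∧
      ∃ e : WithConv (H →ₐ[GaloisRep.ratLocalizedAt ℓ] AlgebraicClosure ℚ) ≃
          ↥(Submodule.torsionBy ℤ (JZero p) ((ℓ : ℤ) ^ k)),
        (∀ f g, e (f * g) = e f + e g) ∧
        ∀ (σ : AlgebraicClosure ℚ ≃ₐ[ℚ] AlgebraicClosure ℚ)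
          (f g : WithConv (H →ₐ[GaloisRep.ratLocalizedAt ℓ] AlgebraicClosure ℚ)),
          (∀ h : H, g h = σ (f h)) → ((e g : JZero p)) = σ • (e f : JZero p) :=
  CloseX0.s19_of_chartAPI (N := p) (ℓ := ℓ) (k := k) fun A hA => by
    obtain ⟨g, coord, Ψ, C⟩ := chartAPIAt p A hA hℓp k
    exact ⟨JZero p, inferInstance, Aalg A, fun c => c ∈ A.nonunits,
      fun (τ : GQ) (x : JZero p) => τ • x, J1X0 p A hA hℓp, iotaX0 p ((ℓ : ℤ) ^ k), g, coord, Ψ, C⟩

end Fermat.Agent.S19.ChartAPIX0
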