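import Mathlib
import Fermat.Prelude.Def_GaloisRep_Flat
import Fermat.Agent.S19.HopfOrderF

/-!
# `IsFlatAt` from Hopf orders on the finite quotients `V / I V`
-/

set_option autoImplicit false
set_option linter.unusedSectionVars false

noncomputable section

namespace Fermat.Agent.S19.HopfOrder

local notation "Kb" => AlgebraicClosure ℚ
local notation "Γ" => (AlgebraicClosure ℚ ≃ₐ[ℚ] AlgebraicClosure ℚ)

variable {A : Type} [CommRing A] [IsLocalRing A]

theorem levelAction_surjective (ρ : GaloisRepAdic A) (I : Ideal A) (σ : Γ) :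
    Function.Surjective (ρ.levelAction I σ) := by
  intro v
  induction v using Submodule.Quotient.induction_on with
  | H v =>
    refine ⟨Submodule.Quotient.mk (ρ.ρ σ⁻¹ v), ?_⟩
    show Submodule.Quotient.mk (ρ.ρ σ (ρ.ρ σ⁻¹ v)) = _
    rw [← Module.End.mul_apply, ← map_mul, mul_inv_cancel, map_one, Module.End.one_apply]

/-- `IsFlatAt p` from Hopf orders on all the finite quotients `V / I V`. -/
theorem isFlatAt_of_isHopfOrder (ρ : GaloisRepAdic A) (p : ℕ) [Fact p.Prime]
    (hres : Finite (IsLocalRing.ResidueField A))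
    (h : ∀ I : Ideal A, Finite (A ⧸ I) →
      ∃ (_ : Finite (ρ.V ⧸ (I • (⊤ : Submodule A ρ.V))))
        (H : Subalgebra (Zl p) ((ρ.V ⧸ (I • (⊤ : Submodule A ρ.V))) → Kb)),
        IsHopfOrder (fun σ => ρ.levelAction I σ) H) :
    ρ.IsFlatAt p := by
  refine ⟨hres, fun I hI => ?_⟩
  obtain ⟨hfin, H, hH⟩ := h I hI
  obtain ⟨H', i1, i2, h1, h2, h3, e, he1, he2⟩ := exists_hopfAlgebra_of_isHopfOrder hH
  exact ⟨H', i1, i2, h1, h2, h3, e, he1, he2⟩

end Fermat.Agent.S19.HopfOrder
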