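import Mathlib
import Fermat.Agent.S19.HopfOrderF
import Fermat.Agent.S19.HopfOrderS19
import Fermat.Agent.S19.HopfOrderFlat

/-!
# Hopf orders from the four core conditions

`IsHopfOrder.of_core`: the predicate `IsHopfOrder` from `fg / equiv / sep / comul` only (the
comultiplication condition with an arbitrary finite index type and function-valued families);
stability under the antipode `φ ↦ φ ∘ neg` is automatic for a finite group `T`
(`-t = (2 |T| - 1) • t`, and `φ ∘ [m]` is an iterated comultiplication followed by a product).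

`exists_hopfAlgebra_of_core`, `s19_of_core`, `isFlatAt_of_core`: the packaging theorems in that
form (the action `ρ` on the torsion of `J₀(p)` is any function whose coercion is `σ • z`).
-/

set_option autoImplicit false
set_option linter.unusedSectionVars false

noncomputable section

namespace Fermat.Agent.S19.HopfOrder

open ModularCurve

local notation "Kb" => AlgebraicClosure ℚ
local notation "Γ" => (AlgebraicClosure ℚ ≃ₐ[ℚ] AlgebraicClosure ℚ)

variable {ℓ : ℕ} [hℓ : Fact ℓ.Prime]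
variable {T : Type} [AddCommGroup T] [Finite T]
variable {ρ : Γ → T → T} {H : Subalgebra (Zl ℓ) (T → Kb)}

/-- The comultiplication condition in its weakest form: finite index type, function-valued
families with membership. -/
def ComulClosed (H : Subalgebra (Zl ℓ) (T → Kb)) : Prop :=
  ∀ φ ∈ H, ∃ (ι : Type) (_ : Fintype ι) (a b : ι → T → Kb),
    (∀ i, a i ∈ H) ∧ (∀ i, b i ∈ H) ∧ ∀ s t : T, φ (s + t) = ∑ i, a i s * b i t

omit hℓ [Finite T] in
theorem ComulClosed.of_fin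
    (h : ∀ φ ∈ H, ∃ (n : ℕ) (a b : Fin n → T → Kb),
      (∀ i, a i ∈ H) ∧ (∀ i, b i ∈ H) ∧ ∀ s t : T, φ (s + t) = ∑ i, a i s * b i t) :
    ComulClosed H := fun φ hφ => by
  obtain ⟨n, a, b, ha, hb, hab⟩ := h φ hφ
  exact ⟨Fin n, inferInstance, a, b, ha, hb, hab⟩

omit hℓ [Finite T] in
theorem ComulClosed.of_fin_subtype
    (h : ∀ φ ∈ H, ∃ (n : ℕ) (a b : Fin n → H), ∀ s t : T,
      φ (s + t) = ∑ i, (a i : T → Kb) s * (b i : T → Kb) t) :
    ComulClosed H := fun φ hφ => by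
  obtain ⟨n, a, b, hab⟩ := h φ hφ
  exact ⟨Fin n, inferInstance, fun i => a i, fun i => b i, fun i => (a i).2, fun i => (b i).2, hab⟩

omit hℓ [Finite T] in
/-- `φ ∘ [m + 1] ∈ H` for a comultiplication-closed subalgebra. -/
theorem ComulClosed.comp_nsmul_mem (hc : ComulClosed H) (m : ℕ) :
    ∀ φ ∈ H, (fun t : T => φ ((m + 1) • t)) ∈ H := by
  induction m with
  | zero =>
    intro φ hφ
    simpa using hφ
  | succ m ih =>
    intro φ hφ
    obtain ⟨ι, _, a, b, ha, hb, hab⟩ := hc φ hφ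
    have : (fun t : T => φ ((m + 1 + 1) • t)) = ∑ i, (fun t : T => a i ((m + 1) • t)) * b i := by
      funext t
      rw [succ_nsmul, hab, Finset.sum_apply]
      rfl
    rw [this]
    exact Subalgebra.sum_mem _ fun i _ => H.mul_mem (ih _ (ha i)) (hb i)

omit hℓ in
/-- Stability under the antipode is automatic. -/
theorem ComulClosed.neg_mem (hc : ComulClosed H) : ∀ φ ∈ H, (fun t : T => φ (-t)) ∈ H := by
  intro φ hφ
  have hN : 0 < Nat.card T := Nat.card_pos
  have hm := hc.comp_nsmul_mem (2 * Nat.card T - 2) φ hφ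
  convert hm using 2
  rename_i t
  have h1 : (2 * Nat.card T - 2 + 1) • t + t = 0 := by
    rw [← succ_nsmul]
    have : 2 * Nat.card T - 2 + 1 + 1 = 2 * Nat.card T := by omega
    rw [this, mul_nsmul, card_nsmul_eq_zero']
  exact congrArg φ (eq_neg_of_add_eq_zero_left h1).symm

/-- **`IsHopfOrder` from the four core conditions.** -/
theorem IsHopfOrder.of_core (hsurj : ∀ σ, Function.Surjective (ρ σ)) (hzero : ∀ σ, ρ σ 0 = 0)
    (hfg : Module.Finite (Zl ℓ) H)
    (hequiv : ∀ φ ∈ H, ∀ (σ : Γ) (t : T), φ (ρ σ t) = σ (φ t))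
    (hsep : ∀ s t : T, s ≠ t → ∃ φ ∈ H, φ s ≠ φ t)
    (hcomul : ComulClosed H) : IsHopfOrder ρ H where
  surj := hsurj
  map_zero := hzero
  finite := hfg
  equivariant := hequiv
  separates := hsep
  comul := fun φ hφ => by
    obtain ⟨ι, _, a, b, ha, hb, hab⟩ := hcomul φ hφ
    let e := Fintype.equivFin ι
    refine ⟨Fintype.card ι, fun i => ⟨a (e.symm i), ha _⟩, fun i => ⟨b (e.symm i), hb _⟩,
      fun s t => ?_⟩
    rw [hab]
    exact (Equiv.sum_comp e.symm fun i => a i s * b i t).symm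
  neg := hcomul.neg_mem

/-- **Packaging theorem**, core form. -/
theorem exists_hopfAlgebra_of_core (hsurj : ∀ σ, Function.Surjective (ρ σ))
    (hzero : ∀ σ, ρ σ 0 = 0) (hfg : Module.Finite (Zl ℓ) H)
    (hequiv : ∀ φ ∈ H, ∀ (σ : Γ) (t : T), φ (ρ σ t) = σ (φ t))
    (hsep : ∀ s t : T, s ≠ t → ∃ φ ∈ H, φ s ≠ φ t)
    (hcomul : ComulClosed H) :
    ∃ (H' : Type) (_ : CommRing H') (_ : HopfAlgebra (GaloisRep.ratLocalizedAt ℓ) H'),
      Module.Finite (GaloisRep.ratLocalizedAt ℓ) H' ∧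
      Module.Flat (GaloisRep.ratLocalizedAt ℓ) H' ∧
      Coalgebra.IsCocomm (GaloisRep.ratLocalizedAt ℓ) H' ∧
      ∃ e : WithConv (H' →ₐ[GaloisRep.ratLocalizedAt ℓ] AlgebraicClosure ℚ) ≃ T,
        (∀ f g : WithConv (H' →ₐ[GaloisRep.ratLocalizedAt ℓ] AlgebraicClosure ℚ),
          e (f * g) = e f + e g) ∧
        ∀ (σ : Γ) (f g : WithConv (H' →ₐ[GaloisRep.ratLocalizedAt ℓ] AlgebraicClosure ℚ)),
          (∀ x : H', g x = σ (f x)) → e g = ρ σ (e f) :=
  exists_hopfAlgebra_of_isHopfOrder (IsHopfOrder.of_core hsurj hzero hfg hequiv hsep hcomul)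

/-- **The frozen S19 (conclusion verbatim)** from a comultiplication-closed order on
`J₀(p)[ℓ^k]`; `ρ` is any function realising the Galois action. -/
theorem s19_of_core (p : ℕ) [NeZero p] (ℓ : ℕ) [Fact ℓ.Prime] (k : ℕ)
    [Finite (Submodule.torsionBy ℤ (JZero p) ((ℓ : ℤ) ^ k))]
    (ρ : Γ → Submodule.torsionBy ℤ (JZero p) ((ℓ : ℤ) ^ k) →
      Submodule.torsionBy ℤ (JZero p) ((ℓ : ℤ) ^ k))
    (hρ : ∀ σ z, ((ρ σ z : Submodule.torsionBy ℤ (JZero p) ((ℓ : ℤ) ^ k)) : JZero p) =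
      σ • (z : JZero p))
    {H : Subalgebra (Zl ℓ) (Submodule.torsionBy ℤ (JZero p) ((ℓ : ℤ) ^ k) → Kb)}
    (hfg : Module.Finite (Zl ℓ) H)
    (hequiv : ∀ φ ∈ H, ∀ (σ : Γ) t, φ (ρ σ t) = σ (φ t))
    (hsep : ∀ s t, s ≠ t → ∃ φ ∈ H, φ s ≠ φ t)
    (hcomul : ComulClosed H) :
    ∃ (H : Type) (_ : CommRing H) (_ : HopfAlgebra (GaloisRep.ratLocalizedAt ℓ) H),
      Module.Finite (GaloisRep.ratLocalizedAt ℓ) H ∧ Module.Flat (GaloisRep.ratLocalizedAt ℓ) H ∧
      Coalgebra.IsCocomm (GaloisRep.ratLocalizedAt ℓ) H ∧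
      ∃ e : WithConv (H →ₐ[GaloisRep.ratLocalizedAt ℓ] AlgebraicClosure ℚ) ≃
          ↥(Submodule.torsionBy ℤ (JZero p) ((ℓ : ℤ) ^ k)),
        (∀ f g, e (f * g) = e f + e g) ∧
        ∀ (σ : AlgebraicClosure ℚ ≃ₐ[ℚ] AlgebraicClosure ℚ)
          (f g : WithConv (H →ₐ[GaloisRep.ratLocalizedAt ℓ] AlgebraicClosure ℚ)),
          (∀ h : H, g h = σ (f h)) → ((e g : JZero p)) = σ • (e f : JZero p) := by
  have hsurj : ∀ σ, Function.Surjective (ρ σ) := by
    intro σ z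
    refine ⟨ρ σ⁻¹ z, Subtype.ext ?_⟩
    rw [hρ, hρ, smul_inv_smul]
  have hzero : ∀ σ, ρ σ 0 = 0 := fun σ => Subtype.ext (by
    rw [hρ]
    exact smul_zero (A := JZero p) σ)
  obtain ⟨H', i1, i2, h1, h2, h3, e, he1, he2⟩ :=
    exists_hopfAlgebra_of_core hsurj hzero hfg hequiv hsep hcomul
  refine ⟨H', i1, i2, h1, h2, h3, e, he1, fun σ f g hfg => ?_⟩
  rw [he2 σ f g hfg, hρ]

/-- **`IsFlatAt`** from comultiplication-closed orders on the finite quotients `V / I V`. -/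
theorem isFlatAt_of_core {A : Type} [CommRing A] [IsLocalRing A] (ρ : GaloisRepAdic A) (p : ℕ)
    [Fact p.Prime] (hres : Finite (IsLocalRing.ResidueField A))
    (h : ∀ I : Ideal A, Finite (A ⧸ I) →
      ∃ (_ : Finite (ρ.V ⧸ (I • (⊤ : Submodule A ρ.V))))
        (H : Subalgebra (Zl p) ((ρ.V ⧸ (I • (⊤ : Submodule A ρ.V))) → Kb)),
        Module.Finite (Zl p) H ∧
        (∀ φ ∈ H, ∀ (σ : Γ) t, φ (ρ.levelAction I σ t) = σ (φ t)) ∧
        (∀ s t, s ≠ t → ∃ φ ∈ H, φ s ≠ φ t) ∧ ComulClosed H) :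
    ρ.IsFlatAt p := by
  refine isFlatAt_of_isHopfOrder ρ p hres fun I hI => ?_
  obtain ⟨hfin, H, hfg, hequiv, hsep, hcomul⟩ := h I hI
  exact ⟨hfin, H, IsHopfOrder.of_core (levelAction_surjective ρ I)
    (fun σ => map_zero (ρ.levelAction I σ)) hfg hequiv hsep hcomul⟩

end Fermat.Agent.S19.HopfOrder
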