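import Mathlib

/-!
# S19, slice (W2), linear algebra: a unit maximal minor from a small kernel

For an `n × (n+1)` matrix `M` over a field whose kernel is at most one-dimensional, some maximal
minor (delete one column) is non-zero; if a kernel vector `x` is given, the column `a₀` can be any
index with `x a₀ ≠ 0`.
-/

set_option autoImplicit false

namespace Fermat.Agent.S19.MinorLemma

open Matrix

variable {K : Type*} [Field K] {n : ℕ}

/-- extend a vector indexed by `Fin n` by zero at `a₀` -/
noncomputable def extendZero (a₀ : Fin (n + 1)) (y : Fin n → K) : Fin (n + 1) → K :=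
  fun a => if h : a = a₀ then 0 else y ((Fin.exists_succAbove_eq h).choose)

theorem extendZero_self (a₀ : Fin (n + 1)) (y : Fin n → K) : extendZero a₀ y a₀ = 0 := by
  simp [extendZero]

theorem extendZero_succAbove (a₀ : Fin (n + 1)) (y : Fin n → K) (b : Fin n) :
    extendZero a₀ y (a₀.succAbove b) = y b := by
  have h : a₀.succAbove b ≠ a₀ := Fin.succAbove_ne a₀ b
  unfold extendZero
  rw [dif_neg h]
  congr 1
  exact Fin.succAbove_right_injective (Fin.exists_succAbove_eq h).choose_spec

theorem mulVec_extendZero (M : Matrix (Fin n) (Fin (n + 1)) K) (a₀ : Fin (n + 1))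
    (y : Fin n → K) :
    M *ᵥ extendZero a₀ y = (M.submatrix id a₀.succAbove) *ᵥ y := by
  ext i
  simp only [mulVec, dotProduct, submatrix_apply, id]
  rw [Fin.sum_univ_succAbove _ a₀, extendZero_self, mul_zero, zero_add]
  exact Finset.sum_congr rfl fun b _ => by rw [extendZero_succAbove]

/-- if the kernel of `M` is spanned by `x` and `x a₀ ≠ 0`, the minor obtained by deleting the
column `a₀` is non-zero -/
theorem det_submatrix_ne_zero (M : Matrix (Fin n) (Fin (n + 1)) K) (x : Fin (n + 1) → K)
    (hker : ∀ y : Fin (n + 1) → K, M *ᵥ y = 0 → ∃ c : K, y = c • x)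
    {a₀ : Fin (n + 1)} (ha₀ : x a₀ ≠ 0) :
    (M.submatrix id a₀.succAbove).det ≠ 0 := by
  intro hdet
  obtain ⟨y, hy0, hy⟩ := exists_mulVec_eq_zero_iff.mpr hdet
  have h1 : M *ᵥ extendZero a₀ y = 0 := by rw [mulVec_extendZero, hy]
  obtain ⟨c, hc⟩ := hker _ h1
  have h2 : c * x a₀ = 0 := by
    have := congrFun hc a₀
    rw [extendZero_self] at this
    simpa using this.symm
  have hc0 : c = 0 := (mul_eq_zero.mp h2).resolve_right ha₀
  apply hy0
  ext b
  have := congrFun hc (a₀.succAbove b)
  rw [extendZero_succAbove, hc0] at this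
  simpa using this

/-- existence form: a kernel which injects into a line gives a non-zero maximal minor -/
theorem exists_det_submatrix_ne_zero (M : Matrix (Fin n) (Fin (n + 1)) K)
    (hker : ∀ x y : Fin (n + 1) → K, M *ᵥ x = 0 → M *ᵥ y = 0 → x ≠ 0 → ∃ c : K, y = c • x) :
    ∃ a₀ : Fin (n + 1), (M.submatrix id a₀.succAbove).det ≠ 0 := by
  have hne : LinearMap.ker (Matrix.mulVecLin M) ≠ ⊥ := by
    apply LinearMap.ker_ne_bot_of_finrank_lt
    simp
  obtain ⟨x, hx, hx0⟩ := (Submodule.ne_bot_iff _).mp hne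
  have hMx : M *ᵥ x = 0 := by simpa using hx
  obtain ⟨a₀, ha₀⟩ : ∃ a₀, x a₀ ≠ 0 := by
    by_contra h
    push Not at h
    exact hx0 (funext h)
  exact ⟨a₀, det_submatrix_ne_zero M x (fun y hy => hker x y hMx hy hx0) ha₀⟩

end Fermat.Agent.S19.MinorLemma
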