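import Mathlib
import Fermat.Agent.S30.Descent.PhiDictThm
import Fermat.Agent.S30.Arith.Smooth

/-!
# S19, slice TorsionX0 (helper8): the finite Galois module `T = J₀(N)[m]`

`T m := Submodule.torsionBy ℤ (JZero N) m` (the carrier of the frozen S19 with `m = ℓ ^ k`):

* `mem_T_iff`, `finite_T` (for `m ≠ 0`), `smul_mem_T`;
* `galAct σ : T →+ T`, `galAct_one`, `galAct_mul`, `coe_galAct`;
* `exists_finite_fixing_T` : an open subgroup `Gal(ℚ̄ / E)`, `E / ℚ` finite, fixes `T` pointwise.

All from S30 (`PhiDictThm.finite_torsion`, `Smooth.exists_finite_fixing_torsion`).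
-/

set_option autoImplicit false
set_option linter.unusedSectionVars false

noncomputable section

namespace Fermat.Agent.S19.TorsionX0

open ModularCurve

local notation "Kb" => AlgebraicClosure ℚ
local notation "GQ" => (AlgebraicClosure ℚ ≃ₐ[ℚ] AlgebraicClosure ℚ)

variable (N : ℕ) [NeZero N] (m : ℤ)

/-- the `m`-torsion of `J₀(N)(ℚ̄)`, in the shape of the frozen statement S19 -/
abbrev T : Submodule ℤ (JZero N) := Submodule.torsionBy ℤ (JZero N) m

variable {N m}

theorem mem_T_iff {x : JZero N} : x ∈ T N m ↔ m • x = 0 := Submodule.mem_torsionBy_iff _ _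

theorem mem_T_iff_natAbs {x : JZero N} : x ∈ T N m ↔ m.natAbs • x = 0 := by
  rw [mem_T_iff]
  rcases Int.natAbs_eq m with h | h
  · conv_lhs => rw [h, natCast_zsmul]
  · conv_lhs => rw [h, neg_smul, neg_eq_zero, natCast_zsmul]

/-- **`J₀(N)[m]` is finite** (`m ≠ 0`). -/
theorem finite_T (hm : m ≠ 0) : Finite ↥(T N m) := by
  have hfin := Fermat.Agent.S30.Descent.PhiDictThm.finite_torsion N
    (n := m.natAbs) (Int.natAbs_ne_zero.mpr hm)
  have hset : ((T N m : Submodule ℤ (JZero N)) : Set (JZero N))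
      = {y : JZero N | m.natAbs • y = 0} := by
    ext x
    exact mem_T_iff_natAbs
  have : Finite ((T N m : Submodule ℤ (JZero N)) : Set (JZero N)) := by
    rw [hset]
    exact hfin.to_subtype
  exact this

/-- the torsion subgroup is Galois-stable -/
theorem smul_mem_T (σ : GQ) {x : JZero N} (hx : x ∈ T N m) : σ • x ∈ T N m := by
  rw [mem_T_iff] at hx ⊢
  have h : σ • (m • x) = m • (σ • x) := map_zsmul (DistribSMul.toAddMonoidHom (JZero N) σ) m x
  rw [← h, hx]
  exact smul_zero (A := JZero N) σ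

/-- the Galois action on `T`, as additive maps -/
def galAct (σ : GQ) : ↥(T N m) →+ ↥(T N m) where
  toFun x := ⟨σ • (x : JZero N), smul_mem_T σ x.2⟩
  map_zero' := Subtype.ext (smul_zero σ)
  map_add' x y := Subtype.ext (smul_add σ (x : JZero N) (y : JZero N))

@[simp] theorem coe_galAct (σ : GQ) (x : ↥(T N m)) :
    ((galAct σ x : ↥(T N m)) : JZero N) = σ • (x : JZero N) := rfl

theorem galAct_one (x : ↥(T N m)) : galAct (1 : GQ) x = x := Subtype.ext (one_smul _ _)

theorem galAct_mul (σ τ : GQ) (x : ↥(T N m)) : galAct (σ * τ) x = galAct σ (galAct τ x) :=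
  Subtype.ext (mul_smul σ τ (x : JZero N))

theorem galAct_surjective (σ : GQ) : Function.Surjective (galAct (N := N) (m := m) σ) := by
  intro x
  refine ⟨galAct σ⁻¹ x, ?_⟩
  rw [← galAct_mul, mul_inv_cancel, galAct_one]

/-- **Open stabilisers**: a finite extension `E / ℚ` such that `Gal(ℚ̄ / E)` fixes `T` pointwise. -/
theorem exists_finite_fixing_T (hm : m ≠ 0) :
    ∃ E : IntermediateField ℚ Kb, FiniteDimensional ℚ E ∧
      ∀ σ : GQ, (∀ a ∈ E, σ a = a) → ∀ x : ↥(T N m), galAct σ x = x := by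
  obtain ⟨E, hE, h⟩ := Fermat.Agent.S30.Arith.Smooth.exists_finite_fixing_torsion N m.natAbs
    (Fermat.Agent.S30.Descent.PhiDictThm.finite_torsion N (Int.natAbs_ne_zero.mpr hm))
  exact ⟨E, hE, fun σ hσ x => Subtype.ext (h σ hσ x (mem_T_iff_natAbs.mp x.2))⟩

end Fermat.Agent.S19.TorsionX0
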